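import Fermat.Agent.LanglandsTunnell.Period.Strip

/-!
# Decay towards the cusp

The Fourier expansion converges absolutely at every point and a cusp form is `O(t⁻³)` high up.
-/

set_option autoImplicit false

open NumberField Matrix

noncomputable section

namespace FLTAgent.LanglandsTunnell.Period

open FLTAgent.LanglandsTunnell FLTAgent.LanglandsTunnell.Expansion FLTAgent.LanglandsTunnell.Lift

variable {D : Datum} (P : ExtPlaces D) {n : Ideal (𝓞 D.E)} {φ : Pt D.E Unit n → ℂ}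

/-- Coefficients depend on the horizontal coordinate only through a phase. -/
theorem norm_coef_eq_axis (hA : IsAutomorphic P.placesE φ) (hn : n ≠ ⊥) (v : FinPt D.E n)
    (ξ : D.E) (Q : H3) :
    ‖coef P.placesE φ v ξ (fun _ => Q)‖ = ‖coef P.placesE φ v ξ (fun _ => axisPt Q.t)‖ := by
  have e : (fun _ : Unit => Q) = shiftVec (fun _ => Q.z) (fun _ => axisPt Q.t) := by
    funext i
    refine H3.ext ?_ ?_ <;> simp [shiftVec, H3.shift, axisPt_eq Q.t_pos]
  rw [e, coef_shiftVec hA hn]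
  simp [norm_chiInf]

/-- Absolute convergence of the Fourier expansion at every point. -/
theorem summable_coef_point (hA : IsAutomorphic P.placesE φ) (hC : IsCuspidal P.placesE φ)
    (hS : SphericalZero φ) (hn : n ≠ ⊥) (v : FinPt D.E n) (Q : H3) :
    Summable fun ξ : D.E => ‖coef P.placesE φ v ξ (fun _ => Q)‖ := by
  obtain ⟨m, hm⟩ := exists_admissible hn v
  simp only [norm_coef_eq_axis P hA hn v _ Q]
  exact summable_coef P hA hC hS hn hm Q.t_pos

/-- Cubic decay of a cusp form at every height. -/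
theorem exists_decay (hA : IsAutomorphic P.placesE φ) (hC : IsCuspidal P.placesE φ)
    (hS : SphericalZero φ) (hn : n ≠ ⊥) (v : FinPt D.E n) :
    ∃ C : ℝ, 0 ≤ C ∧ ∀ Q : H3, ‖φ (v, fun _ => Q)‖ ≤ C / Q.t ^ 3 := by
  classical
  obtain ⟨B, hB0, hB⟩ := exists_whit_bound P hA hn
  obtain ⟨m, hm⟩ := exists_admissible hn v
  refine ⟨B * 30 * ∑' ξ : {ξ : D.E // DualOK m ξ ∧ ξ ≠ 0}, (‖embE P (ξ : D.E)‖ ^ 3)⁻¹,
    mul_nonneg (by positivity) (tsum_nonneg fun _ => by positivity), fun Q => ?_⟩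
  have hsum := summable_coef_point P hA hC hS hn v Q
  rw [← (hasSum_coef hA hn v (fun _ : Unit => Q) hsum.of_norm).tsum_eq]
  refine (norm_tsum_le_tsum_norm hsum).trans ?_
  have hz : ∀ ξ : D.E, ¬ (DualOK m ξ ∧ ξ ≠ 0) → ‖coef P.placesE φ v ξ (fun _ => Q)‖ = 0 :=
    fun ξ hξ => by
      rw [norm_eq_zero]
      by_cases h0 : ξ = 0
      · rw [h0, coef_zero hA hC hn]
      · exact coef_eq_zero_of_not_dualOK hA hm (fun hd => hξ ⟨hd, h0⟩) _
  rw [← (Subtype.val_injective (p := fun ξ : D.E => DualOK m ξ ∧ ξ ≠ 0)).tsum_eq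
    (fun ξ hξ => by
      by_contra h
      exact hξ (hz ξ fun h' => h ⟨⟨ξ, h'⟩, rfl⟩)),
    mul_div_right_comm, ← tsum_mul_left]
  refine Summable.tsum_le_tsum (fun ξ => ?_)
    (hsum.comp_injective Subtype.val_injective) ((summable_inv_norm_cube P hm.1).mul_left _)
  rw [norm_coef_eq_axis P hA hn]
  exact norm_coef_axis_le P hA hS hn hB hB0 v ξ.2.2 Q.t_pos

end FLTAgent.LanglandsTunnell.Period

end
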