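import Fermat.Agent.LanglandsTunnell.Period.EulerBound
import Fermat.Agent.LanglandsTunnell.Datum
import Fermat.Agent.Density.Chebotarev
import Fermat.Agent.LanglandsTunnell.Matrices

/-!
# The prime densities used by the lower bound

Counts of the conjugacy classes of `GL₂(𝔽₃)` containing `diag (1, -1)` and `±1`, and the growth
`large_classes` of the corresponding Frobenius prime sums, which feeds the Euler bound.
-/

set_option autoImplicit false

noncomputable section

open Filter
open scoped Topology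

namespace FLTAgent.LanglandsTunnell.Period

open FLTAgent.LanglandsTunnell FLTAgent.Density

local notation "G₃" => GL (Fin 2) (ZMod 3)
local notation "M₃" => Matrix (Fin 2) (Fin 2) (ZMod 3)

/-- The involution `diag (1, -1)`. -/
def flipElt : G₃ where
  val := !![1, 0; 0, -1]
  inv := !![1, 0; 0, -1]
  val_inv := by decide
  inv_val := by decide

theorem flip_entries : ∀ a b c d : ZMod 3, a * d - b * c = -1 → a + d = 0 →
    ∃ e f k l : ZMod 3, e * l - f * k ≠ 0 ∧
      (!![e, f; k, l] : M₃) * !![1, 0; 0, -1] = !![a, b; c, d] * !![e, f; k, l] := by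
  decide +kernel

theorem card_flip_entries :
    Fintype.card {v : (ZMod 3 × ZMod 3) × ZMod 3 × ZMod 3 //
      v.1.1 * v.2.2 - v.1.2 * v.2.1 = -1 ∧ v.1.1 + v.2.2 = 0} = 12 := by
  decide +kernel

theorem isConj_flip (g : G₃) (hd : g.1.det = -1) (ht : g.1.trace = 0) : IsConj flipElt g := by
  rw [Matrix.det_fin_two] at hd
  rw [Matrix.trace_fin_two] at ht
  obtain ⟨e, f, k, l, hne, h⟩ := flip_entries _ _ _ _ hd ht
  have hu : IsUnit (!![e, f; k, l] : M₃) :=
    (Matrix.isUnit_iff_isUnit_det _).mpr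
      (by rw [Matrix.det_fin_two_of]; exact isUnit_iff_ne_zero.mpr hne)
  refine isConj_iff.mpr ⟨hu.unit, mul_inv_eq_iff_eq_mul.mpr (Units.ext ?_)⟩
  rw [Units.val_mul, Units.val_mul, IsUnit.unit_spec, Matrix.eta_fin_two g.1]
  exact h

theorem twelve_le_conj_flip : 12 ≤ Nat.card {τ : G₃ // IsConj flipElt τ} := by
  let T := {v : (ZMod 3 × ZMod 3) × ZMod 3 × ZMod 3 //
    v.1.1 * v.2.2 - v.1.2 * v.2.1 = -1 ∧ v.1.1 + v.2.2 = 0}
  have hT : Nat.card T = 12 := by rw [Nat.card_eq_fintype_card]; exact card_flip_entries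
  rw [← hT]
  have hu : ∀ v : T, IsUnit (!![v.1.1.1, v.1.1.2; v.1.2.1, v.1.2.2] : M₃) := fun v =>
    (Matrix.isUnit_iff_isUnit_det _).mpr (by
      rw [Matrix.det_fin_two_of, v.2.1]; exact isUnit_one.neg)
  refine Nat.card_le_card_of_injective (fun v : T => (⟨(hu v).unit, isConj_flip _
    (by rw [IsUnit.unit_spec, Matrix.det_fin_two_of]; exact v.2.1)
    (by rw [IsUnit.unit_spec, Matrix.trace_fin_two_of]; exact v.2.2)⟩ :
    {τ : G₃ // IsConj flipElt τ})) fun v w h => ?_
  have h' := congrArg (fun τ : {τ : G₃ // IsConj flipElt τ} => τ.1.1) h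
  simp only [IsUnit.unit_spec] at h'
  have e : ∀ i j, (!![v.1.1.1, v.1.1.2; v.1.2.1, v.1.2.2] : M₃) i j =
      (!![w.1.1.1, w.1.1.2; w.1.2.1, w.1.2.2] : M₃) i j := fun i j => by rw [h']
  exact Subtype.ext (Prod.ext (Prod.ext (e 0 0) (e 0 1)) (Prod.ext (e 1 0) (e 1 1)))

variable (D : Datum)

/-- Primes whose Frobenius is conjugate to `g`, outside a finite set. -/
def frobSet (g : G₃) (E : Finset Nat.Primes) : Set Nat.Primes :=
  {p | p ∉ E ∧ HasFrobeniusImage D.ρ g (p : ℕ)}

theorem tendsto_frobSet (g : G₃) (E : Finset Nat.Primes) :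
    Tendsto (fun s : ℝ => (∑' p, (frobSet D g E).indicator (fun p => xVal p s) p) /
      Real.log (1 / (s - 1))) (𝓝[>] 1)
      (𝓝 ((Nat.card {τ : G₃ // IsConj g τ} : ℝ) / 48)) := by
  classical
  have h := chebotarev_density D.factors D.surjective g
  rw [natCard_GL_three, Nat.cast_ofNat] at h
  have hb : Tendsto (fun s : ℝ =>
      (∑ p ∈ E, (if HasFrobeniusImage D.ρ g (p : ℕ) then xVal p s else 0)) /
      Real.log (1 / (s - 1))) (𝓝[>] 1) (𝓝 0) := by
    refine Tendsto.div_atTop (a := ∑ p ∈ E,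
      (if HasFrobeniusImage D.ρ g (p : ℕ) then xVal p 1 else 0)) ?_ tendsto_log_one_div_sub_one
    refine tendsto_finsetSum _ fun p _ => ?_
    refine (Continuous.tendsto ?_ 1).mono_left nhdsWithin_le_nhds
    split_ifs
    · exact continuous_const.rpow continuous_neg fun _ => Or.inl (by exact_mod_cast p.2.ne_zero)
    · exact continuous_const
  have hlim := h.sub hb
  rw [sub_zero] at hlim
  refine hlim.congr' ?_
  filter_upwards [self_mem_nhdsWithin] with s hs
  rw [← sub_div]
  congr 1
  have hsum : Summable fun p : Nat.Primes =>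
      if HasFrobeniusImage D.ρ g (p : ℕ) then xVal p s else 0 :=
    (summable_xVal hs).of_nonneg_of_le
      (fun p => by split_ifs <;> [exact (xVal_pos p s).le; exact le_rfl])
      (fun p => by split_ifs <;> [exact le_rfl; exact (xVal_pos p s).le])
  have hEq : HasSum (fun p => if p ∈ E then
      (if HasFrobeniusImage D.ρ g (p : ℕ) then xVal p s else 0) else 0)
      (∑ p ∈ E, (if HasFrobeniusImage D.ρ g (p : ℕ) then xVal p s else 0)) := by
    have := hasSum_sum_of_ne_finset_zero (L := SummationFilter.unconditional _) (s := E)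
      (f := fun p => if p ∈ E then
      (if HasFrobeniusImage D.ρ g (p : ℕ) then xVal p s else 0) else 0) fun p hp => if_neg hp
    simpa using this
  have key : HasSum (fun p => (frobSet D g E).indicator (fun p => xVal p s) p)
      ((∑' p : Nat.Primes, if HasFrobeniusImage D.ρ g (p : ℕ) then xVal p s else 0) -
        ∑ p ∈ E, (if HasFrobeniusImage D.ρ g (p : ℕ) then xVal p s else 0)) := by
    refine (hsum.hasSum.sub hEq).congr_fun fun p => ?_
    simp only [frobSet, Set.indicator_apply, Set.mem_ofPred_eq]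
    by_cases hp : p ∈ E <;> simp [hp]
  rw [key.tsum_eq]
  rfl

theorem disjoint_central (E : Finset Nat.Primes) {g h : G₃} (hg : g.1 = 1) (hh : h.1 = -1) :
    Disjoint (frobSet D g E) (frobSet D h E) := by
  rw [Set.disjoint_left]
  rintro p ⟨-, A, hA, hI, φ, hφ, hφg⟩ ⟨-, B, hB, -, ψ, hψ, hψh⟩
  have hconj := isConj_map_of_isFrobeniusAt (ρ := D.ρ) p.2
    (fun C hC => forall_inertia_eq_one_of_one_place p.2 hA hI hC) hA hB hφ hψ
  rw [hφg, hψh, show g = 1 from Units.ext hg] at hconj
  have hh1 : h = 1 := (isConj_one_right.mp hconj)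
  rw [hh1, Units.val_one] at hh
  revert hh
  decide +kernel

/-- Total growth of the positive part of the lower bound. -/
theorem large_classes (E : Finset Nat.Primes) :
    Tendsto (fun s : ℝ =>
      2 * (∑' p, (frobSet D flipElt E).indicator (fun p => xVal p s) p) +
      6 * (∑' p, (frobSet D 1 E ∪ frobSet D (-1) E).indicator (fun p => xVal p s) p) -
        Real.log (1 / (s - 1)) / 2) (𝓝[>] 1) atTop := by
  have hL := tendsto_log_one_div_sub_one
  set a : ℝ := (Nat.card {τ : G₃ // IsConj flipElt τ} : ℝ) / 48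
  set b : ℝ := (Nat.card {τ : G₃ // IsConj (1 : G₃) τ} : ℝ) / 48
  set c : ℝ := (Nat.card {τ : G₃ // IsConj (-1 : G₃) τ} : ℝ) / 48
  have ha : 12 / 48 ≤ a :=
    div_le_div_of_nonneg_right (by exact_mod_cast twelve_le_conj_flip) (by norm_num)
  have h1 : ∀ g : G₃, (1 : ℝ) / 48 ≤ (Nat.card {τ : G₃ // IsConj g τ} : ℝ) / 48 := fun g => by
    refine div_le_div_of_nonneg_right ?_ (by norm_num)
    have : Nonempty {τ : G₃ // IsConj g τ} := ⟨⟨g, IsConj.refl g⟩⟩
    exact_mod_cast Nat.one_le_iff_ne_zero.mpr Nat.card_pos.ne'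
  have hd : 0 < 2 * a + 6 * (b + c) - 1 / 2 := by
    have hb' : 1 / 48 ≤ b := h1 1
    have hc' : 1 / 48 ≤ c := h1 (-1)
    linarith
  have hlim := (((tendsto_frobSet D flipElt E).const_mul 2).add
    (((tendsto_frobSet D 1 E).add (tendsto_frobSet D (-1) E)).const_mul 6)).sub_const (1 / 2)
  refine Tendsto.congr' ?_ (Filter.Tendsto.pos_mul_atTop hd hlim hL)
  filter_upwards [hL.eventually_gt_atTop 0, self_mem_nhdsWithin] with s hpos hs
  rw [Set.indicator_union_of_disjoint (disjoint_central D E rfl rfl),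
    Summable.tsum_add ((summable_xVal hs).indicator _) ((summable_xVal hs).indicator _)]
  field_simp

end FLTAgent.LanglandsTunnell.Period

end
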