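import Fermat.Agent.LanglandsTunnell.Period.LocalFactor
import Mathlib.NumberTheory.NumberField.Basic
import Mathlib.RingTheory.DedekindDomain.Ideal.Lemmas

/-!
# The multiplicative eigenvalue function on ideals

`lam a` extends eigenvalues at primes to all ideals by the Hecke recursion `uSeq`,
multiplicatively on coprime ideals (`lam_mul_of_coprime`, `lam_prime_pow`).
-/

set_option autoImplicit false

noncomputable section

open NumberField UniqueFactorizationMonoid

namespace FLTAgent.LanglandsTunnell.Period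

variable {F : Type} [Field F] [NumberField F]

/-- The eigenvalue of the ideal `I`. -/
def lam (a : Ideal (𝓞 F) → ℂ) (I : Ideal (𝓞 F)) : ℝ :=
  open scoped Classical in
  ∏ v ∈ (normalizedFactors I).toFinset, uSeq (a v).re ((normalizedFactors I).count v)

theorem lam_top (a : Ideal (𝓞 F) → ℂ) : lam a ⊤ = 1 := by
  rw [lam, ← Ideal.one_eq_top, normalizedFactors_one]
  simp

theorem lam_mul_of_coprime (a : Ideal (𝓞 F) → ℂ) {I J : Ideal (𝓞 F)} (hI : I ≠ ⊥) (hJ : J ≠ ⊥)
    (h : I ⊔ J = ⊤) : lam a (I * J) = lam a I * lam a J := by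
  classical
  have hdisj : Disjoint (normalizedFactors I).toFinset (normalizedFactors J).toFinset := by
    rw [Finset.disjoint_left]
    intro v hv hv'
    rw [Multiset.mem_toFinset] at hv hv'
    have h1 := Ideal.dvd_iff_le.mp (dvd_of_mem_normalizedFactors hv)
    have h2 := Ideal.dvd_iff_le.mp (dvd_of_mem_normalizedFactors hv')
    exact (Ideal.isPrime_of_prime (prime_of_normalized_factor v hv)).ne_top
      (top_le_iff.mp (h ▸ sup_le h1 h2))
  rw [lam, lam, lam, normalizedFactors_mul hI hJ, Multiset.toFinset_add, Finset.prod_union hdisj]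
  congr 1 <;> refine Finset.prod_congr rfl fun v hv => ?_
  · rw [Multiset.count_add, Multiset.count_eq_zero_of_notMem (s := normalizedFactors J)
      (fun h' => Finset.disjoint_left.mp hdisj hv (Multiset.mem_toFinset.mpr h')), add_zero]
  · rw [Multiset.count_add, Multiset.count_eq_zero_of_notMem (s := normalizedFactors I)
      (fun h' => Finset.disjoint_left.mp hdisj (Multiset.mem_toFinset.mpr h') hv), zero_add]

theorem lam_prime_pow (a : Ideal (𝓞 F) → ℂ) {v : Ideal (𝓞 F)} (hv : v.IsPrime) (hv0 : v ≠ ⊥)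
    (k : ℕ) : lam a (v ^ k) = uSeq (a v).re k := by
  classical
  have hirr : Irreducible v := (Ideal.prime_of_isPrime hv0 hv).irreducible
  rw [lam, normalizedFactors_pow, normalizedFactors_irreducible hirr, normalize_eq]
  rcases eq_or_ne k 0 with rfl | hk
  · simp
  · rw [Multiset.toFinset_nsmul _ _ hk, Multiset.toFinset_singleton, Finset.prod_singleton]
    simp [Multiset.count_nsmul]

theorem lam_prime_pow_mul (a : Ideal (𝓞 F) → ℂ) {v w : Ideal (𝓞 F)} (hv : v.IsPrime)
    (hv0 : v ≠ ⊥) (hw : w.IsPrime) (hw0 : w ≠ ⊥) (h : v ≠ w) (i j : ℕ) :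
    lam a (v ^ i * w ^ j) = uSeq (a v).re i * uSeq (a w).re j := by
  rw [lam_mul_of_coprime a (pow_ne_zero _ hv0) (pow_ne_zero _ hw0), lam_prime_pow a hv hv0,
    lam_prime_pow a hw hw0]
  rcases Nat.eq_zero_or_pos i with rfl | hi
  · simp
  rcases Nat.eq_zero_or_pos j with rfl | hj
  · simp
  have := hv.isMaximal hv0
  have := hw.isMaximal hw0
  exact Ideal.pow_sup_pow_eq_top (Ideal.IsMaximal.coprime_of_ne ‹_› ‹_› h)

end FLTAgent.LanglandsTunnell.Period

end
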