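import Fermat.Agent.LanglandsTunnell.Period.LocalFactor
import Mathlib.Analysis.SpecificLimits.Basic

/-!
# Local factors at finitely many exceptional primes

Absolute convergence and the lower bounds `inert_factor_ge`, `split_factor_ge` and
`odd_factor_ge` for local factors of the plane series, from convergence of the series of squares
alone.
-/

set_option autoImplicit false

noncomputable section

namespace FLTAgent.LanglandsTunnell.Period

theorem abs_le_of_sq_mul_le {u Y C : ℝ} (hY : 0 < Y) (k : ℕ) (h : u ^ 2 * Y ^ k ≤ C) :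
    |u| ≤ Real.sqrt C * (Real.sqrt Y)⁻¹ ^ k := by
  have h1 : |u| * Real.sqrt Y ^ k ≤ Real.sqrt C := by
    refine Real.le_sqrt_of_sq_le ?_
    rw [mul_pow, sq_abs, ← pow_mul, mul_comm k 2, pow_mul, Real.sq_sqrt hY.le]
    exact h
  rw [inv_pow, ← div_eq_mul_inv, le_div_iff₀ (pow_pos (Real.sqrt_pos.mpr hY) k)]
  exact h1

/-- Boundedness of the terms of the series of squares gives convergence with a margin. -/
theorem summable_uSeq {a Y q C : ℝ} (hY : 0 < Y) (hq : 0 ≤ q) (hqY : q ^ 2 < Y)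
    (h : ∀ k, uSeq a k ^ 2 * Y ^ k ≤ C) : Summable fun k => |uSeq a k| * q ^ k := by
  have hr : q * (Real.sqrt Y)⁻¹ < 1 := by
    rw [mul_inv_lt_iff₀ (Real.sqrt_pos.mpr hY), one_mul]
    exact Real.lt_sqrt_of_sq_lt hqY
  refine Summable.of_nonneg_of_le (fun k => by positivity) (fun k => ?_)
    ((summable_geometric_of_lt_one (by positivity) hr).mul_left (Real.sqrt C))
  calc |uSeq a k| * q ^ k ≤ Real.sqrt C * (Real.sqrt Y)⁻¹ ^ k * q ^ k :=
        mul_le_mul_of_nonneg_right (abs_le_of_sq_mul_le hY k (h k)) (by positivity)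
    _ = _ := by rw [mul_pow]; ring

/-- Convergence of the odd terms. -/
theorem summable_uSeq_odd {a Y q C : ℝ} (hY : 0 < Y) (hq : 0 ≤ q) (hqY : q < Y)
    (h : ∀ k, uSeq a k ^ 2 * Y ^ k ≤ C) : Summable fun k => |uSeq a (2 * k + 1)| * q ^ k := by
  refine Summable.of_nonneg_of_le (fun k => by positivity) (fun k => ?_)
    ((summable_geometric_of_lt_one (div_nonneg hq hY.le) ((div_lt_one hY).mpr hqY)).mul_left
      (Real.sqrt C * (Real.sqrt Y)⁻¹))
  calc |uSeq a (2 * k + 1)| * q ^ k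
      ≤ Real.sqrt C * (Real.sqrt Y)⁻¹ ^ (2 * k + 1) * q ^ k :=
        mul_le_mul_of_nonneg_right (abs_le_of_sq_mul_le hY _ (h _)) (by positivity)
    _ = _ := by rw [pow_succ, pow_mul, inv_pow _ 2, Real.sq_sqrt hY.le, div_pow, inv_pow]; ring

/-- The factor at an inert prime is bounded below. -/
theorem inert_factor_ge {a X S T : ℝ} (hX0 : 0 ≤ X) (hX1 : X < 1)
    (h : HasSum (fun k => uSeq a k * X ^ k) S)
    (h2 : HasSum (fun k => uSeq a k ^ 2 * (X ^ 2) ^ k) T) : 1 / 4 ≤ |S| := by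
  obtain ⟨-, hA, -⟩ := sq_factor (sq_nonneg X) (by nlinarith) h2
  have hab : |a * X| < 1 + X ^ 2 := abs_lt_of_sq_lt_sq (by nlinarith) (by positivity)
  obtain ⟨h1, h3⟩ := abs_lt.mp hab
  have hS := inert_factor_mul h
  have hden : 0 < 1 - a * X + X ^ 2 := by linarith
  have hle : 1 - a * X + X ^ 2 ≤ 4 := by nlinarith
  have hpos : 0 < S := by
    by_contra hc
    push Not at hc
    nlinarith [mul_nonpos_of_nonpos_of_nonneg hc hden.le]
  rw [abs_of_pos hpos]
  nlinarith

/-- The factor at a split prime is bounded below. -/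
theorem split_factor_ge {a b X S Sa Sb : ℝ} (hX0 : 0 ≤ X) (hX1 : X ≤ 1 / 2)
    (h : HasSum (fun k => uSeq a k * uSeq b k * X ^ k) S)
    (ha : HasSum (fun k => uSeq a k ^ 2 * X ^ k) Sa)
    (hb : HasSum (fun k => uSeq b k ^ 2 * X ^ k) Sb) : 1 / 40 ≤ |S| := by
  obtain ⟨-, hA, -⟩ := sq_factor hX0 (by linarith) ha
  obtain ⟨-, hB, -⟩ := sq_factor hX0 (by linarith) hb
  obtain ⟨hD, -⟩ := splitDen_pos_and_bound hX0 (by linarith) hA hB
  have hS := split_factor_mul h
  have hP : (1 + X) ^ 2 ≤ 4 := by nlinarith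
  have haX : a ^ 2 * X ≤ 4 := by linarith
  have hbX : b ^ 2 * X ≤ 4 := by linarith
  have hDle : splitDen a b X ≤ 20 := by
    rw [splitDen]
    have h1 : (1 - X ^ 2) ^ 2 ≤ 1 := pow_le_one₀ (by nlinarith) (by nlinarith)
    have h2 : (a ^ 2 + b ^ 2) * X ^ 2 ≤ 4 := by
      have : (a ^ 2 + b ^ 2) * X ^ 2 = (a ^ 2 * X + b ^ 2 * X) * X := by ring
      rw [this]; nlinarith
    have h3 : -(a * b * X) ≤ 4 := by nlinarith [mul_nonneg (sq_nonneg (a + b)) hX0]
    have h4 : -(a * b * X * (1 + X ^ 2)) ≤ 4 * (1 + X ^ 2) := by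
      have := mul_le_mul_of_nonneg_right h3 (show (0 : ℝ) ≤ 1 + X ^ 2 by positivity)
      linarith
    nlinarith
  have hpos : 0 < S := by
    by_contra hc
    push Not at hc
    nlinarith [mul_nonpos_of_nonpos_of_nonneg hc hD.le]
  rw [abs_of_pos hpos]
  nlinarith

/-- The factor over `3` is bounded below. -/
theorem odd_factor_ge {a X S T : ℝ} (hX0 : 0 ≤ X) (hX1 : X < 1)
    (h : HasSum (fun k => uSeq a (2 * k + 1) / a * X ^ k) S) (ha : a ≠ 0)
    (h2 : HasSum (fun k => uSeq a k ^ 2 * X ^ k) T) : 1 / 4 ≤ |S| := by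
  obtain ⟨-, hA, -⟩ := sq_factor hX0 hX1 h2
  have h' := h.mul_left a
  have hS := odd_factor_mul (a := a) (h'.congr_fun fun k => by field_simp)
  have hS' : S * ((1 + X) ^ 2 - a ^ 2 * X) = 1 := by
    refine mul_left_cancel₀ ha ?_
    linear_combination hS
  have hle : (1 + X) ^ 2 - a ^ 2 * X ≤ 4 := by nlinarith [mul_nonneg (sq_nonneg a) hX0]
  have hpos : 0 < S := by
    by_contra hc
    push Not at hc
    nlinarith [mul_nonpos_of_nonpos_of_nonneg hc hA.le]
  rw [abs_of_pos hpos]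
  nlinarith

end FLTAgent.LanglandsTunnell.Period

end
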