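import Fermat.Agent.LanglandsTunnell.Period.Primes
import Fermat.Agent.LanglandsTunnell.CFT.AuxPrimes
import Fermat.Agent.TWPrimes.Frame

/-!
# The eigenvalue over `3` when inertia has order two

Inertia at `3` contains an element of determinant `-1`, and if the eigenvalues agree with the
Frobenius traces, the eigenvalue over `3` does not vanish (`eigen_three_ne_zero`).
-/

set_option autoImplicit false

noncomputable section

open NumberField
open scoped Pointwise

namespace FLTAgent.LanglandsTunnell.Period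

open FLTAgent.LanglandsTunnell
open FLTAgent.Density (Qbar GalQ)

local notation "G₃" => GL (Fin 2) (ZMod 3)
local notation "M₃" => Matrix (Fin 2) (Fin 2) (ZMod 3)

variable {D : Datum}

theorem cycloChar_eq_one_of_det {σ : GQ} (h : (D.ρ σ).1.det = 1) :
    ExtCitation.cycloChar 3 σ = 1 := by
  have : NeZero (3 : QB) := ⟨three_ne_zero⟩
  obtain ⟨ζ, hζ⟩ := HasEnoughRootsOfUnity.exists_primitiveRoot QB 3
  refine Units.ext ((ExtVanishing.cycChar_eq_one_iff 3 hζ σ).2 ?_)
  have hc : TWPrimes.cyclo 3 σ = 1 := (D.det σ).symm.trans (Units.ext (by simpa using h))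
  rw [TWPrimes.cyclo_spec 3 σ hζ.pow_eq_one, hc, Units.val_one, ZMod.val_one, pow_one]

theorem zmod3_eq_one : ∀ u : ZMod 3, u ≠ -1 → u ≠ 0 → u = 1 := by decide

theorem units3_neg_one_ne :
    ((-1 : (ZMod 3)ˣ) : ZMod 3) = ((1 : (ZMod 3)ˣ) : ZMod 3) → False := by decide

theorem exists_inertia_det {A : ValuationSubring QB} (hA : A.LiesOverPrime 3) :
    ∃ σ ∈ A.inertiaSubgroupIn ℚ, (D.ρ σ).1.det = -1 := by
  have : Fact (Nat.Prime 3) := ⟨Nat.prime_three⟩
  by_contra hc
  push Not at hc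
  have hall : ∀ u ∈ {v : (ZMod 3)ˣ | ∃ (B : ValuationSubring Qbar) (σ : GalQ),
      B.LiesOverPrime 3 ∧ σ ∈ B.inertiaSubgroupIn ℚ ∧
        ExtCitation.cycloChar 3 σ = v}, u = 1 := by
    rintro u ⟨B, σ, hB, hσ, rfl⟩
    refine cycloChar_eq_one_of_det (D := D) ?_
    obtain ⟨τ, hτ⟩ := Density.exists_smul_eq_of_liesOverPrime Nat.prime_three hB hA
    have hmem := Density.mem_inertiaSubgroupIn_smul hσ τ
    rw [hτ] at hmem
    have h := hc _ hmem
    have hne : (D.ρ σ).1.det ≠ 0 := ((D.ρ σ).isUnit.map Matrix.detMonoidHom).ne_zero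
    have e : (D.ρ (τ * σ * τ⁻¹)).1.det = (D.ρ σ).1.det := by
      rw [map_mul, map_mul, map_inv, Units.val_mul, Units.val_mul, Matrix.det_mul, Matrix.det_mul,
        mul_right_comm, ← Matrix.det_mul, ← Units.val_mul, mul_inv_cancel, Units.val_one,
        Matrix.det_one, one_mul]
    rw [e] at h
    revert hne h
    generalize (D.ρ σ).1.det = u
    revert u
    exact zmod3_eq_one
  have h1 := LanglandsTunnell.CFT.cycloChar_surjective_inertia 3 (-1)
  have hbot : Subgroup.closure {v : (ZMod 3)ˣ | ∃ (B : ValuationSubring Qbar) (σ : GalQ),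
      B.LiesOverPrime 3 ∧ σ ∈ B.inertiaSubgroupIn ℚ ∧
        ExtCitation.cycloChar 3 σ = v} ≤ ⊥ :=
    (Subgroup.closure_le _).2 fun u hu => hall u hu
  have := congrArg (fun u : (ZMod 3)ˣ => (u : ZMod 3)) (Subgroup.mem_bot.1 (hbot h1))
  revert this
  exact units3_neg_one_ne

theorem centraliser_entries : ∀ a b c d : ZMod 3, a * d - b * c = -1 →
    (!![a, b; c, d] : M₃) * !![a, b; c, d] = 1 →
    ∀ e f k l : ZMod 3, e * l - f * k = 1 →
      (!![e, f; k, l] : M₃) * !![a, b; c, d] = !![a, b; c, d] * !![e, f; k, l] →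
      (!![e, f; k, l] : M₃) = 1 ∨ (!![e, f; k, l] : M₃) = -1 := by
  decide +kernel

/-- The eigenvalue over `3` does not vanish. -/
theorem eigen_three_ne_zero {N : ℕ} {a : Ideal (𝓞 D.E) → ℂ}
    (hsplit : ∀ v : Ideal (𝓞 D.E), v.IsPrime → v ≠ ⊥ → ¬ v ∣ Ideal.span {(N : 𝓞 D.E)} →
      ∀ g, IsFrobOver D.E v g → g ∈ D.galM → a v = trLift (D.ρ g))
    (hS : D.SplitAtThree) (hN : ¬ 3 ∣ N) {v : Ideal (𝓞 D.E)} (hv : v.IsPrime)
    (h3 : (3 : 𝓞 D.E) ∈ v) : a v ≠ 0 := by
  have h3' : ((3 : ℕ) : 𝓞 D.E) ∈ v := by simpa using h3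
  have hv0 := ne_bot_of_natCast_mem three_ne_zero h3'
  obtain ⟨-, A, -, -, -, hA⟩ := LanglandsTunnell.CFT.exists_placeOver v hv0
  have hA3 : A.LiesOverPrime 3 := hA.liesOverPrime h3'
  obtain ⟨g, hg, hAg⟩ := LanglandsTunnell.CFT.exists_frobenius_over hv0 hA
  have hgd : (D.ρ g).1.det = 1 := by
    rw [LanglandsTunnell.Isolation.fixingSubgroup_E] at hg
    exact (LanglandsTunnell.Isolation.mem_galE D).mp hg
  obtain ⟨i, hi, hid⟩ := exists_inertia_det (D := D) hA3
  set I := (A.inertiaSubgroupIn ℚ).map D.ρ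
  have : Finite I := inferInstance
  set t : I := ⟨D.ρ i, Subgroup.mem_map_of_mem _ hi⟩
  have hgA : g • A = A := MulAction.mem_stabilizer_iff.mp (Density.isFrobeniusAt_iff.1 hAg).1
  have hmem := Density.mem_inertiaSubgroupIn_smul hi g
  rw [hgA] at hmem
  set t' : I := ⟨D.ρ (g * i * g⁻¹), Subgroup.mem_map_of_mem _ hmem⟩
  have ht1 : t ≠ 1 := fun h => by
    have h' : D.ρ i = 1 := congrArg Subtype.val h
    rw [h', Units.val_one, Matrix.det_one] at hid
    revert hid
    decide
  have hcard : Nat.card I = 2 := by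
    have : Nontrivial I := ⟨t, 1, ht1⟩
    have h1 := Finite.one_lt_card (α := I)
    have h2 := hS A hA3
    change Nat.card I ≤ 2 at h2
    omega
  have hsq : t * t = 1 := by
    have h := pow_card_eq_one' (x := t)
    rwa [hcard, pow_two] at h
  have ht' : t' = t := by
    by_contra hne
    have hne1 : t' ≠ 1 := fun h => ht1 (by
      have h' : D.ρ (g * i * g⁻¹) = 1 := congrArg Subtype.val h
      rw [map_mul, map_mul, map_inv, conj_eq_one_iff] at h'
      exact Subtype.ext h')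
    have : Fintype I := Fintype.ofFinite I
    have h3c : 3 ≤ Fintype.card I := by
      classical
      refine le_trans ?_ (Finset.card_le_univ ({1, t, t'} : Finset I))
      rw [Finset.card_insert_of_notMem (by simp [ht1.symm, hne1.symm]),
        Finset.card_pair (Ne.symm hne)]
    rw [← Nat.card_eq_fintype_card, hcard] at h3c
    omega
  have hcomm : D.ρ g * D.ρ i = D.ρ i * D.ρ g := by
    have h : D.ρ (g * i * g⁻¹) = D.ρ i := congrArg Subtype.val ht'
    rw [map_mul, map_mul, map_inv, mul_inv_eq_iff_eq_mul] at h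
    exact h
  have hsq' : D.ρ i * D.ρ i = 1 := congrArg Subtype.val hsq
  have hdg := hgd
  rw [Matrix.det_fin_two] at hdg hid
  have hc : (D.ρ g).1 = 1 ∨ (D.ρ g).1 = -1 := by
    have h1 := congrArg Units.val hcomm
    have h2 := congrArg Units.val hsq'
    rw [Units.val_mul, Units.val_mul, Matrix.eta_fin_two (D.ρ g).1,
      Matrix.eta_fin_two (D.ρ i).1] at h1
    rw [Units.val_mul, Units.val_one, Matrix.eta_fin_two (D.ρ i).1] at h2
    rw [Matrix.eta_fin_two (D.ρ g).1]
    exact centraliser_entries _ _ _ _ hid h2 _ _ _ _ hdg h1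
  have hM : g ∈ D.galM := (LanglandsTunnell.mem_galM D).mpr ⟨hgd, Or.inr hc⟩
  rw [hsplit v hv hv0 (not_dvd_span_natCast Nat.prime_three hN hv h3') g ⟨hg, A, hA, hAg⟩ hM]
  rcases hc with h | h
  · rw [trLift, if_pos hgd, if_pos h]; norm_num
  · rw [trLift, if_pos hgd, if_neg ?_, if_pos h]
    · norm_num
    · rw [h]; decide +kernel

end FLTAgent.LanglandsTunnell.Period

end
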