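import Fermat.Agent.LanglandsTunnell.AdelicRing
import Fermat.Agent.LanglandsTunnell.Period.Three
import Fermat.Agent.LanglandsTunnell.Period.Classes
import Fermat.Agent.LanglandsTunnell.Period.Lam
import Fermat.Agent.LanglandsTunnell.Period.LocalExcept

/-!
# The plane series of an eigenvalue system is unbounded

`planeCoeff` restricts an eigenvalue system of `ℚ(√-3)` to the plane; its local factors are those
of `PlaneSeries` (`EulerBound`), so the series is unbounded when the eigenvalues have a mean square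
bound (`planeCoeff_unbounded`).
-/

set_option autoImplicit false

noncomputable section

open NumberField Filter Finset
open scoped Topology

namespace FLTAgent.LanglandsTunnell.Period

open FLTAgent.LanglandsTunnell FLTAgent.LanglandsTunnell.Lift

variable {D : Datum}

/-- The mean square bound on eigenvalues away from `N`. -/
def HasMeanBound (N : ℕ) (a : Ideal (𝓞 D.E) → ℂ) : Prop :=
  ∃ C : ℝ, 0 < C ∧ ∀ T : Finset (Ideal (𝓞 D.E)),
    (∀ v ∈ T, v.IsPrime ∧ v ≠ ⊥ ∧ ¬ v ∣ Ideal.span {(N : 𝓞 D.E)}) → ∀ (K : ℕ) (s : ℝ),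
      1 < s → s ≤ 2 → ∏ v ∈ T, (∑ k ∈ range K, uSeq (a v).re k ^ 2 *
        ((Ideal.absNorm v : ℝ) ^ (-s)) ^ k) ≤ C / (s - 1)

variable (P : ExtPlaces D)

theorem exists_sqrtNegThree : ∃ δ : 𝓞 D.E, embE P δ = 1 + 2 * omega := by
  refine exists_emb_eq P ⟨1, 2, ?_⟩
  simp [eis]

/-- `√-3`. -/
def sqrtNegThree : 𝓞 D.E := (exists_sqrtNegThree P).choose

theorem sqrtNegThree_sq : sqrtNegThree P * sqrtNegThree P = -3 := emb_injective P (by
  push_cast
  rw [map_mul, map_neg, show embE P ((3 : 𝓞 D.E) : D.E) = 3 from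
      map_ofNat ((embE P).comp (algebraMap (𝓞 D.E) D.E)) 3, sqrtNegThree,
    (exists_sqrtNegThree P).choose_spec]
  linear_combination (4 : ℂ) * omega_sq)

theorem absNorm_sqrtNegThree : Ideal.absNorm (Ideal.span {sqrtNegThree P}) = 3 := by
  have h : Ideal.absNorm (Ideal.span {sqrtNegThree P}) *
      Ideal.absNorm (Ideal.span {sqrtNegThree P}) = 3 ^ 2 := by
    rw [← map_mul, Ideal.span_singleton_mul_span_singleton, sqrtNegThree_sq,
      Ideal.span_singleton_neg,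
      show (3 : 𝓞 D.E) = ((3 : ℕ) : 𝓞 D.E) by simp, absNorm_span_natCast_E]
  nlinarith

theorem isPrime_three : (Ideal.span {sqrtNegThree P}).IsPrime :=
  Ideal.isPrime_of_irreducible_absNorm ((absNorm_sqrtNegThree P).symm ▸ Nat.prime_three)

theorem three_mem : (3 : 𝓞 D.E) ∈ Ideal.span {sqrtNegThree P} := by
  rw [Ideal.mem_span_singleton]
  exact ⟨-sqrtNegThree P, by rw [mul_neg, sqrtNegThree_sq, neg_neg]⟩

theorem sqrtNegThree_ne_zero : sqrtNegThree P ≠ 0 := fun h => by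
  have h2 := sqrtNegThree_sq P
  rw [h, zero_mul, zero_eq_neg] at h2
  norm_num at h2

theorem coprime_span_natCast {m n : ℕ} (h : m.Coprime n) :
    Ideal.span {(m : 𝓞 D.E)} ⊔ Ideal.span {(n : 𝓞 D.E)} = ⊤ := by
  obtain ⟨x, y, hxy⟩ := Int.isCoprime_iff_gcd_eq_one.mpr (by simpa using h : Int.gcd (m : ℤ) n = 1)
  rw [Ideal.eq_top_iff_one]
  have e : ((x * (m : ℤ) + y * (n : ℤ) : ℤ) : 𝓞 D.E) ∈
      Ideal.span {(m : 𝓞 D.E)} ⊔ Ideal.span {(n : 𝓞 D.E)} := by
    push_cast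
    exact add_mem (Ideal.mem_sup_left (Ideal.mul_mem_left _ _ (Ideal.mem_span_singleton_self _)))
      (Ideal.mem_sup_right (Ideal.mul_mem_left _ _ (Ideal.mem_span_singleton_self _)))
  rwa [hxy, Int.cast_one] at e

/-- The ideal of the index `n`: `n √-3` when `3 ∤ N`, else `n`. -/
def planeIdeal (N n : ℕ) : Ideal (𝓞 D.E) :=
  if 3 ∣ N then Ideal.span {(n : 𝓞 D.E)}
  else Ideal.span {(n : 𝓞 D.E)} * Ideal.span {sqrtNegThree P}

/-- The coefficients of the plane series. -/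
def planeCoeff (N : ℕ) (a : Ideal (𝓞 D.E) → ℂ) (n : ℕ) : ℝ :=
  if n ≠ 0 ∧ n.Coprime N then lam a (planeIdeal P N n) / lam a (planeIdeal P N 1) else 0

theorem lam_sqrtNegThree (a : Ideal (𝓞 D.E) → ℂ) :
    lam a (Ideal.span {sqrtNegThree P}) = (a (Ideal.span {sqrtNegThree P})).re := by
  have h := lam_prime_pow a (isPrime_three P)
    (ne_bot_of_natCast_mem three_ne_zero (by simpa using three_mem P)) 1
  rwa [pow_one, uSeq_one] at h

theorem lam_planeIdeal_one {N : ℕ} (a : Ideal (𝓞 D.E) → ℂ) :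
    lam a (planeIdeal P N 1) =
      if 3 ∣ N then 1 else (a (Ideal.span {sqrtNegThree P})).re := by
  rw [planeIdeal, Nat.cast_one, Ideal.span_singleton_one]
  split_ifs
  · exact lam_top a
  · rw [Ideal.top_mul, lam_sqrtNegThree]

theorem lam_planeIdeal_mul {N : ℕ} (a : Ideal (𝓞 D.E) → ℂ) {m n : ℕ} (hm : m ≠ 0) (hn : n ≠ 0)
    (hmn : m.Coprime n) :
    lam a (planeIdeal P N (m * n)) * lam a (planeIdeal P N 1) =
      lam a (planeIdeal P N m) * lam a (planeIdeal P N n) := by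
  have key : ∀ {m n : ℕ}, m ≠ 0 → n ≠ 0 → m.Coprime n → m.Coprime 3 →
      lam a (planeIdeal P N (m * n)) * lam a (planeIdeal P N 1) =
        lam a (planeIdeal P N m) * lam a (planeIdeal P N n) := by
    intro m n hm hn hmn hm3
    set δ := Ideal.span {sqrtNegThree P}
    have hδ : δ ≠ ⊥ := by rw [Ne, Ideal.span_singleton_eq_bot]; exact sqrtNegThree_ne_zero P
    have e : Ideal.span {((m * n : ℕ) : 𝓞 D.E)} =
        Ideal.span {(m : 𝓞 D.E)} * Ideal.span {(n : 𝓞 D.E)} := by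
      rw [Ideal.span_singleton_mul_span_singleton, Nat.cast_mul]
    have h3 : Ideal.span {(m : 𝓞 D.E)} ⊔ δ = ⊤ := by
      refine top_le_iff.mp ((coprime_span_natCast hm3).symm.le.trans (sup_le_sup_left ?_ _))
      rw [Ideal.span_singleton_le_iff_mem]
      exact_mod_cast three_mem P
    rw [lam_planeIdeal_one]
    simp only [planeIdeal]
    split_ifs with hN
    · rw [e, lam_mul_of_coprime a (lv_ne_bot hm) (lv_ne_bot hn)
        (coprime_span_natCast hmn), mul_one]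
    · rw [e, mul_assoc, lam_mul_of_coprime a (lv_ne_bot hm)
        (mul_ne_zero (lv_ne_bot hn) hδ)
        ((Ideal.sup_mul_eq_of_coprime_left (coprime_span_natCast hmn)).trans h3),
        lam_mul_of_coprime a (lv_ne_bot hm) hδ h3, lam_sqrtNegThree]
      ring
  by_cases hm3 : m.Coprime 3
  · exact key hm hn hmn hm3
  · have h3m : 3 ∣ m := by
      by_contra h
      exact hm3 ((Nat.prime_three.coprime_iff_not_dvd.mpr h).symm)
    have hn3 : n.Coprime 3 := (hmn.coprime_dvd_left h3m).symm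
    rw [mul_comm m n, key hn hm hmn.symm hn3, mul_comm]

variable {P} {N : ℕ} {a : Ideal (𝓞 D.E) → ℂ}

theorem planeCoeff_pow_of_dvd {p : ℕ} (hpN : p ∣ N) (hp : p.Prime)
    (h1 : lam a (planeIdeal P N 1) ≠ 0) (k : ℕ) :
    planeCoeff P N a (p ^ k) = if k = 0 then 1 else 0 := by
  rcases Nat.eq_zero_or_pos k with rfl | hk
  · rw [pow_zero, planeCoeff, if_pos ⟨one_ne_zero, Nat.coprime_one_left N⟩, div_self h1, if_pos rfl]
  · rw [planeCoeff, if_neg fun h => ?_, if_neg hk.ne']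
    exact (hp.coprime_iff_not_dvd.mp (Nat.Coprime.coprime_dvd_left (dvd_pow_self p hk.ne') h.2)) hpN

theorem planeCoeff_pow_of_not_dvd {p : ℕ} (hpN : ¬ p ∣ N) (hp : p.Prime) (h3 : p ≠ 3)
    (h1 : lam a (planeIdeal P N 1) ≠ 0) (k : ℕ) :
    planeCoeff P N a (p ^ k) = lam a (Ideal.span {(p : 𝓞 D.E)} ^ k) := by
  rw [planeCoeff, if_pos ⟨pow_ne_zero _ hp.ne_zero, Nat.Coprime.pow_left k
    (hp.coprime_iff_not_dvd.mpr hpN)⟩]
  have hc : (p ^ k).Coprime 3 :=
    Nat.Coprime.pow_left k ((Nat.coprime_primes hp Nat.prime_three).mpr h3)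
  rw [lam_planeIdeal_one] at h1 ⊢
  rw [planeIdeal, Nat.cast_pow, Ideal.span_singleton_pow]
  split_ifs with hN
  · rw [div_one]
  · rw [if_neg hN] at h1
    rw [lam_mul_of_coprime a
      (by simpa using pow_ne_zero k (Nat.cast_ne_zero (R := 𝓞 D.E).mpr hp.ne_zero))
      (by rw [Ne, Ideal.span_singleton_eq_bot]; exact sqrtNegThree_ne_zero P) ?_, lam_sqrtNegThree,
      mul_div_assoc, div_self h1, mul_one]
    have h := coprime_span_natCast (D := D) hc
    rw [Nat.cast_pow] at h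
    refine top_le_iff.mp (h.symm.le.trans (sup_le_sup_left ?_ _))
    rw [Ideal.span_singleton_le_iff_mem]
    exact_mod_cast three_mem P

theorem planeCoeff_three_pow (hN : ¬ 3 ∣ N) (k : ℕ) :
    planeCoeff P N a (3 ^ k) = uSeq (a (Ideal.span {sqrtNegThree P})).re (2 * k + 1) /
      (a (Ideal.span {sqrtNegThree P})).re := by
  rw [planeCoeff, if_pos ⟨pow_ne_zero _ three_ne_zero, Nat.Coprime.pow_left k
    (Nat.prime_three.coprime_iff_not_dvd.mpr hN)⟩, lam_planeIdeal_one, if_neg hN, planeIdeal,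
    if_neg hN, Nat.cast_pow, ← lam_prime_pow a (isPrime_three P)
      (ne_bot_of_natCast_mem three_ne_zero (by simpa using three_mem P)) (2 * k + 1)]
  congr 2
  rw [pow_succ, pow_mul, Ideal.span_singleton_pow (sqrtNegThree P) 2, pow_two, sqrtNegThree_sq,
    Ideal.span_singleton_neg, Ideal.span_singleton_pow]
  simp

theorem planeCoeff_pow_inert {p : ℕ} (hpN : ¬ p ∣ N) (hp : p.Prime) (h3 : p ≠ 3)
    (h1 : lam a (planeIdeal P N 1) ≠ 0) (hi : (Ideal.span {(p : 𝓞 D.E)}).IsPrime) (k : ℕ) :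
    planeCoeff P N a (p ^ k) = uSeq (a (Ideal.span {(p : 𝓞 D.E)})).re k := by
  rw [planeCoeff_pow_of_not_dvd hpN hp h3 h1 k]
  exact lam_prime_pow a hi (lv_ne_bot hp.ne_zero) k

theorem planeCoeff_pow_split {p : ℕ} (hpN : ¬ p ∣ N) (hp : p.Prime) (h3 : p ≠ 3)
    (h1 : lam a (planeIdeal P N 1) ≠ 0) {v v' : Ideal (𝓞 D.E)} (hv : v.IsPrime) (hv' : v'.IsPrime)
    (hne : v ≠ v') (hprod : v * v' = Ideal.span {(p : 𝓞 D.E)}) (k : ℕ) :
    planeCoeff P N a (p ^ k) = uSeq (a v).re k * uSeq (a v').re k := by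
  have h : (p : 𝓞 D.E) ∈ v * v' := hprod.symm ▸ Ideal.mem_span_singleton_self _
  rw [planeCoeff_pow_of_not_dvd hpN hp h3 h1 k, ← hprod, mul_pow]
  exact lam_prime_pow_mul a hv (ne_bot_of_natCast_mem hp.ne_zero (Ideal.mul_le_left h))
    hv' (ne_bot_of_natCast_mem hp.ne_zero (Ideal.mul_le_right h)) hne k k

theorem exceptional_factor {C : ℝ} (h1 : lam a (planeIdeal P N 1) ≠ 0)
    (h30 : Ideal.span {sqrtNegThree P} ≠ ⊥)
    (h3N' : ¬ 3 ∣ N → ¬ Ideal.span {sqrtNegThree P} ∣ Ideal.span {(N : 𝓞 D.E)})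
    (ha3 : ¬ 3 ∣ N → (a (Ideal.span {sqrtNegThree P})).re ≠ 0)
    (hone : ∀ (v : Ideal (𝓞 D.E)), v.IsPrime → v ≠ ⊥ → ¬ v ∣ Ideal.span {(N : 𝓞 D.E)} →
      ∀ s : ℝ, 1 < s → s ≤ 2 →
        Summable (fun k => uSeq (a v).re k ^ 2 * ((Ideal.absNorm v : ℝ) ^ (-s)) ^ k) ∧
        ∀ k, uSeq (a v).re k ^ 2 * ((Ideal.absNorm v : ℝ) ^ (-s)) ^ k ≤ C / (s - 1))
    (p : Nat.Primes) (s : ℝ) (hs : 1 < s) (hs2 : s ≤ 2) :
    Summable (fun k => |planeCoeff P N a ((p : ℕ) ^ k)| * xVal p s ^ k) ∧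
      1 / 40 ≤ |∑' k, planeCoeff P N a ((p : ℕ) ^ k) * xVal p s ^ k| := by
  classical
  set v₃ := Ideal.span {sqrtNegThree P} with hv₃
  have hX : ∀ (p : Nat.Primes) (s : ℝ),
      ((Ideal.absNorm (Ideal.span {((p : ℕ) : 𝓞 D.E)}) : ℝ) ^ (-s)) = xVal p s ^ 2 := fun p s => by
    rw [absNorm_span_natCast_E, xVal, Nat.cast_pow, ← Real.rpow_natCast_mul (Nat.cast_nonneg _),
      mul_comm, Real.rpow_mul_natCast (Nat.cast_nonneg _)]
  have hx := xVal_pos p s
  have hx2 := xVal_le_half (p := p) hs.le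
  by_cases hpN : (p : ℕ) ∣ N
  · have e := planeCoeff_pow_of_dvd (P := P) hpN p.2 h1
    have hh : HasSum (fun k => planeCoeff P N a ((p : ℕ) ^ k) * xVal p s ^ k) 1 := by
      refine (hasSum_ite_eq 0 (1 : ℝ)).congr_fun fun k => ?_
      rw [e k]
      by_cases hk : k = 0 <;> simp [hk]
    refine ⟨(hasSum_ite_eq (0 : ℕ) (1 : ℝ)).summable.congr fun k => ?_, ?_⟩
    · rw [e k]
      by_cases hk : k = 0 <;> simp [hk]
    · rw [hh.tsum_eq]; norm_num
  set s' := (1 + s) / 2 with hs'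
  have hs'1 : 1 < s' := by rw [hs']; linarith
  have hs'2 : s' ≤ 2 := by rw [hs']; linarith
  have hlt : xVal p s < xVal p s' :=
    Real.rpow_lt_rpow_of_exponent_lt (by exact_mod_cast p.2.one_lt) (by rw [hs']; linarith)
  by_cases h3 : (p : ℕ) = 3
  · have h3N : ¬ 3 ∣ N := h3 ▸ hpN
    have e := planeCoeff_three_pow (P := P) (a := a) h3N
    rw [← hv₃] at e
    have hN3 : ∀ t : ℝ, ((Ideal.absNorm v₃ : ℝ)) ^ (-t) = xVal p t := fun t => by
      rw [hv₃, absNorm_sqrtNegThree, xVal, h3]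
    obtain ⟨hs1, -⟩ := hone v₃ (isPrime_three P) h30 (h3N' h3N) s hs hs2
    obtain ⟨-, hb⟩ := hone v₃ (isPrime_three P) h30 (h3N' h3N) s' hs'1 hs'2
    simp only [hN3] at hs1 hb
    have hsum := (summable_uSeq_odd (xVal_pos p s') hx.le hlt hb).mul_left |(a v₃).re|⁻¹
    have hsum' : Summable (fun k => |planeCoeff P N a ((p : ℕ) ^ k)| * xVal p s ^ k) := by
      refine hsum.congr fun k => ?_
      rw [h3, e k, abs_div, div_eq_inv_mul, mul_assoc]
    refine ⟨hsum', ?_⟩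
    have hh : Summable fun k => uSeq (a v₃).re (2 * k + 1) / (a v₃).re * xVal p s ^ k := by
      refine Summable.of_norm (hsum'.congr fun k => ?_)
      rw [norm_mul, norm_pow, Real.norm_eq_abs, Real.norm_eq_abs, abs_of_pos hx, h3, e k]
    simp only [h3, e]
    exact le_trans (by norm_num)
      (odd_factor_ge hx.le (by linarith) hh.hasSum (ha3 h3N) hs1.hasSum)
  rcases split_or_inert P p.2 h3 with ⟨v, v', hv, hv', hne, hprod, hn1, hn2⟩ | hin
  · have hpv : ((p : ℕ) : 𝓞 D.E) ∈ v * v' := hprod.symm ▸ Ideal.mem_span_singleton_self _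
    have hv0 := ne_bot_of_natCast_mem p.2.ne_zero (Ideal.mul_le_left hpv)
    have hv0' := ne_bot_of_natCast_mem p.2.ne_zero (Ideal.mul_le_right hpv)
    obtain ⟨hsa, -⟩ := hone v hv hv0
      (not_dvd_span_natCast p.2 hpN hv (Ideal.mul_le_left hpv)) s hs hs2
    obtain ⟨hsb, -⟩ := hone v' hv' hv0'
      (not_dvd_span_natCast p.2 hpN hv' (Ideal.mul_le_right hpv)) s hs hs2
    simp only [hn1, hn2] at hsa hsb
    change Summable (fun k => uSeq (a v).re k ^ 2 * xVal p s ^ k) at hsa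
    change Summable (fun k => uSeq (a v').re k ^ 2 * xVal p s ^ k) at hsb
    have e := planeCoeff_pow_split (P := P) hpN p.2 h3 h1 hv hv' hne hprod
    have hle : ∀ k, |planeCoeff P N a ((p : ℕ) ^ k)| * xVal p s ^ k ≤
        uSeq (a v).re k ^ 2 * xVal p s ^ k + uSeq (a v').re k ^ 2 * xVal p s ^ k := fun k => by
      rw [e k, abs_mul, ← add_mul]
      refine mul_le_mul_of_nonneg_right ?_ (by positivity)
      nlinarith [two_mul_le_add_sq |uSeq (a v).re k| |uSeq (a v').re k|,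
        sq_abs (uSeq (a v).re k), sq_abs (uSeq (a v').re k),
        abs_nonneg (uSeq (a v).re k), abs_nonneg (uSeq (a v').re k)]
    have hsum := (hsa.add hsb).of_nonneg_of_le (fun k => by positivity) hle
    refine ⟨hsum, ?_⟩
    simp only [e]
    have hh : Summable fun k => uSeq (a v).re k * uSeq (a v').re k * xVal p s ^ k :=
      Summable.of_norm (hsum.congr fun k => by
        rw [e k, norm_mul, norm_pow, Real.norm_eq_abs, Real.norm_eq_abs, abs_of_pos hx])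
    exact split_factor_ge hx.le hx2 hh.hasSum hsa.hasSum hsb.hasSum
  · have hv0 := lv_ne_bot (F := D.E) p.2.ne_zero
    have hvN := not_dvd_span_natCast (D := D) p.2 hpN hin.1 (Ideal.mem_span_singleton_self _)
    obtain ⟨hs1, -⟩ := hone _ hin.1 hv0 hvN s hs hs2
    obtain ⟨-, hb⟩ := hone _ hin.1 hv0 hvN s' hs'1 hs'2
    simp only [hX] at hs1 hb
    have hsum := summable_uSeq (pow_pos (xVal_pos p s') 2) hx.le
      (pow_lt_pow_left₀ hlt hx.le two_ne_zero) hb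
    have e := planeCoeff_pow_inert (P := P) hpN p.2 h3 h1 hin.1
    refine ⟨hsum.congr fun k => by rw [e k], ?_⟩
    simp only [e]
    have hh : Summable fun k =>
        uSeq (a (Ideal.span {((p : ℕ) : 𝓞 D.E)})).re k * xVal p s ^ k :=
      Summable.of_norm (hsum.congr fun k => by
        rw [norm_mul, norm_pow, Real.norm_eq_abs, Real.norm_eq_abs, abs_of_pos hx])
    exact le_trans (by norm_num) (inert_factor_ge hx.le (by linarith) hh.hasSum hs1.hasSum)

/-- The plane coefficients are multiplicative. -/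
theorem planeCoeff_mul (h1 : lam a (planeIdeal P N 1) ≠ 0) {m n : ℕ} (hmn : m.Coprime n) :
    planeCoeff P N a (m * n) = planeCoeff P N a m * planeCoeff P N a n := by
  unfold planeCoeff
  by_cases hh : (m ≠ 0 ∧ m.Coprime N) ∧ (n ≠ 0 ∧ n.Coprime N)
  · obtain ⟨hm, hn⟩ := hh
    rw [if_pos hm, if_pos hn, if_pos ⟨mul_ne_zero hm.1 hn.1, hm.2.mul_left hn.2⟩,
      div_mul_div_comm, ← lam_planeIdeal_mul P a hm.1 hn.1 hmn, mul_div_mul_right _ _ h1]
  · rw [if_neg fun h =>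
      hh ⟨⟨left_ne_zero_of_mul h.1, h.2.coprime_dvd_left (dvd_mul_right m n)⟩,
      ⟨right_ne_zero_of_mul h.1, h.2.coprime_dvd_left (dvd_mul_left n m)⟩⟩]
    rcases not_and_or.mp hh with h | h
    · rw [if_neg h, zero_mul]
    · rw [if_neg h, mul_zero]

/-- The mean square bound at a single prime. -/
private theorem summable_and_le_of_meanBound {C : ℝ}
    (hmean : ∀ T : Finset (Ideal (𝓞 D.E)),
      (∀ v ∈ T, v.IsPrime ∧ v ≠ ⊥ ∧ ¬ v ∣ Ideal.span {(N : 𝓞 D.E)}) → ∀ (K : ℕ) (s : ℝ),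
        1 < s → s ≤ 2 → ∏ v ∈ T, (∑ k ∈ range K, uSeq (a v).re k ^ 2 *
          ((Ideal.absNorm v : ℝ) ^ (-s)) ^ k) ≤ C / (s - 1))
    (v : Ideal (𝓞 D.E)) (hv : v.IsPrime) (hv0 : v ≠ ⊥) (hvN : ¬ v ∣ Ideal.span {(N : 𝓞 D.E)})
    (s : ℝ) (hs : 1 < s) (hs2 : s ≤ 2) :
    Summable (fun k => uSeq (a v).re k ^ 2 * ((Ideal.absNorm v : ℝ) ^ (-s)) ^ k) ∧
      ∀ k, uSeq (a v).re k ^ 2 * ((Ideal.absNorm v : ℝ) ^ (-s)) ^ k ≤ C / (s - 1) := by
  have hnn : ∀ k, 0 ≤ uSeq (a v).re k ^ 2 * ((Ideal.absNorm v : ℝ) ^ (-s)) ^ k := fun k => by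
    positivity
  have hK : ∀ K, ∑ k ∈ range K, uSeq (a v).re k ^ 2 * ((Ideal.absNorm v : ℝ) ^ (-s)) ^ k ≤
      C / (s - 1) := fun K => by
    have := hmean {v} (fun u hu => by rw [mem_singleton.mp hu]; exact ⟨hv, hv0, hvN⟩) K s hs hs2
    rwa [prod_singleton] at this
  exact ⟨summable_of_sum_range_le hnn hK, fun k =>
    (single_le_sum (fun i _ => hnn i) (mem_range.mpr k.lt_succ_self)).trans (hK (k + 1))⟩

/-- The mean square bound over the pairs of primes above a set of split rational primes. -/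
private theorem prod_split_pairs_le {C : ℝ}
    (hmean : ∀ T : Finset (Ideal (𝓞 D.E)),
      (∀ v ∈ T, v.IsPrime ∧ v ≠ ⊥ ∧ ¬ v ∣ Ideal.span {(N : 𝓞 D.E)}) → ∀ (K : ℕ) (s : ℝ),
        1 < s → s ≤ 2 → ∏ v ∈ T, (∑ k ∈ range K, uSeq (a v).re k ^ 2 *
          ((Ideal.absNorm v : ℝ) ^ (-s)) ^ k) ≤ C / (s - 1))
    (T : Finset Nat.Primes) {w w' : Nat.Primes → Ideal (𝓞 D.E)}
    (hpN : ∀ p ∈ T, ¬ (p : ℕ) ∣ N)
    (hw : ∀ p ∈ T, (w p).IsPrime ∧ ((p : ℕ) : 𝓞 D.E) ∈ w p ∧ Ideal.absNorm (w p) = p)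
    (hw' : ∀ p ∈ T, (w' p).IsPrime ∧ ((p : ℕ) : 𝓞 D.E) ∈ w' p ∧ Ideal.absNorm (w' p) = p)
    (hne : ∀ p ∈ T, w p ≠ w' p) (K : ℕ) (s : ℝ) (hs : 1 < s) (hs2 : s ≤ 2) :
    ∏ p ∈ T, ((∑ k ∈ range K, uSeq (a (w p)).re k ^ 2 * xVal p s ^ k) *
      (∑ k ∈ range K, uSeq (a (w' p)).re k ^ 2 * xVal p s ^ k)) ≤ C / (s - 1) := by
  classical
  have hmem : ∀ p ∈ T, ∀ v ∈ ({w p, w' p} : Finset (Ideal (𝓞 D.E))),
      v.IsPrime ∧ ((p : ℕ) : 𝓞 D.E) ∈ v ∧ Ideal.absNorm v = p := fun p hp v hv => by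
    rcases Finset.mem_insert.mp hv with rfl | h
    · exact hw p hp
    · rw [Finset.mem_singleton.mp h]; exact hw' p hp
  have key := hmean (T.biUnion fun p => {w p, w' p}) (fun v hv => by
    obtain ⟨p, hp, hvp⟩ := Finset.mem_biUnion.mp hv
    obtain ⟨h, hm, -⟩ := hmem p hp v hvp
    exact ⟨h, ne_bot_of_natCast_mem p.2.ne_zero hm, not_dvd_span_natCast p.2 (hpN p hp) h hm⟩)
    K s hs hs2
  rw [Finset.prod_biUnion ?_] at key
  · refine le_trans (le_of_eq (Finset.prod_congr rfl fun p hp => ?_)) key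
    rw [Finset.prod_pair (hne p hp), (hw p hp).2.2, (hw' p hp).2.2]
    rfl
  · intro p hp q hq hpq
    rw [Function.onFun, Finset.disjoint_left]
    exact fun v hv hv' => hpq (Subtype.ext
      ((hmem p hp v hv).2.2.symm.trans (hmem q hq v hv').2.2))

/-- A rational prime generating a prime ideal is the only prime ideal above itself. -/
private theorem eq_span_of_isPrime {p : ℕ} (hp : p.Prime)
    (hi : (Ideal.span {(p : 𝓞 D.E)}).IsPrime) (v : Ideal (𝓞 D.E)) (hv : v.IsPrime)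
    (hpv : (p : 𝓞 D.E) ∈ v) : v = Ideal.span {(p : 𝓞 D.E)} :=
  ((hi.isMaximal (lv_ne_bot hp.ne_zero)).eq_of_le hv.ne_top
    ((Ideal.span_singleton_le_iff_mem _).mpr hpv)).symm

/-- A rational prime below an ideal of norm `p` is not inert. -/
private theorem not_isPrime_span_of_absNorm {p : ℕ} (hp : p.Prime) {v : Ideal (𝓞 D.E)}
    (hv : v.IsPrime) (hpv : (p : 𝓞 D.E) ∈ v) (hnv : Ideal.absNorm v = p) :
    ¬ (Ideal.span {(p : 𝓞 D.E)}).IsPrime := fun hi => by
  rw [eq_span_of_isPrime hp hi v hv hpv, absNorm_span_natCast_E] at hnv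
  nlinarith [hp.two_le]

/-- A prime other than `3` which is not inert splits into two primes of norm `p`. -/
private theorem exists_split_pair (P : ExtPlaces D) {p : ℕ} (hp : p.Prime) (h3 : p ≠ 3)
    (hi : ¬ (Ideal.span {(p : 𝓞 D.E)}).IsPrime) :
    ∃ v v' : Ideal (𝓞 D.E), (v.IsPrime ∧ (p : 𝓞 D.E) ∈ v ∧ Ideal.absNorm v = p) ∧
      (v'.IsPrime ∧ (p : 𝓞 D.E) ∈ v' ∧ Ideal.absNorm v' = p) ∧ v ≠ v' ∧
        v * v' = Ideal.span {(p : 𝓞 D.E)} := by
  obtain ⟨v, v', hv, hv', hne, hprod, hn, hn'⟩ :=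
    (split_or_inert P hp h3).resolve_right fun h => hi h.1
  have h : (p : 𝓞 D.E) ∈ v * v' := hprod.symm ▸ Ideal.mem_span_singleton_self _
  exact ⟨v, v', ⟨hv, Ideal.mul_le_left h, hn⟩, ⟨hv', Ideal.mul_le_right h, hn'⟩, hne, hprod⟩

/-- Where Frobenius is `flipElt`, the prime is inert with eigenvalue `2`. -/
private theorem inert_eigen_eq_two (P : ExtPlaces D)
    (hsplit : ∀ v : Ideal (𝓞 D.E), v.IsPrime → v ≠ ⊥ → ¬ v ∣ Ideal.span {(N : 𝓞 D.E)} →
      ∀ g, IsFrobOver D.E v g → g ∈ D.galM → a v = trLift (D.ρ g))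
    {p : ℕ} (hp : p.Prime) (hpN : ¬ p ∣ N) (h3 : p ≠ 3)
    (hur : ∀ A : ValuationSubring QB, A.LiesOverPrime p → ∀ σ ∈ A.inertiaSubgroupIn ℚ, D.ρ σ = 1)
    {A : ValuationSubring QB} (hA : A.LiesOverPrime p) {σ : GQ} (hσ : A.IsFrobeniusAt σ p)
    (hσg : D.ρ σ = flipElt) :
    (Ideal.span {(p : 𝓞 D.E)}).IsPrime ∧ (a (Ideal.span {(p : 𝓞 D.E)})).re = 2 := by
  rcases split_or_inert P hp h3 with ⟨v, v', hv, -, -, hvv, hn, -⟩ | hin
  · exfalso
    obtain ⟨g, -, -, hdet⟩ := (det_frob hp hur hA hσ).2 v hv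
      (Ideal.mul_le_left (hvv.symm ▸ Ideal.mem_span_singleton_self _ :
        (p : 𝓞 D.E) ∈ v * v')) hn
    rw [hσg] at hdet
    revert hdet
    decide +kernel
  · refine ⟨hin.1, ?_⟩
    rw [((eigen_inert hsplit hp hpN hur hin).2 A σ hA hσ).2 (by rw [hσg]; decide +kernel)]
    rfl

/-- Where Frobenius is central, the prime is not inert, and its primes have one eigenvalue `±2`. -/
private theorem central_split_eigen
    (hsplit : ∀ v : Ideal (𝓞 D.E), v.IsPrime → v ≠ ⊥ → ¬ v ∣ Ideal.span {(N : 𝓞 D.E)} →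
      ∀ g, IsFrobOver D.E v g → g ∈ D.galM → a v = trLift (D.ρ g))
    (hreal : ∀ v : Ideal (𝓞 D.E), v.IsPrime → v ≠ ⊥ → ¬ v ∣ Ideal.span {(N : 𝓞 D.E)} →
      (a v).im = 0)
    {p : ℕ} (hp : p.Prime) (hpN : ¬ p ∣ N)
    (hur : ∀ A : ValuationSubring QB, A.LiesOverPrime p → ∀ σ ∈ A.inertiaSubgroupIn ℚ, D.ρ σ = 1)
    {A : ValuationSubring QB} (hA : A.LiesOverPrime p) {σ : GQ} (hσ : A.IsFrobeniusAt σ p)
    {g : GL (Fin 2) (ZMod 3)} (hσg : D.ρ σ = g) (hg : g.1 = 1 ∨ g.1 = -1) :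
    ¬ (Ideal.span {(p : 𝓞 D.E)}).IsPrime ∧
      ∀ v : Ideal (𝓞 D.E), v.IsPrime ∧ (p : 𝓞 D.E) ∈ v ∧ Ideal.absNorm v = p →
        a v = trLift g ∧ (a v).re ^ 2 = 4 := by
  obtain ⟨⟨u, hu, hpu, hnu⟩, hall⟩ := eigen_central hsplit hp hpN hur hA hσ hσg hg
  refine ⟨not_isPrime_span_of_absNorm hp hu hpu hnu, ?_⟩
  rintro v ⟨hv, hpv, hnv⟩
  obtain ⟨e, hsq⟩ := hall v hv hpv hnv
  rw [← e] at hsq
  have := congrArg Complex.re hsq
  rw [pow_two, Complex.mul_re, hreal v hv (ne_bot_of_natCast_mem hp.ne_zero hpv)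
    (not_dvd_span_natCast hp hpN hv hpv)] at this
  norm_num at this
  exact ⟨e, by rw [pow_two]; linarith⟩

/-- Away from `N`, the eigenvalue at `√-3` is real and nonzero. -/
private theorem eigen_three_re_ne_zero
    (hsplit : ∀ v : Ideal (𝓞 D.E), v.IsPrime → v ≠ ⊥ → ¬ v ∣ Ideal.span {(N : 𝓞 D.E)} →
      ∀ g, IsFrobOver D.E v g → g ∈ D.galM → a v = trLift (D.ρ g))
    (hreal : ∀ v : Ideal (𝓞 D.E), v.IsPrime → v ≠ ⊥ → ¬ v ∣ Ideal.span {(N : 𝓞 D.E)} →
      (a v).im = 0)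
    (hthree : ¬ 3 ∣ N → D.SplitAtThree) (h : ¬ 3 ∣ N) :
    (a (Ideal.span {sqrtNegThree P})).re ≠ 0 := fun hz =>
  eigen_three_ne_zero hsplit (hthree h) h (isPrime_three P) (three_mem P) (Complex.ext hz
    (hreal _ (isPrime_three P) (ne_bot_of_natCast_mem three_ne_zero (by simpa using three_mem P))
      (not_dvd_span_natCast Nat.prime_three h (isPrime_three P) (by simpa using three_mem P))))

variable (P)

/-- The plane series of an eigenvalue system with a mean square bound is unbounded. -/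
theorem planeCoeff_unbounded (hN : N ≠ 0)
    (hsplit : ∀ v : Ideal (𝓞 D.E), v.IsPrime → v ≠ ⊥ → ¬ v ∣ Ideal.span {(N : 𝓞 D.E)} →
      ∀ g, IsFrobOver D.E v g → g ∈ D.galM → a v = trLift (D.ρ g))
    (hreal : ∀ v : Ideal (𝓞 D.E), v.IsPrime → v ≠ ⊥ → ¬ v ∣ Ideal.span {(N : 𝓞 D.E)} →
      (a v).im = 0)
    (hthree : ¬ 3 ∣ N → D.SplitAtThree) (hmean : HasMeanBound N a) :
    (∀ s : ℝ, 1 < s → s ≤ 2 → Summable fun n : ℕ => ‖planeCoeff P N a n * (n : ℝ) ^ (-s)‖) ∧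
      Tendsto (fun s : ℝ => |∑' n : ℕ, planeCoeff P N a n * (n : ℝ) ^ (-s)|) (𝓝[>] 1) atTop := by
  classical
  obtain ⟨C, hC, hmean⟩ := hmean
  obtain ⟨S, hS⟩ := Density.exists_finset_unramified D.factors
  have h₃ := isPrime_three P
  have ha₃ := eigen_three_re_ne_zero (P := P) hsplit hreal hthree
  have h1 : lam a (planeIdeal P N 1) ≠ 0 := by
    rw [lam_planeIdeal_one]
    split_ifs with h
    · exact one_ne_zero
    · exact ha₃ h
  let inert : Set Nat.Primes := {p | (Ideal.span {((p : ℕ) : 𝓞 D.E)}).IsPrime}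
  choose! w w' hw hw' hne hprod using fun (p : Nat.Primes) (h3 : (p : ℕ) ≠ 3) (hp : p ∉ inert) =>
    exists_split_pair P p.2 h3 hp
  let av : Nat.Primes → ℝ := fun p =>
    if p ∈ inert then (a (Ideal.span {((p : ℕ) : 𝓞 D.E)})).re else (a (w p)).re
  let bv : Nat.Primes → ℝ := fun p => (a (w' p)).re
  let E : Finset Nat.Primes :=
    ((N.primeFactors ∪ S ∪ {3}).subtype Nat.Prime)
  have hE : ∀ p : Nat.Primes, p ∉ E → ¬ (p : ℕ) ∣ N ∧ (p : ℕ) ≠ 3 ∧
      ∀ A : ValuationSubring QB, A.LiesOverPrime (p : ℕ) →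
        ∀ σ ∈ A.inertiaSubgroupIn ℚ, D.ρ σ = 1 := fun p hp => by
    have hp' : ¬ ((p : ℕ) ∈ N.primeFactors ∪ S ∪ {3}) := fun h => hp (Finset.mem_subtype.mpr h)
    simp only [Finset.mem_union, Finset.mem_singleton, Nat.mem_primeFactors, not_or] at hp'
    exact ⟨fun h => hp'.1.1 ⟨p.2, h, hN⟩, hp'.2, hS p p.2 hp'.1.2⟩
  have hexc := exceptional_factor (P := P) h1
    (ne_bot_of_natCast_mem three_ne_zero (by simpa using three_mem P))
    (fun h => not_dvd_span_natCast Nat.prime_three h h₃ (by simpa using three_mem P)) ha₃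
    (summable_and_le_of_meanBound hmean)
  let Z : PlaneSeries :=
    { f := planeCoeff P N a
      f_zero := by simp [planeCoeff]
      f_one := by rw [planeCoeff, if_pos ⟨one_ne_zero, Nat.coprime_one_left N⟩, div_self h1]
      f_mul := fun _ _ => planeCoeff_mul h1
      except := E
      inert := inert
      a := av
      b := bv
      inert_pow := fun p hp hi => by
        obtain ⟨hpN, h3, hur⟩ := hE p hp
        simp only [av, if_pos hi]
        refine ⟨?_, planeCoeff_pow_inert hpN p.2 h3 h1 hi⟩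
        rcases (eigen_inert hsplit p.2 hpN hur ⟨hi, eq_span_of_isPrime p.2 hi⟩).1 with h | h
        · exact Or.inl (by rw [h]; rfl)
        · exact Or.inr (by rw [h]; rfl)
      split_pow := fun p hp hi => by
        obtain ⟨hpN, h3, -⟩ := hE p hp
        simp only [av, bv, if_neg hi]
        exact planeCoeff_pow_split hpN p.2 h3 h1 (hw p h3 hi).1 (hw' p h3 hi).1 (hne p h3 hi)
          (hprod p h3 hi)
      exceptBound := 1 / 40
      exceptBound_pos := by norm_num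
      except_summable := fun p _ s hs hs2 => (hexc p s hs hs2).1
      except_ge := fun p _ s hs hs2 => (hexc p s hs hs2).2
      meanBound := C
      meanBound_pos := hC
      mean := fun T hT K s hs hs2 => by
        refine le_trans (le_of_eq (Finset.prod_congr rfl fun p hp => ?_))
          (prod_split_pairs_le hmean T (fun p hp => (hE p (hT p hp).1).1)
            (fun p hp => hw p (hE p (hT p hp).1).2.1 (hT p hp).2)
            (fun p hp => hw' p (hE p (hT p hp).1).2.1 (hT p hp).2)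
            (fun p hp => hne p (hE p (hT p hp).1).2.1 (hT p hp).2) K s hs hs2)
        simp only [av, bv, if_neg (hT p hp).2]
      two := frobSet D flipElt E
      four := frobSet D 1 E ∪ frobSet D (-1) E
      two_spec := by
        rintro p ⟨hpE, A, hA, -, σ, hσ, hσg⟩
        obtain ⟨hpN, h3, hur⟩ := hE p hpE
        obtain ⟨hi, h2⟩ := inert_eigen_eq_two P hsplit p.2 hpN h3 hur hA hσ hσg
        exact ⟨hpE, hi, (if_pos hi : av p = _).trans h2⟩
      four_spec := by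
        intro p hp
        obtain ⟨g, hg, hpE, A, hA, -, σ, hσ, hσg⟩ : ∃ g : GL (Fin 2) (ZMod 3),
            (g.1 = 1 ∨ g.1 = -1) ∧ p ∈ frobSet D g E :=
          hp.elim (fun h => ⟨1, Or.inl rfl, h⟩) fun h => ⟨-1, Or.inr rfl, h⟩
        obtain ⟨hpN, h3, hur⟩ := hE p hpE
        obtain ⟨hi, hall⟩ := central_split_eigen hsplit hreal p.2 hpN hur hA hσ hσg hg
        obtain ⟨e1, hsq⟩ := hall _ (hw p h3 hi)
        simp only [av, bv, if_neg (show p ∉ inert from hi), e1, (hall _ (hw' p h3 hi)).1]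
        exact ⟨hpE, hi, e1 ▸ hsq, trivial⟩
      large := large_classes D E }
  exact Z.tendsto_atTop

end FLTAgent.LanglandsTunnell.Period

end
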