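import Fermat.Agent.LanglandsTunnell.Period.Coefficients
import Fermat.Agent.LanglandsTunnell.Period.Series
import Fermat.Agent.LanglandsTunnell.Expansion.Bessel

/-!
# The mean square bound of the eigenvalues of a form

Bessel's inequality for a combination of translates whose coefficients are the eigenvalues.
-/

set_option autoImplicit false

open NumberField Matrix Finset

noncomputable section

namespace FLTAgent.LanglandsTunnell.Period

open FLTAgent.LanglandsTunnell FLTAgent.LanglandsTunnell.Expansion FLTAgent.LanglandsTunnell.Lift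
open FLTAgent.LanglandsTunnell.Seed (wfun wfun_ne_zero continuous_wfun)

/-- A geometric series in `2 ^ (-t)`. -/
theorem one_sub_two_rpow_ge {t : ℝ} (ht : 0 < t) (ht1 : t ≤ 1) : t / 4 ≤ 1 - (2 : ℝ) ^ (-t) := by
  have hl : (1 / 2 : ℝ) < Real.log 2 := by
    have := Real.log_two_gt_d9
    linarith
  have h1 : (2 : ℝ) ^ (-t) ≤ 1 / (1 + t * Real.log 2) := by
    rw [Real.rpow_def_of_pos two_pos, show Real.log 2 * -t = -(t * Real.log 2) by ring,
      Real.exp_neg, ← one_div]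
    exact one_div_le_one_div_of_le (by positivity)
      (by linarith [Real.add_one_le_exp (t * Real.log 2)])
  have hl1 : Real.log 2 < 1 := by
    have := Real.log_two_lt_d9
    linarith
  have hpos : 0 < 1 + t * Real.log 2 := by positivity
  have h2 : t / 4 ≤ 1 - 1 / (1 + t * Real.log 2) := by
    rw [le_sub_iff_add_le, ← le_sub_iff_add_le', div_le_iff₀ hpos]
    nlinarith [mul_pos ht (show 0 < Real.log 2 - 1 / 4 - t * Real.log 2 / 4 by nlinarith)]
  linarith

/-- Sums over dyadic ranges give the bound near `1`. -/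
theorem dyadic_bound {α : Type*} {C : ℝ} (f : α → ℝ) (n : α → ℕ) {S : Finset α}
    (hf : ∀ x ∈ S, 0 ≤ f x) (hn : ∀ x ∈ S, 0 < n x)
    (h : ∀ k : ℕ, ∀ S' ⊆ S, (∀ x ∈ S', (2 : ℝ) ^ k / 2 < n x ∧ (n x : ℝ) ≤ 2 ^ k) →
      ∑ x ∈ S', f x / n x ≤ C) {s : ℝ} (hs : 1 < s) (hs2 : s ≤ 2) :
    ∑ x ∈ S, f x * (n x : ℝ) ^ (-s) ≤ 8 * C / (s - 1) := by
  classical
  have hC : 0 ≤ C :=
    (Finset.sum_empty (f := fun x => f x / n x)).ge.trans (h 0 ∅ (empty_subset _) (by simp))
  set t := s - 1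
  have ht : 0 < t := sub_pos.mpr hs
  set r : ℝ := (2 : ℝ) ^ (-t) with hr
  have hr0 : 0 ≤ r := Real.rpow_nonneg zero_le_two _
  have hr1 : r < 1 := Real.rpow_lt_one_of_one_lt_of_neg one_lt_two (by linarith)
  set key : α → ℕ := fun x => Nat.clog 2 (n x)
  have hb : ∀ x ∈ S, (2 : ℝ) ^ key x / 2 < n x ∧ (n x : ℝ) ≤ 2 ^ key x := by
    intro x hx
    refine ⟨?_, by exact_mod_cast Nat.le_pow_clog one_lt_two (n x)⟩
    rcases Nat.lt_or_ge 1 (n x) with h1 | h1
    · have hlt := Nat.pow_pred_clog_lt_self one_lt_two h1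
      have hpos : 0 < key x := Nat.clog_pos one_lt_two h1
      obtain ⟨j, hj⟩ : ∃ j, key x = j + 1 := ⟨key x - 1, by omega⟩
      rw [hj, pow_succ, mul_div_cancel_right₀ _ two_ne_zero]
      rw [show Nat.pred (Nat.clog 2 (n x)) = j from by
        show Nat.pred (key x) = j; rw [hj]; rfl] at hlt
      exact_mod_cast hlt
    · have : n x = 1 := by have := hn x hx; omega
      simp [key, this]; norm_num
  have hterm : ∀ x ∈ S, f x * (n x : ℝ) ^ (-s) ≤ 2 * r ^ key x * (f x / n x) := by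
    intro x hx
    have hnx : (0 : ℝ) < n x := by exact_mod_cast hn x hx
    have e : (n x : ℝ) ^ (-s) = (n x : ℝ) ^ (-t) / n x := by
      rw [show -s = -t + (-1) by simp [t]; ring, Real.rpow_add hnx, Real.rpow_neg_one,
        div_eq_mul_inv]
    have h2 : (n x : ℝ) ^ (-t) ≤ ((2 : ℝ) ^ key x / 2) ^ (-t) :=
      Real.rpow_le_rpow_of_nonpos (by positivity) (hb x hx).1.le (by linarith)
    have h3 : ((2 : ℝ) ^ key x / 2) ^ (-t) ≤ 2 * r ^ key x := by
      rw [Real.div_rpow (by positivity) zero_le_two, ← Real.rpow_natCast 2 (key x),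
        ← Real.rpow_mul zero_le_two, mul_comm (key x : ℝ), Real.rpow_mul zero_le_two,
        Real.rpow_natCast, ← hr, div_le_iff₀ (Real.rpow_pos_of_pos two_pos _)]
      have : (1 / 2 : ℝ) ≤ r := by
        have :=
          Real.rpow_le_rpow_of_exponent_le one_le_two (show (-1 : ℝ) ≤ -t by simp [t]; linarith)
        rw [Real.rpow_neg_one] at this
        linarith
      nlinarith [pow_nonneg hr0 (key x)]
    rw [e]
    calc f x * ((n x : ℝ) ^ (-t) / n x) = (n x : ℝ) ^ (-t) * (f x / n x) := by ring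
      _ ≤ _ := mul_le_mul_of_nonneg_right (h2.trans h3) (div_nonneg (hf x hx) hnx.le)
  refine (Finset.sum_le_sum hterm).trans ?_
  rw [← Finset.sum_fiberwise_of_maps_to (t := S.image key) (g := key)
    (fun x hx => Finset.mem_image_of_mem _ hx)]
  calc ∑ k ∈ S.image key, ∑ x ∈ S with key x = k, 2 * r ^ key x * (f x / n x)
      ≤ ∑ k ∈ S.image key, 2 * C * r ^ k := by
        refine Finset.sum_le_sum fun k _ => ?_
        rw [Finset.sum_congr rfl fun x hx => by rw [(Finset.mem_filter.mp hx).2], ← Finset.mul_sum,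
          mul_right_comm (2 : ℝ) C]
        refine mul_le_mul_of_nonneg_left (h k _ (Finset.filter_subset _ _) fun x hx => ?_)
          (by positivity)
        obtain ⟨h1, h2⟩ := Finset.mem_filter.mp hx
        exact h2 ▸ hb x h1
    _ ≤ 2 * C * (1 - r)⁻¹ := by
        rw [← Finset.mul_sum, ← tsum_geometric_of_lt_one hr0 hr1]
        exact mul_le_mul_of_nonneg_left ((summable_geometric_of_lt_one hr0 hr1).sum_le_tsum _
          fun k _ => pow_nonneg hr0 k) (by positivity)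
    _ ≤ 8 * C / t := by
        rw [← div_eq_mul_inv, div_le_div_iff₀ (by linarith) ht]
        have := one_sub_two_rpow_ge ht (by simp only [t]; linarith)
        nlinarith [mul_le_mul_of_nonneg_left this (show (0:ℝ) ≤ 8 * C by positivity)]

variable {D : Datum} (P : ExtPlaces D) {N : ℕ}
  {φ : Pt D.E Unit (Ideal.span {(N : 𝓞 D.E)}) → ℂ} {a : Ideal (𝓞 D.E) → ℂ}

/-- The bound in one dyadic range. -/
theorem exists_dyadic_bound (hN : N ≠ 0) (hf : IsEigenform P.placesE φ a)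
    (ha : ∀ v : Ideal (𝓞 D.E), v.IsPrime → v ≠ ⊥ → ¬ v ∣ Ideal.span {(N : 𝓞 D.E)} → (a v).im = 0) :
    ∃ C : ℝ, ∀ (X : ℝ), 0 < X → ∀ S : Finset (Ideal (𝓞 D.E)),
      (∀ I ∈ S, I ⊔ Ideal.span {(N : 𝓞 D.E)} = ⊤ ∧ X < Ideal.absNorm I ∧
        (Ideal.absNorm I : ℝ) ≤ 2 * X) →
      ∑ I ∈ S, lam a I ^ 2 / Ideal.absNorm I ≤ C := by
  classical
  have hn := lv_ne_bot (F := D.E) hN
  obtain ⟨κ, Sκ, qc, hh, hins, hbump⟩ := exists_bump (Φ := P.placesE) hN hf
  obtain ⟨C₀, hC₀⟩ := hf.automorphic.bounded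
  have hWf := isWhitFn_whit hN hf
  obtain ⟨t₀, ht₀, hmin⟩ := (isCompact_Icc (a := (1 : ℝ)) (b := Real.sqrt 2)).exists_isMinOn
    (Set.nonempty_Icc.mpr (Real.one_le_sqrt.mpr one_le_two))
    (f := fun t => ‖wfun 1 (axisPt t)‖)
    (((continuous_wfun one_ne_zero).comp_continuousOn (continuousOn_axisPt.mono fun t ht =>
      lt_of_lt_of_le one_pos ht.1)).norm)
  have ht₀' : 0 < t₀ := one_pos.trans_le ht₀.1
  set m := ‖wfun 1 (axisPt t₀)‖
  have hm : 0 < m := norm_pos_iff.mpr (wfun_ne_zero one_ne_zero (by rw [axisPt_eq ht₀']))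
  have : Finite (𝓞 D.E ⧸ Ideal.span {(N : 𝓞 D.E)}) := Ideal.finiteQuotientOfFreeOfNeBot _ hn
  have : Fintype (𝓞 D.E ⧸ Ideal.span {(N : 𝓞 D.E)}) := Fintype.ofFinite _
  set B : ℝ := (Sκ.card : ℝ) * (∑ j ∈ Sκ, ‖qc j‖ ^ 2) * C₀ ^ 2 / m ^ 2
  refine ⟨Fintype.card (𝓞 D.E ⧸ Ideal.span {(N : 𝓞 D.E)}) * B, fun X hX S hS => ?_⟩
  have hgen : ∀ I : Ideal (𝓞 D.E), I ∈ S → ∃ x : 𝓞 D.E, x ≠ 0 ∧ I = Ideal.span {x} := fun I hI =>
    exists_generator fun h0 => by
      have := (hS I hI).2.1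
      rw [h0, Ideal.absNorm_bot, Nat.cast_zero] at this
      linarith
  choose! g hg0 hgI using hgen
  set cls : Ideal (𝓞 D.E) → 𝓞 D.E ⧸ Ideal.span {(N : 𝓞 D.E)} := fun I => Ideal.Quotient.mk _ (g I)
  rw [← Finset.sum_fiberwise_of_maps_to (t := Finset.univ) (g := cls)
    (fun x _ => Finset.mem_univ _), ← Finset.card_univ]
  have hclass : ∀ o, ∑ I ∈ S with cls I = o, lam a I ^ 2 / (Ideal.absNorm I : ℝ) ≤ B := by
    intro o
    set S' := S.filter fun I => cls I = o
    rcases S'.eq_empty_or_nonempty with he | ⟨I₀, hI₀⟩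
    · rw [he, Finset.sum_empty]
      positivity
    have hI₀S := (Finset.mem_filter.mp hI₀).1
    have hco : ∀ I ∈ S, Ideal.span {g I} ⊔ Ideal.span {(N : 𝓞 D.E)} = ⊤ := fun I hI =>
      hgI I hI ▸ (hS I hI).1
    set r := inPart N (prUnit (nzUnit (g I₀) (hg0 _ hI₀S))) with hr
    set t := (diffOut D.E N)⁻¹ * r⁻¹
    have hT : (0 : ℝ) < 1 / Real.sqrt X := by positivity
    let Q : Unit → H3 := fun _ => axisPt (1 / Real.sqrt X)
    have hval : ∀ I ∈ S', ∃ τ ∈ Set.Icc (1 : ℝ) (Real.sqrt 2),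
        (Real.sqrt (Ideal.absNorm I) : ℂ) * (∑ j ∈ Sκ, qc j * coef P.placesE φ
          ((diagUnit t * hh j : GL (Fin 2) (AF D.E)) : FinPt D.E _) (g I : D.E) Q) =
          (lam a I : ℂ) * wfun 1 (axisPt τ) := by
      intro I hI
      obtain ⟨hIS, hcls⟩ := Finset.mem_filter.mp hI
      set ξ := nzUnit (g I) (hg0 _ hIS)
      have hNI : (Ideal.absNorm I : ℝ) = ‖embE P (g I : D.E)‖ ^ 2 := by
        rw [hgI I hIS, absNorm_span_eq P, Complex.normSq_eq_norm_sq]
        congr 3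
        rw [← hgI I hIS]
      refine ⟨‖embE P (g I : D.E)‖ * (1 / Real.sqrt X), ?_, ?_⟩
      · obtain ⟨-, h1, h2⟩ := hS I hIS
        rw [hNI] at h1 h2
        have hs := Real.sqrt_pos.mpr hX
        rw [Set.mem_Icc, mul_one_div, le_div_iff₀ hs, one_mul, div_le_iff₀ hs,
          ← Real.sqrt_mul zero_le_two]
        exact ⟨(Real.sqrt_le_left (norm_nonneg _)).mpr h1.le, Real.le_sqrt_of_sq_le h2⟩
      have hmo : ∀ u : Unit,
          H3.moebius (GeneralLinearGroup.map (P.placesE.emb u) (diagUnit ξ)) (Q u) =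
          axisPt (‖embE P (g I : D.E)‖ * (1 / Real.sqrt X)) := fun u => by
        have hτ : 0 < ‖embE P (g I : D.E)‖ * (1 / Real.sqrt X) := mul_pos (norm_pos_iff.mpr
          ((map_ne_zero _).mpr (RingOfIntegers.coe_ne_zero_iff.mpr (hg0 _ hIS)))) hT
        rw [FLTAgent.LanglandsTunnell.map_diagUnit]
        obtain ⟨e1, e2⟩ := moebius_diagUnit (Units.map (P.placesE.emb u : D.E →* ℂ) ξ) (Q u)
        refine H3.ext (e1.trans ?_) (e2.trans ?_)
        · show _ * (axisPt (1 / Real.sqrt X)).z = _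
          rw [axisPt_eq hT, axisPt_eq hτ]
          simp
        · show _ * (axisPt (1 / Real.sqrt X)).t = _
          rw [axisPt_eq hT, axisPt_eq hτ]
          simp [ξ]
      set y := inPart N (prUnit ξ) * r⁻¹ with hy
      have hy0 : (1 - eN D.E N) * ((y : AF D.E) - 1) = 0 := by
        have h2 := r.mul_inv
        have hrv : (r : AF D.E) = eN D.E N * toAF D.E (g I₀ : D.E) + (1 - eN D.E N) := coe_inPart _
        rw [hrv] at h2
        rw [hy, Units.val_mul, coe_inPart, coe_prUnit, coe_nzUnit]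
        linear_combination ((r⁻¹ : (AF D.E)ˣ) : AF D.E) * (toAF D.E (g I : D.E) -
          toAF D.E (g I₀ : D.E)) * (eN_mul_one_sub (F := D.E) (N := N)) + (1 - eN D.E N) * h2
      have hb1 : bump D.E N y = 1 := by
        rw [bump, if_pos]
        have hdiff : g I - g I₀ ∈ Ideal.span {(N : 𝓞 D.E)} :=
          Ideal.Quotient.eq.mp (hcls.trans (Finset.mem_filter.mp hI₀).2.symm)
        have he : eN D.E N * ((y : AF D.E) - 1) = toAF D.E ((g I - g I₀ : 𝓞 D.E) : D.E) *
            (eN D.E N * (((prUnit (nzUnit (g I₀) (hg0 _ hI₀S)))⁻¹ : (AF D.E)ˣ) : AF D.E)) := by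
          have h2 := (prUnit (nzUnit (g I₀) (hg0 _ hI₀S))).mul_inv
          rw [coe_prUnit, coe_nzUnit] at h2
          push_cast
          rw [map_sub, hy, Units.val_mul, coe_inPart]
          show eN D.E N * ((eN D.E N * toAF D.E (g I : D.E) + (1 - eN D.E N)) *
            (eN D.E N * (((prUnit (nzUnit (g I₀) (hg0 _ hI₀S)))⁻¹ : (AF D.E)ˣ) : AF D.E) +
              (1 - eN D.E N)) - 1) = _
          linear_combination (eN D.E N) * h2 +
            (toAF D.E (g I : D.E) *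
              (((prUnit (nzUnit (g I₀) (hg0 _ hI₀S)))⁻¹ : (AF D.E)ˣ) : AF D.E) *
                (eN D.E N + 1) -
              eN D.E N * (toAF D.E (g I : D.E) +
                (((prUnit (nzUnit (g I₀) (hg0 _ hI₀S)))⁻¹ : (AF D.E)ˣ) : AF D.E)) +
              (eN D.E N - 1)) * eN_mul_self (F := D.E) (N := N)
        rw [he, mul_comm]
        exact mul_mem_idealAF_left (eN_mul_inv_mem (hco _ hI₀S) (hg0 _ hI₀S))
          (toAF_mem_idealAF hdiff)
      have hterm : ∀ j ∈ Sκ, (Real.sqrt (Ideal.absNorm I) : ℂ) * coef P.placesE φ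
          ((diagUnit t * hh j : GL (Fin 2) (AF D.E)) : FinPt D.E _) (g I : D.E) Q =
          (lam a I : ℂ) * wfun 1 (axisPt (‖embE P (g I : D.E)‖ * (1 / Real.sqrt X))) *
            whit P.placesE φ ((diagUnit (diffOut D.E N)⁻¹ * diagUnit y * hh j :
              GL (Fin 2) (AF D.E)) : FinPt D.E _) := by
        intro j hj
        have hw := whit_value hWf hN (H := diagUnit y * hh j)
          ((insideN_diagUnit hy0).mul (hins j hj)) (fun J hJ => (exists_generator hJ).imp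
            fun x hx => hx.2) ha (hco _ hIS) (hg0 _ hIS)
        rw [← hgI I hIS, ← mul_assoc, ← mul_assoc, ← diagUnit_mul] at hw
        rw [show ((g I : 𝓞 D.E) : D.E) = (ξ : D.E) from rfl,
          coef_diag_eq hf.automorphic hf.spherical hn, Fintype.prod_unique, hmo, ← mul_assoc,
          show Units.map (toAF D.E : D.E →* AF D.E) ξ * t =
            (diffOut D.E N)⁻¹ * outPart N (prUnit ξ) * y from ?_, hw]
        · simp only [ξ, coe_nzUnit]
          ring
        · show prUnit ξ * ((diffOut D.E N)⁻¹ * r⁻¹) = _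
          rw [hy]
          nth_rw 1 [← inPart_mul_outPart (N := N) (prUnit ξ)]
          refine Units.ext ?_
          simp only [Units.val_mul]
          ring
      rw [Finset.mul_sum]
      calc ∑ j ∈ Sκ, (Real.sqrt (Ideal.absNorm I) : ℂ) * (qc j * coef P.placesE φ _ (g I : D.E) Q)
          = (lam a I : ℂ) * wfun 1 (axisPt (‖embE P (g I : D.E)‖ * (1 / Real.sqrt X))) *
            ∑ j ∈ Sκ, qc j * whit P.placesE φ ((diagUnit (diffOut D.E N)⁻¹ * diagUnit y * hh j :
              GL (Fin 2) (AF D.E)) : FinPt D.E _) := by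
            rw [Finset.mul_sum]
            refine Finset.sum_congr rfl fun j hj => ?_
            linear_combination (qc j) * hterm j hj
        _ = _ := by rw [hbump y hy0, hb1, mul_one]
    choose! τ hτ hv using hval
    have hbessel : ∀ j ∈ Sκ, ∑ I ∈ S', ‖coef P.placesE φ
        ((diagUnit t * hh j : GL (Fin 2) (AF D.E)) : FinPt D.E _) (g I : D.E) Q‖ ^ 2 ≤ C₀ ^ 2 := by
      intro j _
      have hinj : Set.InjOn (fun I => (g I : D.E)) S' := fun I hI J hJ e => by
        rw [hgI I (Finset.mem_filter.mp hI).1, hgI J (Finset.mem_filter.mp hJ).1,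
          RingOfIntegers.coe_injective e]
      rw [← Finset.sum_image (f := fun ξ => ‖coef P.placesE φ
        ((diagUnit t * hh j : GL (Fin 2) (AF D.E)) : FinPt D.E _) ξ Q‖ ^ 2) hinj]
      exact sum_norm_coef_sq_le hf.automorphic hn hC₀ _ _ _
    have hpt : ∀ I ∈ S', lam a I ^ 2 / (Ideal.absNorm I : ℝ) * m ^ 2 ≤
        (Sκ.card : ℝ) * ∑ j ∈ Sκ, ‖qc j‖ ^ 2 * ‖coef P.placesE φ
          ((diagUnit t * hh j : GL (Fin 2) (AF D.E)) : FinPt D.E _) (g I : D.E) Q‖ ^ 2 := by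
      intro I hI
      have hpos : (0 : ℝ) < Ideal.absNorm I := hX.trans (hS I (Finset.mem_filter.mp hI).1).2.1
      have e := congrArg (fun z : ℂ => ‖z‖ ^ 2) (hv I hI)
      simp only [norm_mul, Complex.norm_real, Real.norm_eq_abs, mul_pow, sq_abs,
        Real.sq_sqrt hpos.le] at e
      have hm2 : m ^ 2 ≤ ‖wfun 1 (axisPt (τ I))‖ ^ 2 :=
        pow_le_pow_left₀ hm.le (hmin (hτ I hI)) 2
      rw [div_mul_eq_mul_div, div_le_iff₀ hpos]
      refine (mul_le_mul_of_nonneg_left hm2 (sq_nonneg _)).trans (e.ge.trans ?_)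
      rw [mul_comm]
      refine mul_le_mul_of_nonneg_right
        ((pow_le_pow_left₀ (norm_nonneg _) (norm_sum_le _ _) 2).trans
        (sq_sum_le_card_mul_sum_sq.trans (le_of_eq ?_))) hpos.le
      simp only [norm_mul, mul_pow]
    have h1 := Finset.sum_le_sum hpt
    rw [← Finset.sum_mul, ← Finset.mul_sum, Finset.sum_comm] at h1
    simp only [B]
    rw [le_div_iff₀ (by positivity)]
    refine h1.trans ?_
    rw [mul_assoc]
    refine mul_le_mul_of_nonneg_left ?_ (Nat.cast_nonneg _)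
    rw [Finset.sum_mul]
    refine Finset.sum_le_sum fun j hj => ?_
    rw [← Finset.mul_sum]
    exact mul_le_mul_of_nonneg_left (hbessel j hj) (sq_nonneg _)
  refine (Finset.sum_le_sum fun o _ => hclass o).trans (le_of_eq ?_)
  rw [Finset.sum_const, nsmul_eq_mul]

/-- Finite products of local series as sums over ideals. -/
theorem exists_sum_eq_prod (a : Ideal (𝓞 D.E) → ℂ) (K : ℕ) (s : ℝ) {n : Ideal (𝓞 D.E)}
    (T : Finset (Ideal (𝓞 D.E))) (hT : ∀ v ∈ T, v.IsPrime ∧ v ≠ ⊥ ∧ ¬ v ∣ n) :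
    ∃ S : Finset (Ideal (𝓞 D.E)),
      (∀ I ∈ S, I ≠ ⊥ ∧ I ⊔ n = ⊤ ∧ ∀ w : Ideal (𝓞 D.E), w.IsPrime → w ≠ ⊥ → w ∣ I → w ∈ T) ∧
      ∏ v ∈ T, (∑ k ∈ range K, uSeq (a v).re k ^ 2 * ((Ideal.absNorm v : ℝ) ^ (-s)) ^ k) =
        ∑ I ∈ S, lam a I ^ 2 * (Ideal.absNorm I : ℝ) ^ (-s) := by
  classical
  induction T using Finset.induction_on with
  | empty =>
    refine ⟨{⊤}, fun I hI => ?_, ?_⟩
    · rw [Finset.mem_singleton] at hI
      subst hI
      exact ⟨top_ne_bot, top_sup_eq _, fun w hw _ hd =>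
        absurd (top_le_iff.mp (Ideal.dvd_iff_le.mp hd)) hw.ne_top⟩
    · rw [Finset.prod_empty, Finset.sum_singleton, lam_top, Ideal.absNorm_top]
      simp
  | insert v T hvT ih =>
    obtain ⟨S, hS, e⟩ := ih fun w hw => hT w (Finset.mem_insert_of_mem hw)
    obtain ⟨hv, hv0, hvn⟩ := hT v (Finset.mem_insert_self _ _)
    have hpr := Ideal.prime_of_isPrime hv0 hv
    have hmax := hv.isMaximal hv0
    have hnd : ∀ I ∈ S, ¬ v ∣ I := fun I hI hd => hvT ((hS I hI).2.2 v hv hv0 hd)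
    have hco : ∀ k, ∀ J, ¬ v ∣ J → v ^ k ⊔ J = ⊤ := fun k J hJ => Ideal.pow_sup_eq_top (by
      refine hmax.1.2 _ (lt_of_le_of_ne le_sup_left fun e => hJ ?_)
      rw [Ideal.dvd_iff_le, e]
      exact le_sup_right)
    have hinj : Set.InjOn (fun p : ℕ × Ideal (𝓞 D.E) => v ^ p.1 * p.2)
        ((range K ×ˢ S : Finset (ℕ × Ideal (𝓞 D.E))) : Set (ℕ × Ideal (𝓞 D.E))) := by
      rintro ⟨k, I⟩ hp ⟨l, J⟩ hq he
      simp only [Finset.coe_product, Set.mem_prod, Finset.mem_coe] at hp hq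
      simp only at he
      have key : ∀ {k l : ℕ} {I J : Ideal (𝓞 D.E)}, k < l → v ^ k * I = v ^ l * J → v ∣ I := by
        intro k l I J hkl he
        obtain ⟨j, rfl⟩ : ∃ j, l = k + (j + 1) := ⟨l - k - 1, by omega⟩
        rw [pow_add, mul_assoc] at he
        rw [mul_left_cancel₀ (pow_ne_zero k hv0) he, pow_succ']
        exact dvd_mul_of_dvd_left (dvd_mul_right v _) _
      rcases lt_trichotomy k l with hlt | rfl | hlt
      · exact absurd (key hlt he) (hnd I hp.2)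
      · exact Prod.ext rfl (mul_left_cancel₀ (pow_ne_zero k hv0) he)
      · exact absurd (key hlt he.symm) (hnd J hq.2)
    refine ⟨(range K ×ˢ S).image fun p => v ^ p.1 * p.2, fun I hI => ?_, ?_⟩
    · obtain ⟨⟨k, J⟩, hp, rfl⟩ := Finset.mem_image.mp hI
      obtain ⟨-, hJ⟩ := Finset.mem_product.mp hp
      obtain ⟨hJ0, hJn, hJw⟩ := hS J hJ
      refine ⟨mul_ne_zero (pow_ne_zero _ hv0) hJ0, ?_, fun w hw hw0 hd => ?_⟩
      · exact Ideal.isCoprime_iff_sup_eq.mp
          ((Ideal.isCoprime_iff_sup_eq.mpr (hco k n hvn)).mul_left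
            (Ideal.isCoprime_iff_sup_eq.mpr hJn))
      · rcases (Ideal.prime_of_isPrime hw0 hw).dvd_or_dvd hd with h | h
        · have h' := (Ideal.prime_of_isPrime hw0 hw).dvd_of_dvd_pow h
          rw [(hmax.eq_of_le hw.ne_top (Ideal.dvd_iff_le.mp h'))]
          exact Finset.mem_insert_self _ _
        · exact Finset.mem_insert_of_mem (hJw w hw hw0 h)
    · rw [Finset.prod_insert hvT, e, Finset.sum_image hinj, Finset.sum_product, Finset.sum_mul_sum]
      refine Finset.sum_congr rfl fun k _ => Finset.sum_congr rfl fun I hI => ?_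
      rw [lam_mul_of_coprime a (pow_ne_zero _ hv0) (hS I hI).1 (hco k I (hnd I hI)),
        lam_prime_pow a hv hv0, map_mul, map_pow, Nat.cast_mul, Nat.cast_pow,
        Real.mul_rpow (by positivity) (Nat.cast_nonneg _),
        ← Real.rpow_natCast_mul (Nat.cast_nonneg _),
        mul_comm (k : ℝ), Real.rpow_mul_natCast (Nat.cast_nonneg _)]
      ring

/-- **The mean square bound.** -/
theorem hasMeanBound (hN : N ≠ 0) (hf : IsEigenform P.placesE φ a)
    (ha : ∀ v : Ideal (𝓞 D.E), v.IsPrime → v ≠ ⊥ → ¬ v ∣ Ideal.span {(N : 𝓞 D.E)} → (a v).im = 0) :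
    HasMeanBound N a := by
  obtain ⟨C, hC⟩ := exists_dyadic_bound P hN hf ha
  refine ⟨8 * max C 1, by positivity, fun T hT K s hs hs2 => ?_⟩
  obtain ⟨S, hS, e⟩ := exists_sum_eq_prod a K s T hT
  rw [e]
  refine dyadic_bound _ (fun I : Ideal (𝓞 D.E) => Ideal.absNorm I) (fun I _ => sq_nonneg _)
    (fun I hI => Nat.pos_of_ne_zero (absNorm_ne_zero (hS I hI).1)) (fun k S' hS' hk => ?_) hs hs2
  refine (hC ((2 : ℝ) ^ k / 2) (by positivity) S' fun I hI =>
    ⟨(hS I (hS' hI)).2.1, (hk I hI).1, ?_⟩).trans (le_max_left _ _)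
  rw [mul_div_cancel₀ _ two_ne_zero]
  exact (hk I hI).2

end FLTAgent.LanglandsTunnell.Period

end
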