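import Fermat.Agent.LanglandsTunnell.Period.Strip
import Fermat.Agent.LanglandsTunnell.Lift.Plane
import Fermat.Agent.LanglandsTunnell.Lift.Bridge.Spec

/-!
# The modular group on the plane, and series over the integers

`SL(2, ℤ)` acts on the plane through `GL(2, E)`, so the function on the plane over the base coset is
invariant under matrices diagonal modulo `3 N` and its translates are values at other cosets.
-/

set_option autoImplicit false

open NumberField MeasureTheory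
open scoped MatrixGroups Modular UpperHalfPlane
open Matrix (GeneralLinearGroup)

noncomputable section

namespace FLTAgent.LanglandsTunnell.Period

open FLTAgent.LanglandsTunnell FLTAgent.LanglandsTunnell.Lift FLTAgent.LanglandsTunnell.Expansion

variable {D : Datum} (P : ExtPlaces D)

theorem embE_sqrtNegThree_eq : embE P (sqrtNegThree P : D.E) = (Real.sqrt 3 : ℂ) * Complex.I := by
  rw [sqrtNegThree, (exists_sqrtNegThree P).choose_spec, omega]
  ring

theorem coe_sqrtNegThree_ne_zero : (sqrtNegThree P : D.E) ≠ 0 :=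
  RingOfIntegers.coe_ne_zero_iff.mpr (sqrtNegThree_ne_zero P)

theorem det_SL (g : SL(2, ℤ)) : g 0 0 * g 1 1 - g 0 1 * g 1 0 = 1 := by
  have h := g.2
  rwa [Matrix.det_fin_two] at h

/-- An element of `SL(2, ℤ)` as a matrix over `E` preserving the plane. -/
def planeGL (g : SL(2, ℤ)) : GL (Fin 2) D.E where
  val := !![((g 0 0 : ℤ) : D.E), (sqrtNegThree P : D.E) * ((g 0 1 : ℤ) : D.E);
    ((g 1 0 : ℤ) : D.E) / (sqrtNegThree P : D.E), ((g 1 1 : ℤ) : D.E)]
  inv := !![((g 1 1 : ℤ) : D.E), -((sqrtNegThree P : D.E) * ((g 0 1 : ℤ) : D.E));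
    -(((g 1 0 : ℤ) : D.E) / (sqrtNegThree P : D.E)), ((g 0 0 : ℤ) : D.E)]
  val_inv := by
    have hd := congrArg (fun x : ℤ => (x : D.E)) (det_SL g)
    push_cast at hd
    have h0 := coe_sqrtNegThree_ne_zero P
    refine Matrix.ext fun i j => ?_
    fin_cases i <;> fin_cases j <;> simp <;> field_simp <;>
      first | linear_combination hd | ring
  inv_val := by
    have hd := congrArg (fun x : ℤ => (x : D.E)) (det_SL g)
    push_cast at hd
    have h0 := coe_sqrtNegThree_ne_zero P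
    refine Matrix.ext fun i j => ?_
    fin_cases i <;> fin_cases j <;> simp <;> field_simp <;>
      first | linear_combination hd | ring

theorem planeEmb_of_entries {z : ℂ} (hz : z = (Real.sqrt 3 : ℂ) * Complex.I) (a b c d : ℤ) :
    !![(a : ℂ), z * (b : ℂ); (c : ℂ) / z, (d : ℂ)] = planeEmb a b c d := by
  have h3 := sqrt_three_ne
  subst hz
  ext i j
  fin_cases i <;> fin_cases j <;> simp [planeEmb]
  field_simp
  linear_combination (c : ℂ) * Complex.I_sq

theorem embF_planeGL_val (g : SL(2, ℤ)) : (embF P (planeGL P g)).val =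
    planeEmb (g 0 0 : ℤ) (g 0 1 : ℤ) (g 1 0 : ℤ) (g 1 1 : ℤ) := by
  rw [← planeEmb_of_entries (embE_sqrtNegThree_eq P)]
  ext i j
  fin_cases i <;> fin_cases j <;> simp [planeGL]

theorem embF_planeGL_inv_val (g : SL(2, ℤ)) : ((embF P (planeGL P g))⁻¹).val =
    planeEmb (g 1 1 : ℤ) (-g 0 1 : ℤ) (-g 1 0 : ℤ) (g 0 0 : ℤ) := by
  rw [← map_inv, ← planeEmb_of_entries (embE_sqrtNegThree_eq P)]
  ext i j
  fin_cases i <;> fin_cases j <;> simp [planeGL]
  all_goals ring

theorem smul_planePoint_SL (g : SL(2, ℤ)) (τ : ℍ) :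
    embF P (planeGL P g) • planePoint τ = planePoint (g • τ) := by
  have hd := congrArg (fun x : ℤ => (x : ℝ)) (det_SL g)
  push_cast at hd
  have hne : ((g 0 0 : ℤ) : ℝ) * (g 1 1 : ℤ) - (g 0 1 : ℤ) * (g 1 0 : ℤ) ≠ 0 := by
    rw [hd]; exact one_ne_zero
  rw [smul_planePoint (embF_planeGL_val P g) hne, ModularGroup.sl_moeb]
  congr 2
  ext i j
  fin_cases i <;> fin_cases j <;> simp [realMat]

theorem sqrtThreeI_mem_Eis : (Real.sqrt 3 : ℂ) * Complex.I ∈ Eis :=
  ⟨1, 2, by simp [eis, omega]; ring⟩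

theorem planeEmb_eisCong {N : ℕ} (a b c d : ℤ) (hb : (N : ℤ) ∣ b) (hc : ((3 * N : ℕ) : ℤ) ∣ c) :
    EisCong N (planeEmb a b c d) := by
  obtain ⟨b', rfl⟩ := hb
  obtain ⟨c', rfl⟩ := hc
  have h3 := sqrt_three_ne
  have hint : ∀ k : ℤ, (k : ℂ) ∈ Eis := fun k => ⟨k, 0, by simp [eis]⟩
  have e : (-(Complex.I * ((((3 * N : ℕ) : ℤ) * c' : ℤ) : ℝ) / (Real.sqrt 3 : ℂ)) : ℂ) =
      (N : ℂ) * (-((Real.sqrt 3 : ℂ) * Complex.I) * (c' : ℂ)) := by
    push_cast
    field_simp
    linear_combination (c' : ℂ) * (N : ℂ) * sqrt_three_sq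
  refine ⟨fun i j => ?_, ⟨(Real.sqrt 3 : ℂ) * Complex.I * (b' : ℂ),
    mul_mem sqrtThreeI_mem_Eis (hint b'), ?_⟩, ⟨-((Real.sqrt 3 : ℂ) * Complex.I) * (c' : ℂ),
    mul_mem (neg_mem sqrtThreeI_mem_Eis) (hint c'), ?_⟩⟩
  · fin_cases i <;> fin_cases j
    · simp [planeEmb]
    · simpa [planeEmb] using mul_mem sqrtThreeI_mem_Eis (hint ((N : ℤ) * b'))
    · show (-(Complex.I * ((((3 * N : ℕ) : ℤ) * c' : ℤ) : ℝ) / (Real.sqrt 3 : ℂ)) : ℂ) ∈ Eis
      rw [e]
      exact mul_mem (by simp) (mul_mem (neg_mem sqrtThreeI_mem_Eis) (hint c'))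
    · simp [planeEmb]
  · simp [planeEmb]; ring
  · exact e

variable {N : ℕ} {φ : Pt D.E Unit (Ideal.span {(N : 𝓞 D.E)}) → ℂ}

/-- The translates of the function on the plane are values at other cosets. -/
theorem planeFun_one_smul (hinv : ∀ γ x, φ (act P.placesE γ x) = φ x) (g : SL(2, ℤ)) (τ : ℍ) :
    planeFun φ ((1 : GL (Fin 2) (AF D.E)) : FinPt D.E _) (g • τ) =
      φ ((((GeneralLinearGroup.map (toAF D.E) (planeGL P g))⁻¹ : GL (Fin 2) (AF D.E)) :
        FinPt D.E _), fun _ => planePoint τ) := by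
  rw [← phiOne_smul hinv, smul_planePoint_SL]
  rfl

include P in
theorem invariantDiag_planeFun (hN : N ≠ 0) (hinv : ∀ γ x, φ (act P.placesE γ x) = φ x)
    (hdiag : DiagInvariant φ) :
    InvariantDiag (3 * N) (planeFun φ ((1 : GL (Fin 2) (AF D.E)) : FinPt D.E _)) := by
  intro g hb hc τ
  have hb' : (N : ℤ) ∣ g 0 1 := dvd_trans (by push_cast; exact dvd_mul_left _ _) hb
  have hmem : embF P (planeGL P g) ∈ congGroup N := by
    refine ⟨?_, ?_⟩
    · rw [embF_planeGL_val]; exact planeEmb_eisCong _ _ _ _ hb' hc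
    · rw [embF_planeGL_inv_val]; exact planeEmb_eisCong _ _ _ _ hb'.neg_right hc.neg_right
  show phiOne φ (planePoint (g • τ)) = phiOne φ (planePoint τ)
  rw [← smul_planePoint_SL P, phiOne_congGroup hN hinv hdiag hmem]

theorem planePeriod_eq [Fintype (SL(2, ℤ) ⧸ CongruenceSubgroup.Gamma (3 * N))] :
    planePeriod N φ = ∑ q : SL(2, ℤ) ⧸ CongruenceSubgroup.Gamma (3 * N),
      ∫ τ in (𝒟 : Set ℍ), planeFun φ ((1 : GL (Fin 2) (AF D.E)) : FinPt D.E _) (rep q • τ) :=
  finsum_eq_sum_of_fintype _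

theorem continuous_planeFun {n : Ideal (𝓞 D.E)} {ψ : Pt D.E Unit n → ℂ}
    (hA : IsAutomorphic P.placesE ψ) (v : FinPt D.E n) : Continuous (planeFun ψ v) :=
  (hA.continuous v).comp (continuous_pi fun _ => continuous_planePoint)

/-- A series over `ℤ` living on the multiples of `d` and even. -/
theorem hasSum_int_multiples {E : Type} [AddCommGroup E] [TopologicalSpace E]
    [IsTopologicalAddGroup E] {d : ℕ} (hd : d ≠ 0) {g : ℕ → E} {A : E} (hg : HasSum g A)
    (h0 : g 0 = 0) :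
    HasSum (fun j : ℤ => if d ∣ j.natAbs then g (j.natAbs / d) else 0) (A + A) := by
  set f : ℕ → E := fun m => if d ∣ m then g (m / d) else 0
  have hnat : HasSum f A := by
    refine ((mul_right_injective₀ hd).hasSum_iff fun m hm => if_neg ?_).mp
      (hg.congr_fun fun n => ?_)
    · rintro ⟨k, rfl⟩
      exact hm ⟨k, rfl⟩
    · simp only [Function.comp_apply, if_pos (dvd_mul_right d n),
        Nat.mul_div_cancel_left _ (Nat.pos_of_ne_zero hd)]
  refine HasSum.of_nat_of_neg_add_one (hnat.congr_fun fun n => by simp [f]) ?_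
  have h1 := (hasSum_nat_add_iff' 1).mpr hnat
  rw [Finset.sum_range_one, show f 0 = 0 by simp [f, h0], sub_zero] at h1
  refine h1.congr_fun fun n => ?_
  rw [show (-((n : ℤ) + 1)).natAbs = n + 1 by omega]

end FLTAgent.LanglandsTunnell.Period

end
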