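import Fermat.Agent.LanglandsTunnell.Period.Frequencies
import Fermat.Agent.LanglandsTunnell.Period.MeanBound
import Fermat.Agent.LanglandsTunnell.Period.Transport
import Fermat.Agent.LanglandsTunnell.Period.Decay
import Fermat.Agent.LanglandsTunnell.BadPrimes

/-!
# The period is nonzero for a suitable vector

The selected vector is invariant under the integral diagonal units. If its period over the plane
vanished, the Mellin transform of its coefficients at the rational frequencies would be bounded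
near `1`, against the divergence of the plane series.
-/

set_option autoImplicit false

open NumberField MeasureTheory Filter
open scoped Topology MatrixGroups Modular UpperHalfPlane
open Matrix (GeneralLinearGroup)

noncomputable section

namespace FLTAgent.LanglandsTunnell.Period

open FLTAgent.LanglandsTunnell FLTAgent.LanglandsTunnell.Expansion FLTAgent.LanglandsTunnell.Lift
open FLTAgent.LanglandsTunnell.Killing (mk_mul_congr)

variable {D : Datum} (P : ExtPlaces D)

theorem rpow_neg_mul_inv {A : ℝ} (hA : 0 ≤ A) {n : ℕ} (hn : n ≠ 0) (s : ℝ) :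
    (A * n) ^ (-(s - 1)) * (n : ℝ)⁻¹ = A ^ (-(s - 1)) * (n : ℝ) ^ (-s) := by
  have hn' : (0 : ℝ) < n := Nat.cast_pos.mpr (Nat.pos_of_ne_zero hn)
  rw [Real.mul_rpow hA hn'.le, mul_assoc, ← Real.rpow_neg_one (n : ℝ), ← Real.rpow_add hn']
  congr 2
  ring

theorem admissible_one {M : ℕ} (hM : M ≠ 0) :
    Admissible M ((1 : GL (Fin 2) (AF D.E)) : FinPt D.E (lv D.E M)) := by
  refine ⟨hM, fun z hz => ?_⟩
  rw [MulAction.Quotient.smul_coe, smul_eq_mul, mul_one, ← one_mul (upperUnip _)]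
  exact mk_mul_congr (upperUnip_mem_principal (natCast_mul_mem_lvl hz)) 1

/-- The coefficient at `j / M` of the base coset is a diagonal coefficient. -/
theorem planeWhit_one {M : ℕ} (φ : Pt D.E Unit (lv D.E M) → ℂ) (hM : M ≠ 0) {j : ℤ} (hj : j ≠ 0) :
    ∃ y : (AF D.E)ˣ, (y : AF D.E) * (M : AF D.E) = (j : AF D.E) ∧
      planeWhit P φ ((1 : GL (Fin 2) (AF D.E)) : FinPt D.E _) M j =
        whit P.placesE φ ((diagUnit y : GL (Fin 2) (AF D.E)) : FinPt D.E _) := by
  have hne : (j : D.E) / (M : D.E) ≠ 0 :=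
    div_ne_zero (Int.cast_ne_zero.mpr hj) (Nat.cast_ne_zero.mpr hM)
  refine ⟨Units.map (toAF D.E : D.E →* AF D.E) (Units.mk0 _ hne), ?_, ?_⟩
  · show toAF D.E ((j : D.E) / (M : D.E)) * _ = _
    rw [← map_natCast (toAF D.E) M, ← map_mul, div_mul_cancel₀ _ (Nat.cast_ne_zero.mpr hM),
      map_intCast]
  · rw [planeWhit, dif_neg hne, MulAction.Quotient.smul_coe, smul_eq_mul, mul_one,
      FLTAgent.LanglandsTunnell.map_diagUnit]

/-- A selected vector has nonzero period. -/
theorem planePeriod_ne_zero {N : ℕ} {a : Ideal (𝓞 D.E) → ℂ} {d : ℕ} (hN : N ≠ 0)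
    (hd : d ≠ 0) (hdN : ∀ q : ℕ, q.Prime → q ∣ d → q ∣ N)
    (hsplit : ∀ v : Ideal (𝓞 D.E), v.IsPrime → v ≠ ⊥ → ¬ v ∣ Ideal.span {(N : 𝓞 D.E)} →
      ∀ g, IsFrobOver D.E v g → g ∈ D.galM → a v = trLift (D.ρ g))
    (hreal : ∀ v : Ideal (𝓞 D.E), v.IsPrime → v ≠ ⊥ → ¬ v ∣ Ideal.span {(N : 𝓞 D.E)} →
      (a v).im = 0)
    (hthree : ¬ 3 ∣ N → D.SplitAtThree) (hmean : HasMeanBound N a)
    {φ : Pt D.E Unit (lv D.E (d * N)) → ℂ} (hf : IsEigenform P.placesE φ a)
    (hdiag : DiagInvariant φ) {c : FinPt D.E (lv D.E N) → ℂ} {h : GL (Fin 2) (AF D.E)}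
    (hh : InsideN N h) (hc : IsWhitFn c a)
    (hw : ∃ z : (AF D.E)ˣ, OutsideN N z ∧
      c ((diagUnit z * h : GL (Fin 2) (AF D.E)) : FinPt D.E (lv D.E N)) ≠ 0)
    (hval : ∀ y : (AF D.E)ˣ,
      (InUnit N (y * natUnit D.E hN) →
        whit P.placesE φ ((diagUnit y : GL (Fin 2) (AF D.E)) : FinPt D.E _) =
          c ((diagUnit (outPart N y) * h : GL (Fin 2) (AF D.E)) : FinPt D.E (lv D.E N))) ∧
      (¬ InUnit N (y * natUnit D.E hN) →
        whit P.placesE φ ((diagUnit y : GL (Fin 2) (AF D.E)) : FinPt D.E _) = 0)) :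
    planePeriod (d * N) φ ≠ 0 := by
  intro h0
  have hM0 : (d * N) ≠ 0 := mul_ne_zero hd hN
  have : NeZero (3 * (d * N)) := ⟨mul_ne_zero three_ne_zero hM0⟩
  have : Finite (SL(2, ℤ) ⧸ CongruenceSubgroup.Gamma (3 * (d * N))) :=
    Subgroup.finite_quotient_of_finiteIndex
  have : Fintype (SL(2, ℤ) ⧸ CongruenceSubgroup.Gamma (3 * (d * N))) := Fintype.ofFinite _
  have hn := lv_ne_bot (F := D.E) hM0
  have h1 : lam a (planeIdeal P N 1) ≠ 0 := by
    rw [lam_planeIdeal_one]
    split_ifs with h3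
    · exact one_ne_zero
    · intro hz
      refine eigen_three_ne_zero hsplit (hthree h3) h3 (isPrime_three P) (three_mem P)
        (Complex.ext hz (hreal _ (isPrime_three P)
          (ne_bot_of_natCast_mem three_ne_zero (by simpa using three_mem P))
          (not_dvd_span_natCast Nat.prime_three h3 (isPrime_three P) (by simpa using three_mem P))))
  obtain ⟨hsummable, htend⟩ := planeCoeff_unbounded P hN hsplit hreal hthree hmean
  set κ := planeConst P N a c h with hκ
  have hκ0 : κ ≠ 0 := planeConst_ne_zero P hc hN hh h1 hw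
  set v₁ : FinPt D.E (lv D.E (d * N)) := ((1 : GL (Fin 2) (AF D.E)) : FinPt D.E _) with hv₁
  -- the coefficients at the rational frequencies
  have hW : ∀ j : ℤ, planeWhit P φ v₁ (d * N) j =
      if d ∣ j.natAbs then
        κ * ((planeCoeff P N a (j.natAbs / d) : ℝ) : ℂ) / ((j.natAbs / d : ℕ) : ℂ)
      else 0 := by
    intro j
    rcases eq_or_ne j 0 with rfl | hj
    · simp [planeWhit, planeCoeff]
    · obtain ⟨y, hy, e⟩ := planeWhit_one P φ hM0 hj
      rw [e]
      exact whit_rational P hN hd hdN hh hc hreal h1 hval hy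
  -- the bound on the Mellin transform
  obtain ⟨hint, C, hC⟩ := exists_bound_strip (M := 3 * (d * N)) (F := planeFun φ v₁) (by omega)
    (continuous_planeFun P hf.automorphic v₁)
    (invariantDiag_planeFun P hM0 hf.automorphic.invariant hdiag)
    (fun g => by
      obtain ⟨C, hC0, hC⟩ := exists_decay P hf.automorphic hf.cuspidal hf.spherical hn
        (((GeneralLinearGroup.map (toAF D.E) (planeGL P g))⁻¹ : GL (Fin 2) (AF D.E)) :
          FinPt D.E (lv D.E (d * N)))
      refine ⟨C, fun τ _ => ?_⟩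
      rw [planeFun_one_smul P hf.automorphic.invariant]
      refine (hC (planePoint τ)).trans (div_le_div_of_nonneg_left hC0 (pow_pos τ.im_pos 3)
        (pow_le_pow_left₀ τ.im_pos.le ?_ 3))
      exact le_mul_of_one_le_left τ.im_pos.le (Real.one_le_sqrt.mpr (by norm_num)))
    (by rw [← planePeriod_eq]; exact h0)
  obtain ⟨c₀, hc₀, hK⟩ := exists_le_axisMellin
  set A : ℝ := Real.sqrt 3 / N with hA
  have hApos : 0 < A := by positivity
  have hMr : (0 : ℝ) < ((3 * (d * N) : ℕ) : ℝ) := by positivity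
  have key : ∀ s : ℝ, 1 < s → s ≤ 2 →
      |∑' n : ℕ, planeCoeff P N a n * (n : ℝ) ^ (-s)| ≤
        |C| / (((3 * (d * N) : ℕ) : ℝ) * c₀ * (2 * ‖κ‖) * (max 1 A)⁻¹) := by
    intro s hs hs2
    set G : ℕ → ℝ := fun n => A ^ (-(s - 1)) * (planeCoeff P N a n * (n : ℝ) ^ (-s)) with hG
    have hterm : ∀ j : ℤ, planeWhit P φ v₁ (d * N) j *
        (((Real.sqrt 3 * |(j : ℝ)| / ((d * N : ℕ) : ℝ)) ^ (-(s - 1)) : ℝ) : ℂ) =
        if d ∣ j.natAbs then κ * ((G (j.natAbs / d) : ℝ) : ℂ) else 0 := by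
      intro j
      rw [hW]
      split_ifs with hdvd
      swap
      · rw [zero_mul]
      set n := j.natAbs / d with hnj
      rcases eq_or_ne n 0 with hn0 | hn0
      · simp [hG, hn0, planeCoeff]
      have hjn : |(j : ℝ)| = (d : ℝ) * (n : ℝ) := by
        rw [← Nat.cast_mul, hnj, Nat.mul_div_cancel' hdvd, Nat.cast_natAbs, Int.cast_abs]
      have hd' : (d : ℝ) ≠ 0 := Nat.cast_ne_zero.mpr hd
      have e : Real.sqrt 3 * |(j : ℝ)| / ((d * N : ℕ) : ℝ) = A * n := by
        rw [hjn, hA]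
        push_cast at hd' ⊢
        field_simp
      rw [e, hG]
      simp only
      rw [show A ^ (-(s - 1)) * (planeCoeff P N a n * (n : ℝ) ^ (-s)) =
        planeCoeff P N a n * ((A * n) ^ (-(s - 1)) * (n : ℝ)⁻¹) by
        rw [rpow_neg_mul_inv hApos.le hn0]; ring]
      push_cast
      ring
    have hG0 : G 0 = 0 := by simp [hG, planeCoeff]
    have hGs : Summable fun n => ‖G n‖ := by
      simp only [hG, norm_mul]
      exact ((hsummable s hs hs2).congr fun n => norm_mul _ _).mul_left _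
    have hcs : HasSum (fun n : ℕ => κ * ((G n : ℝ) : ℂ)) (κ * ((∑' n, G n : ℝ) : ℂ)) :=
      (Complex.hasSum_ofReal.mpr (Summable.of_norm hGs).hasSum).mul_left κ
    have hZ := hasSum_int_multiples hd hcs (by simp [hG0])
    have hZn := hasSum_int_multiples hd (hGs.mul_left ‖κ‖).hasSum (by simp [hG0])
    have hsum : Summable fun j : ℤ =>
        ‖planeWhit P φ v₁ (d * N) j‖ *
          (Real.sqrt 3 * |(j : ℝ)| / ((d * N : ℕ) : ℝ)) ^ (-(s - 1)) := by
      refine hZn.summable.congr fun j => ?_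
      have e := congrArg norm (hterm j)
      rw [norm_mul, Complex.norm_real,
        Real.norm_of_nonneg (Real.rpow_nonneg (by positivity) _)] at e
      rw [e]
      split_ifs
      · simp only [hG, norm_mul, Complex.norm_real]
      · rw [norm_zero]
    have hI := integral_stripFun P hf.automorphic hf.cuspidal hf.spherical hn
      (admissible_one hM0) (dvd_mul_left (d * N) 3) (by linarith) (hint s hs hs2) hsum
    rw [← hv₁, tsum_congr hterm, hZ.tsum_eq] at hI
    have hb := hC s hs hs2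
    rw [hI, ← two_mul, norm_mul, norm_mul, norm_mul, norm_mul, Complex.norm_natCast,
      Complex.norm_real, Complex.norm_real, RCLike.norm_ofNat, hG, tsum_mul_left,
      Real.norm_eq_abs, Real.norm_eq_abs, abs_mul, abs_of_pos (axisMellin_pos (by linarith)),
      abs_of_pos (Real.rpow_pos_of_pos hApos _)] at hb
    have hAs : (max 1 A)⁻¹ ≤ A ^ (-(s - 1)) := by
      rw [Real.rpow_neg hApos.le]
      refine inv_anti₀ (Real.rpow_pos_of_pos hApos _) ?_
      exact (Real.rpow_le_rpow hApos.le (le_max_right 1 A) (by linarith)).trans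
        ((Real.rpow_le_rpow_of_exponent_le (le_max_left 1 A) (by linarith : s - 1 ≤ 1)).trans_eq
          (Real.rpow_one _))
    have hκn : 0 < ‖κ‖ := norm_pos_iff.mpr hκ0
    rw [le_div_iff₀ (mul_pos (mul_pos (mul_pos hMr hc₀) (by positivity)) (by positivity))]
    set S : ℝ := |∑' n : ℕ, planeCoeff P N a n * (n : ℝ) ^ (-s)|
    calc S * (((3 * (d * N) : ℕ) : ℝ) * c₀ * (2 * ‖κ‖) * (max 1 A)⁻¹)
        ≤ S * (((3 * (d * N) : ℕ) : ℝ) * axisMellin s * (2 * ‖κ‖) * A ^ (-(s - 1))) := by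
          refine mul_le_mul_of_nonneg_left (mul_le_mul ?_ hAs (by positivity) ?_) (abs_nonneg _)
          · exact mul_le_mul_of_nonneg_right
              (mul_le_mul_of_nonneg_left (hK s hs.le hs2) hMr.le) (by positivity)
          · exact mul_nonneg (mul_nonneg hMr.le (axisMellin_pos (by linarith)).le) (by positivity)
      _ = ((3 * (d * N) : ℕ) : ℝ) * axisMellin s * (2 * (‖κ‖ * (A ^ (-(s - 1)) * S))) := by ring
      _ ≤ C := hb
      _ ≤ |C| := le_abs_self C
  have hev := (htend.eventually_gt_atTop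
    (|C| / (((3 * (d * N) : ℕ) : ℝ) * c₀ * (2 * ‖κ‖) * (max 1 A)⁻¹))).and
      (Ioc_mem_nhdsGT (show (1 : ℝ) < 2 by norm_num))
  obtain ⟨s, hgt, hs⟩ := hev.exists
  exact absurd (key s hs.1 hs.2) (not_le.mpr hgt)

/-- **The period specification.** -/
theorem periodSpec : PeriodSpec := by
  intro D P N φ a hD
  classical
  have hN := hD.ne_zero
  have hf := hD.eigen
  set m := Nat.gcd (3 * D.badPart) N with hmdef
  have hm0 : m ≠ 0 := fun h => hN (Nat.eq_zero_of_gcd_eq_zero_right h)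
  have hmN : ∀ q : ℕ, q.Prime → q ∣ m → q ∣ N := fun q _ h => h.trans (Nat.gcd_dvd_right _ _)
  have hm3 : ∀ q : ℕ, q.Prime → q ∣ m → q = 3 ∨ D.IsBad q := fun q hq h => by
    rcases (Nat.Prime.dvd_mul hq).mp (h.trans (Nat.gcd_dvd_left _ _)) with h | h
    · exact Or.inl ((Nat.prime_dvd_prime_iff_eq hq Nat.prime_three).mp h)
    · exact Or.inr ((D.prime_dvd_badPart hq).mp h)
  have hsq : ∀ q : ℕ, q.Prime → q ^ 2 ∣ N → q ∣ m := fun q hq h => by
    refine Nat.dvd_gcd ?_ ((dvd_pow_self q two_ne_zero).trans h)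
    rcases hD.squarefree_away q hq h with rfl | hb
    · exact dvd_mul_right _ _
    · exact (D.dvd_badPart hb).mul_left 3
  have h3m : 3 ∣ N → 3 ∣ m := Nat.dvd_gcd (dvd_mul_right _ _)
  obtain ⟨k, hk⟩ := diffUnit_inv_bound P h3m
  obtain ⟨j, φ', h, c, hh, hc, hφ', hdiag, hw, hval⟩ := exists_selected hf hN hm0 hmN
    (exact_of_squarefree P hN hsq h3m) hk
  have hd0 : m ^ j ≠ 0 := pow_ne_zero j hm0
  have hdN : ∀ q : ℕ, q.Prime → q ∣ m ^ j → q ∣ N := fun q hq h =>
    hmN q hq (hq.dvd_of_dvd_pow h)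
  have hN' : m ^ j * N ≠ 0 := mul_ne_zero hd0 hN
  have hp : ∀ q : ℕ, q.Prime → (q ∣ m ^ j * N ↔ q ∣ N) := fun q hq =>
    ⟨fun h => ((Nat.Prime.dvd_mul hq).mp h).elim (hdN q hq) id, fun h => h.mul_left _⟩
  have hthree : ¬ 3 ∣ N → D.SplitAtThree := fun h3 =>
    by_contra fun hs => h3 (hD.three_dvd hs)
  have hreal : ∀ v : Ideal (𝓞 D.E), v.IsPrime → v ≠ ⊥ → ¬ v ∣ Ideal.span {(N : 𝓞 D.E)} →
      (a v).im = 0 := fun v h1 h2 h3 => (hD.real v h1 h2 h3).1
  refine ⟨m ^ j * N, φ', a, ⟨hN', hφ', ?_, ?_, ?_, ?_, ?_⟩, hdiag,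
    planePeriod_ne_zero P hN hd0 hdN hD.splitPlaces hreal hthree (hasMeanBound P hN hf hreal) hφ'
      hdiag hh hc hw fun y =>
        ⟨fun hu => by rw [hval y, if_pos hu], fun hu => by rw [hval y, if_neg hu]⟩⟩
  · intro q hq hd
    by_cases hqm : q ∣ m
    · exact hm3 q hq hqm
    · exact hD.squarefree_away q hq
        ((Nat.Coprime.pow 2 j (hq.coprime_iff_not_dvd.mpr hqm)).dvd_of_dvd_mul_left hd)
  · exact fun hs h => hD.three_not_dvd hs ((hp 3 Nat.prime_three).mp h)
  · exact fun hs => (hp 3 Nat.prime_three).mpr (hD.three_dvd hs)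
  · exact fun v hv hv0 hvn => hD.real v hv hv0 (not_dvd_lvl hN hp hv hvn)
  · exact fun v hv hv0 hvn => hD.splitPlaces v hv hv0 (not_dvd_lvl hN hp hv hvn)

end FLTAgent.LanglandsTunnell.Period

end
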