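import Fermat.Agent.LanglandsTunnell.Period.LocalData

/-!
# Balanced vectors at a prime dividing the level exactly once

A vector is balanced at `v` when its mean over the unipotent group modulo `v` vanishes; its first
coefficients are then supported where the character is nontrivial on that group. Every nonzero
vector of a level has a translate combination which is balanced.
-/

set_option autoImplicit false
set_option linter.unusedSectionVars false

open NumberField Matrix MeasureTheory

noncomputable section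

namespace FLTAgent.LanglandsTunnell.Period

open FLTAgent.LanglandsTunnell FLTAgent.LanglandsTunnell.Isolation FLTAgent.LanglandsTunnell.Seed
  FLTAgent.LanglandsTunnell.Expansion

variable {F : Type} [Field F] [NumberField F] {ι : Type} [Fintype ι] [DecidableEq ι]
  {Φ : PlaceChoice F ι} {N : ℕ}

attribute [local irreducible] transLin

/-! ### Elementary matrices -/

/-- The Weyl element of an idempotent. -/
def placeWeyl (e : AF F) : GL (Fin 2) (AF F) := upperUnip e * lowerUnip (-e) * upperUnip e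

theorem weyl_val {u s e : AF F} (hus : u * s = e) (hu : e * u = u) :
    (upperUnip u * lowerUnip (-s) * upperUnip u).val = !![1 - e, u; -s, 1 - e] := by
  show !![1, u; 0, 1] * !![1, 0; -s, 1] * !![1, u; 0, 1] = _
  rw [Matrix.mul_fin_two, Matrix.mul_fin_two]
  refine finTwo_congr ?_ ?_ ?_ ?_
  · linear_combination -hus
  · linear_combination (-u) * hus - hu
  · ring
  · linear_combination -hus

theorem upperUnip_mul_placeWeyl {e x : AF F} (he : e * e = e) (hx : e * x = x) :
    upperUnip x * placeWeyl e = placeWeyl e * lowerUnip (-x) := by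
  refine Units.ext ?_
  rw [Units.val_mul, Units.val_mul, placeWeyl, weyl_val he he]
  show !![1, x; 0, 1] * _ = _ * !![1, 0; -x, 1]
  rw [Matrix.mul_fin_two, Matrix.mul_fin_two]
  refine finTwo_congr ?_ ?_ ?_ ?_
  · ring
  · linear_combination -hx
  · linear_combination -hx
  · ring

section Mean

variable {E ρ σ : Type} [AddCommGroup E] [Module ℂ E] [Fintype ρ]

/-- A vector minus its mean over a family of linear maps. -/
def meanFree (T : ρ → E →ₗ[ℂ] E) (x : E) : E :=
  x - ((Fintype.card ρ : ℕ) : ℂ)⁻¹ • ∑ r, T r x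

variable {T : ρ → E →ₗ[ℂ] E} {x : E}

theorem sum_meanFree [Nonempty ρ] (h : ∀ r, T r (∑ i, T i x) = ∑ i, T i x) :
    ∑ r, T r (meanFree T x) = 0 := by
  simp only [meanFree, map_sub, map_smul, h, Finset.sum_sub_distrib, Finset.sum_const,
    Finset.card_univ]
  rw [← Nat.cast_smul_eq_nsmul ℂ, smul_smul,
    mul_inv_cancel₀ (Nat.cast_ne_zero.mpr Fintype.card_ne_zero), one_smul, sub_self]

theorem fixed_of_meanFree_eq_zero {A : E →ₗ[ℂ] E} (hA : A (∑ i, T i x) = ∑ i, T i x)
    (h : meanFree T x = 0) : A x = x := by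
  rw [sub_eq_zero.mp h, map_smul, hA]

theorem map_meanFree {A : E →ₗ[ℂ] E} (hx : A x = x) (h : ∀ r, A (T r x) = T r x) :
    A (meanFree T x) = meanFree T x := by
  simp only [meanFree, map_sub, map_smul, map_sum, hx, h]

theorem sum_meanFree_other [Fintype σ] {U : σ → E →ₗ[ℂ] E} (hx : ∑ j, U j x = 0)
    (h : ∀ r, ∑ j, U j (T r x) = 0) : ∑ j, U j (meanFree T x) = 0 := by
  simp only [meanFree, map_sub, map_smul, map_sum, Finset.sum_sub_distrib, hx, ← Finset.smul_sum]
  rw [Finset.sum_comm, Finset.sum_eq_zero fun r _ => h r, smul_zero, sub_zero]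

theorem meanFree_mem {p : Submodule ℂ E} (hx : x ∈ p) (h : ∀ r, T r x ∈ p) : meanFree T x ∈ p :=
  sub_mem hx (p.smul_mem _ (sum_mem fun r _ => h r))

end Mean

/-! ### Balanced functions -/

/-- The mean over the unipotent group modulo `v` at the factor `e` vanishes. -/
def IsBalanced (e : AF F) (v : Ideal (𝓞 F)) (Ψ : AForm F ι) : Prop :=
  ∀ [Fintype (𝓞 F ⧸ v)],
    (∑ r : 𝓞 F ⧸ v, transLin (F := F) (ι := ι)
      (upperUnip (e * toAF F ((Quotient.out r : 𝓞 F) : F))) Ψ) = (0 : AForm F ι)

theorem commute_of_orth {e e' : AF F} (hee : e * e' = 0) {g R : GL (Fin 2) (AF F)}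
    (hg : ∀ i j, (1 - e) * (g.val - 1) i j = 0) (hR : ∀ i j, (1 - e') * (R.val - 1) i j = 0) :
    g * R = R * g := by
  have key : (g.val - 1) * (R.val - 1) = 0 ∧ (R.val - 1) * (g.val - 1) = 0 := by
    constructor <;> ext i j <;> rw [Matrix.mul_apply, Matrix.zero_apply] <;>
      refine Finset.sum_eq_zero fun k _ => ?_
    · linear_combination (R.val - 1) k j * hg i k + e * (g.val - 1) i k * hR k j +
        (g.val - 1) i k * (R.val - 1) k j * hee
    · linear_combination (R.val - 1) i k * hg k j + e * (g.val - 1) k j * hR i k +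
        (g.val - 1) k j * (R.val - 1) i k * hee
  refine Units.ext ?_
  show g.val * R.val = R.val * g.val
  calc g.val * R.val = (g.val - 1) * (R.val - 1) + g.val + R.val - 1 := by
        simp only [sub_mul, mul_sub, mul_one, one_mul]; abel
    _ = (R.val - 1) * (g.val - 1) + g.val + R.val - 1 := by rw [key.1, key.2]
    _ = R.val * g.val := by simp only [sub_mul, mul_sub, mul_one, one_mul]; abel

theorem local_upperUnip {e : AF F} (he : e * e = e) (x : AF F) :
    ∀ i j, (1 - e) * ((upperUnip (e * x)).val - 1) i j = 0 := by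
  intro i j
  have h : (upperUnip (e * x)).val - 1 = !![0, e * x; 0, 0] := by
    rw [Matrix.one_fin_two]
    show !![1, e * x; 0, 1] - !![1, 0; 0, 1] = _
    ext a b; fin_cases a <;> fin_cases b <;> simp
  rw [h]
  fin_cases i <;> fin_cases j
  · exact mul_zero _
  · show (1 - e) * (e * x) = 0; linear_combination -x * he
  · exact mul_zero _
  · exact mul_zero _

theorem IsBalanced.transLin {e e' : AF F} {v' : Ideal (𝓞 F)} (he' : e' * e' = e')
    {g : GL (Fin 2) (AF F)} (hee : e * e' = 0)
    (hg : ∀ i j, (1 - e) * (g.val - 1) i j = 0) {Ψ : AForm F ι} (hΨ : IsBalanced e' v' Ψ) :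
    IsBalanced e' v' (transLin g Ψ) := by
  intro inst
  have e1 : ∀ r : 𝓞 F ⧸ v',
      FLTAgent.LanglandsTunnell.Period.transLin (F := F) (ι := ι)
      (upperUnip (e' * toAF F ((Quotient.out r : 𝓞 F) : F)))
        (FLTAgent.LanglandsTunnell.Period.transLin (F := F) (ι := ι) g Ψ) =
      FLTAgent.LanglandsTunnell.Period.transLin (F := F) (ι := ι) g
        (FLTAgent.LanglandsTunnell.Period.transLin (F := F) (ι := ι)
          (upperUnip (e' * toAF F ((Quotient.out r : 𝓞 F) : F))) Ψ) := fun r => by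
    rw [← transLin_mul, ← transLin_mul, commute_of_orth hee hg (local_upperUnip he' _)]
  refine (Finset.sum_congr rfl fun r _ => e1 r).trans ?_
  exact ((map_sum (FLTAgent.LanglandsTunnell.Period.transLin (F := F) (ι := ι) g) _ _).symm.trans
    (congrArg _ (@hΨ inst))).trans (LinearMap.map_zero _)

variable {f : Pt F ι (lv F N) → ℂ} {a : Ideal (𝓞 F) → ℂ}

/-- The vectors of level `N` in the span of the translates. -/
structure IsVector (f : Pt F ι (lv F N) → ℂ) (Ψ : AForm F ι) : Prop where
  mem : Ψ ∈ transSpan N f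
  ne_zero : Ψ ≠ 0
  level : principalSubgroup (lv F N) ≤ fixer Ψ

theorem transLin_ne_zero {Ψ : AForm F ι} (h : Ψ ≠ 0) (g : GL (Fin 2) (AF F)) :
    transLin g Ψ ≠ 0 := fun h0 => h (by
  have := congrArg (transLin g⁻¹) h0
  rwa [← transLin_mul, inv_mul_cancel, transLin_one, map_zero] at this)

theorem principal_le_fixer_transLin {n : Ideal (𝓞 F)} {κ : GL (Fin 2) (AF F)}
    (hκ : κ ∈ principalSubgroup (⊤ : Ideal (𝓞 F))) {Ψ : AForm F ι}
    (h : principalSubgroup n ≤ fixer Ψ) : principalSubgroup n ≤ fixer (transLin κ Ψ) := by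
  intro k hk
  rw [mem_fixer, ← transLin_mul,
    show k * κ = κ * (κ⁻¹ * k * κ) by group, transLin_mul,
    mem_fixer.mp (h (conj_mem_principalSubgroup hκ hk))]

variable {v : Ideal (𝓞 F)} {e : AF F} {t : (AF F)ˣ}

/-- No nonzero form is fixed by the whole unipotent group at a place. -/
theorem eq_zero_of_fixed_powers (hf : IsEigenform Φ f a) (hN : N ≠ 0) (h : ExactPlace N v e t)
    {Ψ : AForm F ι} (hΨ : IsVector f Ψ)
    (hfix : ∀ j : ℕ, ∀ z ∈ intAF F,
      upperUnip (e * z * (((t⁻¹ : (AF F)ˣ) : AF F)) ^ (2 * j)) ∈ fixer Ψ) : False := by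
  classical
  have hn := lv_ne_bot (F := F) hN
  have hL := levelGroup_le_fixer hΨ.mem hΨ.level
  have hφ := isEigenform_descend hf hN hΨ.mem hΨ.ne_zero hN (fun _ _ => Iff.rfl) hΨ.level
  set φ := descend (lv F N) Ψ
  have hw : ∀ y : (AF F)ˣ, whit Φ φ ((diagUnit y : GL (Fin 2) (AF F)) : FinPt F _) = 0 := by
    intro y
    by_contra hne
    obtain ⟨M, hM, hMy⟩ :=
      exists_natCast_mul_mem_intAF (((diffUnit F * y)⁻¹ : (AF F)ˣ) : AF F)
    refine hM (h.natCast_mul_eq_zero fun k => ?_)
    have hψ : ∀ z ∈ intAF F,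
        psi ((y : AF F) * (e * (((t⁻¹ : (AF F)ˣ) : AF F)) ^ (2 * k)) * z) = 1 := by
      intro z hz
      set x := e * z * (((t⁻¹ : (AF F)ˣ) : AF F)) ^ (2 * k) with hx
      have e1 : ∀ Q, φ ((upperUnip ((y : AF F) * x) • ((diagUnit y : GL (Fin 2) (AF F)) :
          FinPt F (lv F N))), Q) = ∑ _j ∈ ({()} : Finset Unit), (1 : ℂ) *
            φ (((diagUnit y : GL (Fin 2) (AF F)) : FinPt F (lv F N)), Q) := fun Q => by
        rw [Finset.sum_singleton, one_mul]
        show φ (((upperUnip ((y : AF F) * x) * diagUnit y : GL (Fin 2) (AF F))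
          : FinPt F (lv F N)), Q) = _
        rw [← diagUnit_mul_upperUnip]
        refine (descend_mk hL _ Q).trans (Eq.trans ?_ (descend_mk hL _ Q).symm)
        exact fixer_apply (hfix k z hz) _ Q
      have e2 := whit_eq_sum (Φ := Φ) hn hn ({()} : Finset Unit) (fun _ => (1 : ℂ)) hφ.automorphic
        (fun _ => φ) (fun _ _ => hφ.automorphic) _ _ e1
      rw [Finset.sum_singleton, one_mul, whit_upperUnip hφ.automorphic hφ.spherical hn] at e2
      rw [show (y : AF F) * (e * (((t⁻¹ : (AF F)ˣ) : AF F)) ^ (2 * k)) * z = (y : AF F) * x by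
        rw [hx]; ring]
      exact mul_right_cancel₀ hne (e2.trans (one_mul _).symm)
    have h2 := mul_mem hMy (psi_mul_int_iff.mp hψ)
    have hmem : (M : AF F) * e ∈ idealAF F (v ^ (2 * k)) := by
      refine (h.gen _ _).mpr ⟨_, h2, ?_⟩
      have h3 := (diffUnit F * y).inv_mul
      rw [Units.val_mul] at h3
      have h4 : (t : AF F) ^ (2 * k) * (((t⁻¹ : (AF F)ˣ) : AF F)) ^ (2 * k) = 1 := by
        rw [← mul_pow, Units.mul_inv, one_pow]
      linear_combination (-((M : AF F) * e * (t : AF F) ^ (2 * k) *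
        (((t⁻¹ : (AF F)ˣ) : AF F)) ^ (2 * k))) * h3 - ((M : AF F) * e) * h4
    exact idealAF_mono (Ideal.pow_le_pow_right (by omega)) hmem
  refine hΨ.ne_zero (funext fun g => funext fun P => ?_)
  rw [← descend_mk hL g P]
  exact eq_zero_of_whit hn hφ.automorphic hφ.cuspidal hφ.spherical hw _

/-- A vector moved by the unipotent group at `v` gives a balanced one. -/
theorem exists_balanced_aux (h : ExactPlace N v e t) {Ψ : AForm F ι} (hΨ : IsVector f Ψ)
    (hU : ¬ ∀ z ∈ intAF F, upperUnip (e * z) ∈ fixer Ψ) :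
    ∃ Ψ', IsVector f Ψ' ∧ IsBalanced e v Ψ' ∧
      ∀ (e' : AF F) (v' : Ideal (𝓞 F)), e' * e' = e' → e * e' = 0 → IsBalanced e' v' Ψ →
        IsBalanced e' v' Ψ' := by
  classical
  have : Finite (𝓞 F ⧸ v) := Ideal.finiteQuotientOfFreeOfNeBot v h.ne_bot
  have hFt : Fintype (𝓞 F ⧸ v) := Fintype.ofFinite _
  set x : 𝓞 F ⧸ v → AF F := fun r => e * toAF F ((Quotient.out r : 𝓞 F) : F)
  set S : AForm F ι := ∑ r, transLin (F := F) (ι := ι) (upperUnip (x r)) Ψ with hS
  have hxmem : ∀ r, x r ∈ intAF F := fun r => mul_mem h.mem (toAF_mem_intAF _)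
  have hadd : ∀ z ∈ intAF F, ∃ s : 𝓞 F ⧸ v, ∀ r,
      transLin (F := F) (ι := ι) (upperUnip (e * z + x r)) Ψ =
      transLin (F := F) (ι := ι) (upperUnip (x (s + r))) Ψ := by
    intro z hz
    obtain ⟨Z, hZ⟩ := mem_intAF.mp hz
    obtain ⟨b, hb⟩ := exists_sub_mem_idealOH h.ne_bot Z
    refine ⟨Ideal.Quotient.mk v b, fun r => ?_⟩
    set s := Ideal.Quotient.mk v b + r with hs
    have hdiff : e * z + x r - x s ∈ idealAF F (lv F N) := by
      have h1 : z + toAF F ((Quotient.out r : 𝓞 F) : F) - toAF F ((Quotient.out s : 𝓞 F) : F) ∈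
          idealAF F v := by
        have h2 : (b + Quotient.out r - Quotient.out s : 𝓞 F) ∈ v := by
          refine Ideal.Quotient.eq.mp ?_
          rw [map_add, Ideal.Quotient.mk_out, Ideal.Quotient.mk_out, ← hs]
        have h3 := toAF_mem_idealAF h2
        have h4 : intHom F (Z - b ⊗ₜ[ℤ] 1) ∈ idealAF F v := intHom_mem_idealAF_iff.mpr hb
        rw [map_sub, hZ, intHom_tmul_one] at h4
        have := add_mem h4 h3
        push_cast at this
        convert this using 1
        simp only [map_add, map_sub]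
        ring
      have := h.level _ h1
      convert this using 1
      simp only [x]
      ring
    rw [show e * z + x r = x s + (e * z + x r - x s) by ring, upperUnip_add, transLin_mul,
      mem_fixer.mp (hΨ.level (upperUnip_mem_principal hdiff))]
  have hSfix : ∀ z ∈ intAF F, transLin (F := F) (ι := ι) (upperUnip (e * z)) S = S := by
    intro z hz
    obtain ⟨s, hs⟩ := hadd z hz
    rw [hS, map_sum]
    simp only [← transLin_mul, ← upperUnip_add, hs]
    exact Equiv.sum_comp (Equiv.addLeft s) fun r => transLin (F := F) (ι := ι) (upperUnip (x r)) Ψ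
  set T : 𝓞 F ⧸ v → AForm F ι →ₗ[ℂ] AForm F ι :=
    fun r => transLin (F := F) (ι := ι) (upperUnip (x r)) with hT
  have hTS : ∀ r, T r (∑ i, T i Ψ) = ∑ i, T i Ψ := fun r => hSfix _ (toAF_mem_intAF _)
  refine ⟨meanFree T Ψ, ⟨?_, ?_, ?_⟩, ?_, ?_⟩
  · refine meanFree_mem hΨ.mem fun r => transLin_mem (insideN_upperUnip ?_) hΨ.mem
    show (1 - eN F N) * (e * _) = 0
    rw [← mul_assoc, h.inside, zero_mul]
  · exact fun h0 => hU fun z hz => fixed_of_meanFree_eq_zero (hSfix z hz) h0
  · intro k hk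
    refine map_meanFree (mem_fixer.mp (hΨ.level hk)) fun r => mem_fixer.mp
      (principal_le_fixer_transLin (F := F) (ι := ι) (upperUnip_mem_principal ?_) hΨ.level hk)
    rw [idealAF_top]
    exact hxmem r
  · intro inst
    obtain rfl := Subsingleton.elim inst hFt
    exact sum_meanFree hTS
  · intro e' v' he' hee hbal inst
    exact sum_meanFree_other (U := fun r : 𝓞 F ⧸ v' =>
        transLin (F := F) (ι := ι) (upperUnip (e' * toAF F ((Quotient.out r : 𝓞 F) : F))))
          (@hbal inst)
      fun r => hbal.transLin he' hee (local_upperUnip h.idem _)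

/-- Conjugation by the generator keeps the level of a vector fixed by the unipotent group. -/
theorem level_le_fixer_diag (h : ExactPlace N v e t) {Ψ : AForm F ι}
    (hK : principalSubgroup (lv F N) ≤ fixer Ψ)
    (hU : ∀ z ∈ intAF F, upperUnip (e * z) ∈ fixer Ψ) :
    principalSubgroup (lv F N) ≤ fixer (transLin (F := F) (ι := ι) (diagUnit t) Ψ) := by
  intro k hk
  rw [mem_fixer, ← transLin_mul,
    show k * diagUnit t = diagUnit t * ((diagUnit t)⁻¹ * k * diagUnit t) by group, transLin_mul]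
  congr 1
  refine mem_fixer.mp ?_
  set s : AF F := ((t⁻¹ : (AF F)ˣ) : AF F)
  have hts : (t : AF F) * s = 1 := t.mul_inv
  have hk00 : k.1 0 0 - 1 ∈ idealAF F (lv F N) := by simpa using hk.1 0 0
  have hk01 : k.1 0 1 ∈ idealAF F (lv F N) := by simpa using hk.1 0 1
  have hk10 : k.1 1 0 ∈ idealAF F (lv F N) := by simpa using hk.1 1 0
  have hk11 : k.1 1 1 - 1 ∈ idealAF F (lv F N) := by simpa using hk.1 1 1
  obtain ⟨y, hy, hyb⟩ := (h.gen 1 (k.1 0 1)).mp (by rw [pow_one]; exact h.level_le _ hk01)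
  rw [pow_one] at hyb
  set k' := (diagUnit t)⁻¹ * k * diagUnit t with hk'
  have hs : s * k.1 0 1 = y := by rw [hyb]; linear_combination y * hts
  set k3 := upperUnip (-(e * y)) * k' with hk3
  have he1 : k' = upperUnip (e * y) * k3 := by
    rw [hk3, ← mul_assoc, ← upperUnip_add, add_neg_cancel, upperUnip_zero, one_mul]
  rw [he1]
  refine mul_mem (hU y hy) (hK ?_)
  refine mem_principalSubgroup_of_det _ ?_ ?_
  · intro i j
    have hdinv : ((diagUnit t)⁻¹ : GL (Fin 2) (AF F)).1 = !![s, 0; 0, 1] := rfl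
    have hval : k3.1 = !![k.1 0 0 - e * y * (k.1 1 0 * (t : AF F)), y - e * y * k.1 1 1;
        k.1 1 0 * (t : AF F), k.1 1 1] := by
      rw [hk3, hk', Units.val_mul, Units.val_mul, Units.val_mul, hdinv]
      conv_lhs => rw [Matrix.eta_fin_two k.1]
      show !![1, -(e * y); 0, 1] * (!![s, 0; 0, 1] * _ * !![(t : AF F), 0; 0, 1]) = _
      rw [Matrix.mul_fin_two, Matrix.mul_fin_two, Matrix.mul_fin_two]
      refine finTwo_congr ?_ ?_ ?_ ?_
      · linear_combination (k.1 0 0) * hts
      · linear_combination hs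
      · ring
      · ring
    rw [hval]
    have h01 : y - e * y * k.1 1 1 ∈ idealAF F (lv F N) := by
      have e2 : (1 - e) * y = (1 - e) * k.1 0 1 := by
        rw [hyb]
        linear_combination (-y) * h.local_t
      rw [show y - e * y * k.1 1 1 = (1 - e) * k.1 0 1 - e * y * (k.1 1 1 - 1) by
        linear_combination e2]
      exact sub_mem (mul_mem_idealAF_left (sub_mem (one_mem _) h.mem) hk01)
        (mul_mem_idealAF_left (mul_mem h.mem hy) hk11)
    have h10 : k.1 1 0 * (t : AF F) ∈ idealAF F (lv F N) := by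
      rw [mul_comm]; exact mul_mem_idealAF_left h.t_mem hk10
    fin_cases i <;> fin_cases j
    · show k.1 0 0 - e * y * (k.1 1 0 * (t : AF F)) - 1 ∈ _
      rw [show k.1 0 0 - e * y * (k.1 1 0 * (t : AF F)) - 1 =
        (k.1 0 0 - 1) - e * y * (k.1 1 0 * (t : AF F)) by ring]
      exact sub_mem hk00 (mul_mem_idealAF_left (mul_mem h.mem hy) h10)
    · simpa using h01
    · simpa using h10
    · simpa using hk11
  · have hdet : Matrix.GeneralLinearGroup.det k3 = Matrix.GeneralLinearGroup.det k := by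
      rw [hk3, hk', map_mul, map_mul, map_mul, map_inv]
      have h1 : Matrix.GeneralLinearGroup.det (upperUnip (-(e * y))) = 1 := by
        apply Units.ext
        show Matrix.det !![1, -(e * y); 0, 1] = 1
        rw [Matrix.det_fin_two_of, mul_one, mul_zero, sub_zero]
      rw [h1, one_mul]
      exact commGroup_conj _ _
    rw [hdet, ← map_inv, ← det_eq_GLdet]
    exact sub_mem (mul_mem (CongrOne.mem_intAF hk.2 0 0) (CongrOne.mem_intAF hk.2 1 1))
      (mul_mem (CongrOne.mem_intAF hk.2 0 1) (CongrOne.mem_intAF hk.2 1 0))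

theorem local_placeWeyl {e : AF F} (hee : e * e = e) :
    ∀ i j, (1 - e) * ((placeWeyl e).val - 1) i j = 0 := by
  intro i j
  rw [placeWeyl, weyl_val hee hee]
  fin_cases i <;> fin_cases j
  · show (1 - e) * (1 - e - 1) = 0; linear_combination hee
  · show (1 - e) * (e - 0) = 0; linear_combination -hee
  · show (1 - e) * (-e - 0) = 0; linear_combination hee
  · show (1 - e) * (1 - e - 1) = 0; linear_combination hee

theorem insideN_of_local {e : AF F} (hin : (1 - eN F N) * e = 0) {g : GL (Fin 2) (AF F)}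
    (hg : ∀ i j, (1 - e) * (g.val - 1) i j = 0) : InsideN N g := by
  intro i j
  have h1 : (g.val - 1) i j = e * (g.val - 1) i j := by linear_combination hg i j
  rw [h1, ← mul_assoc, hin, zero_mul]

theorem placeWeyl_mem_principal {e : AF F} (he : e ∈ intAF F) :
    placeWeyl e ∈ principalSubgroup (⊤ : Ideal (𝓞 F)) := by
  have hu : upperUnip e ∈ principalSubgroup (⊤ : Ideal (𝓞 F)) :=
    upperUnip_mem_principal (by rw [idealAF_top]; exact he)
  exact mul_mem (mul_mem hu
    (sLower_mem_principalSubgroup (by rw [idealAF_top]; exact neg_mem he))) hu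

theorem conj_mem_fixer {g k k' : GL (Fin 2) (AF F)} (he : k * g = g * k') {Ψ : AForm F ι}
    (h : k ∈ fixer (transLin (F := F) (ι := ι) g Ψ)) : k' ∈ fixer Ψ := by
  have h1 := mem_fixer.mp h
  rw [← transLin_mul, he, transLin_mul] at h1
  have h2 := congrArg (transLin (F := F) (ι := ι) g⁻¹) h1
  rw [← transLin_mul, inv_mul_cancel, transLin_one, ← transLin_mul, inv_mul_cancel,
    transLin_one] at h2
  exact mem_fixer.mpr h2

/-- A group containing the integral unipotent groups at a place and one more upper unipotent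
contains the whole upper unipotent group there. -/
theorem powers_mem {e : AF F} {t : (AF F)ˣ} (hee : e * e = e) (ht : (t : AF F) ∈ intAF F)
    {H : Subgroup (GL (Fin 2) (AF F))} (hU : ∀ z ∈ intAF F, upperUnip (e * z) ∈ H)
    (hlow : ∀ z ∈ intAF F, lowerUnip (e * z) ∈ H)
    (hup : ∀ z ∈ intAF F, upperUnip (e * z * ((t⁻¹ : (AF F)ˣ) : AF F)) ∈ H) (j : ℕ) :
    ∀ z ∈ intAF F, upperUnip (e * z * ((t⁻¹ : (AF F)ˣ) : AF F) ^ (2 * j)) ∈ H := by
  set s : AF F := ((t⁻¹ : (AF F)ˣ) : AF F)
  have hts : (t : AF F) * s = 1 := t.mul_inv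
  set X := (upperUnip (e * s) * lowerUnip (-(e * (t : AF F))) * upperUnip (e * s)) *
    (upperUnip (-e) * lowerUnip (-(-e)) * upperUnip (-e)) with hX
  have hXmem : X ∈ H := by
    have h1 : upperUnip (e * s) ∈ H := by simpa using hup 1 (one_mem _)
    have h2 : lowerUnip (-(e * (t : AF F))) ∈ H := by
      rw [show -(e * (t : AF F)) = e * -(t : AF F) by ring]; exact hlow _ (neg_mem ht)
    have h3 : upperUnip (-e) ∈ H := by
      rw [show -e = e * -1 by ring]; exact hU (-1) (neg_mem (one_mem _))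
    have h4 : lowerUnip (-(-e)) ∈ H := by simpa using hlow 1 (one_mem _)
    exact mul_mem (mul_mem (mul_mem h1 h2) h1) (mul_mem (mul_mem h3 h4) h3)
  have hXval : X.val = !![1 - e + e * s, 0; 0, 1 - e + e * (t : AF F)] := by
    rw [hX, Units.val_mul,
      weyl_val (u := e * s) (s := e * (t : AF F)) (e := e)
        (by linear_combination ((t : AF F) * s) * hee + e * hts) (by rw [← mul_assoc, hee]),
      weyl_val (u := -e) (s := -e) (e := e) (by linear_combination hee)
      (by linear_combination -hee)]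
    rw [Matrix.mul_fin_two]
    refine finTwo_congr ?_ ?_ ?_ ?_
    · linear_combination (1 + s) * hee
    · linear_combination (1 - s) * hee
    · linear_combination ((t : AF F) - 1) * hee
    · linear_combination (1 + (t : AF F)) * hee
  induction j with
  | zero => intro z hz; rw [mul_zero, pow_zero, mul_one]; exact hU z hz
  | succ j ih =>
    intro z hz
    have e1 : X * upperUnip (e * z * s ^ (2 * j)) = upperUnip (e * z * s ^ (2 * (j + 1))) * X := by
      refine Units.ext ?_
      show X.val * (upperUnip _).val = (upperUnip _).val * X.val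
      rw [hXval]
      show _ * !![1, e * z * s ^ (2 * j); 0, 1] = !![1, e * z * s ^ (2 * (j + 1)); 0, 1] * _
      rw [Matrix.mul_fin_two, Matrix.mul_fin_two]
      refine finTwo_congr ?_ ?_ ?_ ?_
      · ring
      · rw [show 2 * (j + 1) = 2 * j + 2 by ring, pow_add]
        linear_combination (z * s ^ (2 * j)) *
          ((s - 1 + s ^ 2 - s ^ 2 * (t : AF F)) * hee - e * s * hts)
      · ring
      · ring
    have e2 : upperUnip (e * z * s ^ (2 * (j + 1))) =
        X * upperUnip (e * z * s ^ (2 * j)) * X⁻¹ := by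
      rw [e1, mul_inv_cancel_right]
    rw [e2]
    exact mul_mem (mul_mem hXmem (ih z hz)) (inv_mem hXmem)

/-- A balanced vector at one more place. -/
theorem exists_balanced (hf : IsEigenform Φ f a) (hN : N ≠ 0) (h : ExactPlace N v e t)
    {Ψ : AForm F ι} (hΨ : IsVector f Ψ) :
    ∃ Ψ', IsVector f Ψ' ∧ IsBalanced e v Ψ' ∧
      ∀ (e' : AF F) (v' : Ideal (𝓞 F)), e' * e' = e' → e * e' = 0 → IsBalanced e' v' Ψ →
        IsBalanced e' v' Ψ' := by
  by_cases hU : ∀ z ∈ intAF F, upperUnip (e * z) ∈ fixer Ψ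
  swap
  · exact exists_balanced_aux h hΨ hU
  have hweyl := local_placeWeyl h.idem
  have hΨw : IsVector f (transLin (F := F) (ι := ι) (placeWeyl e) Ψ) :=
    ⟨transLin_mem (insideN_of_local h.inside hweyl) hΨ.mem, transLin_ne_zero hΨ.ne_zero _,
      principal_le_fixer_transLin (placeWeyl_mem_principal h.mem) hΨ.level⟩
  by_cases hW : ∀ z ∈ intAF F,
    upperUnip (e * z) ∈ fixer (transLin (F := F) (ι := ι) (placeWeyl e) Ψ)
  swap
  · obtain ⟨Ψ', h1, h2, h3⟩ := exists_balanced_aux h hΨw hW
    exact ⟨Ψ', h1, h2, fun e' v' he' h0 hb =>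
      h3 e' v' he' h0 (hb.transLin he' h0 hweyl)⟩
  have hlow : ∀ z ∈ intAF F, lowerUnip (e * z) ∈ fixer Ψ := by
    intro z hz
    have e1 : upperUnip (e * -z) * placeWeyl e = placeWeyl e * lowerUnip (e * z) := by
      rw [upperUnip_mul_placeWeyl h.idem (by rw [← mul_assoc, h.idem]),
        show -(e * -z) = e * z by ring]
    exact conj_mem_fixer e1 (hW (-z) (neg_mem hz))
  have htl : ∀ i j, (1 - e) * ((diagUnit t).val - 1) i j = 0 := by
    intro i j
    fin_cases i <;> fin_cases j
    · exact h.local_t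
    all_goals simp [diagUnit]
  have hΨt : IsVector f (transLin (F := F) (ι := ι) (diagUnit t) Ψ) :=
    ⟨transLin_mem (insideN_of_local h.inside htl) hΨ.mem, transLin_ne_zero hΨ.ne_zero _,
      level_le_fixer_diag h hΨ.level hU⟩
  by_cases hT : ∀ z ∈ intAF F, upperUnip (e * z) ∈ fixer (transLin (F := F) (ι := ι) (diagUnit t) Ψ)
  swap
  · obtain ⟨Ψ', h1, h2, h3⟩ := exists_balanced_aux h hΨt hT
    exact ⟨Ψ', h1, h2, fun e' v' he' h0 hb =>
      h3 e' v' he' h0 (hb.transLin he' h0 htl)⟩
  exfalso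
  have hup : ∀ z ∈ intAF F, upperUnip (e * z * ((t⁻¹ : (AF F)ˣ) : AF F)) ∈ fixer Ψ := by
    intro z hz
    have e2 : (t : AF F) * (e * z * ((t⁻¹ : (AF F)ˣ) : AF F)) = e * z := by
      linear_combination (e * z) * t.mul_inv
    have e1 : upperUnip (e * z) * diagUnit t =
        diagUnit t * upperUnip (e * z * ((t⁻¹ : (AF F)ˣ) : AF F)) := by
      rw [diagUnit_mul_upperUnip, e2]
    exact conj_mem_fixer e1 (hT z hz)
  exact eq_zero_of_fixed_powers hf hN h hΨ fun j z hz =>
    powers_mem h.idem h.t_mem hU hlow hup j z hz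

end FLTAgent.LanglandsTunnell.Period

end
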