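import Fermat.Agent.LanglandsTunnell.Expansion.Recursion
import Fermat.Agent.LanglandsTunnell.Period.Lam

/-!
# Whittaker coefficients at principal ideles prime to `N`

For a function with the equivariance of the first coefficient and eigenvalues `a`, the value at the
outside part of `ξ` is `lam a (ξ) / √N(ξ)` times the value at `1`.
-/

set_option autoImplicit false

open NumberField Matrix

noncomputable section

namespace FLTAgent.LanglandsTunnell.Period

open FLTAgent.LanglandsTunnell FLTAgent.LanglandsTunnell.Expansion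

variable {F : Type} [Field F] [NumberField F] {N : ℕ}

/-- The principal idele of a nonzero element. -/
def prUnit (x : Fˣ) : (AF F)ˣ := Units.map (toAF F : F →* AF F) x

omit [NumberField F] in
@[simp] theorem coe_prUnit (x : Fˣ) : (prUnit x : AF F) = toAF F (x : F) := rfl

omit [NumberField F] in
theorem prUnit_mul (x y : Fˣ) : prUnit (x * y) = prUnit x * prUnit y := map_mul _ x y

/-- A nonzero integer as a unit of the field. -/
def nzUnit (ξ : 𝓞 F) (h : ξ ≠ 0) : Fˣ := Units.mk0 (ξ : F) (RingOfIntegers.coe_ne_zero_iff.mpr h)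

omit [NumberField F] in
@[simp] theorem coe_nzUnit (ξ : 𝓞 F) (h : ξ ≠ 0) : ((nzUnit ξ h : Fˣ) : F) = (ξ : F) := rfl

/-- The norm of an element prime to `N` is prime to `N`. -/
theorem absNorm_coprime {ξ : 𝓞 F} (h : Ideal.span {ξ} ⊔ Ideal.span {(N : 𝓞 F)} = ⊤)
    (hξ : ξ ≠ 0) : (Ideal.absNorm (Ideal.span {ξ})).Coprime N := by
  by_contra hne
  obtain ⟨p, hp, hp1, hp2⟩ := Nat.Prime.not_coprime_iff_dvd.mp hne
  have : Fact p.Prime := ⟨hp⟩
  have : Finite (𝓞 F ⧸ Ideal.span {ξ}) :=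
    Ideal.finiteQuotientOfFreeOfNeBot _ (by simpa using hξ)
  obtain ⟨z, hz⟩ := exists_prime_addOrderOf_dvd_card' (G := 𝓞 F ⧸ Ideal.span {ξ}) p
    (by rwa [Ideal.absNorm_apply, Submodule.cardQuot_apply] at hp1)
  obtain ⟨α, hα, β, hβ, hsum⟩ := Submodule.mem_sup.mp (h ▸ Submodule.mem_top :
    (1 : 𝓞 F) ∈ Ideal.span {ξ} ⊔ Ideal.span {(N : 𝓞 F)})
  obtain ⟨b, rfl⟩ := Ideal.mem_span_singleton'.mp hβ
  have hpz : (p : 𝓞 F ⧸ Ideal.span {ξ}) * z = 0 := by
    rw [← nsmul_eq_mul, ← hz]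
    exact addOrderOf_nsmul_eq_zero z
  obtain ⟨k, hk⟩ := hp2
  have hz0 : z = 0 := by
    have h1 : Ideal.Quotient.mk (Ideal.span {ξ}) (α + b * (N : 𝓞 F)) * z = z := by
      rw [hsum, map_one, one_mul]
    rw [map_add, Ideal.Quotient.eq_zero_iff_mem.mpr hα, zero_add, map_mul, map_natCast, hk,
      Nat.cast_mul] at h1
    rw [← h1, mul_assoc, mul_comm (p : 𝓞 F ⧸ Ideal.span {ξ}), mul_assoc, hpz, mul_zero, mul_zero]
  rw [hz0, addOrderOf_zero] at hz
  exact hp.ne_one hz.symm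

/-- An element prime to `N` is invertible at the primes dividing `N`. -/
theorem exists_eN_inv {ξ : 𝓞 F} (h : Ideal.span {ξ} ⊔ Ideal.span {(N : 𝓞 F)} = ⊤)
    (hξ : ξ ≠ 0) : ∃ t ∈ intAF F, toAF F (ξ : F) * t = eN F N := by
  set q := Ideal.absNorm (Ideal.span {ξ}) with hq
  obtain ⟨c, hc⟩ := Ideal.mem_span_singleton.mp (Ideal.absNorm_mem (Ideal.span {ξ}))
  have hqN : q.Coprime N := absNorm_coprime h hξ
  have hu : ∀ p : Nat.Primes, (q : ℤ_[(p : ℕ)]) ∣ insideZhat N p := by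
    intro p
    by_cases hp : (p : ℕ) ∣ N
    · refine IsUnit.dvd ?_
      rw [PadicInt.isUnit_iff, PadicInt.norm_natCast_eq_one_iff]
      exact (Nat.Coprime.coprime_dvd_right hp hqN).symm
    · simp [insideZhat, hp]
  choose u hu using hu
  refine ⟨intHom F (c ⊗ₜ[ℤ] u), ⟨_, rfl⟩, ?_⟩
  rw [← intHom_tmul_one, ← map_mul, eN_eq_intHom, Algebra.TensorProduct.tmul_mul_tmul, one_mul,
    ← hc]
  congr 1
  rw [show insideZhat N = q • u from funext fun p => by
    rw [Pi.smul_apply, nsmul_eq_mul]; exact hu p,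
    TensorProduct.tmul_smul, TensorProduct.smul_tmul', nsmul_eq_mul, mul_one]

theorem eN_mul_inv_mem {ξ : 𝓞 F} (h : Ideal.span {ξ} ⊔ Ideal.span {(N : 𝓞 F)} = ⊤) (hξ : ξ ≠ 0) :
    eN F N * (((prUnit (nzUnit ξ hξ))⁻¹ : (AF F)ˣ) : AF F) ∈ intAF F := by
  obtain ⟨t, ht, htξ⟩ := exists_eN_inv h hξ
  have e : eN F N * (((prUnit (nzUnit ξ hξ))⁻¹ : (AF F)ˣ) : AF F) = t := by
    have := (prUnit (nzUnit ξ hξ)).mul_inv
    rw [coe_prUnit, coe_nzUnit] at this
    linear_combination (-(((prUnit (nzUnit ξ hξ))⁻¹ : (AF F)ˣ) : AF F)) * htξ + t * this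
  rwa [e]

/-- The outside part of an element prime to `N` is a uniformizer of its ideal. -/
theorem isUniformizerAt_out (hN : N ≠ 0) {ξ : 𝓞 F}
    (h : Ideal.span {ξ} ⊔ Ideal.span {(N : 𝓞 F)} = ⊤) (hξ : ξ ≠ 0) :
    IsUniformizerAt (Ideal.span {(N : 𝓞 F)}) (Ideal.span {ξ})
      (outPart N (prUnit (nzUnit ξ hξ))) := by
  set x := prUnit (nzUnit ξ hξ) with hx
  have hxi : (x : AF F) ∈ intAF F := toAF_mem_intAF ξ
  obtain ⟨π₁, hπ₁⟩ : (outPart N x : AF F) ∈ intAF F := by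
    rw [coe_outPart]
    exact add_mem (mul_mem one_sub_eN_mem hxi) eN_mem
  replace hπ₁ : intHom F π₁ = outPart N x := hπ₁
  obtain ⟨re, hre⟩ : (inPart N x : AF F) ∈ intAF F := by
    rw [coe_inPart]
    exact add_mem (mul_mem eN_mem hxi) one_sub_eN_mem
  replace hre : intHom F re = inPart N x := hre
  obtain ⟨ri, hri⟩ : (((inPart N x)⁻¹ : (AF F)ˣ) : AF F) ∈ intAF F := by
    show eN F N * ((x⁻¹ : (AF F)ˣ) : AF F) + (1 - eN F N) ∈ intAF F
    exact add_mem (eN_mul_inv_mem h hξ) one_sub_eN_mem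
  replace hri : intHom F ri = (((inPart N x)⁻¹ : (AF F)ˣ) : AF F) := hri
  refine isUniformizerAt_iff.mpr ⟨π₁, hπ₁, ?_, ?_⟩
  · refine intHom_mem_idealAF_iff.mp ?_
    rw [map_sub, map_one, hπ₁, coe_outPart,
      show (1 - eN F N) * (x : AF F) + eN F N - 1 = ((x : AF F) - 1) * (1 - eN F N) by ring]
    exact mul_one_sub_eN_mem hN (sub_mem hxi (one_mem _))
  · have hu1 : IsUnit re := IsUnit.of_mul_eq_one ri (intHom_injective (by
      rw [map_mul, hre, hri, Units.mul_inv, map_one]))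
    have e : ξ ⊗ₜ[ℤ] (1 : Zhat) = π₁ * re := intHom_injective (by
      rw [map_mul, hπ₁, hre, intHom_tmul_one]
      refine Eq.trans ?_ (Units.val_mul _ _)
      rw [mul_comm (outPart N x), inPart_mul_outPart]
      rfl)
    rw [idealOH, Ideal.map_span, Set.image_singleton]
    show Ideal.span {ξ ⊗ₜ[ℤ] (1 : Zhat)} = _
    rw [e, Ideal.span_singleton_mul_right_unit hu1]

variable {c : FinPt F (Ideal.span {(N : 𝓞 F)}) → ℂ} {a : Ideal (𝓞 F) → ℂ}
  {H : GL (Fin 2) (AF F)}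

theorem diff_outside (z : (AF F)ˣ) :
    (diffUnit F : AF F) * ((1 - eN F N) * (((diffOut F N)⁻¹ * z : (AF F)ˣ) : AF F))
      = (1 - eN F N) * (z : AF F) := by
  have hδe : (1 - eN F N) * (diffOut F N : AF F) = (1 - eN F N) * diffUnit F := by
    rw [diffOut, coe_outPart]
    linear_combination ((diffUnit F : AF F) - 1) * eN_mul_self (F := F) (N := N)
  rw [Units.val_mul]
  linear_combination (-((((diffOut F N)⁻¹ : (AF F)ˣ) : AF F) * (z : AF F))) * hδe +
    ((1 - eN F N) * (z : AF F)) * (diffOut F N).mul_inv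

theorem lam_eq_self_mul (a : Ideal (𝓞 F) → ℂ) {v I : Ideal (𝓞 F)} (hv : v.IsPrime) (hv0 : v ≠ ⊥)
    (hI : I ≠ ⊥) (h : ¬ v ∣ I) : lam a (v * I) = (a v).re * lam a I := by
  have hco : v ^ 1 ⊔ I = ⊤ := Ideal.pow_sup_eq_top (by
    refine (hv.isMaximal hv0).1.2 _ (lt_of_le_of_ne le_sup_left fun e => h ?_)
    rw [Ideal.dvd_iff_le, e]
    exact le_sup_right)
  rw [lam_mul_of_coprime a hv0 hI (by rwa [pow_one] at hco), ← pow_one v, lam_prime_pow a hv hv0]
  simp

/-- The recursion of the eigenvalue function. -/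
theorem lam_rec (a : Ideal (𝓞 F) → ℂ) {v I : Ideal (𝓞 F)} (hv : v.IsPrime) (hv0 : v ≠ ⊥)
    (hI : I ≠ ⊥) : lam a (v * (v * I)) + lam a I = (a v).re * lam a (v * I) := by
  obtain ⟨k, J, hJ, rfl⟩ :=
    WfDvdMonoid.max_power_factor hI (Ideal.prime_of_isPrime hv0 hv).irreducible
  have hJ0 : J ≠ ⊥ := fun e => hJ (e ▸ dvd_zero v)
  have hco : ∀ i, v ^ i ⊔ J = ⊤ := fun i => Ideal.pow_sup_eq_top (by
    refine (hv.isMaximal hv0).1.2 _ (lt_of_le_of_ne le_sup_left fun e => hJ ?_)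
    rw [Ideal.dvd_iff_le, e]
    exact le_sup_right)
  have e1 : v * (v * (v ^ k * J)) = v ^ (k + 2) * J := by ring
  have e2 : v * (v ^ k * J) = v ^ (k + 1) * J := by ring
  rw [e1, e2, lam_mul_of_coprime a (pow_ne_zero _ hv0) hJ0 (hco _),
    lam_mul_of_coprime a (pow_ne_zero _ hv0) hJ0 (hco _),
    lam_mul_of_coprime a (pow_ne_zero _ hv0) hJ0 (hco _), lam_prime_pow a hv hv0,
    lam_prime_pow a hv hv0, lam_prime_pow a hv hv0, uSeq_add_two]
  ring

/-- **The coefficient at an element prime to `N`.** -/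
theorem whit_value (hc : IsWhitFn c a) (hN : N ≠ 0) (hH : InsideN N H)
    (hgen : ∀ I : Ideal (𝓞 F), I ≠ ⊥ → ∃ x : 𝓞 F, I = Ideal.span {x})
    (ha : ∀ v : Ideal (𝓞 F), v.IsPrime → v ≠ ⊥ → ¬ v ∣ Ideal.span {(N : 𝓞 F)} → (a v).im = 0)
    {ξ : 𝓞 F} (h : Ideal.span {ξ} ⊔ Ideal.span {(N : 𝓞 F)} = ⊤) (hξ : ξ ≠ 0) :
    (Real.sqrt (Ideal.absNorm (Ideal.span {ξ})) : ℂ) *
        c ((diagUnit ((diffOut F N)⁻¹ * outPart N (prUnit (nzUnit ξ hξ))) * H :
          GL (Fin 2) (AF F)) : FinPt F _) =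
      (lam a (Ideal.span {ξ}) : ℂ) *
        c ((diagUnit (diffOut F N)⁻¹ * H : GL (Fin 2) (AF F)) : FinPt F _) := by
  induction hd : Ideal.absNorm (Ideal.span {ξ}) using Nat.strong_induction_on generalizing ξ with
  | _ d ih =>
  subst hd
  by_cases ht : Ideal.span {ξ} = ⊤
  · rw [ht, lam_top, Ideal.absNorm_top, Nat.cast_one, Real.sqrt_one, Complex.ofReal_one, one_mul,
      one_mul]
    have hu := Ideal.span_singleton_eq_top.mp ht
    refine congrArg c (mk_diag_unit hN hH _ (outsideN_outPart _) ?_ ?_)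
    · rw [coe_outPart]
      exact add_mem (mul_mem one_sub_eN_mem (toAF_mem_intAF ξ)) eN_mem
    · show (1 - eN F N) * _ + eN F N ∈ intAF F
      refine add_mem (mul_mem one_sub_eN_mem ?_) eN_mem
      obtain ⟨η, hη⟩ := hu.exists_right_inv
      have e : ((prUnit (nzUnit ξ hξ))⁻¹ : (AF F)ˣ) = toAF F (η : F) := by
        refine (prUnit (nzUnit ξ hξ)).isUnit.mul_left_cancel ?_
        rw [Units.mul_inv, coe_prUnit, coe_nzUnit, ← map_mul, ← map_mul, hη, map_one, map_one]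
      rw [e]
      exact toAF_mem_intAF η
  obtain ⟨w, hwmax, hξw⟩ := Ideal.exists_le_maximal _ ht
  have hw := hwmax.isPrime
  have hw0 : w ≠ ⊥ := fun hb => hξ (Ideal.span_singleton_eq_bot.mp (le_bot_iff.mp (hb ▸ hξw)))
  obtain ⟨η, rfl⟩ := hgen w hw0
  have hη : η ≠ 0 := fun h0 => hw0 (by simp [h0])
  have hwn : ¬ Ideal.span {η} ∣ Ideal.span {(N : 𝓞 F)} := fun hdv =>
    hw.ne_top (top_le_iff.mp (h ▸ sup_le hξw (Ideal.dvd_iff_le.mp hdv)))
  obtain ⟨ξ', rfl⟩ := Ideal.mem_span_singleton.mp (hξw (Ideal.mem_span_singleton_self ξ))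
  have hξ' : ξ' ≠ 0 := right_ne_zero_of_mul hξ
  have hI : Ideal.span {ξ'} ⊔ Ideal.span {(N : 𝓞 F)} = ⊤ :=
    top_le_iff.mp (h ▸ sup_le_sup_right
      (Ideal.span_singleton_le_span_singleton.mpr (dvd_mul_left ξ' η)) _)
  have hηco : Ideal.span {η} ⊔ Ideal.span {(N : 𝓞 F)} = ⊤ :=
    top_le_iff.mp (h ▸ sup_le_sup_right
      (Ideal.span_singleton_le_span_singleton.mpr (dvd_mul_right η ξ')) _)
  have hw1 : 1 < Ideal.absNorm (Ideal.span {η}) := by
    have h1 := absNorm_ne_zero hw0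
    have h2 : Ideal.absNorm (Ideal.span {η}) ≠ 1 :=
      fun e => hw.ne_top (Ideal.absNorm_eq_one_iff.mp e)
    omega
  have hI0 : Ideal.span {ξ'} ≠ ⊥ := by simpa using hξ'
  have hlt : Ideal.absNorm (Ideal.span {ξ'}) < Ideal.absNorm (Ideal.span {η * ξ'}) := by
    rw [← Ideal.span_singleton_mul_span_singleton, map_mul]
    exact lt_mul_of_one_lt_left (Nat.pos_of_ne_zero (absNorm_ne_zero hI0)) hw1
  set δi := (diffOut F N)⁻¹ with hδi
  set π := outPart N (prUnit (nzUnit η hη)) with hπ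
  set y := δi * outPart N (prUnit (nzUnit ξ' hξ')) with hy
  have hyint : (diffUnit F : AF F) * ((1 - eN F N) * (y : AF F)) ∈ intAF F := by
    rw [hy, hδi, diff_outside]
    refine mul_mem one_sub_eN_mem ?_
    rw [coe_outPart]
    exact add_mem (mul_mem one_sub_eN_mem (toAF_mem_intAF ξ')) eN_mem
  have hrec := hc.recursion hH hyint hw hw0 hwn (isUniformizerAt_out hN hηco hη)
    (outsideN_outPart _)
  rw [← hπ] at hrec
  have eprod : δi * outPart N (prUnit (nzUnit (η * ξ') hξ)) = y * π := by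
    rw [hy, hπ, mul_assoc, ← outPart_mul, ← prUnit_mul]
    congr 3
    exact Units.ext (by simp [mul_comm])
  have ihy := ih _ hlt hI hξ' rfl
  rw [← hy] at ihy
  rw [← eprod] at hrec
  rw [← Ideal.span_singleton_mul_span_singleton, map_mul, Nat.cast_mul,
    Real.sqrt_mul (Nat.cast_nonneg _), Complex.ofReal_mul]
  set q : ℂ := (Real.sqrt (Ideal.absNorm (Ideal.span {η})) : ℂ) with hq
  have hq2 : (Ideal.absNorm (Ideal.span {η}) : ℂ) = q * q := by
    rw [hq, ← Complex.ofReal_mul, Real.mul_self_sqrt (Nat.cast_nonneg _)]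
    norm_cast
  have hq0 : q ≠ 0 := Complex.ofReal_ne_zero.mpr
    (Real.sqrt_pos.mpr (by exact_mod_cast zero_lt_one.trans hw1)).ne'
  have hre : a (Ideal.span {η}) = ((a (Ideal.span {η})).re : ℂ) :=
    Complex.ext rfl (by simpa using ha _ hw hw0 hwn)
  rw [hq2, hre] at hrec
  by_cases hdiv : η ∣ ξ'
  · obtain ⟨ξ'', rfl⟩ := hdiv
    have hξ'' : ξ'' ≠ 0 := right_ne_zero_of_mul hξ'
    have hI' : Ideal.span {ξ''} ⊔ Ideal.span {(N : 𝓞 F)} = ⊤ :=
      top_le_iff.mp (hI ▸ sup_le_sup_right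
        (Ideal.span_singleton_le_span_singleton.mpr (dvd_mul_left ξ'' η)) _)
    have hI'0 : Ideal.span {ξ''} ≠ ⊥ := by simpa using hξ''
    have hlt' : Ideal.absNorm (Ideal.span {ξ''}) < Ideal.absNorm (Ideal.span {η * (η * ξ'')}) := by
      refine lt_trans ?_ hlt
      rw [← Ideal.span_singleton_mul_span_singleton η ξ'', map_mul]
      exact lt_mul_of_one_lt_left (Nat.pos_of_ne_zero (absNorm_ne_zero hI'0)) hw1
    have e2 : y * π⁻¹ = δi * outPart N (prUnit (nzUnit ξ'' hξ'')) := by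
      rw [hy, hπ, mul_inv_eq_iff_eq_mul, mul_assoc, ← outPart_mul, ← prUnit_mul]
      congr 3
      exact Units.ext (by simp [mul_comm])
    have ih2 := ih _ hlt' hI' hξ'' rfl
    rw [e2] at hrec
    have hl := lam_rec a hw hw0 hI'0
    simp only [Ideal.span_singleton_mul_span_singleton] at hl
    rw [← Ideal.span_singleton_mul_span_singleton η ξ'', map_mul, Nat.cast_mul,
      Real.sqrt_mul (Nat.cast_nonneg _), Complex.ofReal_mul, ← hq,
      Ideal.span_singleton_mul_span_singleton η ξ''] at ihy ⊢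
    rw [Ideal.span_singleton_mul_span_singleton]
    have hl' := congrArg (fun r : ℝ => (r : ℂ)) hl
    push_cast at hl'
    linear_combination (Real.sqrt (Ideal.absNorm (Ideal.span {ξ''})) : ℂ) * hrec -
      c ((diagUnit δi * H : GL (Fin 2) (AF F)) : FinPt F _) * hl' - ih2 +
      ((a (Ideal.span {η})).re : ℂ) * ihy
  · have hvan : c ((diagUnit (y * π⁻¹) * H : GL (Fin 2) (AF F)) : FinPt F _) = 0 := by
      by_contra hne
      refine hdiv ?_
      have h1 := hc.integral_of_ne_zero hN hH hne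
      have e2 : y * π⁻¹ = δi * outPart N (prUnit (nzUnit ξ' hξ' * (nzUnit η hη)⁻¹)) := by
        rw [hy, hπ, mul_inv_eq_iff_eq_mul, mul_assoc, ← outPart_mul, ← prUnit_mul,
          inv_mul_cancel_right]
      rw [e2, hδi, diff_outside, coe_outPart] at h1
      have h2 : eN F N * toAF F (((nzUnit ξ' hξ' * (nzUnit η hη)⁻¹ : Fˣ)) : F) ∈ intAF F := by
        rw [← coe_prUnit, prUnit_mul, Units.val_mul, mul_left_comm, coe_prUnit, coe_nzUnit,
          prUnit, map_inv, ← prUnit]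
        exact mul_mem (toAF_mem_intAF ξ') (eN_mul_inv_mem hηco hη)
      have h3 : toAF F (((nzUnit ξ' hξ' * (nzUnit η hη)⁻¹ : Fˣ)) : F) ∈ intAF F := by
        have := add_mem h1 h2
        rw [coe_prUnit] at this
        convert this using 1
        linear_combination (-(toAF F (((nzUnit ξ' hξ' * (nzUnit η hη)⁻¹ : Fˣ)) : F) - 1)) *
          eN_mul_self (F := F) (N := N)
      obtain ⟨d, hd⟩ := exists_eq_of_toAF_mem_intAF h3
      refine ⟨d, RingOfIntegers.coe_injective ?_⟩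
      rw [map_mul]
      refine Eq.trans ?_ (congrArg (algebraMap (𝓞 F) F η * ·) hd.symm)
      rw [ Units.val_mul, Units.val_inv_eq_inv_val, coe_nzUnit, coe_nzUnit]
      field_simp [RingOfIntegers.coe_ne_zero_iff.mpr hη]
    rw [hvan, add_zero] at hrec
    have hl := lam_eq_self_mul a hw hw0 hI0 fun hd => hdiv
      (Ideal.mem_span_singleton.mp (Ideal.dvd_iff_le.mp hd (Ideal.mem_span_singleton_self ξ')))
    rw [hl, Complex.ofReal_mul]
    refine mul_left_cancel₀ hq0 ?_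
    linear_combination (Real.sqrt (Ideal.absNorm (Ideal.span {ξ'})) : ℂ) * hrec +
      q * ((a (Ideal.span {η})).re : ℂ) * ihy

end FLTAgent.LanglandsTunnell.Period

end
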