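import Fermat.Agent.LanglandsTunnell.Period.SumIntegral
import Mathlib.Analysis.SpecialFunctions.ImproperIntegrals
import Mathlib.Analysis.SpecialFunctions.Pow.Deriv
import Mathlib.Analysis.Complex.UpperHalfPlane.Basic

/-!
# The Eisenstein series of a coset of a lattice near its pole

For a coset of `M • ℤ²` the series `∑ (y / |mτ + n|²) ^ s` is `π / (M² (s - 1))` up to `O(y²)`,
uniformly in the coset, for `y` bounded below.
-/

set_option autoImplicit false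

open MeasureTheory Set Function Real
open scoped UpperHalfPlane

noncomputable section

namespace FLTAgent.LanglandsTunnell.Period

/-- `∫ (1 + u²) ^ (-s)`. -/
def jInt (s : ℝ) : ℝ := ∫ u : ℝ, (1 + u ^ 2) ^ (-s)

theorem integrable_jInt {s : ℝ} (hs : 1 / 2 < s) : Integrable fun u : ℝ => (1 + u ^ 2) ^ (-s) := by
  have h := integrable_rpow_neg_one_add_norm_sq (E := ℝ) (r := 2 * s) (μ := volume)
    (by simp; linarith)
  refine h.congr (Filter.Eventually.of_forall fun u => ?_)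
  simp only [Real.norm_eq_abs, sq_abs]
  congr 1
  ring

theorem jInt_nonneg (s : ℝ) : 0 ≤ jInt s :=
  integral_nonneg fun _ => Real.rpow_nonneg (by positivity) _

theorem jInt_one : jInt 1 = π := by
  rw [jInt, ← integral_univ_inv_one_add_sq]
  congr 1
  funext u
  rw [Real.rpow_neg_one]

theorem jInt_le {s : ℝ} (hs : 1 ≤ s) : jInt s ≤ jInt 1 :=
  integral_mono (integrable_jInt (by linarith)) (integrable_jInt (by norm_num)) fun u =>
    Real.rpow_le_rpow_of_exponent_le (by nlinarith) (by linarith)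

theorem exists_abs_jInt_sub : ∃ C : ℝ, ∀ s : ℝ, 1 ≤ s → |jInt s - π| ≤ C * (s - 1) := by
  refine ⟨4 * ∫ u : ℝ, (1 + u ^ 2) ^ (-(3 / 4) : ℝ), fun s hs => ?_⟩
  have h1 : ∀ u : ℝ, (1 : ℝ) ≤ 1 + u ^ 2 := fun u => le_add_of_nonneg_right (sq_nonneg u)
  rw [← jInt_one, abs_sub_comm, jInt, jInt,
    ← integral_sub (integrable_jInt (by norm_num)) (integrable_jInt (by linarith)), mul_assoc,
    mul_comm (∫ u : ℝ, _) (s - 1), ← integral_const_mul, ← integral_const_mul, ← Real.norm_eq_abs]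
  refine norm_integral_le_of_norm_le (((integrable_jInt (by norm_num)).const_mul _).const_mul _)
    (Filter.Eventually.of_forall fun u => ?_)
  have hp : 0 < 1 + u ^ 2 := zero_lt_one.trans_le (h1 u)
  have e : (1 + u ^ 2 : ℝ) ^ (-s) = (1 + u ^ 2) ^ (-1 : ℝ) * (1 + u ^ 2) ^ (-(s - 1)) := by
    rw [← Real.rpow_add hp]; congr 1; ring
  rw [e, ← mul_one_sub, Real.norm_eq_abs, abs_mul, abs_of_pos (Real.rpow_pos_of_pos hp _),
    abs_of_nonneg (sub_nonneg.mpr (Real.rpow_le_one_of_one_le_of_nonpos (h1 u) (by linarith)))]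
  have hl : 1 - (1 + u ^ 2) ^ (-(s - 1)) ≤ (s - 1) * Real.log (1 + u ^ 2) := by
    rw [Real.rpow_def_of_pos hp]
    nlinarith [Real.add_one_le_exp (Real.log (1 + u ^ 2) * -(s - 1))]
  have hl2 : Real.log (1 + u ^ 2) ≤ 4 * (1 + u ^ 2) ^ (1 / 4 : ℝ) := by
    have h := Real.log_le_rpow_div hp.le (ε := 1 / 4) (by norm_num)
    linarith
  calc (1 + u ^ 2) ^ (-1 : ℝ) * (1 - (1 + u ^ 2) ^ (-(s - 1)))
      ≤ (1 + u ^ 2) ^ (-1 : ℝ) * ((s - 1) * (4 * (1 + u ^ 2) ^ (1 / 4 : ℝ))) :=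
        mul_le_mul_of_nonneg_left (hl.trans (mul_le_mul_of_nonneg_left hl2 (by linarith)))
          (Real.rpow_nonneg hp.le _)
    _ = 4 * ((s - 1) * (1 + u ^ 2) ^ (-(3 / 4) : ℝ)) := by
        rw [show (-(3 / 4) : ℝ) = -1 + 1 / 4 by norm_num, Real.rpow_add hp]; ring

theorem integral_quadratic_rpow {s A M : ℝ} (hA : 0 < A) (hM : 0 < M) (x : ℝ) :
    ∫ t : ℝ, ((x + M * t) ^ 2 + A ^ 2) ^ (-s) = M⁻¹ * (A ^ (1 - 2 * s) * jInt s) := by
  have e1 : (∫ t : ℝ, ((x + M * t) ^ 2 + A ^ 2) ^ (-s)) =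
      ∫ t : ℝ, ((M * t) ^ 2 + A ^ 2) ^ (-s) := by
    rw [← integral_add_right_eq_self (fun t : ℝ => ((M * t) ^ 2 + A ^ 2) ^ (-s)) (x / M)]
    congr 1
    funext t
    rw [show M * (t + x / M) = x + M * t by field_simp; ring]
  have e2 : (fun t : ℝ => ((M * t) ^ 2 + A ^ 2) ^ (-s)) =
      fun t => A ^ (-(2 * s)) * ((1 + (M / A * t) ^ 2) ^ (-s)) := by
    funext t
    rw [show (M * t) ^ 2 + A ^ 2 = A ^ (2 : ℝ) * (1 + (M / A * t) ^ 2) by
      rw [Real.rpow_two]; field_simp; ring,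
      Real.mul_rpow (Real.rpow_nonneg hA.le _) (by positivity), ← Real.rpow_mul hA.le]
    congr 2
    ring
  rw [e1, e2, integral_const_mul,
    Measure.integral_comp_mul_left (fun t : ℝ => (1 + t ^ 2) ^ (-s)) (M / A), smul_eq_mul, inv_div,
    abs_of_pos (div_pos hA hM), show 1 - 2 * s = -(2 * s) + 1 by ring, Real.rpow_add_one hA.ne']
  rw [jInt]
  ring

theorem integrable_quadratic_rpow {s A M : ℝ} (hs : 1 / 2 < s) (hA : 0 < A) (hM : 0 < M) (x : ℝ) :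
    Integrable fun t : ℝ => ((x + M * t) ^ 2 + A ^ 2) ^ (-s) := by
  by_contra h
  have h1 := integral_quadratic_rpow (s := s) hA hM x
  rw [integral_undef h] at h1
  have hpos : 0 < jInt s := by
    rw [jInt, integral_pos_iff_support_of_nonneg (fun u => Real.rpow_nonneg (by positivity) _)
      (integrable_jInt hs), show (Function.support fun u : ℝ => (1 + u ^ 2) ^ (-s)) = univ from
      eq_univ_of_forall fun u => (Real.rpow_pos_of_pos (by positivity) _).ne']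
    simp
  have : 0 < M⁻¹ * (A ^ (1 - 2 * s) * jInt s) := by positivity
  linarith

/-- One row of the series. -/
theorem row_bound {s A M : ℝ} (hs : 1 < s) (hA : 0 < A) (hM : 0 < M) (x : ℝ) :
    Summable (fun j : ℤ => ((x + M * j) ^ 2 + A ^ 2) ^ (-s)) ∧
      |∑' j : ℤ, ((x + M * j) ^ 2 + A ^ 2) ^ (-s) - M⁻¹ * (A ^ (1 - 2 * s) * jInt s)| ≤
        s * A ^ (-(2 * s)) * jInt s := by
  have hpos : ∀ t : ℝ, 0 < (x + M * t) ^ 2 + A ^ 2 := fun t => by positivity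
  have hd : ∀ t : ℝ, HasDerivAt (fun t => ((x + M * t) ^ 2 + A ^ 2) ^ (-s))
      (2 * (x + M * t) * M * (-s) * ((x + M * t) ^ 2 + A ^ 2) ^ (-s - 1)) t := by
    intro t
    have h := ((((hasDerivAt_id t).const_mul M).const_add x).pow 2).add_const (A ^ 2)
    simp only [id, mul_one, Nat.cast_ofNat, Pi.pow_apply] at h
    convert! h.rpow_const (p := -s) (Or.inl (hpos t).ne') using 1
    · ring
  have hc : Continuous fun t =>
      2 * (x + M * t) * M * (-s) * ((x + M * t) ^ 2 + A ^ 2) ^ (-s - 1) :=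
    (by fun_prop : Continuous fun t => 2 * (x + M * t) * M * (-s)).mul
      ((by fun_prop : Continuous fun t : ℝ => (x + M * t) ^ 2 + A ^ 2).rpow_const
        fun t => Or.inl (hpos t).ne')
  have hi := integrable_quadratic_rpow (s := s) (by linarith) hA hM x
  have hg : ∀ t, |2 * (x + M * t) * M * (-s) * ((x + M * t) ^ 2 + A ^ 2) ^ (-s - 1)| ≤
      s * M / A * ((x + M * t) ^ 2 + A ^ 2) ^ (-s) := by
    intro t
    have h1 : 2 * |x + M * t| * A ≤ (x + M * t) ^ 2 + A ^ 2 := by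
      nlinarith [sq_nonneg (|x + M * t| - A), sq_abs (x + M * t)]
    rw [Real.rpow_sub_one (hpos t).ne', abs_mul, abs_mul, abs_mul, abs_mul, abs_two, abs_of_pos hM,
      abs_neg, abs_of_pos (by linarith : 0 < s),
      abs_of_pos (div_pos (Real.rpow_pos_of_pos (hpos t) _) (hpos t))]
    have e : 2 * |x + M * t| * M * s *
        (((x + M * t) ^ 2 + A ^ 2) ^ (-s) / ((x + M * t) ^ 2 + A ^ 2))
        = s * M / A * ((x + M * t) ^ 2 + A ^ 2) ^ (-s) *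
          (2 * |x + M * t| * A / ((x + M * t) ^ 2 + A ^ 2)) := by
      field_simp
    rw [e]
    exact mul_le_of_le_one_right
      (mul_nonneg (by positivity) (Real.rpow_nonneg (hpos t).le _))
      ((div_le_one (hpos t)).mpr h1)
  obtain ⟨h1, h2⟩ := abs_tsum_int_sub_integral_le hd hc hg (hi.const_mul _) hi
  refine ⟨h1, ?_⟩
  rw [← integral_quadratic_rpow hA hM x]
  refine h2.trans (le_of_eq ?_)
  rw [integral_const_mul, integral_quadratic_rpow hA hM x, show 1 - 2 * s = -(2 * s) + 1 by ring,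
    Real.rpow_add_one hA.ne']
  field_simp

theorem exp_sub_one_abs_le (x : ℝ) : |Real.exp x - 1| ≤ |x| * max 1 (Real.exp x) := by
  rcases le_total 0 x with h | h
  · rw [abs_of_nonneg h, abs_of_nonneg (by linarith [Real.one_le_exp h]),
      max_eq_right (Real.one_le_exp h)]
    have h1 := Real.add_one_le_exp (-x)
    have h2 : Real.exp (-x) * Real.exp x = 1 := by
      rw [← Real.exp_add, neg_add_cancel, Real.exp_zero]
    nlinarith [Real.exp_pos x]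
  · rw [abs_of_nonpos h, abs_of_nonpos (by linarith [Real.exp_le_one_iff.mpr h]),
      max_eq_left (Real.exp_le_one_iff.mpr h)]
    linarith [Real.add_one_le_exp x]

/-- `∑ (b + M j) ^ (-σ)` near `σ = 1`. -/
theorem exists_half_line_bound {M b : ℝ} (hM : 0 < M) (hb : 0 < b) :
    ∃ C : ℝ, ∀ σ : ℝ, 1 < σ → σ ≤ 3 →
      Summable (fun j : ℕ => (b + M * j) ^ (-σ)) ∧
        |∑' j : ℕ, (b + M * j) ^ (-σ) - M⁻¹ / (σ - 1)| ≤ C := by
  refine ⟨max 1 (b ^ (-3 : ℝ)) + M⁻¹ * (|Real.log b| * max 1 (b ^ (-2 : ℝ))), fun σ h1 h3 => ?_⟩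
  have hpos : ∀ t : ℝ, 0 ≤ t → 0 < b + M * t := fun t ht => by positivity
  have hd : ∀ t : ℝ, 0 ≤ t → HasDerivAt (fun t => (b + M * t) ^ (-σ))
      (M * (-σ) * (b + M * t) ^ (-σ - 1)) t := by
    intro t ht
    have h := ((hasDerivAt_id t).const_mul M).const_add b
    simp only [id, mul_one] at h
    convert! h.rpow_const (p := -σ) (Or.inl (hpos t ht).ne') using 1
  have hc : ContinuousOn (fun t => M * (-σ) * (b + M * t) ^ (-σ - 1)) (Ici 0) :=
    continuousOn_const.mul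
      ((by fun_prop : Continuous fun t : ℝ => b + M * t).continuousOn.rpow_const
        fun t ht => Or.inl (hpos t ht).ne')
  have e : ∀ r : ℝ, r < -1 →
      IntegrableOn (fun t : ℝ => (b + M * t) ^ r) (Ioi 0) ∧
      ∫ t in Ioi (0 : ℝ), (b + M * t) ^ r = M⁻¹ * (-(b ^ (r + 1)) / (r + 1)) := by
    intro r hr
    have heq : ∫ t in Ioi (0 : ℝ), (b + M * t) ^ r = M⁻¹ * (-(b ^ (r + 1)) / (r + 1)) := by
      have h1 := integral_comp_mul_left_Ioi (fun t : ℝ => (b + t) ^ r) 0 hM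
      rw [mul_zero, smul_eq_mul] at h1
      have h2 := (measurePreserving_add_left volume b).setIntegral_preimage_emb
        (measurableEmbedding_addLeft b) (fun t : ℝ => t ^ r) (Ioi b)
      rw [Set.preimage_const_add_Ioi, sub_self] at h2
      rw [h1, h2, integral_Ioi_rpow_of_lt hr hb]
    refine ⟨?_, heq⟩
    by_contra h
    rw [integral_undef h] at heq
    have : 0 < M⁻¹ * (-(b ^ (r + 1)) / (r + 1)) := by
      rw [neg_div]
      have := div_neg_of_pos_of_neg (Real.rpow_pos_of_pos hb (r + 1)) (by linarith : r + 1 < 0)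
      exact mul_pos (inv_pos.mpr hM) (neg_pos.mpr this)
    linarith
  obtain ⟨hi, hv⟩ := e (-σ) (by linarith)
  obtain ⟨hi', hv'⟩ := e (-σ - 1) (by linarith)
  obtain ⟨hs, hb'⟩ := abs_tsum_nat_sub_integral_le hd hc
    (g := fun t => M * σ * (b + M * t) ^ (-σ - 1))
    (fun t ht => le_of_eq (by
      rw [abs_mul, abs_mul, abs_neg, abs_of_pos hM, abs_of_pos (by linarith : 0 < σ),
        abs_of_pos (Real.rpow_pos_of_pos (hpos t ht) _)]))
    (hi'.const_mul _) hi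
  refine ⟨hs, ?_⟩
  rw [hv, integral_const_mul, hv', show -σ - 1 + 1 = -σ by ring,
    show M * σ * (M⁻¹ * (-b ^ (-σ) / -σ)) = b ^ (-σ) by field_simp] at hb'
  have hmax : ∀ (r R : ℝ), r ≤ 0 → R ≤ r → b ^ r ≤ max 1 (b ^ R) := fun r R hr hR => by
    rcases le_total 1 b with hb1 | hb1
    · exact (Real.rpow_le_one_of_one_le_of_nonpos hb1 hr).trans (le_max_left _ _)
    · exact (Real.rpow_le_rpow_of_exponent_ge hb hb1 hR).trans (le_max_right _ _)
  have h2 : |M⁻¹ * (-(b ^ (-σ + 1)) / (-σ + 1)) - M⁻¹ / (σ - 1)| ≤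
      M⁻¹ * (|Real.log b| * max 1 (b ^ (-2 : ℝ))) := by
    have hne : -σ + 1 ≠ 0 := by linarith
    have : M⁻¹ * (-(b ^ (-σ + 1)) / (-σ + 1)) - M⁻¹ / (σ - 1) =
        M⁻¹ * ((b ^ (-σ + 1) - 1) / (σ - 1)) := by
      rw [show -σ + 1 = -(σ - 1) by ring, neg_div_neg_eq]; ring
    rw [this, abs_mul, abs_of_pos (inv_pos.mpr hM)]
    refine mul_le_mul_of_nonneg_left ?_ (inv_nonneg.mpr hM.le)
    rw [abs_div, abs_of_pos (by linarith : 0 < σ - 1), div_le_iff₀ (by linarith)]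
    rw [Real.rpow_def_of_pos hb (-σ + 1)]
    refine (exp_sub_one_abs_le _).trans ?_
    rw [abs_mul, show |(-σ + 1)| = σ - 1 by rw [abs_of_neg (by linarith)]; ring,
      ← Real.rpow_def_of_pos hb]
    have hk : max 1 (b ^ (-σ + 1)) ≤ max 1 (b ^ (-2 : ℝ)) :=
      max_le (le_max_left _ _) (hmax _ _ (by linarith) (by linarith))
    calc |Real.log b| * (σ - 1) * max 1 (b ^ (-σ + 1))
        ≤ |Real.log b| * (σ - 1) * max 1 (b ^ (-2 : ℝ)) :=
          mul_le_mul_of_nonneg_left hk (mul_nonneg (abs_nonneg _) (by linarith))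
      _ = _ := by ring
  have hk' := hmax (-σ) (-3) (by linarith) (by linarith)
  calc |∑' j : ℕ, (b + M * j) ^ (-σ) - M⁻¹ / (σ - 1)|
      ≤ |∑' j : ℕ, (b + M * j) ^ (-σ) - M⁻¹ * (-(b ^ (-σ + 1)) / (-σ + 1))|
        + |M⁻¹ * (-(b ^ (-σ + 1)) / (-σ + 1)) - M⁻¹ / (σ - 1)| := abs_sub_le _ _ _
    _ ≤ _ := add_le_add (hb'.trans hk') h2

/-- `∑_{m ≡ a} |m| ^ (-σ)` near `σ = 1`. -/
theorem exists_coset_bound {M : ℕ} (hM : M ≠ 0) (a : ℤ) :
    ∃ C : ℝ, ∀ σ : ℝ, 1 < σ → σ ≤ 3 →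
      Summable (fun i : ℤ => (|((a + M * i : ℤ) : ℝ)|) ^ (-σ)) ∧
        |∑' i : ℤ, (|((a + M * i : ℤ) : ℝ)|) ^ (-σ) - 2 * (M : ℝ)⁻¹ / (σ - 1)| ≤ C := by
  suffices h : ∀ a : ℤ, 0 ≤ a → a < M → ∃ C : ℝ, ∀ σ : ℝ, 1 < σ → σ ≤ 3 →
      Summable (fun i : ℤ => (|((a + M * i : ℤ) : ℝ)|) ^ (-σ)) ∧
        |∑' i : ℤ, (|((a + M * i : ℤ) : ℝ)|) ^ (-σ) - 2 * (M : ℝ)⁻¹ / (σ - 1)| ≤ C by
    have hMz : (0 : ℤ) < M := by omega
    obtain ⟨C, hC⟩ := h (a % M) (Int.emod_nonneg _ hMz.ne') (Int.emod_lt_of_pos _ hMz)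
    refine ⟨C, fun σ h1 h3 => ?_⟩
    obtain ⟨h4, h5⟩ := hC σ h1 h3
    have e : (fun i : ℤ => (|((a + M * i : ℤ) : ℝ)|) ^ (-σ)) =
        (fun i : ℤ => (|((a % M + M * i : ℤ) : ℝ)|) ^ (-σ)) ∘ fun i => i + a / M := by
      funext i
      simp only [Function.comp_apply]
      rw [show a % M + M * (i + a / M) = a + M * i by
        have := Int.mul_ediv_add_emod a M; rw [mul_add]; omega]
    rw [e]
    refine ⟨h4.comp_injective (add_left_injective _), ?_⟩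
    rw [show (∑' i : ℤ, ((fun i : ℤ => (|((a % M + M * i : ℤ) : ℝ)|) ^ (-σ)) ∘
      fun i => i + a / M) i) = ∑' i : ℤ, (|((a % M + M * i : ℤ) : ℝ)|) ^ (-σ) from
      (Equiv.addRight (a / (M : ℤ))).tsum_eq fun i : ℤ => (|((a % M + M * i : ℤ) : ℝ)|) ^ (-σ)]
    exact h5
  intro a ha ha'
  have hMr : (0 : ℝ) < M := by positivity
  rcases eq_or_lt_of_le ha with rfl | hapos
  · obtain ⟨C, hC⟩ := exists_half_line_bound (b := (M : ℝ)) hMr hMr
    refine ⟨C + C, fun σ h1 h3 => ?_⟩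
    obtain ⟨h4, h5⟩ := hC σ h1 h3
    have hg : HasSum (fun j : ℕ => (|((0 + M * (j : ℤ) : ℤ) : ℝ)|) ^ (-σ))
        (∑' j : ℕ, ((M : ℝ) + M * j) ^ (-σ)) := by
      rw [← hasSum_nat_add_iff' 1]
      simp only [Finset.range_one, Finset.sum_singleton, Nat.cast_zero, mul_zero, add_zero,
        Int.cast_zero, abs_zero, Real.zero_rpow (by linarith : -σ ≠ 0), sub_zero]
      refine h4.hasSum.congr_fun fun j => ?_
      congr 1
      push_cast
      rw [abs_of_nonneg (by positivity)]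
      ring
    have hn : HasSum (fun j : ℕ => (|((0 + M * (-((j : ℤ) + 1)) : ℤ) : ℝ)|) ^ (-σ))
        (∑' j : ℕ, ((M : ℝ) + M * j) ^ (-σ)) := by
      refine h4.hasSum.congr_fun fun j => ?_
      congr 1
      push_cast
      rw [zero_add, mul_neg, abs_neg, abs_of_nonneg (by positivity)]
      ring
    have ht := HasSum.of_nat_of_neg_add_one
      (f := fun i : ℤ => (|((0 + M * i : ℤ) : ℝ)|) ^ (-σ)) hg hn
    refine ⟨ht.summable, ?_⟩
    rw [ht.tsum_eq,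
      show 2 * (M : ℝ)⁻¹ / (σ - 1) = (M : ℝ)⁻¹ / (σ - 1) + (M : ℝ)⁻¹ / (σ - 1) by ring,
      add_sub_add_comm]
    exact (abs_add_le _ _).trans (add_le_add h5 h5)
  · have har : (0 : ℝ) < a := by exact_mod_cast hapos
    have har' : (a : ℝ) < M := by exact_mod_cast ha'
    obtain ⟨C, hC⟩ := exists_half_line_bound (b := (a : ℝ)) hMr har
    obtain ⟨C', hC'⟩ := exists_half_line_bound (b := (M : ℝ) - a) hMr (by linarith)
    refine ⟨C + C', fun σ h1 h3 => ?_⟩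
    obtain ⟨h4, h5⟩ := hC σ h1 h3
    obtain ⟨h4', h5'⟩ := hC' σ h1 h3
    have hg : HasSum (fun j : ℕ => (|((a + M * (j : ℤ) : ℤ) : ℝ)|) ^ (-σ))
        (∑' j : ℕ, ((a : ℝ) + M * j) ^ (-σ)) := by
      refine h4.hasSum.congr_fun fun j => ?_
      congr 1
      push_cast
      rw [abs_of_nonneg (by positivity)]
    have hn : HasSum (fun j : ℕ => (|((a + M * (-((j : ℤ) + 1)) : ℤ) : ℝ)|) ^ (-σ))
        (∑' j : ℕ, ((M : ℝ) - a + M * j) ^ (-σ)) := by
      refine h4'.hasSum.congr_fun fun j => ?_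
      congr 1
      push_cast
      have : (0 : ℝ) ≤ (M : ℝ) * j := by positivity
      rw [abs_of_nonpos (by nlinarith)]
      ring
    have ht := HasSum.of_nat_of_neg_add_one
      (f := fun i : ℤ => (|((a + M * i : ℤ) : ℝ)|) ^ (-σ)) hg hn
    refine ⟨ht.summable, ?_⟩
    rw [ht.tsum_eq,
      show 2 * (M : ℝ)⁻¹ / (σ - 1) = (M : ℝ)⁻¹ / (σ - 1) + (M : ℝ)⁻¹ / (σ - 1) by ring,
      add_sub_add_comm]
    exact (abs_add_le _ _).trans (add_le_add h5 h5')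

/-- One term of the series. -/
def eisTerm (s : ℝ) (τ : ℍ) (m n : ℤ) : ℝ :=
  (τ.im / (((m : ℝ) * τ.re + n) ^ 2 + ((m : ℝ) * τ.im) ^ 2)) ^ s

/-- The series of the coset of `v` modulo `M`. -/
def eisSum (M : ℕ) (v : ℤ × ℤ) (s : ℝ) (τ : ℍ) : ℝ :=
  ∑' p : ℤ × ℤ, eisTerm s τ (v.1 + M * p.1) (v.2 + M * p.2)

theorem eisTerm_nonneg (s : ℝ) (τ : ℍ) (m n : ℤ) : 0 ≤ eisTerm s τ m n :=
  Real.rpow_nonneg (div_nonneg τ.im_pos.le (by positivity)) _

theorem eisTerm_eq {m : ℤ} (hm : m ≠ 0) (s : ℝ) (τ : ℍ) (n : ℤ) :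
    eisTerm s τ m n = τ.im ^ s *
      (((n : ℝ) + (m : ℝ) * τ.re) ^ 2 + (|(m : ℝ)| * τ.im) ^ 2) ^ (-s) := by
  have hy : 0 < τ.im := τ.im_pos
  have hm' : (m : ℝ) ≠ 0 := by exact_mod_cast hm
  rw [eisTerm, div_eq_mul_inv, Real.mul_rpow hy.le (inv_nonneg.mpr (by positivity)),
    Real.inv_rpow (by positivity), ← Real.rpow_neg (by positivity), mul_pow |(m : ℝ)|, sq_abs,
    ← mul_pow, add_comm ((m : ℝ) * τ.re) (n : ℝ)]

theorem eisTerm_zero (s : ℝ) (hs : s ≠ 0) (τ : ℍ) (n : ℤ) :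
    eisTerm s τ 0 n = τ.im ^ s * |(n : ℝ)| ^ (-(2 * s)) := by
  rcases eq_or_ne n 0 with rfl | hn
  · simp [eisTerm, Real.zero_rpow hs, Real.zero_rpow (by simpa using hs : -(2 * s) ≠ 0)]
  · have hn' : (0 : ℝ) < |(n : ℝ)| := abs_pos.mpr (by exact_mod_cast hn)
    have e : (((0 : ℤ) : ℝ) * τ.re + n) ^ 2 + (((0 : ℤ) : ℝ) * τ.im) ^ 2 = |(n : ℝ)| ^ (2 : ℝ) := by
      simp [sq_abs]
    rw [eisTerm, e, div_eq_mul_inv, Real.mul_rpow τ.im_pos.le (inv_nonneg.mpr (by positivity)),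
      Real.inv_rpow (by positivity), ← Real.rpow_neg (by positivity), ← Real.rpow_mul hn'.le]
    congr 2
    ring

/-- The sums over a coset with exponent `-2 s` are dominated by those with exponent `-2`. -/
private theorem summable_and_tsum_coset_le {M : ℕ} {a : ℤ} {C s : ℝ} (hs : 1 < s)
    (h : ∀ σ : ℝ, 1 < σ → σ ≤ 3 →
      Summable (fun i : ℤ => (|((a + M * i : ℤ) : ℝ)|) ^ (-σ)) ∧
        |∑' i : ℤ, (|((a + M * i : ℤ) : ℝ)|) ^ (-σ) - 2 * (M : ℝ)⁻¹ / (σ - 1)| ≤ C) :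
    Summable (fun i : ℤ => (|((a + M * i : ℤ) : ℝ)|) ^ (-(2 * s))) ∧
      ∑' i : ℤ, (|((a + M * i : ℤ) : ℝ)|) ^ (-(2 * s)) ≤ 2 * (M : ℝ)⁻¹ + |C| := by
  obtain ⟨h2s, h2b⟩ := h 2 (by norm_num) (by norm_num)
  have hle2 : ∀ i : ℤ, (|((a + M * i : ℤ) : ℝ)|) ^ (-(2 * s)) ≤
      (|((a + M * i : ℤ) : ℝ)|) ^ (-(2 : ℝ)) := fun i => by
    rcases eq_or_ne (a + M * i : ℤ) 0 with hc | hc
    · rw [hc]
      simp [Real.zero_rpow (by linarith : -(2 * s) ≠ 0)]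
    · exact Real.rpow_le_rpow_of_exponent_le (by exact_mod_cast Int.one_le_abs hc) (by linarith)
  have hs' : Summable fun i : ℤ => (|((a + M * i : ℤ) : ℝ)|) ^ (-(2 * s)) :=
    h2s.of_nonneg_of_le (fun i => Real.rpow_nonneg (abs_nonneg _) _) hle2
  refine ⟨hs', (hs'.tsum_le_tsum hle2 h2s).trans ?_⟩
  rw [show (2 : ℝ) - 1 = 1 by norm_num, div_one] at h2b
  have := abs_le.mp h2b
  linarith [le_abs_self C]

/-- A row differs from its integral by `O(|m| ^ (-2 s))`, or by the whole row when `m = 0`. -/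
private theorem row_sub_main_le {M : ℕ} (hM : M ≠ 0) {s C : ℝ} (h1 : 1 < s) (h2 : s ≤ 2) (τ : ℍ)
    (b m : ℤ) (hB : Summable fun j : ℤ => (|((b + M * j : ℤ) : ℝ)|) ^ (-(2 * s)))
    (hB' : ∑' j : ℤ, (|((b + M * j : ℤ) : ℝ)|) ^ (-(2 * s)) ≤ C) :
    Summable (fun j : ℤ => eisTerm s τ m (b + M * j)) ∧
      |∑' j : ℤ, eisTerm s τ m (b + M * j) -
          τ.im ^ (1 - s) * ((M : ℝ)⁻¹ * jInt s) * |(m : ℝ)| ^ (-(2 * s - 1))| ≤
        (if m = 0 then τ.im ^ s * C else 0) +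
          τ.im ^ (-s) * (2 * π) * |(m : ℝ)| ^ (-(2 * s)) := by
  have hy : 0 < τ.im := τ.im_pos
  by_cases h0 : m = 0
  · have e : (fun j : ℤ => eisTerm s τ m (b + M * j)) =
        fun j : ℤ => τ.im ^ s * (|((b + M * j : ℤ) : ℝ)|) ^ (-(2 * s)) := by
      funext j; rw [h0, eisTerm_zero s (by linarith)]
    refine ⟨e ▸ hB.mul_left _, ?_⟩
    rw [e, tsum_mul_left, if_pos h0, h0, Int.cast_zero, abs_zero,
      Real.zero_rpow (by linarith : -(2 * s - 1) ≠ 0),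
      Real.zero_rpow (by linarith : -(2 * s) ≠ 0),
      mul_zero, sub_zero, mul_zero, add_zero,
      abs_of_nonneg (mul_nonneg (Real.rpow_nonneg hy.le _)
        (tsum_nonneg fun _ => Real.rpow_nonneg (abs_nonneg _) _))]
    exact mul_le_mul_of_nonneg_left hB' (Real.rpow_nonneg hy.le _)
  · have hm : (0 : ℝ) < |(m : ℝ)| := abs_pos.mpr (by exact_mod_cast h0)
    obtain ⟨hrs, hrb⟩ := row_bound h1 (mul_pos hm hy)
      (show (0 : ℝ) < M by positivity) ((b : ℝ) + (m : ℝ) * τ.re)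
    have e : (fun j : ℤ => eisTerm s τ m (b + M * j)) = fun j : ℤ => τ.im ^ s *
        (((b : ℝ) + (m : ℝ) * τ.re + M * j) ^ 2 + (|(m : ℝ)| * τ.im) ^ 2) ^ (-s) := by
      funext j
      rw [eisTerm_eq h0]
      push_cast
      congr 3
      ring
    refine ⟨e ▸ hrs.mul_left _, ?_⟩
    rw [e, tsum_mul_left, if_neg h0, zero_add]
    have ep : τ.im ^ (1 - s) * ((M : ℝ)⁻¹ * jInt s) * |(m : ℝ)| ^ (-(2 * s - 1)) =
        τ.im ^ s * ((M : ℝ)⁻¹ * ((|(m : ℝ)| * τ.im) ^ (1 - 2 * s) * jInt s)) := by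
      rw [Real.mul_rpow hm.le hy.le, show 1 - s = s + (1 - 2 * s) by ring, Real.rpow_add hy,
        show -(2 * s - 1) = 1 - 2 * s by ring]
      ring
    rw [ep, ← mul_sub, abs_mul, abs_of_pos (Real.rpow_pos_of_pos hy _)]
    refine (mul_le_mul_of_nonneg_left hrb (Real.rpow_nonneg hy.le _)).trans ?_
    rw [Real.mul_rpow hm.le hy.le, show τ.im ^ (-s) = τ.im ^ s * τ.im ^ (-(2 * s)) by
      rw [← Real.rpow_add hy]; congr 1; ring]
    calc τ.im ^ s * (s * (|(m : ℝ)| ^ (-(2 * s)) * τ.im ^ (-(2 * s))) * jInt s)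
        = (τ.im ^ s * τ.im ^ (-(2 * s)) * |(m : ℝ)| ^ (-(2 * s))) * (s * jInt s) := by ring
      _ ≤ (τ.im ^ s * τ.im ^ (-(2 * s)) * |(m : ℝ)| ^ (-(2 * s))) * (2 * π) :=
        mul_le_mul_of_nonneg_left
          (mul_le_mul h2 (jInt_one ▸ jInt_le h1.le) (jInt_nonneg s) (by norm_num))
          (mul_nonneg (mul_nonneg (Real.rpow_nonneg hy.le _) (Real.rpow_nonneg hy.le _))
            (Real.rpow_nonneg (abs_nonneg _) _))
      _ = _ := by ring

/-- A series with at most one nonzero term, equal to `c`, is at most `c`. -/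
private theorem summable_and_tsum_ite_le {ι : Type} {p : ι → Prop} [DecidablePred p]
    (hp : ∀ i i', p i → p i' → i = i') {c : ℝ} (hc : 0 ≤ c) :
    Summable (fun i => if p i then c else 0) ∧ ∑' i, (if p i then c else 0) ≤ c := by
  classical
  by_cases hex : ∃ i, p i
  · obtain ⟨i0, hi0⟩ := hex
    have e : (fun i => if p i then c else 0) = fun i => if i = i0 then c else 0 := by
      funext i
      by_cases hi : i = i0
      · rw [if_pos (hi ▸ hi0), if_pos hi]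
      · rw [if_neg fun h => hi (hp i i0 h hi0), if_neg hi]
    rw [e]
    exact ⟨(hasSum_ite_eq i0 c).summable, (tsum_ite_eq i0 fun _ => c).le⟩
  · push Not at hex
    simp [if_neg (hex _), hc]

/-- `y ^ s ≤ 4 y²` for `y ≥ 1 / 2` and `0 ≤ s ≤ 2`. -/
private theorem rpow_le_four_mul_sq {y s : ℝ} (hy : 1 / 2 ≤ y) (h0 : 0 ≤ s) (h2 : s ≤ 2) :
    y ^ s ≤ 4 * y ^ 2 := by
  rcases le_total 1 y with h | h
  · have := Real.rpow_le_rpow_of_exponent_le h h2
    rw [Real.rpow_two] at this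
    nlinarith
  · nlinarith [Real.rpow_le_one (by linarith : 0 ≤ y) h h0]

/-- `y ^ (-r) ≤ 4` for `y ≥ 1 / 2` and `0 ≤ r ≤ 2`. -/
private theorem rpow_neg_le_four {y r : ℝ} (hy : 1 / 2 ≤ y) (h0 : 0 ≤ r) (h2 : r ≤ 2) :
    y ^ (-r) ≤ 4 := by
  have hy0 : 0 < y := by linarith
  rcases le_total 1 y with h | h
  · linarith [Real.rpow_le_one_of_one_le_of_nonpos h (neg_nonpos.mpr h0)]
  · refine (Real.rpow_le_rpow_of_exponent_ge hy0 h (show -2 ≤ -r by linarith)).trans ?_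
    rw [show (-2 : ℝ) = -((2 : ℕ) : ℝ) by norm_num, Real.rpow_neg hy0.le, Real.rpow_natCast,
      inv_le_comm₀ (by positivity) (by norm_num)]
    nlinarith

/-- `y ^ (1 - s)` tends to `1` linearly in `s - 1`, with slope `O(y²)`. -/
private theorem abs_rpow_one_sub_sub_one_le {y s : ℝ} (hy : 1 / 2 ≤ y) (h1 : 1 < s)
    (h2 : s ≤ 2) : |y ^ (1 - s) - 1| ≤ (s - 1) * (32 * y ^ 2) := by
  have hy0 : 0 < y := by linarith
  rw [Real.rpow_def_of_pos hy0]
  refine (exp_sub_one_abs_le _).trans ?_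
  rw [abs_mul, ← Real.rpow_def_of_pos hy0, show |1 - s| = s - 1 by
    rw [abs_of_neg (by linarith)]; ring]
  have hmx : max 1 (y ^ (1 - s)) ≤ 4 := by
    refine max_le (by norm_num) ?_
    rw [show 1 - s = -(s - 1) by ring]
    exact rpow_neg_le_four hy (by linarith) (by linarith)
  have hlog : |Real.log y| ≤ 8 * y ^ 2 := by
    rw [abs_le]
    constructor
    · have := Real.one_sub_inv_le_log_of_pos hy0
      have : y⁻¹ ≤ 2 := by rw [inv_le_comm₀ hy0 (by norm_num)]; linarith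
      nlinarith
    · nlinarith [Real.log_le_sub_one_of_pos hy0]
  calc |Real.log y| * (s - 1) * max 1 (y ^ (1 - s)) ≤ (8 * y ^ 2) * (s - 1) * 4 :=
        mul_le_mul (mul_le_mul_of_nonneg_right hlog (by linarith)) hmx (by positivity)
          (mul_nonneg (by positivity) (by linarith))
    _ = _ := by ring

/-- The integrals of the rows sum to the pole up to `O(y²)`, if their Dirichlet series does. -/
private theorem main_term_bound {M : ℕ} (hM : M ≠ 0) {s y T A B : ℝ} (hy : 1 / 2 ≤ y) (h1 : 1 < s)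
    (h2 : s ≤ 2) (hJ : |jInt s - π| ≤ B * (s - 1)) (hT : |T - (M : ℝ)⁻¹ / (s - 1)| ≤ A) :
    |y ^ (1 - s) * ((M : ℝ)⁻¹ * jInt s) * T - π / ((M : ℝ) ^ 2 * (s - 1))| ≤
      16 * (M : ℝ)⁻¹ * (π * A) * y ^ 2 + (4 * B + 32 * π * y ^ 2) / (M : ℝ) ^ 2 := by
  have hy0 : 0 < y := by linarith
  have hJ0 : 0 ≤ jInt s := jInt_nonneg s
  have hJπ : jInt s ≤ π := jInt_one ▸ jInt_le h1.le
  have hA : 0 ≤ A := (abs_nonneg _).trans hT
  have hMr : (0 : ℝ) < M := by positivity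
  have h4 : y ^ (1 - s) ≤ 4 := by
    rw [show 1 - s = -(s - 1) by ring]; exact rpow_neg_le_four hy (by linarith) (by linarith)
  have e : y ^ (1 - s) * ((M : ℝ)⁻¹ * jInt s) * T - π / ((M : ℝ) ^ 2 * (s - 1)) =
      y ^ (1 - s) * ((M : ℝ)⁻¹ * jInt s) * (T - (M : ℝ)⁻¹ / (s - 1)) +
      (y ^ (1 - s) * (jInt s - π) + (y ^ (1 - s) - 1) * π) / (s - 1) / (M : ℝ) ^ 2 := by
    have : s - 1 ≠ 0 := by linarith
    field_simp
    ring
  rw [e]
  refine (abs_add_le _ _).trans (add_le_add ?_ ?_)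
  · rw [abs_mul, abs_of_nonneg (by positivity : (0 : ℝ) ≤ y ^ (1 - s) * ((M : ℝ)⁻¹ * jInt s))]
    calc y ^ (1 - s) * ((M : ℝ)⁻¹ * jInt s) * |T - (M : ℝ)⁻¹ / (s - 1)|
        ≤ 4 * ((M : ℝ)⁻¹ * π) * A := by gcongr
      _ ≤ 16 * (M : ℝ)⁻¹ * (π * A) * y ^ 2 := by
          have : 0 ≤ (M : ℝ)⁻¹ * π * A := by positivity
          have : 1 / 4 ≤ y ^ 2 := by nlinarith
          nlinarith
  · rw [abs_div, abs_div, abs_of_pos (by linarith : 0 < s - 1),
      abs_of_pos (by positivity : (0 : ℝ) < (M : ℝ) ^ 2)]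
    refine div_le_div_of_nonneg_right ?_ (by positivity)
    rw [div_le_iff₀ (by linarith)]
    refine (abs_add_le _ _).trans ?_
    rw [abs_mul, abs_mul, abs_of_pos (Real.rpow_pos_of_pos hy0 _), abs_of_pos Real.pi_pos]
    have := abs_rpow_one_sub_sub_one_le hy h1 h2
    calc y ^ (1 - s) * |jInt s - π| + |y ^ (1 - s) - 1| * π
        ≤ 4 * (B * (s - 1)) + (s - 1) * (32 * y ^ 2) * π := by gcongr
      _ = _ := by ring

/-- The main estimate, for one coset. -/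
private theorem exists_eisSum_bound_coset {M : ℕ} (hM : M ≠ 0) (v : ℤ × ℤ) :
    ∃ C : ℝ, ∀ s : ℝ, 1 < s → s ≤ 2 → ∀ τ : ℍ, 1 / 2 ≤ τ.im →
      Summable (fun p : ℤ × ℤ => eisTerm s τ (v.1 + M * p.1) (v.2 + M * p.2)) ∧
        |eisSum M v s τ - π / ((M : ℝ) ^ 2 * (s - 1))| ≤ C * τ.im ^ 2 := by
  obtain ⟨Ca, hCa⟩ := exists_coset_bound hM v.1
  obtain ⟨Cb, hCb⟩ := exists_coset_bound hM v.2
  obtain ⟨CJ, hCJ⟩ := exists_abs_jInt_sub
  set K : ℝ := 2 * π * (2 * (M : ℝ)⁻¹ + |Ca|) with hK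
  refine ⟨4 * (2 * (M : ℝ)⁻¹ + |Cb|) + 16 * (M : ℝ)⁻¹ * (π * |Ca|) + 16 * K
    + (24 * |CJ| + 32 * π) / (M : ℝ) ^ 2, fun s h1 h2 τ hτ => ?_⟩
  set y := τ.im
  have hy : 0 < y := τ.im_pos
  set m : ℤ → ℤ := fun i => v.1 + M * i with hm
  obtain ⟨hA1, hA1'⟩ := hCa (2 * s - 1) (by linarith) (by linarith)
  obtain ⟨hA2, hA2'⟩ := summable_and_tsum_coset_le h1 hCa
  obtain ⟨hB2, hB2'⟩ := summable_and_tsum_coset_le h1 hCb
  -- the rows, their integrals and the errors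
  set row : ℤ → ℝ := fun i => ∑' j : ℤ, eisTerm s τ (m i) (v.2 + M * j)
  set P : ℤ → ℝ := fun i => y ^ (1 - s) * ((M : ℝ)⁻¹ * jInt s) * |((m i : ℤ) : ℝ)| ^ (-(2 * s - 1))
  set E : ℤ → ℝ := fun i => (if m i = 0 then y ^ s * (2 * (M : ℝ)⁻¹ + |Cb|) else 0)
    + y ^ (-s) * (2 * π) * |((m i : ℤ) : ℝ)| ^ (-(2 * s))
  have key : ∀ i, Summable (fun j : ℤ => eisTerm s τ (m i) (v.2 + M * j)) ∧
      |row i - P i| ≤ E i := fun i => row_sub_main_le hM h1 h2 τ v.2 (m i) hB2 hB2'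
  have hone : ∀ i i', m i = 0 → m i' = 0 → i = i' := fun i i' h h' => by
    have hh : (M : ℤ) * i = (M : ℤ) * i' := by simp only [hm] at h h'; omega
    exact mul_left_cancel₀ (by exact_mod_cast hM) hh
  obtain ⟨hi1, hi1'⟩ := summable_and_tsum_ite_le hone
    (show 0 ≤ y ^ s * (2 * (M : ℝ)⁻¹ + |Cb|) by positivity)
  have hP : Summable P := hA1.mul_left _
  have hE : Summable E := hi1.add (hA2.mul_left _)
  have hEle : ∑' i, E i ≤ y ^ s * (2 * (M : ℝ)⁻¹ + |Cb|) + y ^ (-s) * K := by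
    rw [hi1.tsum_add (hA2.mul_left _), tsum_mul_left]
    refine add_le_add hi1' (le_trans (mul_le_mul_of_nonneg_left hA2' (by positivity)) (le_of_eq ?_))
    rw [hK]; ring
  have hdiff : Summable fun i => row i - P i :=
    Summable.of_norm_bounded hE fun i => by rw [Real.norm_eq_abs]; exact (key i).2
  have hrows : Summable row := (hdiff.add hP).congr fun i => by ring
  have hall : Summable fun p : ℤ × ℤ => eisTerm s τ (v.1 + M * p.1) (v.2 + M * p.2) :=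
    (summable_prod_of_nonneg fun p => eisTerm_nonneg _ _ _ _).mpr ⟨fun i => (key i).1, hrows⟩
  refine ⟨hall, ?_⟩
  rw [show eisSum M v s τ = ∑' i, row i from hall.tsum_prod' fun i => (key i).1]
  have hmain : |∑' i, row i - ∑' i, P i| ≤ ∑' i, E i := by
    rw [← hrows.tsum_sub hP, ← Real.norm_eq_abs]
    exact tsum_of_norm_bounded hE.hasSum fun i => by rw [Real.norm_eq_abs]; exact (key i).2
  have hT : |∑' i : ℤ, |((m i : ℤ) : ℝ)| ^ (-(2 * s - 1)) - (M : ℝ)⁻¹ / (s - 1)| ≤ |Ca| := by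
    rw [show (M : ℝ)⁻¹ / (s - 1) = 2 * (M : ℝ)⁻¹ / (2 * s - 1 - 1) by
      rw [show 2 * s - 1 - 1 = 2 * (s - 1) by ring, mul_div_mul_left _ _ two_ne_zero]]
    exact hA1'.trans (le_abs_self _)
  have hsplit : |∑' i, P i - π / ((M : ℝ) ^ 2 * (s - 1))| ≤
      16 * (M : ℝ)⁻¹ * (π * |Ca|) * y ^ 2 + (4 * |CJ| + 32 * π * y ^ 2) / (M : ℝ) ^ 2 := by
    rw [show ∑' i, P i = _ from tsum_mul_left]
    exact main_term_bound hM hτ h1 h2
      ((hCJ s h1.le).trans (mul_le_mul_of_nonneg_right (le_abs_self _) (by linarith))) hT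
  refine (abs_sub_le _ (∑' i, P i) _).trans ((add_le_add (hmain.trans hEle) hsplit).trans ?_)
  -- collect the powers of `y`
  have e1 : y ^ s * (2 * (M : ℝ)⁻¹ + |Cb|) ≤ 4 * y ^ 2 * (2 * (M : ℝ)⁻¹ + |Cb|) :=
    mul_le_mul_of_nonneg_right (rpow_le_four_mul_sq hτ (by linarith) h2) (by positivity)
  have hylow : (1 / 4 : ℝ) ≤ y ^ 2 := by nlinarith
  have e2 : y ^ (-s) * K ≤ 16 * K * y ^ 2 := by
    have hK0 : 0 ≤ K := by rw [hK]; positivity
    have := mul_le_mul_of_nonneg_right (rpow_neg_le_four hτ (by linarith : 0 ≤ s) h2) hK0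
    nlinarith
  have e3 : (4 * |CJ| + 32 * π * y ^ 2) / (M : ℝ) ^ 2 ≤
      (24 * |CJ| + 32 * π) / (M : ℝ) ^ 2 * y ^ 2 := by
    rw [div_mul_eq_mul_div]
    refine div_le_div_of_nonneg_right ?_ (by positivity)
    nlinarith [abs_nonneg CJ]
  linarith

theorem eisTerm_scale (s : ℝ) (τ : ℍ) (k m n : ℤ) :
    eisTerm s τ (k * m) (k * n) = |(k : ℝ)| ^ (-(2 * s)) * eisTerm s τ m n := by
  have e : (((k * m : ℤ) : ℝ) * τ.re + ((k * n : ℤ) : ℝ)) ^ 2 + (((k * m : ℤ) : ℝ) * τ.im) ^ 2 =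
      |(k : ℝ)| ^ 2 * (((m : ℝ) * τ.re + n) ^ 2 + ((m : ℝ) * τ.im) ^ 2) := by
    rw [sq_abs]; push_cast; ring
  rw [eisTerm, eisTerm, e, ← div_div, div_right_comm, div_eq_mul_inv _ (|(k : ℝ)| ^ 2),
    Real.mul_rpow (div_nonneg τ.im_pos.le (by positivity)) (by positivity), mul_comm]
  congr 1
  rw [Real.inv_rpow (by positivity), ← Real.rpow_neg (by positivity),
    ← Real.rpow_natCast |(k : ℝ)| 2, ← Real.rpow_mul (abs_nonneg _)]
  congr 1
  push_cast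
  ring

/-- Congruent vectors have the same series. -/
theorem eisSum_congr {M : ℕ} {v w : ℤ × ℤ} (h1 : (M : ℤ) ∣ w.1 - v.1) (h2 : (M : ℤ) ∣ w.2 - v.2)
    (s : ℝ) (τ : ℍ) : eisSum M w s τ = eisSum M v s τ := by
  obtain ⟨a, ha⟩ := h1
  obtain ⟨b, hb⟩ := h2
  rw [eisSum, eisSum, ← (Equiv.addRight ((a, b) : ℤ × ℤ)).tsum_eq fun p : ℤ × ℤ =>
    eisTerm s τ (v.1 + M * p.1) (v.2 + M * p.2)]
  refine tsum_congr fun p => ?_
  simp only [Equiv.coe_addRight, Prod.fst_add, Prod.snd_add]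
  congr 1 <;> [linear_combination ha; linear_combination hb]

theorem summable_eisTerm_congr {M : ℕ} {v w : ℤ × ℤ} (h1 : (M : ℤ) ∣ w.1 - v.1)
    (h2 : (M : ℤ) ∣ w.2 - v.2) {s : ℝ} {τ : ℍ}
    (h : Summable fun p : ℤ × ℤ => eisTerm s τ (v.1 + M * p.1) (v.2 + M * p.2)) :
    Summable fun p : ℤ × ℤ => eisTerm s τ (w.1 + M * p.1) (w.2 + M * p.2) := by
  obtain ⟨a, ha⟩ := h1
  obtain ⟨b, hb⟩ := h2
  refine (h.comp_injective (Equiv.addRight ((a, b) : ℤ × ℤ)).injective).congr fun p => ?_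
  simp only [Function.comp_apply, Equiv.coe_addRight, Prod.fst_add, Prod.snd_add]
  congr 1 <;> [linear_combination -ha; linear_combination -hb]

/-- The pole is the same for all cosets. -/
theorem exists_eisSum_bound {M : ℕ} (hM : M ≠ 0) :
    ∃ C : ℝ, 0 ≤ C ∧ ∀ (v : ℤ × ℤ) (s : ℝ), 1 < s → s ≤ 2 → ∀ τ : ℍ, 1 / 2 ≤ τ.im →
      Summable (fun p : ℤ × ℤ => eisTerm s τ (v.1 + M * p.1) (v.2 + M * p.2)) ∧
        |eisSum M v s τ - π / ((M : ℝ) ^ 2 * (s - 1))| ≤ C * τ.im ^ 2 := by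
  choose C hC using fun r : Fin M × Fin M =>
    exists_eisSum_bound_coset hM (((r.1 : ℕ) : ℤ), ((r.2 : ℕ) : ℤ))
  refine ⟨∑ r, |C r|, Finset.sum_nonneg fun _ _ => abs_nonneg _, fun v s h1 h2 τ hτ => ?_⟩
  have hMz : (M : ℤ) ≠ 0 := by exact_mod_cast hM
  have hlt : ∀ a : ℤ, (a % (M : ℤ)).toNat < M := fun a => by
    have := Int.emod_lt_of_pos a (show (0 : ℤ) < M by omega)
    omega
  set r : Fin M × Fin M := (⟨_, hlt v.1⟩, ⟨_, hlt v.2⟩)
  have hd : ∀ a : ℤ, (M : ℤ) ∣ a - ((a % (M : ℤ)).toNat : ℤ) := fun a => by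
    rw [Int.toNat_of_nonneg (Int.emod_nonneg _ hMz)]
    exact Int.dvd_self_sub_emod
  obtain ⟨h3, h4⟩ := hC r s h1 h2 τ hτ
  refine ⟨summable_eisTerm_congr (hd v.1) (hd v.2) h3, ?_⟩
  rw [eisSum_congr (v := (((r.1 : ℕ) : ℤ), ((r.2 : ℕ) : ℤ))) (hd v.1) (hd v.2)]
  refine h4.trans (mul_le_mul_of_nonneg_right ?_ (sq_nonneg _))
  exact (le_abs_self _).trans
    (Finset.single_le_sum (fun i _ => abs_nonneg (C i)) (Finset.mem_univ r))

end FLTAgent.LanglandsTunnell.Period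

end
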