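import Fermat.Agent.LanglandsTunnell.Period.LocalFactor
import Mathlib.NumberTheory.EulerProduct.Basic
import Mathlib.NumberTheory.SumPrimeReciprocals
import Mathlib.Analysis.SpecialFunctions.Pow.Real
import Mathlib.Analysis.PSeries

/-!
# The plane Dirichlet series is unbounded near its abscissa

For a multiplicative sequence with the local factors of the plane series (`PlaneSeries`), a
mean-square bound and a lower bound on the Euler product show that the series tends to infinity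
at `1` (`PlaneSeries.tendsto_atTop`).
-/

set_option autoImplicit false

open Filter Finset
open scoped Topology

noncomputable section

namespace FLTAgent.LanglandsTunnell.Period

/-- `p ^ (-s)`. -/
def xVal (p : Nat.Primes) (s : ℝ) : ℝ := ((p : ℕ) : ℝ) ^ (-s)

theorem xVal_pos (p : Nat.Primes) (s : ℝ) : 0 < xVal p s :=
  Real.rpow_pos_of_pos (by exact_mod_cast p.2.pos) _

theorem xVal_le_half {p : Nat.Primes} {s : ℝ} (hs : 1 ≤ s) : xVal p s ≤ 1 / 2 := by
  have hp : (2 : ℝ) ≤ (p : ℕ) := by exact_mod_cast p.2.two_le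
  calc xVal p s ≤ ((p : ℕ) : ℝ) ^ (-1 : ℝ) :=
        Real.rpow_le_rpow_of_exponent_le (by linarith) (by linarith)
    _ ≤ 1 / 2 := by
        rw [Real.rpow_neg_one, one_div]
        exact inv_anti₀ (by norm_num) hp

theorem xVal_lt_one {p : Nat.Primes} {s : ℝ} (hs : 1 ≤ s) : xVal p s < 1 := by
  linarith [xVal_le_half (p := p) hs]

theorem summable_xVal {s : ℝ} (hs : 1 < s) : Summable fun p => xVal p s :=
  Nat.Primes.summable_rpow.mpr (by linarith : -s < -1)

theorem sum_xVal_sq_le {s : ℝ} (hs : 1 ≤ s) (T : Finset Nat.Primes) :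
    ∑ p ∈ T, xVal p s ^ 2 ≤ ∑' n : ℕ, (n : ℝ) ^ (-2 : ℝ) := by
  have h2 : Summable fun n : ℕ => (n : ℝ) ^ (-2 : ℝ) := Real.summable_nat_rpow.mpr (by norm_num)
  calc ∑ p ∈ T, xVal p s ^ 2 ≤ ∑ p ∈ T, ((p : ℕ) : ℝ) ^ (-2 : ℝ) := by
        refine Finset.sum_le_sum fun p _ => ?_
        rw [xVal, ← Real.rpow_natCast _ 2, ← Real.rpow_mul (Nat.cast_nonneg _)]
        exact Real.rpow_le_rpow_of_exponent_le (by exact_mod_cast p.2.one_le)
          (by push_cast; linarith)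
    _ = ∑ n ∈ T.map ⟨fun p : Nat.Primes => (p : ℕ), Subtype.val_injective⟩, (n : ℝ) ^ (-2 : ℝ) := by
        rw [Finset.sum_map]; rfl
    _ ≤ _ := h2.sum_le_tsum _ fun n _ => Real.rpow_nonneg (Nat.cast_nonneg _) _

theorem rpow_pow_eq (p : Nat.Primes) (s : ℝ) (k : ℕ) :
    ((((p : ℕ) ^ k : ℕ) : ℕ) : ℝ) ^ (-s) = xVal p s ^ k := by
  rw [xVal, Nat.cast_pow, ← Real.rpow_natCast_mul (Nat.cast_nonneg _), mul_comm,
    Real.rpow_mul_natCast (Nat.cast_nonneg _)]

/-- A multiplicative sequence with the local factors of the plane series. -/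
structure PlaneSeries where
  f : ℕ → ℝ
  f_zero : f 0 = 0
  f_one : f 1 = 1
  f_mul : ∀ m n : ℕ, m.Coprime n → f (m * n) = f m * f n
  except : Finset Nat.Primes
  inert : Set Nat.Primes
  a : Nat.Primes → ℝ
  b : Nat.Primes → ℝ
  inert_pow : ∀ p, p ∉ except → p ∈ inert →
    (a p = 2 ∨ a p = 0) ∧ ∀ k, f ((p : ℕ) ^ k) = uSeq (a p) k
  split_pow : ∀ p, p ∉ except → p ∉ inert →
    ∀ k, f ((p : ℕ) ^ k) = uSeq (a p) k * uSeq (b p) k
  exceptBound : ℝ
  exceptBound_pos : 0 < exceptBound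
  except_summable : ∀ p ∈ except, ∀ s : ℝ, 1 < s → s ≤ 2 →
    Summable fun k => |f ((p : ℕ) ^ k)| * xVal p s ^ k
  except_ge : ∀ p ∈ except, ∀ s : ℝ, 1 < s → s ≤ 2 →
    exceptBound ≤ |∑' k, f ((p : ℕ) ^ k) * xVal p s ^ k|
  meanBound : ℝ
  meanBound_pos : 0 < meanBound
  mean : ∀ T : Finset Nat.Primes, (∀ p ∈ T, p ∉ except ∧ p ∉ inert) → ∀ (K : ℕ) (s : ℝ),
    1 < s → s ≤ 2 → ∏ p ∈ T, ((∑ k ∈ range K, uSeq (a p) k ^ 2 * xVal p s ^ k) *
      (∑ k ∈ range K, uSeq (b p) k ^ 2 * xVal p s ^ k)) ≤ meanBound / (s - 1)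
  two : Set Nat.Primes
  four : Set Nat.Primes
  two_spec : ∀ p ∈ two, p ∉ except ∧ p ∈ inert ∧ a p = 2
  four_spec : ∀ p ∈ four, p ∉ except ∧ p ∉ inert ∧ a p ^ 2 = 4 ∧ b p = a p
  large : Tendsto (fun s : ℝ => 2 * (∑' p, two.indicator (fun p => xVal p s) p) +
    6 * (∑' p, four.indicator (fun p => xVal p s) p) - Real.log (1 / (s - 1)) / 2) (𝓝[>] 1) atTop

namespace PlaneSeries

variable (Z : PlaneSeries)

/-- The terms. -/
def term (s : ℝ) (n : ℕ) : ℝ := Z.f n * (n : ℝ) ^ (-s)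

theorem term_pow (p : Nat.Primes) (s : ℝ) (k : ℕ) :
    Z.term s ((p : ℕ) ^ k) = Z.f ((p : ℕ) ^ k) * xVal p s ^ k := by
  rw [term, rpow_pow_eq]

theorem term_mul {s : ℝ} {m n : ℕ} (h : m.Coprime n) :
    Z.term s (m * n) = Z.term s m * Z.term s n := by
  rw [term, term, term, Z.f_mul m n h, Nat.cast_mul,
    Real.mul_rpow (Nat.cast_nonneg _) (Nat.cast_nonneg _)]
  ring

/-- The series of squares at a split prime. -/
def sq (c : Nat.Primes → ℝ) (p : Nat.Primes) (s : ℝ) : ℝ := ∑' k, uSeq (c p) k ^ 2 * xVal p s ^ k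

variable {Z}

theorem hasSum_sq {p : Nat.Primes} (h0 : p ∉ Z.except) (h1 : p ∉ Z.inert) {s : ℝ} (hs : 1 < s)
    (hs2 : s ≤ 2) :
    HasSum (fun k => uSeq (Z.a p) k ^ 2 * xVal p s ^ k) (sq Z.a p s) ∧
      HasSum (fun k => uSeq (Z.b p) k ^ 2 * xVal p s ^ k) (sq Z.b p s) := by
  have hx := (xVal_pos p s).le
  have hn : ∀ (c : ℝ) (k : ℕ), 0 ≤ uSeq c k ^ 2 * xVal p s ^ k := fun c k => by positivity
  have h : ∀ K, (∑ k ∈ range K, uSeq (Z.a p) k ^ 2 * xVal p s ^ k) ≤ Z.meanBound / (s - 1) ∧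
      (∑ k ∈ range K, uSeq (Z.b p) k ^ 2 * xVal p s ^ k) ≤ Z.meanBound / (s - 1) := by
    intro K
    have hm := Z.mean {p} (fun q hq => by rw [mem_singleton.mp hq]; exact ⟨h0, h1⟩) (K + 1) s hs hs2
    rw [prod_singleton] at hm
    have hge : ∀ c : ℝ, 1 ≤ ∑ k ∈ range (K + 1), uSeq c k ^ 2 * xVal p s ^ k := fun c =>
      le_trans (le_of_eq (by simp)) (single_le_sum (fun k _ => hn c k) (mem_range.mpr K.succ_pos))
    have hmono : ∀ c : ℝ, ∑ k ∈ range K, uSeq c k ^ 2 * xVal p s ^ k ≤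
        ∑ k ∈ range (K + 1), uSeq c k ^ 2 * xVal p s ^ k := fun c =>
      sum_le_sum_of_subset_of_nonneg (range_mono K.le_succ) fun k _ _ => hn c k
    refine ⟨(hmono _).trans ((le_mul_of_one_le_right ?_ (hge _)).trans hm),
      (hmono _).trans ((le_mul_of_one_le_left ?_ (hge _)).trans hm)⟩
    · linarith [hge (Z.a p)]
    · linarith [hge (Z.b p)]
  exact ⟨(summable_of_sum_range_le (hn _) fun K => (h K).1).hasSum,
    (summable_of_sum_range_le (hn _) fun K => (h K).2).hasSum⟩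

theorem one_le_sq {p : Nat.Primes} (h0 : p ∉ Z.except) (h1 : p ∉ Z.inert) {s : ℝ} (hs : 1 < s)
    (hs2 : s ≤ 2) : 1 ≤ sq Z.a p s ∧ 1 ≤ sq Z.b p s :=
  ⟨(sq_factor (xVal_pos p s).le (xVal_lt_one hs.le) (hasSum_sq h0 h1 hs hs2).1).1,
    (sq_factor (xVal_pos p s).le (xVal_lt_one hs.le) (hasSum_sq h0 h1 hs hs2).2).1⟩

theorem prod_sq_le {T : Finset Nat.Primes} (hT : ∀ p ∈ T, p ∉ Z.except ∧ p ∉ Z.inert) {s : ℝ}
    (hs : 1 < s) (hs2 : s ≤ 2) : ∏ p ∈ T, sq Z.a p s * sq Z.b p s ≤ Z.meanBound / (s - 1) :=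
  le_of_tendsto'
    (tendsto_finsetProd T fun p hp =>
      ((hasSum_sq (hT p hp).1 (hT p hp).2 hs hs2).1.tendsto_sum_nat).mul
        (hasSum_sq (hT p hp).1 (hT p hp).2 hs hs2).2.tendsto_sum_nat)
    fun K => Z.mean T hT K s hs hs2

/-- The local series of absolute values. -/
theorem summable_local (p : Nat.Primes) {s : ℝ} (hs : 1 < s) (hs2 : s ≤ 2) :
    Summable (fun k => ‖Z.term s ((p : ℕ) ^ k)‖) ∧
      (p ∉ Z.except → p ∈ Z.inert →
        ∑' k, ‖Z.term s ((p : ℕ) ^ k)‖ ≤ Real.exp (4 * xVal p s)) ∧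
      (p ∉ Z.except → p ∉ Z.inert →
        ∑' k, ‖Z.term s ((p : ℕ) ^ k)‖ ≤ sq Z.a p s * sq Z.b p s) := by
  have hx := (xVal_pos p s).le
  have hx1 : xVal p s < 1 := xVal_lt_one hs.le
  have e : ∀ k, ‖Z.term s ((p : ℕ) ^ k)‖ = |Z.f ((p : ℕ) ^ k)| * xVal p s ^ k := fun k => by
    rw [term_pow, norm_mul, norm_pow, Real.norm_eq_abs, Real.norm_eq_abs, abs_of_nonneg hx]
  simp only [e]
  by_cases h0 : p ∈ Z.except
  · exact ⟨Z.except_summable p h0 s hs hs2, fun h => absurd h0 h, fun h => absurd h0 h⟩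
  by_cases h1 : p ∈ Z.inert
  · obtain ⟨ha, hf⟩ := Z.inert_pow p h0 h1
    have hb : |Z.a p| ≤ 2 := by rcases ha with h | h <;> rw [h] <;> norm_num
    have hg := (hasSum_coe_mul_geometric_of_norm_lt_one
      (r := xVal p s) (by rwa [Real.norm_of_nonneg hx])).add
      (hasSum_geometric_of_lt_one hx hx1)
    have hle : ∀ k : ℕ, |Z.f ((p : ℕ) ^ k)| * xVal p s ^ k ≤
        (k : ℝ) * xVal p s ^ k + xVal p s ^ k := fun k => by
      rw [hf k, ← add_one_mul]
      exact mul_le_mul_of_nonneg_right (abs_uSeq_le hb k) (by positivity)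
    have hsum : Summable fun k => |Z.f ((p : ℕ) ^ k)| * xVal p s ^ k :=
      hg.summable.of_nonneg_of_le (fun k => by positivity) hle
    refine ⟨hsum, fun _ _ => (hsum.tsum_le_tsum hle hg.summable).trans ?_, fun _ h => absurd h1 h⟩
    rw [hg.tsum_eq]
    set X := xVal p s
    have hX2 : X ≤ 1 / 2 := xVal_le_half hs.le
    have h2 : (1 - X)⁻¹ ≤ Real.exp (2 * X) := by
      have hq : (1 - X)⁻¹ ≤ 1 + 2 * X := by
        rw [inv_le_iff_one_le_mul₀ (by linarith)]; nlinarith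
      linarith [Real.add_one_le_exp (2 * X)]
    have e' : X / (1 - X) ^ 2 + (1 - X)⁻¹ = (1 - X)⁻¹ ^ 2 := by
      have : 1 - X ≠ 0 := by linarith
      field_simp
      ring
    rw [e', show (4 * X : ℝ) = ((2 : ℕ) : ℝ) * (2 * X) by push_cast; ring, Real.exp_nat_mul]
    exact pow_le_pow_left₀ (inv_nonneg.mpr (by linarith)) h2 2
  · have hf := Z.split_pow p h0 h1
    obtain ⟨hA, hB⟩ := hasSum_sq h0 h1 hs hs2
    have hg := (hA.add hB).div_const 2
    have hle : ∀ k, |Z.f ((p : ℕ) ^ k)| * xVal p s ^ k ≤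
        (uSeq (Z.a p) k ^ 2 * xVal p s ^ k + uSeq (Z.b p) k ^ 2 * xVal p s ^ k) / 2 := fun k => by
      rw [hf k, ← add_mul, mul_div_right_comm]
      refine mul_le_mul_of_nonneg_right ?_ (by positivity)
      rw [abs_le]
      constructor
      · nlinarith [sq_nonneg (uSeq (Z.a p) k + uSeq (Z.b p) k)]
      · nlinarith [sq_nonneg (uSeq (Z.a p) k - uSeq (Z.b p) k)]
    have hsum : Summable fun k => |Z.f ((p : ℕ) ^ k)| * xVal p s ^ k :=
      hg.summable.of_nonneg_of_le (fun k => by positivity) hle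
    refine ⟨hsum, fun _ h => absurd h h1, fun _ _ => (hsum.tsum_le_tsum hle hg.summable).trans ?_⟩
    rw [hg.tsum_eq]
    obtain ⟨h2, h3⟩ := one_le_sq h0 h1 hs hs2
    nlinarith [mul_nonneg (sub_nonneg.mpr h2) (sub_nonneg.mpr h3)]

theorem one_le_norm_sum (Z : PlaneSeries) (p : Nat.Primes) {s : ℝ} (hs : 1 < s) (hs2 : s ≤ 2) :
    1 ≤ ∑' k, ‖Z.term s ((p : ℕ) ^ k)‖ := by
  refine le_trans (le_of_eq ?_) ((summable_local p hs hs2).1.le_tsum 0 fun k _ => norm_nonneg _)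
  simp [term, Z.f_one]

theorem summable_term {s : ℝ} (hs : 1 < s) (hs2 : s ≤ 2) : Summable fun n => ‖Z.term s n‖ := by
  classical
  set g : ℕ → ℝ := fun n => ‖Z.term s n‖
  have hg1 : g 1 = 1 := by simp [g, term, Z.f_one]
  have hgm : ∀ {m n : ℕ}, m.Coprime n → g (m * n) = g m * g n := fun h => by
    simp only [g, Z.term_mul h, norm_mul]
  have hloc : ∀ {p : ℕ}, p.Prime → Summable fun n : ℕ => ‖g (p ^ n)‖ := fun {p} hp => by
    simpa [g] using (summable_local (Z := Z) ⟨p, hp⟩ hs hs2).1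
  set B : ℝ := (∏ p ∈ Z.except, ∑' k, ‖Z.term s ((p : ℕ) ^ k)‖) *
    Real.exp (4 * ∑' p, xVal p s) * (Z.meanBound / (s - 1)) with hB
  refine summable_of_sum_le (fun n => norm_nonneg _) (c := B) fun U => ?_
  -- the primes occurring in `U`
  set P : Finset ℕ := U.biUnion Nat.primeFactors
  obtain ⟨hs1, hs1'⟩ :=
    EulerProduct.summable_and_hasSum_factoredNumbers_prod_filter_prime_tsum hg1 hgm hloc P
  have hU : ∀ n ∈ U, n ≠ 0 → n ∈ Nat.factoredNumbers P := fun n hn h0 =>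
    Nat.mem_factoredNumbers_of_primeFactors_subset h0 (Finset.subset_biUnion_of_mem _ hn)
  have h1 : ∑ n ∈ U, g n ≤ ∏ p ∈ P with p.Prime, ∑' k, g (p ^ k) := by
    have e : ∑ n ∈ U, g n = ∑ n ∈ U.filter (fun (n : ℕ) => n ≠ 0), g n := by
      refine (Finset.sum_filter_of_ne (p := fun (n : ℕ) => n ≠ 0) fun n _ hn h0 => hn ?_).symm
      simp [g, h0, term, Z.f_zero]
    have hbij : ∑ n ∈ U.filter (fun (n : ℕ) => n ≠ 0), g n =
        ∑ n ∈ (U.filter (fun (n : ℕ) => n ≠ 0)).subtype (· ∈ Nat.factoredNumbers P), g n := by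
      rw [Finset.sum_subtype_eq_sum_filter, Finset.filter_true_of_mem fun n hn =>
        hU n (Finset.mem_filter.mp hn).1 (Finset.mem_filter.mp hn).2]
    rw [e, hbij]
    exact sum_le_hasSum _ (fun n _ => norm_nonneg _) hs1'
  refine h1.trans ?_
  -- back to subtypes
  set T : Finset Nat.Primes := P.subtype Nat.Prime
  have e2 : ∏ p ∈ P with p.Prime, ∑' k, g (p ^ k) = ∏ p ∈ T, ∑' k, g ((p : ℕ) ^ k) := by
    rw [← Finset.prod_subtype_eq_prod_filter]
    rfl
  rw [e2]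
  have h1le : ∀ p : Nat.Primes, 1 ≤ ∑' k, g ((p : ℕ) ^ k) := fun p => Z.one_le_norm_sum p hs hs2
  calc ∏ p ∈ T, ∑' k, g ((p : ℕ) ^ k)
      ≤ ∏ p ∈ Z.except ∪ T, ∑' k, g ((p : ℕ) ^ k) := by
        refine Finset.prod_le_prod_of_subset_of_one_le Finset.subset_union_right
          (fun p _ => zero_le_one.trans (h1le p)) fun p _ _ => h1le p
    _ = (∏ p ∈ Z.except, ∑' k, g ((p : ℕ) ^ k)) * ((∏ p ∈ (T \ Z.except).filter (· ∈ Z.inert),
          ∑' k, g ((p : ℕ) ^ k)) * ∏ p ∈ (T \ Z.except).filter (· ∉ Z.inert),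
          ∑' k, g ((p : ℕ) ^ k)) := by
        rw [Finset.prod_filter_mul_prod_filter_not, ← Finset.union_sdiff_self_eq_union,
          Finset.prod_union Finset.disjoint_sdiff]
    _ ≤ _ := by
        rw [hB, mul_assoc]
        refine mul_le_mul_of_nonneg_left ?_
          (Finset.prod_nonneg fun p _ => zero_le_one.trans (h1le p))
        refine mul_le_mul ?_ ?_ (Finset.prod_nonneg fun p _ => zero_le_one.trans (h1le p))
          (Real.exp_pos _).le
        · refine (Finset.prod_le_prod (g := fun p => Real.exp (4 * xVal p s))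
            (fun p _ => zero_le_one.trans (h1le p)) fun p hp => ?_).trans
            ((Real.exp_sum _ _).symm.le.trans (Real.exp_le_exp.mpr ?_))
          · simp only [Finset.mem_filter, Finset.mem_sdiff] at hp
            exact (summable_local p hs hs2).2.1 hp.1.2 hp.2
          · rw [← Finset.mul_sum]
            exact mul_le_mul_of_nonneg_left
              ((summable_xVal hs).sum_le_tsum _ fun p _ => (xVal_pos p s).le) (by norm_num)
        · refine (Finset.prod_le_prod (fun p _ => zero_le_one.trans (h1le p)) fun p hp => ?_).trans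
            (prod_sq_le (fun p hp => ?_) hs hs2)
          · simp only [Finset.mem_filter, Finset.mem_sdiff] at hp
            exact (summable_local p hs hs2).2.2 hp.1.2 hp.2
          · simp only [Finset.mem_filter, Finset.mem_sdiff] at hp
            exact ⟨hp.1.2, hp.2⟩

theorem inert_ge {p : Nat.Primes} (h0 : p ∉ Z.except) (h1 : p ∈ Z.inert) {s : ℝ} (hs : 1 < s)
    {S : ℝ} (h : HasSum (fun k => Z.f ((p : ℕ) ^ k) * xVal p s ^ k) S) :
    Real.exp (2 * Z.two.indicator (fun p => xVal p s) p - xVal p s ^ 2) ≤ S := by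
  obtain ⟨ha, hf⟩ := Z.inert_pow p h0 h1
  simp only [hf] at h
  have hS := inert_factor_mul h
  have hx := xVal_pos p s
  have hx1 : xVal p s < 1 := xVal_lt_one hs.le
  rcases ha with ha | ha <;> rw [ha] at hS
  · have hp : 0 < 1 - xVal p s := by linarith
    have e : S = (1 - xVal p s)⁻¹ ^ 2 := by field_simp; linear_combination hS
    have hi : Z.two.indicator (fun p => xVal p s) p ≤ xVal p s :=
      Set.indicator_le_self' (fun q _ => (xVal_pos q s).le) p
    rw [e]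
    refine le_trans (Real.exp_le_exp.mpr (show _ ≤ ((2 : ℕ) : ℝ) * xVal p s by
      push_cast; nlinarith [sq_nonneg (xVal p s)])) ?_
    rw [Real.exp_nat_mul]
    exact pow_le_pow_left₀ (Real.exp_pos _).le (exp_le_inv_one_sub hx1) 2
  · have hnot : p ∉ Z.two := fun h => by simpa [ha] using (Z.two_spec p h).2.2
    rw [Set.indicator_of_notMem hnot]
    have e : S = (1 + xVal p s ^ 2)⁻¹ :=
      eq_inv_of_mul_eq_one_left (by linear_combination hS)
    rw [e, mul_zero, zero_sub, Real.exp_neg]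
    exact inv_anti₀ (by positivity) (by linarith [Real.add_one_le_exp (xVal p s ^ 2)])

theorem split_ge {p : Nat.Primes} (h0 : p ∉ Z.except) (h1 : p ∉ Z.inert) {s : ℝ} (hs : 1 < s)
    (hs2 : s ≤ 2) {S : ℝ} (h : HasSum (fun k => Z.f ((p : ℕ) ^ k) * xVal p s ^ k) S) :
    Real.exp (6 * Z.four.indicator (fun p => xVal p s) p - 4 * xVal p s ^ 2) ≤
      S * Real.sqrt (sq Z.a p s * sq Z.b p s) := by
  have hf := Z.split_pow p h0 h1
  simp only [hf] at h
  obtain ⟨hA, hB⟩ := hasSum_sq h0 h1 hs hs2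
  have hx := xVal_pos p s
  have hx1 : xVal p s < 1 := xVal_lt_one hs.le
  have hxx : 0 ≤ xVal p s ^ 2 := sq_nonneg _
  by_cases h4 : p ∈ Z.four
  · obtain ⟨-, -, ha, hb⟩ := Z.four_spec p h4
    have hSA : S = sq Z.a p s := by
      refine h.unique (hA.congr_fun fun k => ?_)
      rw [hb, _root_.sq]
    have e1 := sq_factor_two hx.le hx1 ha hA
    have eb : sq Z.b p s = sq Z.a p s := by simp only [sq, hb]
    rw [Set.indicator_of_mem h4, hSA, eb,
      Real.sqrt_mul_self (le_trans (Real.exp_pos _).le e1)]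
    refine le_trans (Real.exp_le_exp.mpr (show _ ≤ 3 * xVal p s + 3 * xVal p s by linarith)) ?_
    rw [Real.exp_add]
    exact mul_le_mul e1 e1 (Real.exp_pos _).le (le_trans (Real.exp_pos _).le e1)
  · rw [Set.indicator_of_notMem h4, mul_zero, zero_sub]
    refine le_trans ?_ (split_factor_bound hx.le hx1 h hA hB)
    have hh := xVal_le_half (p := p) hs.le
    set u := xVal p s ^ 2
    have hu : u ≤ 1 / 4 := by simp only [u]; nlinarith
    have hb : Real.exp (-(2 * u)) ≤ 1 - u := by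
      rw [Real.exp_neg, inv_le_iff_one_le_mul₀ (Real.exp_pos _)]
      nlinarith [Real.add_one_le_exp (2 * u), Real.exp_pos (2 * u)]
    calc Real.exp (-(4 * u)) = Real.exp (-(2 * u)) ^ 2 := by rw [← Real.exp_nat_mul]; ring_nf
      _ ≤ _ := pow_le_pow_left₀ (Real.exp_pos _).le hb 2

/-- The exponent that grows. -/
def growth (Z : PlaneSeries) (s : ℝ) : ℝ :=
  2 * (∑' p, Z.two.indicator (fun p => xVal p s) p) +
    6 * (∑' p, Z.four.indicator (fun p => xVal p s) p)

theorem lower_bound {s : ℝ} (hs : 1 < s) (hs2 : s ≤ 2) :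
    Z.exceptBound ^ Z.except.card *
        Real.exp (Z.growth s - 4 * ∑' n : ℕ, (n : ℝ) ^ (-2 : ℝ)) /
          Real.sqrt (Z.meanBound / (s - 1)) ≤ |∑' n, Z.term s n| := by
  classical
  have hsum := summable_term (Z := Z) hs hs2
  have h0 : Z.term s 0 = 0 := by simp [term, Z.f_zero]
  have hE := EulerProduct.eulerProduct_hasProd (by simp [term, Z.f_one])
    (fun h => Z.term_mul h) hsum h0
  set G : Nat.Primes → ℝ := fun p => ∑' e, Z.term s ((p : ℕ) ^ e) with hG
  have hGs : ∀ p : Nat.Primes,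
      HasSum (fun k => Z.f ((p : ℕ) ^ k) * xVal p s ^ k) (G p) := fun p => by
    have h := (summable_norm_iff.mp (summable_local (Z := Z) p hs hs2).1).hasSum
    simpa only [term_pow, hG] using h
  set Zs : ℝ := ∑' n : ℕ, (n : ℝ) ^ (-2 : ℝ)
  have hsub : ∀ W : Set Nat.Primes, Summable (W.indicator fun p => xVal p s) := fun W =>
    (summable_xVal hs).indicator W
  set gs : Nat.Primes → ℝ := fun p =>
    2 * Z.two.indicator (fun p => xVal p s) p + 6 * Z.four.indicator (fun p => xVal p s) p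
  have hgs : HasSum gs (Z.growth s) :=
    ((hsub _).hasSum.mul_left 2).add ((hsub _).hasSum.mul_left 6)
  have hS : 0 < Real.sqrt (Z.meanBound / (s - 1)) :=
    Real.sqrt_pos.mpr (div_pos Z.meanBound_pos (by linarith))
  have hlim : Tendsto (fun T : Finset Nat.Primes =>
      Z.exceptBound ^ Z.except.card * Real.exp (∑ p ∈ T, gs p - 4 * Zs) /
        Real.sqrt (Z.meanBound / (s - 1))) atTop
      (𝓝 (Z.exceptBound ^ Z.except.card * Real.exp (Z.growth s - 4 * Zs) /
        Real.sqrt (Z.meanBound / (s - 1)))) :=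
    (((Real.continuous_exp.tendsto _).comp (hgs.sub_const (4 * Zs))).const_mul _).div_const _
  refine le_of_tendsto_of_tendsto hlim ((continuous_abs.tendsto _).comp hE) ?_
  rw [EventuallyLE, eventually_atTop]
  refine ⟨Z.except, fun T hT => ?_⟩
  simp only [Function.comp_apply]
  set Ti := (T \ Z.except).filter (· ∈ Z.inert)
  set Ts := (T \ Z.except).filter (· ∉ Z.inert)
  have eT : ∀ u : Nat.Primes → ℝ, ∏ p ∈ T, u p =
      (∏ p ∈ Z.except, u p) * ((∏ p ∈ Ti, u p) * ∏ p ∈ Ts, u p) := fun u => by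
    rw [Finset.prod_filter_mul_prod_filter_not, ← Finset.prod_union Finset.disjoint_sdiff,
      Finset.union_sdiff_of_subset hT]
  rw [show ∏ p ∈ T, ∑' e, Z.term s ((p : ℕ) ^ e) = ∏ p ∈ T, G p from rfl, eT, abs_mul]
  have hex : Z.exceptBound ^ Z.except.card ≤ |∏ p ∈ Z.except, G p| := by
    rw [Finset.abs_prod]
    refine le_trans (le_of_eq (Finset.prod_const _).symm)
      (Finset.prod_le_prod (fun p _ => Z.exceptBound_pos.le) fun p hp => ?_)
    rw [← (hGs p).tsum_eq]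
    exact Z.except_ge p hp s hs hs2
  have hi : Real.exp (∑ p ∈ Ti, (gs p - xVal p s ^ 2)) ≤ ∏ p ∈ Ti, G p := by
    rw [Real.exp_sum]
    refine Finset.prod_le_prod (fun p _ => (Real.exp_pos _).le) fun p hp => ?_
    simp only [Ti, Finset.mem_filter, Finset.mem_sdiff] at hp
    have hn : p ∉ Z.four := fun h => (Z.four_spec p h).2.1 hp.2
    refine le_trans (Real.exp_le_exp.mpr (le_of_eq ?_)) (inert_ge hp.1.2 hp.2 hs (hGs p))
    simp [gs, Set.indicator_of_notMem hn]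
  set R := ∏ p ∈ Ts, Real.sqrt (sq Z.a p s * sq Z.b p s) with hR
  have hs' : Real.exp (∑ p ∈ Ts, (gs p - 4 * xVal p s ^ 2)) ≤ (∏ p ∈ Ts, G p) * R := by
    rw [Real.exp_sum, hR, ← Finset.prod_mul_distrib]
    refine Finset.prod_le_prod (fun p _ => (Real.exp_pos _).le) fun p hp => ?_
    simp only [Ts, Finset.mem_filter, Finset.mem_sdiff] at hp
    have hn : p ∉ Z.two := fun h => hp.2 (Z.two_spec p h).2.1
    refine le_trans (Real.exp_le_exp.mpr (le_of_eq ?_)) (split_ge hp.1.2 hp.2 hs hs2 (hGs p))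
    simp [gs, Set.indicator_of_notMem hn]
  have hTs : ∀ p ∈ Ts, p ∉ Z.except ∧ p ∉ Z.inert := fun p hp => by
    simp only [Ts, Finset.mem_filter, Finset.mem_sdiff] at hp
    exact ⟨hp.1.2, hp.2⟩
  have hR2 : R ≤ Real.sqrt (Z.meanBound / (s - 1)) := by
    rw [hR, ← Real.sqrt_prod _ fun p hp => ?_]
    · exact Real.sqrt_le_sqrt (prod_sq_le hTs hs hs2)
    · obtain ⟨u1, u2⟩ := one_le_sq (hTs p hp).1 (hTs p hp).2 hs hs2
      nlinarith
  have hgp : 0 < (∏ p ∈ Ts, G p) := by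
    by_contra hc
    push Not at hc
    have hR0 : 0 ≤ R := Finset.prod_nonneg fun p _ => Real.sqrt_nonneg _
    nlinarith [hs', Real.exp_pos (∑ p ∈ Ts, (gs p - 4 * xVal p s ^ 2)),
      mul_nonpos_of_nonpos_of_nonneg hc hR0]
  have hip : 0 < ∏ p ∈ Ti, G p := lt_of_lt_of_le (Real.exp_pos _) hi
  rw [abs_of_pos (mul_pos hip hgp), mul_div_assoc]
  refine mul_le_mul hex ?_ (div_nonneg (Real.exp_pos _).le hS.le) (abs_nonneg _)
  rw [div_le_iff₀ hS, mul_assoc]
  have hb : ∑ p ∈ T, gs p - 4 * Zs ≤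
      ∑ p ∈ Ti, (gs p - xVal p s ^ 2) + ∑ p ∈ Ts, (gs p - 4 * xVal p s ^ 2) := by
    have e : ∀ u : Nat.Primes → ℝ, ∑ p ∈ T, u p =
        ∑ p ∈ Z.except, u p + (∑ p ∈ Ti, u p + ∑ p ∈ Ts, u p) := fun u => by
      rw [Finset.sum_filter_add_sum_filter_not, ← Finset.sum_union Finset.disjoint_sdiff,
        Finset.union_sdiff_of_subset hT]
    have h0' : ∑ p ∈ Z.except, gs p = 0 := Finset.sum_eq_zero fun p hp => by
      have h2 : p ∉ Z.two := fun h => (Z.two_spec p h).1 hp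
      have h4 : p ∉ Z.four := fun h => (Z.four_spec p h).1 hp
      simp [gs, h2, h4]
    have hq : ∑ p ∈ Ti, xVal p s ^ 2 + 4 * ∑ p ∈ Ts, xVal p s ^ 2 ≤ 4 * Zs := by
      have ha := e fun p => xVal p s ^ 2
      have := sum_xVal_sq_le hs.le T
      have h3 : 0 ≤ ∑ p ∈ Ti, xVal p s ^ 2 := Finset.sum_nonneg fun p _ => sq_nonneg _
      have h5 : 0 ≤ ∑ p ∈ Z.except, xVal p s ^ 2 := Finset.sum_nonneg fun p _ => sq_nonneg _
      linarith
    rw [e gs, h0', zero_add, Finset.sum_sub_distrib, Finset.sum_sub_distrib, ← Finset.mul_sum]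
    linarith
  refine (Real.exp_le_exp.mpr hb).trans ?_
  rw [Real.exp_add]
  exact mul_le_mul hi (hs'.trans (mul_le_mul_of_nonneg_left hR2 hgp.le)) (Real.exp_pos _).le hip.le

/-- The series is unbounded near `1`. -/
theorem tendsto_atTop (Z : PlaneSeries) :
    (∀ s : ℝ, 1 < s → s ≤ 2 → Summable fun n => ‖Z.term s n‖) ∧
      Tendsto (fun s => |∑' n, Z.term s n|) (𝓝[>] 1) atTop := by
  refine ⟨fun s h1 h2 => summable_term h1 h2, ?_⟩
  set c : ℝ := Z.exceptBound ^ Z.except.card /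
    (Real.exp (4 * ∑' n : ℕ, (n : ℝ) ^ (-2 : ℝ)) * Real.sqrt Z.meanBound)
  have hc : 0 < c := div_pos (pow_pos Z.exceptBound_pos _)
    (mul_pos (Real.exp_pos _) (Real.sqrt_pos.mpr Z.meanBound_pos))
  refine tendsto_atTop_mono' _ ?_ ((Real.tendsto_exp_atTop.comp Z.large).const_mul_atTop hc)
  filter_upwards [Ioc_mem_nhdsGT (one_lt_two : (1 : ℝ) < 2)] with s hs
  refine le_trans (le_of_eq ?_) (lower_bound hs.1 hs.2)
  have hp : 0 < s - 1 := by linarith [hs.1]
  simp only [Function.comp_apply, c, growth]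
  rw [Real.exp_sub, Real.exp_sub, Real.sqrt_div' _ hp.le,
    show Real.log (1 / (s - 1)) / 2 = Real.log (Real.sqrt (1 / (s - 1))) by
      rw [Real.log_sqrt (by positivity)],
    Real.exp_log (Real.sqrt_pos.mpr (by positivity)), Real.sqrt_div' _ hp.le, Real.sqrt_one]
  field_simp

end PlaneSeries

end FLTAgent.LanglandsTunnell.Period

end
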