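import Fermat.Agent.LanglandsTunnell.Period.Select
import Fermat.Agent.LanglandsTunnell.Period.Coefficients
import Fermat.Agent.LanglandsTunnell.Period.Series

/-!
# The coefficients of the selected vector at rational frequencies

The different of `ℚ(√-3)` is generated by `√-3`, a level squarefree away from `3` and the bad
primes is exact at every prime away from them, and the rational frequencies carry the coefficients
of the plane series.
-/

set_option autoImplicit false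

open NumberField Matrix

noncomputable section

namespace FLTAgent.LanglandsTunnell.Period

open FLTAgent.LanglandsTunnell FLTAgent.LanglandsTunnell.Expansion FLTAgent.LanglandsTunnell.Lift
open FLTAgent.LanglandsTunnell.Killing (mk_mul_congr)

section General

variable {F : Type} [Field F] [NumberField F] {N : ℕ}

/-- An integral unit which is `1` at the primes dividing `N`. -/
structure IsOutUnit (N : ℕ) (u : (AF F)ˣ) : Prop where
  out : OutsideN N u
  int : (u : AF F) ∈ intAF F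
  inv_int : ((u⁻¹ : (AF F)ˣ) : AF F) ∈ intAF F

omit [NumberField F] in
theorem IsOutUnit.inv {u : (AF F)ˣ} (h : IsOutUnit N u) : IsOutUnit N u⁻¹ :=
  ⟨h.out.inv, h.inv_int, by rw [inv_inv]; exact h.int⟩

omit [NumberField F] in
theorem IsOutUnit.mul {u v : (AF F)ˣ} (h : IsOutUnit N u) (h' : IsOutUnit N v) :
    IsOutUnit N (u * v) :=
  ⟨h.out.mul h'.out, by rw [Units.val_mul]; exact mul_mem h.int h'.int,
    by rw [_root_.mul_inv_rev, Units.val_mul]; exact mul_mem h'.inv_int h.inv_int⟩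

omit [NumberField F] in
theorem isOutUnit_outPart {u : (AF F)ˣ} (h : (u : AF F) ∈ intAF F)
    (h' : (1 - eN F N) * ((u⁻¹ : (AF F)ˣ) : AF F) ∈ intAF F) : IsOutUnit N (outPart N u) :=
  ⟨outsideN_outPart u, by rw [coe_outPart]; exact add_mem (mul_mem one_sub_eN_mem h) eN_mem,
    by rw [coe_outPart_inv]; exact add_mem h' eN_mem⟩

theorem exists_one_sub_eN_eq (hN : N ≠ 0) {d : ℕ} (hd : d ∣ N) :
    ∃ w ∈ intAF F, 1 - eN F N = (d : AF F) * w := by
  obtain ⟨m, rfl⟩ := hd
  obtain ⟨w, hw, hwe⟩ := exists_eq_natCast_mul (one_sub_eN_mem_idealAF (F := F) hN)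
  refine ⟨(m : AF F) * w, mul_mem (natCast_mem _ m) hw, hwe.trans ?_⟩
  push_cast
  ring

theorem isOutUnit_outPart_natUnit (hN : N ≠ 0) : IsOutUnit N (outPart N (natUnit F hN)) := by
  obtain ⟨w, hw, hwe⟩ := exists_one_sub_eN_eq (F := F) hN dvd_rfl
  refine isOutUnit_outPart (by rw [coe_natUnit]; exact natCast_mem _ N) ?_
  have h := (natUnit F hN).inv_mul
  rw [coe_natUnit] at h
  rw [show (1 - eN F N) * (((natUnit F hN)⁻¹ : (AF F)ˣ) : AF F) = w by
    linear_combination (((natUnit F hN)⁻¹ : (AF F)ˣ) : AF F) * hwe + w * h]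
  exact hw

theorem eN_mul_not_mem {p : ℕ} (hp : p.Prime) (hpN : p ∣ N) (hN : N ≠ 0) {x : AF F}
    (hx : x ∈ intAF F) : eN F N ≠ (p : AF F) * x := by
  intro h
  obtain ⟨w, hw, hwe⟩ := exists_one_sub_eN_eq (F := F) hN hpN
  have h1 : toAF F ((1 : 𝓞 F) : F) ∈ idealAF F (Ideal.span {(p : 𝓞 F)}) := by
    rw [show ((1 : 𝓞 F) : F) = 1 from map_one _, map_one,
      show (1 : AF F) = (p : AF F) * (x + w) by linear_combination h + hwe]
    rw [mul_comm]
    exact mul_mem_idealAF_left (add_mem hx hw)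
      (LanglandsTunnell.natCast_mem_idealAF (Ideal.mem_span_singleton_self _))
  have h2 := (toAF_mem_idealAF_iff (by simpa using hp.ne_zero)).mp h1
  rw [← Ideal.eq_top_iff_one, ← Ideal.absNorm_eq_one_iff, Ideal.absNorm_span_natCast] at h2
  rw [RingOfIntegers.rank] at h2
  rcases Nat.pow_eq_one.mp h2 with h3 | h3
  · exact hp.ne_one h3
  · exact (Module.finrank_pos (R := ℚ) (M := F)).ne' h3

end General

variable {D : Datum} (P : ExtPlaces D)

/-! ### The different -/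

theorem trace_eq_two_re (f : D.E) :
    ((Algebra.trace ℚ D.E f : ℚ) : ℝ) = 2 * (embE P f).re := by
  have h := trace_eq_sum_re P.placesE f
  rw [Finset.univ_unique, Finset.sum_singleton] at h
  have h' := congrArg Complex.re h
  rw [Complex.ratCast_re, Complex.ofReal_re] at h'
  exact h'

theorem embE_sqrtNegThree : embE P (sqrtNegThree P : D.E) = 1 + 2 * omega :=
  (exists_sqrtNegThree P).choose_spec

theorem trExp_div_sqrtNegThree (o : 𝓞 D.E) :
    trExp (((sqrtNegThree P : D.E))⁻¹ * (o : D.E)) = 1 := by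
  refine (trExp_eq_one_iff _).mpr ?_
  obtain ⟨x, y, hxy⟩ := emb_mem_Eis P o
  refine ⟨y, Rat.cast_injective (α := ℝ) ?_⟩
  rw [trace_eq_two_re P, map_mul, map_inv₀, embE_sqrtNegThree, hxy]
  have e : (1 + 2 * omega)⁻¹ = -(1 + 2 * omega) / 3 := by
    refine inv_eq_of_mul_eq_one_right ?_
    linear_combination (-(4 / 3) : ℂ) * omega_sq
  rw [e]
  simp [eis, omega, Complex.mul_re, Complex.mul_im]
  have := Real.mul_self_sqrt (show (0 : ℝ) ≤ 3 by norm_num)
  linear_combination (y : ℝ) / 3 * this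

theorem exists_sqrtNegThree_mul {f : D.E}
    (hf : ∀ o : 𝓞 D.E, trExp (f * (o : D.E)) = 1) :
    ∃ b : 𝓞 D.E, (b : D.E) = f * (sqrtNegThree P : D.E) := by
  obtain ⟨ζ, hζ⟩ := exists_emb_omega P
  obtain ⟨k, hk⟩ := (trExp_eq_one_iff _).mp (hf 1)
  obtain ⟨l, hl⟩ := (trExp_eq_one_iff _).mp (hf ζ)
  have hk' := congrArg (fun q : ℚ => (q : ℝ)) hk
  have hl' := congrArg (fun q : ℚ => (q : ℝ)) hl
  simp only [trace_eq_two_re P, map_one, map_mul, mul_one, hζ, Rat.cast_intCast] at hk' hl'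
  obtain ⟨b, hb⟩ := exists_emb_eq P (z := eis ((l + k : ℤ) : ℝ) ((k : ℤ) : ℝ)) ⟨l + k, k, rfl⟩
  refine ⟨b, (embE P).injective ?_⟩
  rw [hb, map_mul, embE_sqrtNegThree]
  have h3 := Real.mul_self_sqrt (show (0 : ℝ) ≤ 3 by norm_num)
  simp [omega, Complex.mul_re] at hk' hl'
  refine Complex.ext ?_ ?_
  · simp [eis, omega, Complex.mul_re, Complex.mul_im]
    linear_combination (-(1 : ℝ)) * hl' - (1 / 2) * hk'
  · simp [eis, omega, Complex.mul_re, Complex.mul_im]
    linear_combination (-(Real.sqrt 3) / 2) * hk'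

/-- The different is generated by `√-3`. -/
theorem exists_diffUnit_eq : ∃ U : (AF D.E)ˣ, (U : AF D.E) ∈ intAF D.E ∧
    ((U⁻¹ : (AF D.E)ˣ) : AF D.E) ∈ intAF D.E ∧
    diffUnit D.E = prUnit (nzUnit (sqrtNegThree P) (sqrtNegThree_ne_zero P)) * U := by
  set d := nzUnit (sqrtNegThree P) (sqrtNegThree_ne_zero P) with hd
  refine ⟨(prUnit d)⁻¹ * diffUnit D.E, ?_, ?_, (mul_inv_cancel_left _ _).symm⟩
  · have h1 : ((prUnit d)⁻¹ : (AF D.E)ˣ) = toAF D.E (((sqrtNegThree P : D.E))⁻¹) := by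
      refine (prUnit d).isUnit.mul_left_cancel ?_
      rw [Units.mul_inv, coe_prUnit, hd, coe_nzUnit, ← map_mul,
        mul_inv_cancel₀ (RingOfIntegers.coe_ne_zero_iff.mpr (sqrtNegThree_ne_zero P)), map_one]
    rw [Units.val_mul, mul_comm, h1]
    refine psi_mul_int_iff.mp fun z hz => ?_
    obtain ⟨z₁, rfl⟩ := mem_intAF.mp hz
    obtain ⟨o, r, rfl⟩ := oh_exists_add (F := D.E) three_ne_zero z₁
    rw [map_add, map_mul, map_natCast, intHom_tmul_one, mul_add, psi_add, ← map_mul, psi_toAF,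
      trExp_div_sqrtNegThree, one_mul, ← mul_assoc, ← map_natCast (toAF D.E), ← map_mul]
    refine psi_of_mem (mul_mem ?_ ⟨r, rfl⟩)
    have e : ((sqrtNegThree P : D.E))⁻¹ * ((3 : ℕ) : D.E) = ((-sqrtNegThree P : 𝓞 D.E) : D.E) := by
      have h := congrArg (fun b : 𝓞 D.E => (b : D.E)) (sqrtNegThree_sq P)
      simp only [map_mul, map_neg, map_ofNat] at h
      rw [inv_mul_eq_iff_eq_mul₀ (RingOfIntegers.coe_ne_zero_iff.mpr (sqrtNegThree_ne_zero P))]
      push_cast
      linear_combination h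
    rw [e]
    exact toAF_mem_intAF _
  · rw [_root_.mul_inv_rev, inv_inv, Units.val_mul, coe_prUnit, hd, coe_nzUnit]
    obtain ⟨g, hg⟩ := exists_sub_mem_int (((diffUnit D.E)⁻¹ : (AF D.E)ˣ) : AF D.E)
    have hdual : ∀ o : 𝓞 D.E, trExp (g * (o : D.E)) = 1 := fun o => by
      have h1 := psi_mul_int_iff.mpr
        (show (diffUnit D.E : AF D.E) * (((diffUnit D.E)⁻¹ : (AF D.E)ˣ) : AF D.E) ∈ intAF D.E by
          rw [Units.mul_inv]; exact one_mem _) _ (toAF_mem_intAF o)
      rwa [psi_eq (f := g * (o : D.E)) (by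
        rw [map_mul, ← sub_mul]; exact mul_mem hg (toAF_mem_intAF o))] at h1
    obtain ⟨b, hb⟩ := exists_sqrtNegThree_mul P hdual
    have h2 := add_mem (mul_mem hg (toAF_mem_intAF (sqrtNegThree P))) (toAF_mem_intAF b)
    rw [hb, map_mul] at h2
    convert h2 using 1
    ring

variable {N : ℕ}

theorem sqrtNegThree_coprime (hN : ¬ 3 ∣ N) :
    Ideal.span {sqrtNegThree P} ⊔ Ideal.span {(N : 𝓞 D.E)} = ⊤ := by
  refine top_le_iff.mp ((coprime_span_natCast (D := D)
    (Nat.prime_three.coprime_iff_not_dvd.mpr hN)).symm.le.trans (sup_le_sup_right ?_ _))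
  rw [Ideal.span_singleton_le_iff_mem]
  exact_mod_cast three_mem P

include P in
/-- The bound on the inverse of the different at the primes of the level. -/
theorem diffUnit_inv_bound {m : ℕ} (h3m : 3 ∣ N → 3 ∣ m) :
    ∃ k : ℕ, ((m ^ k : ℕ) : AF D.E) *
      (eN D.E N * (((diffUnit D.E)⁻¹ : (AF D.E)ˣ) : AF D.E)) ∈ intAF D.E := by
  obtain ⟨U, -, hU', hd⟩ := exists_diffUnit_eq P
  set d := prUnit (nzUnit (sqrtNegThree P) (sqrtNegThree_ne_zero P)) with hdd
  rw [hd, _root_.mul_inv_rev, Units.val_mul]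
  by_cases h3 : 3 ∣ N
  · obtain ⟨l, hl⟩ := h3m h3
    refine ⟨1, ?_⟩
    rw [show m ^ 1 = l * 3 ^ 1 by rw [pow_one, pow_one, hl, mul_comm], Nat.cast_mul, mul_assoc]
    refine mul_mem (natCast_mem _ l) ?_
    have e : ((3 ^ 1 : ℕ) : AF D.E) =
        -(toAF D.E (sqrtNegThree P : D.E) * (d : AF D.E)) := by
      rw [hdd, coe_prUnit, coe_nzUnit, ← map_mul, ← map_mul (algebraMap (𝓞 D.E) D.E),
        sqrtNegThree_sq, map_neg, map_neg, neg_neg, map_ofNat, map_ofNat]
      norm_num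
    rw [e, show -(toAF D.E (sqrtNegThree P : D.E) * (d : AF D.E)) * (eN D.E N *
        (((U⁻¹ : (AF D.E)ˣ) : AF D.E) * ((d⁻¹ : (AF D.E)ˣ) : AF D.E))) =
        -(toAF D.E (sqrtNegThree P : D.E) * eN D.E N * ((U⁻¹ : (AF D.E)ˣ) : AF D.E)) by
      linear_combination (-(toAF D.E (sqrtNegThree P : D.E) * eN D.E N *
        ((U⁻¹ : (AF D.E)ˣ) : AF D.E))) * d.mul_inv]
    exact neg_mem (mul_mem (mul_mem (toAF_mem_intAF _) eN_mem) hU')
  · refine ⟨0, ?_⟩
    rw [pow_zero, Nat.cast_one, one_mul, ← mul_assoc,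
      mul_comm (eN D.E N) ((U⁻¹ : (AF D.E)ˣ) : AF D.E), mul_assoc]
    exact mul_mem hU' (eN_mul_inv_mem (sqrtNegThree_coprime P h3) (sqrtNegThree_ne_zero P))

include P in
/-- A level squarefree at the primes not dividing `m`, where `m` is divisible by `3` if the level
is, is exact at the primes away from `m`. -/
theorem exact_of_squarefree (hN : N ≠ 0) {m : ℕ}
    (hsq : ∀ q : ℕ, q.Prime → q ^ 2 ∣ N → q ∣ m) (h3m : 3 ∣ N → 3 ∣ m)
    (v : Ideal (𝓞 D.E)) (hv : v.IsPrime) (hvN : (N : 𝓞 D.E) ∈ v) (hvm : (m : 𝓞 D.E) ∉ v) :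
    ¬ v ^ 2 ∣ lv D.E N := by
  have hv0 : v ≠ ⊥ := ne_bot_of_natCast_mem hN hvN
  obtain ⟨p, hp⟩ := exists_prime_natCast_mem hv hv0
  have hpd : (p : ℕ) ∣ N := by
    by_contra h
    exact natCast_not_mem_of_coprime hv (p.2.coprime_iff_not_dvd.mpr h) hp hvN
  have hpn : ¬ (p : ℕ) ∣ m := fun ⟨j, hj⟩ => hvm (by
    rw [hj, Nat.cast_mul]
    exact Ideal.mul_mem_right _ _ hp)
  have hp3 : (p : ℕ) ≠ 3 := fun h => hpn (by rw [h] at hpd ⊢; exact h3m hpd)
  obtain ⟨l, hm⟩ := hpd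
  have hpm : ¬ (p : ℕ) ∣ l := fun ⟨j, hj⟩ => hpn (hsq p p.2 ⟨j, by rw [hm, hj]; ring⟩)
  intro hdiv
  rw [lv, hm, Nat.cast_mul, ← Ideal.span_singleton_mul_span_singleton] at hdiv
  have hvp := Ideal.prime_of_isPrime hv0 hv
  have hdp : v ^ 2 ∣ Ideal.span {((p : ℕ) : 𝓞 D.E)} :=
    hvp.pow_dvd_of_dvd_mul_right 2 (not_dvd_span_natCast (N := l) p.2 hpm hv hp) hdiv
  rcases split_or_inert P p.2 hp3 with ⟨w, w', hw, hw', hne, hprod, hn1, hn2⟩ | ⟨-, huniq⟩
  · have hw0 : w ≠ ⊥ := fun h => by rw [h, Ideal.absNorm_bot] at hn1; exact p.2.ne_zero hn1.symm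
    have hw0' : w' ≠ ⊥ := fun h => by rw [h, Ideal.absNorm_bot] at hn2; exact p.2.ne_zero hn2.symm
    rw [← hprod, pow_two] at hdp
    have key : ∀ w w' : Ideal (𝓞 D.E), w.IsPrime → w ≠ ⊥ → w'.IsPrime → w' ≠ ⊥ → w ≠ w' →
        v = w → v * v ∣ w * w' → False := by
      rintro w w' hw hw0 hw' hw0' hne rfl h
      exact hne ((hw'.isMaximal hw0').eq_of_le hw.ne_top
        (Ideal.le_of_dvd ((mul_dvd_mul_iff_left hw0).mp h))).symm
    rcases hvp.dvd_or_dvd (dvd_trans (dvd_mul_right v v) hdp) with h | h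
    · exact key w w' hw hw0 hw' hw0' hne
        ((hw.isMaximal hw0).eq_of_le hv.ne_top (Ideal.le_of_dvd h)).symm hdp
    · exact key w' w hw' hw0' hw hw0 hne.symm
        ((hw'.isMaximal hw0').eq_of_le hv.ne_top (Ideal.le_of_dvd h)).symm (mul_comm w w' ▸ hdp)
  · rw [← huniq v hv hp] at hdp
    have h1 := Ideal.absNorm_dvd_absNorm_of_le (Ideal.le_of_dvd hdp)
    rw [map_pow] at h1
    have h2 : 2 ≤ Ideal.absNorm v := by
      have e1 : Ideal.absNorm v ≠ 1 := fun e => hv.ne_top (Ideal.absNorm_eq_one_iff.mp e)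
      have e2 := absNorm_ne_zero hv0
      omega
    have h4 := Nat.le_of_dvd (by omega) h1
    nlinarith

/-! ### The rational frequencies -/

theorem inUnit_intCast (hN : N ≠ 0) {d : ℕ} (hd0 : d ≠ 0)
    (hd : ∀ q : ℕ, q.Prime → q ∣ d → q ∣ N) {i : ℤ}
    {z : (AF D.E)ˣ} (hz : (d : AF D.E) * (z : AF D.E) = (i : AF D.E)) :
    InUnit N z ↔ d ∣ i.natAbs ∧ (i.natAbs / d).Coprime N := by
  constructor
  · rintro ⟨h1, h2⟩
    have hdvd : d ∣ i.natAbs := by
      have he : eN D.E (d * N) = eN D.E N := insideZhat_congr fun q hq => by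
        refine ⟨fun h => ?_, fun h => h.mul_left _⟩
        rcases (Nat.Prime.dvd_mul hq).mp h with h | h
        · exact hd q hq h
        · exact h
      obtain ⟨w, hw, hwe⟩ := exists_one_sub_eN_eq (F := D.E)
        (mul_ne_zero hd0 hN) (dvd_mul_right d N)
      rw [he] at hwe
      have hmem : toAF D.E ((i : 𝓞 D.E) : D.E) ∈
          idealAF D.E (lv D.E (d)) := by
        rw [show ((i : 𝓞 D.E) : D.E) = (i : D.E) from map_intCast _ i, map_intCast,
          show (i : AF D.E) = (d : AF D.E) *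
            (eN D.E N * (z : AF D.E) + (i : AF D.E) * w) by
            linear_combination (i : AF D.E) * hwe - (eN D.E N) * hz]
        exact natCast_mul_mem_lvl (add_mem h1 (mul_mem (intCast_mem _ i) hw))
      have h3' := Ideal.absNorm_dvd_absNorm_of_le ((Ideal.span_singleton_le_iff_mem _).mpr
        ((toAF_mem_idealAF_iff (lv_ne_bot hd0)).mp hmem))
      have hi : Ideal.absNorm (Ideal.span {(i : 𝓞 D.E)}) = i.natAbs ^ 2 := by
        rw [← absNorm_span_natCast_E (D := D)]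
        congr 1
        exact Ideal.span_singleton_eq_span_singleton.mpr
          ((Int.associated_natAbs i).map (Int.castRingHom (𝓞 D.E)) |>.trans (by simp))
      rw [hi, absNorm_span_natCast_E] at h3'
      exact (Nat.pow_dvd_pow_iff two_ne_zero).mp h3'
    refine ⟨hdvd, ?_⟩
    by_contra hc
    obtain ⟨p, hp, hp1, hp2⟩ := Nat.Prime.not_coprime_iff_dvd.mp hc
    obtain ⟨m, hm⟩ := Int.natCast_dvd.mpr hdvd
    have hm' : i.natAbs / d = m.natAbs := by
      rw [hm, Int.natAbs_mul, Int.natAbs_natCast,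
        Nat.mul_div_cancel_left _ (Nat.pos_of_ne_zero hd0)]
    rw [hm'] at hp1
    obtain ⟨l, rfl⟩ := Int.natCast_dvd.mpr hp1
    have hzv : (z : AF D.E) = (p : AF D.E) * (l : AF D.E) := by
      refine (isUnit_natCast_AF (F := D.E) hd0).mul_left_cancel ?_
      rw [hz, hm]
      push_cast
      ring
    refine eN_mul_not_mem hp hp2 hN (x := (l : AF D.E) * (eN D.E N * ((z⁻¹ : (AF D.E)ˣ) : AF D.E)))
      (mul_mem (intCast_mem _ l) h2) ?_
    linear_combination (-(eN D.E N)) * z.mul_inv +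
      (eN D.E N * ((z⁻¹ : (AF D.E)ˣ) : AF D.E)) * hzv
  · rintro ⟨hdvd, hc⟩
    obtain ⟨m, hm⟩ := Int.natCast_dvd.mpr hdvd
    rw [hm, Int.natAbs_mul, Int.natAbs_natCast,
      Nat.mul_div_cancel_left _ (Nat.pos_of_ne_zero hd0)] at hc
    have hzv : (z : AF D.E) = (m : AF D.E) := by
      refine (isUnit_natCast_AF (F := D.E) hd0).mul_left_cancel ?_
      rw [hz, hm]
      push_cast
      ring
    have hm0 : m ≠ 0 := by
      rintro rfl
      rw [Int.cast_zero] at hzv
      exact z.ne_zero hzv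
    have hco : Ideal.span {(m : 𝓞 D.E)} ⊔ Ideal.span {(N : 𝓞 D.E)} = ⊤ := by
      rw [show Ideal.span {(m : 𝓞 D.E)} = Ideal.span {((m.natAbs : ℕ) : 𝓞 D.E)} from
        Ideal.span_singleton_eq_span_singleton.mpr
          ((Int.associated_natAbs m).map (Int.castRingHom (𝓞 D.E)) |>.trans (by simp))]
      exact coprime_span_natCast hc
    have hm0' : (m : 𝓞 D.E) ≠ 0 := by simpa using hm0
    refine ⟨?_, ?_⟩
    · rw [hzv]; exact mul_mem eN_mem (intCast_mem _ m)
    · have e : z = prUnit (nzUnit (m : 𝓞 D.E) hm0') := Units.ext (by simp [hzv])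
      rw [e]
      exact eN_mul_inv_mem hco hm0'

variable {a : Ideal (𝓞 D.E) → ℂ} {c : FinPt D.E (lv D.E N) → ℂ}
  {h : GL (Fin 2) (AF D.E)}

/-- The base value of the selected function. -/
def baseValue (N : ℕ) (c : FinPt D.E (lv D.E N) → ℂ) (h : GL (Fin 2) (AF D.E)) : ℂ :=
  c ((diagUnit (diffOut D.E N)⁻¹ * h : GL (Fin 2) (AF D.E)) : FinPt D.E (lv D.E N))

theorem baseValue_ne_zero (hc : IsWhitFn c a) (hN : N ≠ 0) (hh : InsideN N h)
    (hw : ∃ z : (AF D.E)ˣ, OutsideN N z ∧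
      c ((diagUnit z * h : GL (Fin 2) (AF D.E)) : FinPt D.E (lv D.E N)) ≠ 0) :
    baseValue N c h ≠ 0 := by
  intro h0
  obtain ⟨z, hz, hne⟩ := hw
  refine hne ?_
  have := sum_whit_eq_zero (a := a) hN ({()} : Finset Unit) (fun _ => 1) (fun _ => c)
    (fun _ _ => hc) (fun _ => h) (fun _ _ => hh)
    (by rw [Finset.sum_singleton, one_mul]; exact h0) hz
  rwa [Finset.sum_singleton, one_mul] at this

/-- The value outside the level at an integer prime to it. -/
theorem value_intCast (hc : IsWhitFn c a) (hN : N ≠ 0) (hh : InsideN N h)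
    (hreal : ∀ v : Ideal (𝓞 D.E), v.IsPrime → v ≠ ⊥ → ¬ v ∣ Ideal.span {(N : 𝓞 D.E)} →
      (a v).im = 0)
    {m : ℤ} (hm : (m : 𝓞 D.E) ≠ 0) (hco : m.natAbs.Coprime N) {y : (AF D.E)ˣ}
    (hy : (y : AF D.E) * (N : AF D.E) = (m : AF D.E)) :
    (Real.sqrt (Ideal.absNorm (planeIdeal P N m.natAbs)) : ℂ) *
        c ((diagUnit (outPart N y) * h : GL (Fin 2) (AF D.E)) : FinPt D.E (lv D.E N)) =
      (lam a (planeIdeal P N m.natAbs) : ℂ) * baseValue N c h := by
  obtain ⟨U, hU, hU', hd⟩ := exists_diffUnit_eq P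
  set d := prUnit (nzUnit (sqrtNegThree P) (sqrtNegThree_ne_zero P)) with hdd
  have hspan : Ideal.span {((m.natAbs : ℕ) : 𝓞 D.E)} = Ideal.span {(m : 𝓞 D.E)} :=
    (Ideal.span_singleton_eq_span_singleton.mpr
      ((Int.associated_natAbs m).map (Int.castRingHom (𝓞 D.E)) |>.trans (by simp))).symm
  have hcm := coprime_span_natCast (D := D) hco
  rw [hspan] at hcm
  have hoU : IsOutUnit N (outPart N U) :=
    isOutUnit_outPart hU (mul_mem one_sub_eN_mem hU')
  -- the generator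
  obtain ⟨ξ, hξ, hξI, hξc, u, hu, hout⟩ : ∃ (ξ : 𝓞 D.E) (hξ : ξ ≠ 0),
      planeIdeal P N m.natAbs = Ideal.span {ξ} ∧
      Ideal.span {ξ} ⊔ Ideal.span {(N : 𝓞 D.E)} = ⊤ ∧ ∃ u, IsOutUnit N u ∧
      outPart N y = (diffOut D.E N)⁻¹ * outPart N (prUnit (nzUnit ξ hξ)) * u := by
    have hy' : y * natUnit D.E hN = prUnit (nzUnit (m : 𝓞 D.E) hm) := Units.ext (by simp [hy])
    have e1 : outPart N y = outPart N (prUnit (nzUnit (m : 𝓞 D.E) hm)) *
        (outPart N (natUnit D.E hN))⁻¹ := by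
      rw [← hy', outPart_mul, mul_inv_cancel_right]
    have eδ : diffOut D.E N = outPart N d * outPart N U := by
      rw [diffOut, hd, outPart_mul]
    by_cases h3 : 3 ∣ N
    · refine ⟨(m : 𝓞 D.E), hm, by rw [planeIdeal, if_pos h3, hspan], hcm,
        outPart N d * outPart N U * (outPart N (natUnit D.E hN))⁻¹,
        ((?_ : IsOutUnit N (outPart N d)).mul hoU).mul (isOutUnit_outPart_natUnit hN).inv, ?_⟩
      · refine isOutUnit_outPart (by rw [hdd, coe_prUnit]; exact toAF_mem_intAF _) ?_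
        obtain ⟨w, hw, hwe⟩ := exists_one_sub_eN_eq (F := D.E) hN h3
        have e : (1 - eN D.E N) * ((d⁻¹ : (AF D.E)ˣ) : AF D.E) =
            -(w * toAF D.E (sqrtNegThree P : D.E)) := by
          have hsq : (d : AF D.E) * toAF D.E (sqrtNegThree P : D.E) = -((3 : ℕ) : AF D.E) := by
            rw [hdd, coe_prUnit, coe_nzUnit, ← map_mul, ← map_mul (algebraMap (𝓞 D.E) D.E),
              sqrtNegThree_sq, map_neg, map_neg, map_ofNat, map_ofNat]
            norm_num
          refine d.isUnit.mul_left_cancel ?_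
          linear_combination (1 - eN D.E N) * d.mul_inv + hwe + w * hsq
        rw [e]
        exact neg_mem (mul_mem hw (toAF_mem_intAF _))
      · rw [e1, eδ]
        simp only [_root_.mul_inv_rev]
        refine Units.ext ?_
        simp only [Units.val_mul]
        linear_combination
          (-((outPart N (prUnit (nzUnit (m : 𝓞 D.E) hm)) : AF D.E) *
            (((outPart N (natUnit D.E hN))⁻¹ : (AF D.E)ˣ) : AF D.E))) *
            ((outPart N U).inv_mul) -
          ((outPart N (prUnit (nzUnit (m : 𝓞 D.E) hm)) : AF D.E) *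
            (((outPart N (natUnit D.E hN))⁻¹ : (AF D.E)ˣ) : AF D.E) *
            (((outPart N U)⁻¹ : (AF D.E)ˣ) : AF D.E) * (outPart N U : AF D.E)) *
            ((outPart N d).inv_mul)
    · have hξ : (m : 𝓞 D.E) * sqrtNegThree P ≠ 0 := mul_ne_zero hm (sqrtNegThree_ne_zero P)
      refine ⟨_, hξ, by rw [planeIdeal, if_neg h3, hspan, Ideal.span_singleton_mul_span_singleton],
        ?_, outPart N U * (outPart N (natUnit D.E hN))⁻¹,
        hoU.mul (isOutUnit_outPart_natUnit hN).inv, ?_⟩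
      · rw [← Ideal.span_singleton_mul_span_singleton, sup_comm]
        exact Ideal.sup_mul_eq_of_coprime_left
          (sup_comm (Ideal.span {(m : 𝓞 D.E)}) _ ▸ hcm) |>.trans
          (sup_comm (Ideal.span {sqrtNegThree P}) _ ▸ sqrtNegThree_coprime P h3)
      · have e2 : prUnit (nzUnit ((m : 𝓞 D.E) * sqrtNegThree P) hξ) =
            prUnit (nzUnit (m : 𝓞 D.E) hm) * d := by
          rw [hdd, ← prUnit_mul]
          congr 1
          exact Units.ext (by simp)
        rw [e1, eδ, e2, outPart_mul]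
        simp only [_root_.mul_inv_rev]
        refine Units.ext ?_
        simp only [Units.val_mul]
        linear_combination
          (-((outPart N (prUnit (nzUnit (m : 𝓞 D.E) hm)) : AF D.E) *
            (((outPart N (natUnit D.E hN))⁻¹ : (AF D.E)ˣ) : AF D.E))) *
            ((outPart N U).inv_mul) -
          ((outPart N (prUnit (nzUnit (m : 𝓞 D.E) hm)) : AF D.E) *
            (((outPart N (natUnit D.E hN))⁻¹ : (AF D.E)ˣ) : AF D.E) *
            (((outPart N U)⁻¹ : (AF D.E)ˣ) : AF D.E) * (outPart N U : AF D.E)) *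
            ((outPart N d).inv_mul)
  rw [hout, mk_diag_unit hN hh _ hu.out hu.int hu.inv_int, hξI]
  exact whit_value hc hN hh
    (fun I hI => (exists_generator hI).imp fun x hx => hx.2) hreal hξc hξ

theorem planeIdeal_absNorm (N n : ℕ) : Ideal.absNorm (planeIdeal P N n) =
    n ^ 2 * Ideal.absNorm (planeIdeal P N 1) := by
  unfold planeIdeal
  split_ifs
  · rw [Nat.cast_one, Ideal.span_singleton_one, Ideal.absNorm_top, absNorm_span_natCast_E, mul_one]
  · rw [map_mul, map_mul, Nat.cast_one, Ideal.span_singleton_one, Ideal.absNorm_top, one_mul,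
      absNorm_span_natCast_E]

/-- The constant in front of the plane series. -/
def planeConst (N : ℕ) (a : Ideal (𝓞 D.E) → ℂ) (c : FinPt D.E (lv D.E N) → ℂ)
    (h : GL (Fin 2) (AF D.E)) : ℂ :=
  (lam a (planeIdeal P N 1) : ℂ) * baseValue N c h /
    (Real.sqrt (Ideal.absNorm (planeIdeal P N 1)) : ℂ)

/-- **The rational frequencies.** -/
theorem whit_rational {d : ℕ} (hN : N ≠ 0) (hd0 : d ≠ 0)
    (hd : ∀ q : ℕ, q.Prime → q ∣ d → q ∣ N)
    {φ : Pt D.E Unit (lv D.E (d * N)) → ℂ} (hh : InsideN N h) (hc : IsWhitFn c a)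
    (hreal : ∀ v : Ideal (𝓞 D.E), v.IsPrime → v ≠ ⊥ → ¬ v ∣ Ideal.span {(N : 𝓞 D.E)} →
      (a v).im = 0)
    (h1 : lam a (planeIdeal P N 1) ≠ 0)
    (hval : ∀ y : (AF D.E)ˣ,
      (InUnit N (y * natUnit D.E hN) →
        whit P.placesE φ ((diagUnit y : GL (Fin 2) (AF D.E)) : FinPt D.E _) =
          c ((diagUnit (outPart N y) * h : GL (Fin 2) (AF D.E)) : FinPt D.E (lv D.E N))) ∧
      (¬ InUnit N (y * natUnit D.E hN) →
        whit P.placesE φ ((diagUnit y : GL (Fin 2) (AF D.E)) : FinPt D.E _) = 0))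
    {i : ℤ} {y : (AF D.E)ˣ} (hy : (y : AF D.E) * ((d * N : ℕ) : AF D.E) = (i : AF D.E)) :
    whit P.placesE φ ((diagUnit y : GL (Fin 2) (AF D.E)) : FinPt D.E _) =
      if d ∣ i.natAbs then
        planeConst P N a c h * ((planeCoeff P N a (i.natAbs / d) : ℝ) : ℂ) /
          ((i.natAbs / d : ℕ) : ℂ)
      else 0 := by
  have hz : (d : AF D.E) * ((y * natUnit D.E hN : (AF D.E)ˣ) : AF D.E) =
      (i : AF D.E) := by
    rw [Units.val_mul, coe_natUnit, ← hy]
    push_cast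
    ring
  obtain ⟨hv1, hv0⟩ := hval y
  split_ifs with hdvd
  swap
  · exact hv0 fun hu => hdvd ((inUnit_intCast hN hd0 hd hz).mp hu).1
  set n := i.natAbs / d with hn
  by_cases hco : n.Coprime N
  swap
  · rw [hv0 fun hu => hco ((inUnit_intCast hN hd0 hd hz).mp hu).2, planeCoeff,
      if_neg fun h => hco h.2]
    simp
  rw [hv1 ((inUnit_intCast hN hd0 hd hz).mpr ⟨hdvd, hco⟩)]
  obtain ⟨m, hm⟩ := Int.natCast_dvd.mpr hdvd
  have hnm : n = m.natAbs := by
    rw [hn, hm, Int.natAbs_mul, Int.natAbs_natCast,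
      Nat.mul_div_cancel_left _ (Nat.pos_of_ne_zero hd0)]
  have hyN : (y : AF D.E) * (N : AF D.E) = (m : AF D.E) := by
    refine (isUnit_natCast_AF (F := D.E) hd0).mul_left_cancel ?_
    rw [Units.val_mul, coe_natUnit] at hz
    rw [hz, hm]
    push_cast
    ring
  have hm0 : m ≠ 0 := by
    rintro rfl
    rw [Int.cast_zero, ← coe_natUnit (F := D.E) hN, ← Units.val_mul] at hyN
    exact (y * natUnit D.E hN).ne_zero hyN
  have hn0 : n ≠ 0 := by rw [hnm]; simpa using hm0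
  have hv := value_intCast P hc hN hh hreal (by simpa using hm0) (hnm ▸ hco) hyN
  rw [← hnm, planeIdeal_absNorm, Nat.cast_mul, Nat.cast_pow, Real.sqrt_mul (by positivity),
    Real.sqrt_sq (Nat.cast_nonneg _)] at hv
  have hA : Ideal.absNorm (planeIdeal P N 1) ≠ 0 := by
    refine absNorm_ne_zero ?_
    unfold planeIdeal
    split_ifs
    · simp
    · simp [sqrtNegThree_ne_zero]
  have hsA : (Real.sqrt (Ideal.absNorm (planeIdeal P N 1)) : ℂ) ≠ 0 :=
    Complex.ofReal_ne_zero.mpr (Real.sqrt_ne_zero'.mpr (by exact_mod_cast Nat.pos_of_ne_zero hA))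
  have hnC : ((n : ℕ) : ℂ) ≠ 0 := Nat.cast_ne_zero.mpr hn0
  have hlC : ((lam a (planeIdeal P N 1) : ℝ) : ℂ) ≠ 0 := Complex.ofReal_ne_zero.mpr h1
  rw [planeConst, planeCoeff, if_pos ⟨hn0, hco⟩]
  push_cast at hv ⊢
  field_simp
  linear_combination hv

theorem planeConst_ne_zero (hc : IsWhitFn c a) (hN : N ≠ 0) (hh : InsideN N h)
    (h1 : lam a (planeIdeal P N 1) ≠ 0)
    (hw : ∃ z : (AF D.E)ˣ, OutsideN N z ∧
      c ((diagUnit z * h : GL (Fin 2) (AF D.E)) : FinPt D.E (lv D.E N)) ≠ 0) :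
    planeConst P N a c h ≠ 0 := by
  refine div_ne_zero (mul_ne_zero (Complex.ofReal_ne_zero.mpr h1) (baseValue_ne_zero hc hN hh hw))
    (Complex.ofReal_ne_zero.mpr (Real.sqrt_ne_zero'.mpr ?_))
  refine Nat.cast_pos.mpr (Nat.pos_of_ne_zero (absNorm_ne_zero ?_))
  unfold planeIdeal
  split_ifs
  · simp
  · simp [sqrtNegThree_ne_zero]

end FLTAgent.LanglandsTunnell.Period

end
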