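import Fermat.Agent.LanglandsTunnell.Period.Translates
import Fermat.Agent.LanglandsTunnell.Isolation.LocalPlace

/-!
# The factor of the finite adeles at a prime dividing the level exactly once

`ExactPlace` records an idempotent cutting out such a prime `v` together with a generator of `v`
supported there; `exists_exactPlace` constructs one.
-/

set_option autoImplicit false

open NumberField Matrix
open scoped TensorProduct

noncomputable section

namespace FLTAgent.LanglandsTunnell.Period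

open FLTAgent.LanglandsTunnell FLTAgent.LanglandsTunnell.Isolation
  FLTAgent.LanglandsTunnell.Expansion
open FLTAgent.LanglandsTunnell.Local (Op compOH oh_ext exists_oh_comp)

variable {F : Type} [Field F] [NumberField F] {N : ℕ}

/-- An idempotent cutting out a prime `v` that divides `N` exactly once, with a generator of `v`
supported there. -/
structure ExactPlace (N : ℕ) (v : Ideal (𝓞 F)) (e : AF F) (t : (AF F)ˣ) : Prop where
  prime : v.IsPrime
  ne_bot : v ≠ ⊥
  idem : e * e = e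
  mem : e ∈ intAF F
  inside : (1 - eN F N) * e = 0
  one_sub : ∀ k : ℕ, 1 - e ∈ idealAF F (v ^ k)
  level : ∀ x ∈ idealAF F v, e * x ∈ idealAF F (lv F N)
  level_le : ∀ x ∈ idealAF F (lv F N), x ∈ idealAF F v
  local_t : (1 - e) * ((t : AF F) - 1) = 0
  gen : ∀ k : ℕ, ∀ x : AF F, x ∈ idealAF F (v ^ k) ↔ ∃ y ∈ intAF F, x = (t : AF F) ^ k * y

theorem natCast_not_mem_of_coprime {v : Ideal (𝓞 F)} (hv : v.IsPrime) {p m : ℕ} (h : p.Coprime m)
    (hp : (p : 𝓞 F) ∈ v) : (m : 𝓞 F) ∉ v := by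
  intro hm
  obtain ⟨x, y, hxy⟩ := Nat.isCoprime_iff_coprime.mpr h
  refine hv.ne_top (v.eq_top_of_isUnit_mem ?_ isUnit_one)
  have e : (1 : 𝓞 F) = (x : 𝓞 F) * (p : 𝓞 F) + (y : 𝓞 F) * (m : 𝓞 F) := by
    exact_mod_cast (congrArg (Int.cast (R := 𝓞 F)) hxy).symm
  rw [e]
  exact add_mem (v.mul_mem_left _ hp) (v.mul_mem_left _ hm)

omit [NumberField F] in
theorem compOH_one_tmul (q : Nat.Primes) (z : Zhat) :
    compOH q ((1 : 𝓞 F) ⊗ₜ[ℤ] z) = (1 : 𝓞 F) ⊗ₜ[ℤ] (z q) := rfl

/-- Exact places exist. -/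
theorem exists_exactPlace {v : Ideal (𝓞 F)} (hv : v.IsPrime) (hv0 : v ≠ ⊥)
    (hN : (N : 𝓞 F) ∈ v) (h2 : ¬ v ^ 2 ∣ lv F N) :
    ∃ t, ExactPlace N v (placeAF hv hv0) t := by
  classical
  have hε := isPlaceIdem hv hv0
  set p := (exists_isPlaceIdem hv hv0).choose
  rw [placeAF]
  set ε := placeIdem hv hv0
  set P : Ideal (𝓞 F) := Ideal.span {((p : ℕ) : 𝓞 F)} with hP
  -- `p` divides `N` exactly once
  have hpN : (p : ℕ) ∣ N := by
    by_contra h
    exact natCast_not_mem_of_coprime hv (p.2.coprime_iff_not_dvd.mpr h) hε.mem hN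
  obtain ⟨m, hm⟩ := hpN
  obtain ⟨B, hB⟩ : v ∣ P :=
    Ideal.dvd_iff_le.mpr ((Ideal.span_singleton_le_iff_mem _).mpr hε.mem)
  have hlvl : lv F N = v * (B * lv F m) := by
    rw [← mul_assoc, ← hB, hP, Ideal.span_singleton_mul_span_singleton, lv, hm, Nat.cast_mul]
  have hpm : ¬ (p : ℕ) ∣ m := by
    rintro ⟨k, rfl⟩
    refine h2 ⟨B * (B * Ideal.span {(k : 𝓞 F)}), ?_⟩
    rw [lv, hm, Nat.cast_mul, Nat.cast_mul, ← Ideal.span_singleton_mul_span_singleton,
      ← Ideal.span_singleton_mul_span_singleton, ← hP, hB, pow_two]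
    ac_rfl
  have hBv : B ⊔ v = ⊤ := by
    rw [sup_comm]
    refine (hv.isMaximal hv0).out.2 _ (lt_of_le_of_ne le_sup_left fun h => h2 ?_)
    rw [hlvl, pow_two]
    exact mul_dvd_mul_left v (dvd_mul_of_dvd_left (Ideal.dvd_iff_le.mpr (h ▸ le_sup_right)) _)
  -- the idempotent lies in the cofactor
  obtain ⟨x, ⟨d, hd⟩, hxJ⟩ := hε.approx 1
  have hxB : x ∈ B := pow_one B ▸ hxJ B hBv (hP ▸ hB ▸ Ideal.mul_le_right)
  obtain ⟨z, hz⟩ := exists_oh_comp (F := F) (Function.update (fun _ => 0) p d)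
  set δ : OH F := (1 : 𝓞 F) ⊗ₜ[ℤ] deltaZhat p with hδdef
  have hδ : ∀ q, compOH q δ = if q = p then 1 else 0 := fun q => by
    rw [hδdef, compOH_one_tmul]
    split_ifs with h
    · subst h; simp [deltaZhat, Algebra.TensorProduct.one_def]
    · simp [deltaZhat, h]
  have e1 : ε = δ * (x ⊗ₜ[ℤ] (1 : Zhat)) + ((p : ℕ) : OH F) * z := by
    refine oh_ext fun q => ?_
    rcases eq_or_ne q p with rfl | hq
    · simp only [map_add, map_mul, hδ, if_true, map_natCast, hz, Function.update_self,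
        compOH_tmul_one]
      rw [pow_one] at hd
      linear_combination hd
    · simp only [map_add, map_mul, hδ, if_neg hq, map_natCast, hz, Function.update_of_ne hq,
        hε.supp q hq]
      ring
  have hεB : ε ∈ idealOH B := by
    rw [e1]
    exact add_mem (Ideal.mul_mem_left _ _ (tmul_one_mem_idealOH hxB))
      (Ideal.mul_mem_right _ _ (natCast_mem_idealOH
        ((hB ▸ Ideal.mul_le_right : P ≤ B) (Ideal.mem_span_singleton_self _))))
  have hεδ : δ * ε = ε := by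
    refine oh_ext fun q => ?_
    rw [map_mul, hδ]
    split_ifs with h
    · rw [one_mul]
    · rw [zero_mul, hε.supp q h]
  have hεm : ε ∈ idealOH (lv F m) := by
    obtain ⟨u, hu⟩ := exists_natCast_mul_eq_deltaZhat p hpm
    rw [← hεδ]
    refine Ideal.mul_mem_right _ _ ?_
    have e2 : δ = ((m : ℕ) : OH F) * ((1 : 𝓞 F) ⊗ₜ[ℤ] u) := by
      rw [hδdef, ← hu]
      simp only [← nsmul_eq_mul, TensorProduct.tmul_smul]
    rw [e2]
    exact Ideal.mul_mem_right _ _ (natCast_mem_idealOH (Ideal.mem_span_singleton_self _))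
  have hεJ : ε ∈ idealOH (B * lv F m) := by
    rw [← hε.mul_self, show idealOH (B * lv F m) = idealOH B * idealOH (lv F m) from
      Ideal.map_mul _ _ _]
    exact Ideal.mul_mem_mul hεB hεm
  have hεN : (1 : OH F) * ε - ((1 : 𝓞 F) ⊗ₜ[ℤ] insideZhat N) * ε = 0 := by
    refine oh_ext fun q => ?_
    rw [map_sub, map_mul, map_mul, map_one, map_zero]
    rcases eq_or_ne q p with rfl | hq
    · rw [compOH_one_tmul, insideZhat, if_pos ⟨m, hm⟩, ← Algebra.TensorProduct.one_def, sub_self]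
    · rw [hε.supp q hq]; simp
  have hone : ∀ k : ℕ, 1 - intHom F ε ∈ idealAF F (v ^ k) := by
    intro k
    rw [← map_one (intHom F), ← map_sub, intHom_mem_idealAF_iff]
    rcases k with _ | k
    · rw [pow_zero, Ideal.one_eq_top, idealOH, Ideal.map_top]
      exact Submodule.mem_top
    · have hidem : ∀ j : ℕ, (1 - ε) ^ (j + 1) = 1 - ε := by
        intro j
        induction j with
        | zero => rw [pow_one]
        | succ j ih => rw [pow_succ, ih]; linear_combination hε.mul_self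
      rw [← hidem k, show idealOH (v ^ (k + 1)) = idealOH v ^ (k + 1) from Ideal.map_pow _ _ _]
      exact Ideal.pow_mem_pow hε.one_sub_mem _
  -- the generator
  have hvt : ¬ v ∣ (⊤ : Ideal (𝓞 F)) := fun h =>
    hv.ne_top (top_le_iff.mp (Ideal.le_of_dvd h))
  obtain ⟨π, hπ⟩ := exists_isUniformizerAt_prime hv hv0 hvt
  obtain ⟨π₀, hπ₀, -, hπv⟩ := isUniformizerAt_iff.mp hπ
  have hee : intHom F ε * intHom F ε = intHom F ε := by rw [← map_mul, hε.mul_self]
  let t : (AF F)ˣ :=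
    { val := intHom F ε * π + (1 - intHom F ε)
      inv := intHom F ε * (π⁻¹ : (AF F)ˣ) + (1 - intHom F ε)
      val_inv := by
        linear_combination (intHom F ε * intHom F ε) * π.mul_inv +
          (2 - (π : AF F) - ((π⁻¹ : (AF F)ˣ) : AF F)) * hee
      inv_val := by
        linear_combination (intHom F ε * intHom F ε) * π.mul_inv +
          (2 - (π : AF F) - ((π⁻¹ : (AF F)ˣ) : AF F)) * hee }
  have ht : IsUniformizerAt (⊤ : Ideal (𝓞 F)) v t := by
    refine isUniformizerAt_iff.mpr ⟨ε * π₀ + (1 - ε), ?_, ?_, le_antisymm ?_ ?_⟩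
    · rw [map_add, map_mul, map_sub, map_one, hπ₀]
    · rw [idealOH, Ideal.map_top]; exact Submodule.mem_top
    · rw [hπv, Ideal.span_singleton_le_iff_mem, Ideal.mem_span_singleton]
      exact ⟨ε + (1 - ε) * π₀, by linear_combination ((π₀ - 1) ^ 2) * hε.mul_self⟩
    · rw [Ideal.span_singleton_le_iff_mem]
      refine add_mem (Ideal.mul_mem_left _ _ ?_) hε.one_sub_mem
      rw [hπv]
      exact Ideal.mem_span_singleton_self π₀
  have htk : ∀ k : ℕ, IsUniformizerAt (⊤ : Ideal (𝓞 F)) (v ^ k) (t ^ k) := by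
    intro k
    induction k with
    | zero => rw [pow_zero, pow_zero, Ideal.one_eq_top]; exact isUniformizerAt_one
    | succ k ih => rw [pow_succ, pow_succ]; exact ih.mul ht
  refine ⟨t, ⟨hv, hv0, hee, ⟨ε, rfl⟩, ?_, hone, ?_, ?_, ?_, ?_⟩⟩
  · rw [eN_eq_intHom, ← map_one (intHom F), ← map_sub, ← map_mul, sub_mul, hεN, map_zero]
  · intro y hy
    obtain ⟨y₀, hy₀, rfl⟩ := mem_idealAF.mp hy
    rw [← map_mul, intHom_mem_idealAF_iff, hlvl, mul_comm ε]
    rw [show idealOH (v * (B * lv F m)) = idealOH v * idealOH (B * lv F m) from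
      Ideal.map_mul _ _ _]
    exact Ideal.mul_mem_mul hy₀ hεJ
  · intro y hy
    exact idealAF_mono (hlvl ▸ Ideal.mul_le_left) hy
  · show (1 - intHom F ε) * (intHom F ε * (π : AF F) + (1 - intHom F ε) - 1) = 0
    linear_combination (1 - (π : AF F)) * hee
  · intro k y
    have hval : ((t ^ k : (AF F)ˣ) : AF F) = (t : AF F) ^ k := Units.val_pow_eq_pow_val t k
    rw [(htk k).2]
    constructor
    · rintro ⟨w, hw, rfl⟩
      exact ⟨w, hw, by rw [← hval]; rfl⟩
    · rintro ⟨w, hw, rfl⟩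
      exact ⟨w, hw, by rw [← hval]; rfl⟩

namespace ExactPlace

variable {v : Ideal (𝓞 F)} {e : AF F} {t : (AF F)ˣ}

theorem t_mem (h : ExactPlace N v e t) : (t : AF F) ∈ intAF F := by
  have h1 : (t : AF F) ∈ idealAF F (v ^ 1) := (h.gen 1 _).mpr ⟨1, one_mem _, by simp⟩
  exact idealAF_le_intAF h1

/-- Only zero is divisible by all powers of `v`. -/
theorem natCast_mul_eq_zero (h : ExactPlace N v e t) {M : ℕ}
    (hM : ∀ k : ℕ, (M : AF F) * e ∈ idealAF F (v ^ k)) : M = 0 := by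
  by_contra hM0
  set k := Ideal.absNorm (lv F M) with hk
  have h1 : (M : AF F) ∈ idealAF F (v ^ k) := by
    rw [show (M : AF F) = (M : AF F) * e + (M : AF F) * (1 - e) by ring]
    exact add_mem (hM k) (mul_mem_idealAF_left (natCast_mem _ M) (h.one_sub k))
  rw [← intHom_natCast, intHom_mem_idealAF_iff] at h1
  have h2 : (M : 𝓞 F) ∈ v ^ k := by
    have e1 : (M : OH F) = ((M : 𝓞 F)) ⊗ₜ[ℤ] (1 : Zhat) :=
      (map_natCast (Algebra.TensorProduct.includeLeftRingHom : 𝓞 F →+* OH F) M).symm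
    exact (tmul_one_mem_idealOH_iff (pow_ne_zero k h.ne_bot)).mp (e1 ▸ h1)
  have h3 : Ideal.absNorm (v ^ k) ∣ k :=
    Ideal.absNorm_dvd_absNorm_of_le ((Ideal.span_singleton_le_iff_mem _).mpr h2)
  have hk0 : k ≠ 0 := absNorm_ne_zero (lv_ne_bot hM0)
  have h4 : 2 ≤ Ideal.absNorm v := by
    have e1 : Ideal.absNorm v ≠ 1 := fun e => h.prime.ne_top (Ideal.absNorm_eq_one_iff.mp e)
    have e2 := absNorm_ne_zero h.ne_bot
    omega
  rw [map_pow] at h3
  exact absurd (Nat.le_of_dvd (Nat.pos_of_ne_zero hk0) h3)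
    (not_le.mpr ((Nat.lt_two_pow_self).trans_le (Nat.pow_le_pow_left h4 k)))

end ExactPlace

end FLTAgent.LanglandsTunnell.Period

end
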