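import Mathlib.Analysis.SpecialFunctions.Log.Deriv
import Mathlib.Topology.Algebra.InfiniteSum.NatInt

/-!
# Local factors of the plane Dirichlet series

The recursion `uSeq` for eigenvalues at prime powers, the closed forms of the generating series at
split, inert and ramified primes, and the bound of a split factor by the two series of squares
(`split_factor_bound`).
-/

set_option autoImplicit false

noncomputable section

namespace FLTAgent.LanglandsTunnell.Period

/-- The eigenvalues of the powers of a prime with normalised eigenvalue `a`. -/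
def uSeq (a : ℝ) : ℕ → ℝ
  | 0 => 1
  | 1 => a
  | (k + 2) => a * uSeq a (k + 1) - uSeq a k

@[simp] theorem uSeq_zero (a : ℝ) : uSeq a 0 = 1 := rfl

@[simp] theorem uSeq_one (a : ℝ) : uSeq a 1 = a := rfl

theorem uSeq_add_two (a : ℝ) (k : ℕ) : uSeq a (k + 2) = a * uSeq a (k + 1) - uSeq a k := rfl

/-- A series whose terms satisfy a linear recurrence of order four. -/
theorem hasSum_rec_four {f : ℕ → ℝ} {S e : ℝ} {p q : ℝ} (h : HasSum f S)
    (hrec : ∀ n, f (n + 4) - p * f (n + 3) + q * f (n + 2) - p * e * f (n + 1) + e ^ 2 * f n = 0) :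
    S * (1 - p + q - p * e + e ^ 2) = (f 0 + f 1 + f 2 + f 3) - p * (f 0 + f 1 + f 2)
      + q * (f 0 + f 1) - p * e * f 0 := by
  have h' : ∀ j, HasSum (fun n => f (n + j)) (S - ∑ i ∈ Finset.range j, f i) := fun j =>
    (hasSum_nat_add_iff' j).mpr h
  have hsum := (((h' 4).sub ((h' 3).mul_left p)).add ((h' 2).mul_left q)).sub
    ((h' 1).mul_left (p * e)) |>.add (h.mul_left (e ^ 2))
  have := hsum.unique ((hasSum_zero (α := ℝ) (β := ℕ)).congr_fun hrec)
  simp only [Finset.sum_range_succ, Finset.sum_range_zero, zero_add] at this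
  linear_combination this

/-- The denominator of the factor at a split prime. -/
def splitDen (a b X : ℝ) : ℝ :=
  (1 - X ^ 2) ^ 2 + (a ^ 2 + b ^ 2) * X ^ 2 - a * b * X * (1 + X ^ 2)

theorem split_factor_mul {a b X S : ℝ}
    (h : HasSum (fun k => uSeq a k * uSeq b k * X ^ k) S) : S * splitDen a b X = 1 - X ^ 2 := by
  have := hasSum_rec_four (p := a * b * X) (q := (a ^ 2 + b ^ 2 - 2) * X ^ 2) (e := X ^ 2) h
    fun n => by
    simp only [uSeq_add_two, pow_succ]
    ring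
  simp only [uSeq_zero, uSeq_one, uSeq_add_two, pow_zero, pow_one, zero_add] at this
  rw [splitDen]
  linear_combination this

theorem splitDen_self (a X : ℝ) : splitDen a a X = (1 - X) ^ 2 * ((1 + X) ^ 2 - a ^ 2 * X) := by
  rw [splitDen]; ring

/-- Convergence of the series of squares bounds the eigenvalue. -/
theorem sq_factor {a X S : ℝ} (hX0 : 0 ≤ X) (hX1 : X < 1)
    (h : HasSum (fun k => uSeq a k ^ 2 * X ^ k) S) :
    1 ≤ S ∧ 0 < (1 + X) ^ 2 - a ^ 2 * X ∧
      S * ((1 - X) * ((1 + X) ^ 2 - a ^ 2 * X)) = 1 + X := by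
  have h1 : 1 ≤ S := by
    have := le_hasSum h 0 fun k _ => mul_nonneg (sq_nonneg _) (pow_nonneg hX0 _)
    simpa using this
  have h2 := split_factor_mul (a := a) (b := a) (by simpa [sq] using h)
  rw [splitDen_self] at h2
  have h3 : S * ((1 - X) * ((1 + X) ^ 2 - a ^ 2 * X)) = 1 + X := by
    refine mul_left_cancel₀ (by linarith : 1 - X ≠ 0) ?_
    linear_combination h2
  refine ⟨h1, ?_, h3⟩
  by_contra hc
  push Not at hc
  have : S * ((1 - X) * ((1 + X) ^ 2 - a ^ 2 * X)) ≤ 0 :=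
    mul_nonpos_of_nonneg_of_nonpos (by linarith) (mul_nonpos_of_nonneg_of_nonpos (by linarith) hc)
  linarith

/-- The key inequality at a split prime. -/
theorem splitDen_pos_and_bound {a b X : ℝ} (hX0 : 0 ≤ X) (hX1 : X < 1)
    (hA : 0 < (1 + X) ^ 2 - a ^ 2 * X) (hB : 0 < (1 + X) ^ 2 - b ^ 2 * X) :
    0 < splitDen a b X ∧
      splitDen a b X * ((1 - X) ^ 2 *
        Real.sqrt (((1 + X) ^ 2 - a ^ 2 * X) * ((1 + X) ^ 2 - b ^ 2 * X))) ≤ 1 := by
  set P := (1 + X) ^ 2 with hP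
  set w := (a ^ 2 + b ^ 2) * X / 2 with hw
  have hab : 2 * |a * b| ≤ a ^ 2 + b ^ 2 := by
    rw [abs_mul]; nlinarith [sq_nonneg (|a| - |b|), sq_abs a, sq_abs b]
  have hu := abs_le.mp (le_refl |a * b|)
  have hX2 : 0 ≤ X * (1 + X ^ 2) := by positivity
  have hk : |a * b| * (X * (1 + X ^ 2)) ≤ w * (1 + X ^ 2) := by
    rw [hw]
    nlinarith [mul_le_mul_of_nonneg_right hab hX2]
  have hk1 : a * b * X * (1 + X ^ 2) ≤ |a * b| * (X * (1 + X ^ 2)) := by
    have := mul_le_mul_of_nonneg_right (le_abs_self (a * b)) hX2; linarith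
  have hk2 : -(a * b * X * (1 + X ^ 2)) ≤ |a * b| * (X * (1 + X ^ 2)) := by
    have := mul_le_mul_of_nonneg_right (neg_abs_le (a * b)) hX2; linarith
  have hup : splitDen a b X ≤ P * ((1 - X) ^ 2 + w) := by
    rw [splitDen, hP, hw]; rw [hw] at hk; nlinarith
  have hlo : (1 - X) ^ 2 * (P - w) ≤ splitDen a b X := by
    rw [splitDen, hP, hw]; rw [hw] at hk; nlinarith
  have hPw : 0 < P - w := by rw [hw]; linarith
  have hpos : 0 < splitDen a b X := lt_of_lt_of_le
    (mul_pos (pow_pos (by linarith) 2) hPw) hlo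
  refine ⟨hpos, ?_⟩
  have hs : Real.sqrt ((P - a ^ 2 * X) * (P - b ^ 2 * X)) ≤ P - w := by
    rw [Real.sqrt_le_left hPw.le, hw]
    nlinarith [sq_nonneg ((a ^ 2 - b ^ 2) * X)]
  calc splitDen a b X * ((1 - X) ^ 2 * Real.sqrt ((P - a ^ 2 * X) * (P - b ^ 2 * X)))
      ≤ P * ((1 - X) ^ 2 + w) * ((1 - X) ^ 2 * (P - w)) := by
        refine mul_le_mul hup (mul_le_mul_of_nonneg_left hs (sq_nonneg _)) (by positivity) ?_
        exact hpos.le.trans hup
    _ ≤ ((1 - X ^ 2) * (1 + X ^ 2)) ^ 2 := by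
        have : ((1 - X) ^ 2 + w) * (P - w) ≤ (1 + X ^ 2) ^ 2 := by
          rw [hP]; nlinarith [sq_nonneg ((1 - X) ^ 2 + w - ((1 + X) ^ 2 - w))]
        calc P * ((1 - X) ^ 2 + w) * ((1 - X) ^ 2 * (P - w))
            = (1 - X ^ 2) ^ 2 * (((1 - X) ^ 2 + w) * (P - w)) := by rw [hP]; ring
          _ ≤ (1 - X ^ 2) ^ 2 * (1 + X ^ 2) ^ 2 := mul_le_mul_of_nonneg_left this (sq_nonneg _)
          _ = _ := by ring
    _ ≤ 1 := by
        have e : (1 - X ^ 2) * (1 + X ^ 2) = 1 - X ^ 4 := by ring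
        have h4 : X ^ 4 ≤ 1 := pow_le_one₀ hX0 hX1.le
        rw [e]
        nlinarith [pow_nonneg hX0 4]

/-- The factor at a split prime against the two series of squares. -/
theorem split_factor_bound {a b X S Sa Sb : ℝ} (hX0 : 0 ≤ X) (hX1 : X < 1)
    (h : HasSum (fun k => uSeq a k * uSeq b k * X ^ k) S)
    (ha : HasSum (fun k => uSeq a k ^ 2 * X ^ k) Sa)
    (hb : HasSum (fun k => uSeq b k ^ 2 * X ^ k) Sb) :
    (1 - X ^ 2) ^ 2 ≤ S * Real.sqrt (Sa * Sb) := by
  obtain ⟨ha1, hA, hSa⟩ := sq_factor hX0 hX1 ha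
  obtain ⟨hb1, hB, hSb⟩ := sq_factor hX0 hX1 hb
  obtain ⟨hD, hbd⟩ := splitDen_pos_and_bound hX0 hX1 hA hB
  have hS := split_factor_mul h
  set A := (1 + X) ^ 2 - a ^ 2 * X
  set B := (1 + X) ^ 2 - b ^ 2 * X
  set r := Real.sqrt (A * B)
  have hr : 0 < r := Real.sqrt_pos.mpr (mul_pos hA hB)
  have hX : 0 < 1 - X := by linarith
  have hsq : Real.sqrt (Sa * Sb) * ((1 - X) * r) = 1 + X := by
    rw [show (1 - X) * r = Real.sqrt ((1 - X) ^ 2 * (A * B)) by
      rw [Real.sqrt_mul (sq_nonneg _), Real.sqrt_sq hX.le],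
      ← Real.sqrt_mul (mul_nonneg (by linarith) (by linarith)),
      show Sa * Sb * ((1 - X) ^ 2 * (A * B)) = (1 + X) ^ 2 by
        linear_combination (Sb * ((1 - X) * B)) * hSa + (1 + X) * hSb,
      Real.sqrt_sq (by linarith)]
  have hpos : 0 < splitDen a b X * ((1 - X) * r) := by positivity
  refine le_of_mul_le_mul_right ?_ hpos
  calc (1 - X ^ 2) ^ 2 * (splitDen a b X * ((1 - X) * r))
      = (1 - X ^ 2) * (1 + X) * (splitDen a b X * ((1 - X) ^ 2 * r)) := by ring
    _ ≤ (1 - X ^ 2) * (1 + X) * 1 :=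
        mul_le_mul_of_nonneg_left hbd (mul_nonneg (by nlinarith) (by linarith))
    _ = (S * splitDen a b X) * (Real.sqrt (Sa * Sb) * ((1 - X) * r)) := by rw [hS, hsq]; ring
    _ = _ := by ring

theorem exp_le_inv_one_sub {X : ℝ} (hX : X < 1) : Real.exp X ≤ (1 - X)⁻¹ := by
  rw [← inv_inv (Real.exp X), ← Real.exp_neg]
  exact inv_anti₀ (by linarith) (Real.one_sub_le_exp_neg X)

theorem sq_factor_two {a X S : ℝ} (hX0 : 0 ≤ X) (hX1 : X < 1) (ha : a ^ 2 = 4)
    (h : HasSum (fun k => uSeq a k ^ 2 * X ^ k) S) : Real.exp (3 * X) ≤ S := by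
  obtain ⟨-, -, hS⟩ := sq_factor hX0 hX1 h
  rw [ha] at hS
  have hX : 0 < 1 - X := by linarith
  have e : S = (1 + X) * (((1 - X)⁻¹) ^ 3) := by
    field_simp
    linear_combination hS
  rw [e]
  calc Real.exp (3 * X) = Real.exp X ^ 3 := by rw [← Real.exp_nat_mul]; norm_num
    _ ≤ ((1 - X)⁻¹) ^ 3 := pow_le_pow_left₀ (Real.exp_pos _).le (exp_le_inv_one_sub hX1) 3
    _ ≤ _ := le_mul_of_one_le_left (by positivity) (by linarith)

/-- The factor at an inert prime. -/
theorem inert_factor_mul {a X S : ℝ} (h : HasSum (fun k => uSeq a k * X ^ k) S) :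
    S * (1 - a * X + X ^ 2) = 1 := by
  have h1 := (hasSum_nat_add_iff' 1).mpr h
  have h2 := (hasSum_nat_add_iff' 2).mpr h
  have := ((h2.sub (h1.mul_left (a * X))).add (h.mul_left (X ^ 2))).unique
    ((hasSum_zero (α := ℝ) (β := ℕ)).congr_fun fun n => by rw [uSeq_add_two]; ring)
  simp only [Finset.sum_range_succ, Finset.sum_range_zero, uSeq_zero, uSeq_one, zero_add, pow_zero,
    pow_one, mul_one] at this
  linear_combination this

theorem abs_uSeq_le {a : ℝ} (ha : |a| ≤ 2) (k : ℕ) : |uSeq a k| ≤ k + 1 := by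
  have key : ∀ k, uSeq a (k + 1) ^ 2 - a * uSeq a (k + 1) * uSeq a k + uSeq a k ^ 2 = 1 := by
    intro k
    induction k with
    | zero => simp; ring
    | succ k ih => rw [uSeq_add_two]; linear_combination ih
  induction k with
  | zero => simp
  | succ k ih =>
    have ha2 : a ^ 2 ≤ 4 := by nlinarith [abs_le.mp ha]
    have h1 : |uSeq a (k + 1) - a / 2 * uSeq a k| ≤ 1 :=
      abs_le_one_iff_mul_self_le_one.mpr (by nlinarith [key k, sq_nonneg (uSeq a k)])
    have h2 : |a / 2 * uSeq a k| ≤ |uSeq a k| := by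
      rw [abs_mul]
      exact mul_le_of_le_one_left (abs_nonneg _) (by rw [abs_div, abs_two]; linarith)
    have := abs_add_le (uSeq a (k + 1) - a / 2 * uSeq a k) (a / 2 * uSeq a k)
    rw [sub_add_cancel] at this
    push_cast
    linarith

/-- The factor at the ramified prime: odd powers. -/
theorem odd_factor_mul {a X S : ℝ} (h : HasSum (fun k => uSeq a (2 * k + 1) * X ^ k) S) :
    S * ((1 + X) ^ 2 - a ^ 2 * X) = a := by
  have h1 := (hasSum_nat_add_iff' 1).mpr h
  have h2 := (hasSum_nat_add_iff' 2).mpr h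
  have hrec : ∀ n : ℕ, uSeq a (2 * (n + 2) + 1) * X ^ (n + 2) -
      (a ^ 2 - 2) * X * (uSeq a (2 * (n + 1) + 1) * X ^ (n + 1)) +
        X ^ 2 * (uSeq a (2 * n + 1) * X ^ n) = 0 := fun n => by
    rw [show 2 * (n + 2) + 1 = (2 * n + 3) + 2 by ring,
      show 2 * (n + 1) + 1 = (2 * n + 1) + 2 by ring]
    rw [uSeq_add_two a (2 * n + 3), show 2 * n + 3 + 1 = (2 * n + 2) + 2 by ring,
      uSeq_add_two a (2 * n + 2), show 2 * n + 3 = (2 * n + 1) + 2 by ring,
      uSeq_add_two a (2 * n + 1),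
      show 2 * n + 1 + 1 = 2 * n + 2 by ring, uSeq_add_two a (2 * n)]
    ring
  have := ((h2.sub (h1.mul_left ((a ^ 2 - 2) * X))).add (h.mul_left (X ^ 2))).unique
    ((hasSum_zero (α := ℝ) (β := ℕ)).congr_fun hrec)
  simp only [Finset.sum_range_succ, Finset.sum_range_zero, uSeq_one, zero_add, pow_zero,
    pow_one, mul_one, mul_zero, show 2 * 1 + 1 = 3 from rfl, show uSeq a 3 = a * (a * a - 1) - a by
      rw [uSeq_add_two, uSeq_add_two, uSeq_one, uSeq_zero]] at this
  linear_combination this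

end FLTAgent.LanglandsTunnell.Period

end
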