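import Fermat.Agent.LanglandsTunnell.Period.Unfold

/-!
# A vanishing period bounds the Mellin transform near `s = 1`

If the periods of an invariant function over the translates of the fundamental domain sum to
zero, the integral of the function against `y ^ s` on the strip is bounded for `s` near `1`
(`exists_bound_strip`), by unfolding against the Eisenstein series.
-/

set_option autoImplicit false

open MeasureTheory UpperHalfPlane ModularGroup Real
open scoped MatrixGroups Modular ENNReal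

noncomputable section

namespace FLTAgent.LanglandsTunnell.Period

attribute [local instance] FLTAgent.Newforms.countable_SL2Z

variable {M : ℕ}

theorem half_le_im {τ : ℍ} (h : τ ∈ (𝒟 : Set ℍ)) : 1 / 2 ≤ τ.im := by
  nlinarith [three_le_four_mul_im_sq_of_mem_fd h, τ.im_pos]

theorem continuous_eisTerm {s : ℝ} (hs : 0 ≤ s) (m n : ℤ) :
    Continuous fun τ : ℍ => eisTerm s τ m n := by
  unfold eisTerm
  refine Continuous.rpow_const ?_ fun _ => Or.inr hs
  by_cases h : m = 0 ∧ n = 0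
  · obtain ⟨rfl, rfl⟩ := h
    simpa using continuous_const
  · refine continuous_im.div
      (((continuous_const.mul continuous_re).add continuous_const).pow 2 |>.add
      ((continuous_const.mul continuous_im).pow 2)) fun τ => ne_of_gt ?_
    by_cases hm : m = 0
    · subst hm
      have hn : (n : ℝ) ≠ 0 := by exact_mod_cast fun hn => h ⟨rfl, hn⟩
      simp
      positivity
    · have : (m : ℝ) * τ.im ≠ 0 := mul_ne_zero (by exact_mod_cast hm) τ.im_ne_zero
      positivity

theorem measurable_eisSum_fd (hM : M ≠ 0) {s : ℝ} (h1 : 1 < s) (h2 : s ≤ 2) (v : ℤ × ℤ) :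
    Measurable ((𝒟 : Set ℍ).indicator fun τ => eisSum M v s τ) := by
  obtain ⟨C, -, hC⟩ := exists_eisSum_bound hM
  refine measurable_of_tendsto_metrizable' Filter.atTop
    (f := fun (t : Finset (ℤ × ℤ)) => (𝒟 : Set ℍ).indicator
      fun τ => ∑ p ∈ t, eisTerm s τ (v.1 + M * p.1) (v.2 + M * p.2)) (fun t => ?_) ?_
  · exact (continuous_finsetSum t fun p _ =>
      continuous_eisTerm (by linarith) _ _).measurable.indicator Newforms.measurableSet_fd
  · rw [tendsto_pi_nhds]
    intro τ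
    by_cases hτ : τ ∈ (𝒟 : Set ℍ)
    · simp only [Set.indicator_of_mem hτ]
      exact (hC v s h1 h2 τ (half_le_im hτ)).1.hasSum
    · simp only [Set.indicator_of_notMem hτ]
      exact tendsto_const_nhds

variable [Fintype (SL(2, ℤ) ⧸ CongruenceSubgroup.Gamma M)]

/-- The integrand on the strip. -/
def stripFun (M : ℕ) (F : ℍ → ℂ) (s : ℝ) : ℍ → ℂ :=
  (strip M).indicator fun z => F z * ((z.im ^ s : ℝ) : ℂ)

omit [Fintype (SL(2, ℤ) ⧸ CongruenceSubgroup.Gamma M)] in
theorem measurable_stripFun {F : ℍ → ℂ} (hF : Continuous F) (s : ℝ) :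
    Measurable (stripFun M F s) :=
  (hF.mul (Complex.continuous_ofReal.comp
    (continuous_im.rpow_const fun z => Or.inl z.im_ne_zero))).measurable.indicator
    (measurableSet_strip M)

omit [Fintype (SL(2, ℤ) ⧸ CongruenceSubgroup.Gamma M)] in
theorem norm_stripFun (F : ℍ → ℂ) (s : ℝ) (z : ℍ) :
    (strip M).indicator (fun z => ((‖F z‖ : ℝ) : ℂ) * ((z.im ^ s : ℝ) : ℂ)) z =
      ((‖stripFun M F s z‖ : ℝ) : ℂ) := by
  by_cases h : z ∈ strip M
  · simp only [stripFun, Set.indicator_of_mem h, norm_mul, Complex.norm_real, Real.norm_eq_abs,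
      abs_of_nonneg (Real.rpow_nonneg z.im_pos.le s)]
    push_cast
    rfl
  · simp [stripFun, Set.indicator_of_notMem h]

omit [Fintype (SL(2, ℤ) ⧸ CongruenceSubgroup.Gamma M)] in
theorem InvariantDiag.norm {F : ℍ → ℂ} (hF : InvariantDiag M F) :
    InvariantDiag M fun z => ((‖F z‖ : ℝ) : ℂ) :=
      fun g h1 h2 τ => congrArg (fun w : ℂ => ((‖w‖ : ℝ) : ℂ)) (hF g h1 h2 τ)

/-! ### Everything at a fixed `s` -/

section Decay

/-- The main term of the Eisenstein sums. -/
private def eisMain (M : ℕ) (s : ℝ) : ℝ := π / ((M : ℝ) ^ 2 * (s - 1))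

/-- Bounds for the translates of `F` and for the Eisenstein sums, uniform in `s`. -/
private structure DecayBound (M : ℕ) (F : ℍ → ℂ) (B : SL(2, ℤ) → ℝ) (C : ℝ) : Prop where
  three_le : 3 ≤ M
  continuous : Continuous F
  invariant : InvariantDiag M F
  bound : ∀ (q : SL(2, ℤ)) (τ : ℍ), 1 / 2 ≤ τ.im → ‖F (q • τ)‖ ≤ B q / τ.im ^ 3
  nonneg : 0 ≤ C
  eis : ∀ (v : ℤ × ℤ) (s : ℝ), 1 < s → s ≤ 2 → ∀ τ : ℍ, 1 / 2 ≤ τ.im →
    Summable (fun p : ℤ × ℤ => eisTerm s τ (v.1 + M * p.1) (v.2 + M * p.2)) ∧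
      |eisSum M v s τ - π / ((M : ℝ) ^ 2 * (s - 1))| ≤ C * τ.im ^ 2

variable {F : ℍ → ℂ} {B : SL(2, ℤ) → ℝ} {C : ℝ} (h : DecayBound M F B C)

omit [Fintype (SL(2, ℤ) ⧸ CongruenceSubgroup.Gamma M)] in
/-- The main term is nonnegative. -/
private theorem eisMain_nonneg {s : ℝ} (h1 : 1 < s) : 0 ≤ eisMain M s :=
  div_nonneg Real.pi_pos.le (mul_nonneg (sq_nonneg _) (by linarith))

omit [Fintype (SL(2, ℤ) ⧸ CongruenceSubgroup.Gamma M)] in
include h in
/-- `F` times the square of the height is bounded on the domain. -/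
private theorem DecayBound.norm_mul_sq_le (g : SL(2, ℤ)) {τ : ℍ} (hτ : τ ∈ (𝒟 : Set ℍ)) :
    ‖F (g • τ)‖ * τ.im ^ 2 ≤ 2 * |B g| := by
  have h' := half_le_im hτ
  have hy := τ.im_pos
  refine (mul_le_mul_of_nonneg_right ((h.bound _ τ h').trans
    (div_le_div_of_nonneg_right (le_abs_self _) (by positivity))) (sq_nonneg _)).trans ?_
  rw [div_mul_eq_mul_div, div_le_iff₀ (by positivity)]
  have : 0 ≤ |B g| * τ.im ^ 2 := by positivity
  nlinarith

omit [Fintype (SL(2, ℤ) ⧸ CongruenceSubgroup.Gamma M)] in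
include h in
/-- `F` is bounded on the domain. -/
private theorem DecayBound.norm_le (g : SL(2, ℤ)) {τ : ℍ} (hτ : τ ∈ (𝒟 : Set ℍ)) :
    ‖F (g • τ)‖ ≤ 8 * |B g| := by
  have h' : (1 / 4 : ℝ) ≤ τ.im ^ 2 := by nlinarith [half_le_im hτ]
  have := mul_le_mul_of_nonneg_left h' (norm_nonneg (F (g • τ)))
  linarith [h.norm_mul_sq_le g hτ]

omit [Fintype (SL(2, ℤ) ⧸ CongruenceSubgroup.Gamma M)] in
include h in
/-- `F` times the error of an Eisenstein sum is bounded, uniformly in `s`. -/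
private theorem DecayBound.norm_mul_abs_le {s : ℝ} (h1 : 1 < s) (h2 : s ≤ 2) (g : SL(2, ℤ))
    {τ : ℍ} (hτ : τ ∈ (𝒟 : Set ℍ)) :
    ‖F (g • τ)‖ * |eisSum M (botRow g) s τ - eisMain M s| ≤ 2 * |B g| * C := by
  refine (mul_le_mul_of_nonneg_left (h.eis _ s h1 h2 τ (half_le_im hτ)).2 (norm_nonneg _)).trans ?_
  rw [mul_comm C, ← mul_assoc]
  exact mul_le_mul_of_nonneg_right (h.norm_mul_sq_le g hτ) h.nonneg

omit [Fintype (SL(2, ℤ) ⧸ CongruenceSubgroup.Gamma M)] in
include h in
/-- `F` times an Eisenstein sum is bounded for fixed `s`. -/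
private theorem DecayBound.norm_mul_eisSum_le {s : ℝ} (h1 : 1 < s) (h2 : s ≤ 2) (g : SL(2, ℤ))
    {τ : ℍ} (hτ : τ ∈ (𝒟 : Set ℍ)) :
    ‖F (g • τ)‖ * |eisSum M (botRow g) s τ| ≤ 8 * |B g| * eisMain M s + 2 * |B g| * C :=
  calc ‖F (g • τ)‖ * |eisSum M (botRow g) s τ|
      ≤ ‖F (g • τ)‖ * (eisMain M s + |eisSum M (botRow g) s τ - eisMain M s|) :=
        mul_le_mul_of_nonneg_left (by
          have := abs_sub_abs_le_abs_sub (eisSum M (botRow g) s τ) (eisMain M s)
          rw [abs_of_nonneg (eisMain_nonneg (M := M) h1)] at this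
          linarith) (norm_nonneg _)
    _ ≤ _ := (mul_add _ _ _).trans_le (add_le_add
      (mul_le_mul_of_nonneg_right (h.norm_le g hτ) (eisMain_nonneg h1))
      (h.norm_mul_abs_le h1 h2 g hτ))

variable {s : ℝ}

variable (M) in
/-- The unfolded sum of the absolute values. -/
private def unfoldSum (F : ℍ → ℂ) (s : ℝ) (τ : ℍ) : ℝ :=
  ∑ q : SL(2, ℤ) ⧸ CongruenceSubgroup.Gamma M, ‖F (rep q • τ)‖ * eisSum M (botRow (rep q)) s τ

variable (M) in
/-- The bound of `unfoldSum`. -/
private def unfoldBound (B : SL(2, ℤ) → ℝ) (C s : ℝ) : ℝ :=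
  ∑ q : SL(2, ℤ) ⧸ CongruenceSubgroup.Gamma M,
    (8 * |B (rep q)| * eisMain M s + 2 * |B (rep q)| * C)

include h in
/-- The absolute values unfold to `unfoldSum`. -/
private theorem DecayBound.hasSum_norm (h1 : 1 < s) (h2 : s ≤ 2) {τ : ℍ}
    (hτ : τ ∈ (𝒟 : Set ℍ)) :
    HasSum (fun x : SL(2, ℤ) × ℕ => kWeight M s x.2 * ‖stripFun M F s (x.1 • τ)‖)
      (unfoldSum M F s τ) := by
  have hu := hasSum_unfold h.three_le h.invariant.norm τ
    fun v => (h.eis v s h1 h2 τ (half_le_im hτ)).1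
  simp only [norm_stripFun] at hu
  rw [← Complex.hasSum_ofReal]
  simp only [unfoldSum]
  push_cast
  exact hu

include h in
/-- `unfoldSum` is nonnegative and bounded on the domain. -/
private theorem DecayBound.unfoldSum_mem (h1 : 1 < s) (h2 : s ≤ 2) {τ : ℍ}
    (hτ : τ ∈ (𝒟 : Set ℍ)) :
    0 ≤ unfoldSum M F s τ ∧ unfoldSum M F s τ ≤ unfoldBound M B C s :=
  ⟨Finset.sum_nonneg fun _ _ => mul_nonneg (norm_nonneg _)
    (tsum_nonneg fun _ => eisTerm_nonneg _ _ _ _), Finset.sum_le_sum fun q _ =>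
      (mul_le_mul_of_nonneg_left (le_abs_self _) (norm_nonneg _)).trans
        (h.norm_mul_eisSum_le h1 h2 (rep q) hτ)⟩

include h in
/-- The integrand on the strip is integrable. -/
private theorem DecayBound.integrable_stripFun (h1 : 1 < s) (h2 : s ≤ 2) :
    Integrable (stripFun M F s) := by
  have hc := h.continuous
  refine ⟨(measurable_stripFun hc s).aestronglyMeasurable, ?_⟩
  have hm : Measurable fun z => ‖stripFun M F s z‖ₑ := (measurable_stripFun hc s).enorm
  have hcF : ∀ g : SL(2, ℤ), Measurable fun τ => stripFun M F s (g • τ) := fun g =>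
    (measurable_stripFun hc s).comp (Newforms.measurable_SL_smul g)
  have h2' : 2 * ∫⁻ z, ‖stripFun M F s z‖ₑ < ∞ := by
    rw [← two_mul_lintegral _ hm, ← lintegral_tsum fun g =>
      ((hcF g).enorm).aemeasurable.restrict]
    refine lt_of_le_of_lt (setLIntegral_mono' (g := fun _ => ENNReal.ofReal
      (unfoldBound M B C s)) Newforms.measurableSet_fd fun τ hτ => ?_) ?_
    · refine le_trans ?_ (ENNReal.ofReal_le_ofReal (h.unfoldSum_mem h1 h2 hτ).2)
      rw [← (h.hasSum_norm h1 h2 hτ).tsum_eq, ENNReal.ofReal_tsum_of_nonneg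
        (fun x => mul_nonneg (kWeight_nonneg _ _ _) (norm_nonneg _))
        (h.hasSum_norm h1 h2 hτ).summable, ENNReal.tsum_prod']
      refine ENNReal.tsum_le_tsum fun g => le_trans (le_of_eq ?_) (ENNReal.le_tsum 1)
      simp [kWeight, ofReal_norm]
    · rw [setLIntegral_const]
      exact ENNReal.mul_lt_top ENNReal.ofReal_lt_top Newforms.volume_fd_lt_top
  refine (HasFiniteIntegral.eq_1 _ _).mpr ?_
  exact lt_of_le_of_lt (le_mul_of_one_le_left zero_le one_le_two) h2'

include h in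
/-- Dominated convergence: the unfolding identity integrated over the domain. -/
private theorem DecayBound.hasSum_integral (h1 : 1 < s) (h2 : s ≤ 2) :
    HasSum (fun x : SL(2, ℤ) × ℕ => ∫ τ in (𝒟 : Set ℍ),
        (kWeight M s x.2 : ℂ) * stripFun M F s (x.1 • τ))
      (∫ τ in (𝒟 : Set ℍ), ∑ q : SL(2, ℤ) ⧸ CongruenceSubgroup.Gamma M,
        F (rep q • τ) * (eisSum M (botRow (rep q)) s τ : ℂ)) := by
  have : IsFiniteMeasure ((volume : Measure ℍ).restrict (𝒟 : Set ℍ)) :=
    ⟨by rw [Measure.restrict_apply_univ]; exact Newforms.volume_fd_lt_top⟩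
  have hc := h.continuous
  have hM := h.three_le
  have hSm : AEStronglyMeasurable (unfoldSum M F s)
      ((volume : Measure ℍ).restrict (𝒟 : Set ℍ)) := by
    have hmeas : Measurable fun τ => ∑ q : SL(2, ℤ) ⧸ CongruenceSubgroup.Gamma M,
        ‖F (rep q • τ)‖ * (𝒟 : Set ℍ).indicator (fun z => eisSum M (botRow (rep q)) s z) τ :=
      Finset.measurable_fun_sum _ fun q _ => (hc.measurable.comp
        (Newforms.measurable_SL_smul _)).norm.mul (measurable_eisSum_fd (by omega) h1 h2 _)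
    refine hmeas.aestronglyMeasurable.congr ?_
    filter_upwards [ae_restrict_mem Newforms.measurableSet_fd] with τ hτ
    simp only [unfoldSum, Set.indicator_of_mem hτ]
  refine hasSum_integral_of_dominated_convergence
    (fun (x : SL(2, ℤ) × ℕ) τ => kWeight M s x.2 * ‖stripFun M F s (x.1 • τ)‖)
    (fun x => ?_) (fun x => ?_) ?_ ?_ ?_
  · exact (measurable_const.mul ((measurable_stripFun hc s).comp
      (Newforms.measurable_SL_smul x.1))).aestronglyMeasurable
  · refine Filter.Eventually.of_forall fun τ => ?_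
    rw [norm_mul, Complex.norm_real, Real.norm_eq_abs, abs_of_nonneg (kWeight_nonneg _ _ _)]
  · filter_upwards [ae_restrict_mem Newforms.measurableSet_fd] with τ hτ
    exact (h.hasSum_norm h1 h2 hτ).summable
  · refine (Integrable.of_bound hSm (unfoldBound M B C s) ?_).congr ?_
    · filter_upwards [ae_restrict_mem Newforms.measurableSet_fd] with τ hτ
      rw [Real.norm_eq_abs, abs_of_nonneg (h.unfoldSum_mem h1 h2 hτ).1]
      exact (h.unfoldSum_mem h1 h2 hτ).2
    · filter_upwards [ae_restrict_mem Newforms.measurableSet_fd] with τ hτ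
      rw [(h.hasSum_norm h1 h2 hτ).tsum_eq]
  · filter_upwards [ae_restrict_mem Newforms.measurableSet_fd] with τ hτ
    exact hasSum_unfold hM h.invariant τ fun v => (h.eis v s h1 h2 τ (half_le_im hτ)).1

include h in
/-- With vanishing periods only the error terms of the Eisenstein sums remain. -/
private theorem DecayBound.two_mul_integral_eq (h1 : 1 < s) (h2 : s ≤ 2)
    (hP : ∑ q : SL(2, ℤ) ⧸ CongruenceSubgroup.Gamma M,
      ∫ τ in (𝒟 : Set ℍ), F (rep q • τ) = 0) :
    (2 * ∫ τ, stripFun M F s τ) * ((∑' k, kWeight M s k : ℝ) : ℂ) =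
      ∑ q : SL(2, ℤ) ⧸ CongruenceSubgroup.Gamma M, ∫ τ in (𝒟 : Set ℍ),
        F (rep q • τ) * ((eisSum M (botRow (rep q)) s τ - eisMain M s : ℝ) : ℂ) := by
  have : IsFiniteMeasure ((volume : Measure ℍ).restrict (𝒟 : Set ℍ)) :=
    ⟨by rw [Measure.restrict_apply_univ]; exact Newforms.volume_fd_lt_top⟩
  have hM := h.three_le
  have hdom := h.hasSum_integral h1 h2
  have hk := Complex.hasSum_ofReal.mpr (summable_kWeight (M := M) h1.le).hasSum
  have hI := hasSum_setIntegral_fd (h.integrable_stripFun h1 h2)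
  have hprod : HasSum (fun x : SL(2, ℤ) × ℕ => ∫ τ in (𝒟 : Set ℍ),
      (kWeight M s x.2 : ℂ) * stripFun M F s (x.1 • τ))
      ((2 * ∫ τ, stripFun M F s τ) * ((∑' k, kWeight M s k : ℝ) : ℂ)) := by
    have h' := hdom.summable.hasSum
    have hf := h'.prod_fiberwise fun g => (hk.mul_left (∫ τ in (𝒟 : Set ℍ),
      stripFun M F s (g • τ))).congr_fun fun k => by rw [integral_const_mul, mul_comm]
    rwa [hf.unique (hI.mul_right _)] at h'
  have hcq : ∀ q : SL(2, ℤ) ⧸ CongruenceSubgroup.Gamma M, Measurable fun τ => F (rep q • τ) :=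
    fun q => h.continuous.measurable.comp (Newforms.measurable_SL_smul _)
  have hFi : ∀ q : SL(2, ℤ) ⧸ CongruenceSubgroup.Gamma M,
      IntegrableOn (fun τ => F (rep q • τ) * (eisMain M s : ℂ)) (𝒟 : Set ℍ) := fun q => by
    refine Integrable.of_bound ((hcq q).mul measurable_const).aestronglyMeasurable
      (8 * |B (rep q)| * eisMain M s) ?_
    filter_upwards [ae_restrict_mem Newforms.measurableSet_fd] with τ hτ
    rw [norm_mul, Complex.norm_real, Real.norm_eq_abs, abs_of_nonneg (eisMain_nonneg h1)]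
    exact mul_le_mul_of_nonneg_right (h.norm_le _ hτ) (eisMain_nonneg h1)
  have hFe : ∀ q : SL(2, ℤ) ⧸ CongruenceSubgroup.Gamma M,
      IntegrableOn (fun τ => F (rep q • τ) * (eisSum M (botRow (rep q)) s τ : ℂ))
        (𝒟 : Set ℍ) := fun q => by
    refine Integrable.of_bound ?_ (8 * |B (rep q)| * eisMain M s + 2 * |B (rep q)| * C) ?_
    · have hmeas : Measurable fun τ => F (rep q • τ) *
          (((𝒟 : Set ℍ).indicator (fun z => eisSum M (botRow (rep q)) s z) τ : ℝ) : ℂ) :=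
        (hcq q).mul (Complex.continuous_ofReal.measurable.comp
          (measurable_eisSum_fd (by omega) h1 h2 _))
      refine hmeas.aestronglyMeasurable.congr ?_
      filter_upwards [ae_restrict_mem Newforms.measurableSet_fd] with τ hτ
      rw [Set.indicator_of_mem hτ]
    · filter_upwards [ae_restrict_mem Newforms.measurableSet_fd] with τ hτ
      rw [norm_mul, Complex.norm_real, Real.norm_eq_abs]
      exact h.norm_mul_eisSum_le h1 h2 (rep q) hτ
  rw [← hdom.unique hprod, integral_finsetSum _ fun q _ => hFe q]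
  have e : ∀ q : SL(2, ℤ) ⧸ CongruenceSubgroup.Gamma M, ∫ τ in (𝒟 : Set ℍ),
      F (rep q • τ) * ((eisSum M (botRow (rep q)) s τ - eisMain M s : ℝ) : ℂ) =
      (∫ τ in (𝒟 : Set ℍ), F (rep q • τ) * (eisSum M (botRow (rep q)) s τ : ℂ)) -
        (∫ τ in (𝒟 : Set ℍ), F (rep q • τ)) * (eisMain M s : ℂ) := fun q => by
    rw [← integral_mul_const, ← integral_sub (hFe q) (hFi q)]
    congr 1
    funext τ
    push_cast
    ring
  simp only [e, Finset.sum_sub_distrib, ← Finset.sum_mul, hP, zero_mul, sub_zero]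

end Decay

theorem exists_bound_strip (hM : 3 ≤ M) {F : ℍ → ℂ} (hc : Continuous F) (hF : InvariantDiag M F)
    (hdec : ∀ q : SL(2, ℤ), ∃ C : ℝ, ∀ τ : ℍ, 1 / 2 ≤ τ.im → ‖F (q • τ)‖ ≤ C / τ.im ^ 3)
    (hP : ∑ q : SL(2, ℤ) ⧸ CongruenceSubgroup.Gamma M,
      ∫ τ in (𝒟 : Set ℍ), F (rep q • τ) = 0) :
    (∀ s : ℝ, 1 < s → s ≤ 2 → Integrable (stripFun M F s)) ∧
      ∃ C : ℝ, ∀ s : ℝ, 1 < s → s ≤ 2 → ‖∫ τ, stripFun M F s τ‖ ≤ C := by
  obtain ⟨C, hC0, hC⟩ := exists_eisSum_bound (show M ≠ 0 by omega)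
  choose B hB using hdec
  have h : DecayBound M F B C := ⟨hM, hc, hF, hB, hC0, hC⟩
  refine ⟨fun s h1 h2 => h.integrable_stripFun h1 h2,
    ∑ q : SL(2, ℤ) ⧸ CongruenceSubgroup.Gamma M,
      2 * |B (rep q)| * C * (volume : Measure ℍ).real (𝒟 : Set ℍ), fun s h1 h2 => ?_⟩
  have hb : ‖(2 * ∫ τ, stripFun M F s τ) * ((∑' k, kWeight M s k : ℝ) : ℂ)‖ ≤
      ∑ q : SL(2, ℤ) ⧸ CongruenceSubgroup.Gamma M,
        2 * |B (rep q)| * C * (volume : Measure ℍ).real (𝒟 : Set ℍ) := by
    rw [h.two_mul_integral_eq h1 h2 hP]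
    refine (norm_sum_le _ _).trans (Finset.sum_le_sum fun q _ => ?_)
    refine norm_setIntegral_le_of_norm_le_const Newforms.volume_fd_lt_top fun τ hτ => ?_
    rw [norm_mul, Complex.norm_real, Real.norm_eq_abs]
    exact h.norm_mul_abs_le h1 h2 (rep q) hτ
  refine le_trans ?_ hb
  rw [norm_mul, norm_mul, Complex.norm_real, Real.norm_eq_abs,
    abs_of_nonneg (tsum_nonneg fun k => kWeight_nonneg M s k), Complex.norm_two]
  have h1' := one_le_tsum_kWeight (M := M) h1.le
  nlinarith [norm_nonneg (∫ τ, stripFun M F s τ)]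

end FLTAgent.LanglandsTunnell.Period

end
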