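import Fermat.Agent.LanglandsTunnell.Lift.Bridge.Field
import Fermat.Agent.LanglandsTunnell.Isolation.Galois
import Fermat.Agent.LanglandsTunnell.Interfaces

/-!
# The primes of `ℚ(√-3)` over a rational prime and their eigenvalues

Splitting of `p ≠ 3` (`split_or_inert`) read off from the determinant of Frobenius (`det_frob`),
and the eigenvalues at inert primes and at split primes with central Frobenius
(`eigen_inert`, `eigen_central`).
-/

set_option autoImplicit false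

noncomputable section

open NumberField Complex ComplexConjugate
open scoped Pointwise

namespace FLTAgent.LanglandsTunnell.Period

open FLTAgent.LanglandsTunnell FLTAgent.LanglandsTunnell.Lift
open FLTAgent.Density (Qbar GalQ)
open FLTAgent.LanglandsTunnell.CFT (PlaceOver)

local notation "G₃" => GL (Fin 2) (ZMod 3)
local notation "M₃" => Matrix (Fin 2) (Fin 2) (ZMod 3)

variable {D : Datum}

theorem ne_bot_of_natCast_mem {p : ℕ} (hp : p ≠ 0) {v : Ideal (𝓞 D.E)} (h : (p : 𝓞 D.E) ∈ v) :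
    v ≠ ⊥ := fun hb => by
  rw [hb, Ideal.mem_bot] at h
  exact hp (by exact_mod_cast h)

theorem absNorm_span_natCast_E (p : ℕ) : Ideal.absNorm (Ideal.span {(p : 𝓞 D.E)}) = p ^ 2 := by
  rw [Ideal.absNorm_span_natCast, RingOfIntegers.rank, WeightOneWiring.finrank_E]

/-- A prime splits into two distinct primes of norm `p`, or stays prime. -/
theorem split_or_inert (P : ExtPlaces D) {p : ℕ} (hp : p.Prime) (h3 : p ≠ 3) :
    (∃ v v' : Ideal (𝓞 D.E), v.IsPrime ∧ v'.IsPrime ∧ v ≠ v' ∧ v * v' = Ideal.span {(p : 𝓞 D.E)} ∧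
        Ideal.absNorm v = p ∧ Ideal.absNorm v' = p) ∨
      ((Ideal.span {(p : 𝓞 D.E)}).IsPrime ∧
        ∀ v : Ideal (𝓞 D.E), v.IsPrime → (p : 𝓞 D.E) ∈ v → v = Ideal.span {(p : 𝓞 D.E)}) := by
  classical
  by_cases hex : ∃ x : 𝓞 D.E, normSq (embE P x) = p
  · left
    obtain ⟨x, hx⟩ := hex
    obtain ⟨y, hy⟩ := exists_emb_eq P (conj_mem_Eis (emb_mem_Eis P x))
    have hny : normSq (embE P y) = p := by rw [hy, normSq_conj, hx]
    have hxy : x * y = (p : 𝓞 D.E) := emb_injective P (by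
      push_cast
      rw [map_mul, map_natCast, hy, mul_conj, hx]
      simp)
    have hn : ∀ z : 𝓞 D.E, normSq (embE P z) = p → Ideal.absNorm (Ideal.span {z}) = p :=
      fun z hz => by exact_mod_cast (absNorm_span_eq P z).trans hz
    refine ⟨Ideal.span {x}, Ideal.span {y}, Ideal.isPrime_of_irreducible_absNorm ?_,
      Ideal.isPrime_of_irreducible_absNorm ?_, ?_,
      by rw [Ideal.span_singleton_mul_span_singleton, hxy], hn x hx, hn y hny⟩
    · rw [hn x hx]; exact hp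
    · rw [hn y hny]; exact hp
    · intro he
      obtain ⟨c, hc⟩ := Ideal.mem_span_singleton.mp (he ▸ Ideal.mem_span_singleton_self y :
        y ∈ Ideal.span {x})
      obtain ⟨a, b, hab⟩ := emb_mem_Eis P x
      obtain ⟨u, w, huw⟩ := emb_mem_Eis P c
      have e := congrArg (fun z : 𝓞 D.E => embE P z) hc
      push_cast at e
      rw [map_mul, hy, hab, huw, conj_eis] at e
      have e2 : eis (a : ℝ) b * eis (u : ℝ) w =
          eis ((a : ℝ) * u - b * w) ((a : ℝ) * w + b * u - b * w) := by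
        simp only [eis]
        push_cast
        linear_combination ((b : ℂ) * w) * omega_sq
      rw [e2] at e
      obtain ⟨e3, e4⟩ := eis_inj e
      rw [hab, normSq_eis] at hx
      have h5 : a - b = a * u - b * w := by exact_mod_cast e3
      have h6 : -b = a * w + b * u - b * w := by exact_mod_cast e4
      have h7 : a * a - a * b + b * b = (p : ℤ) := by exact_mod_cast hx
      have hpp : Prime (p : ℤ) := Nat.prime_iff_prime_int.mp hp
      have hb : (p : ℤ) ∣ b * (2 * a - b) := by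
        refine ⟨-w, ?_⟩
        linear_combination b * h5 - a * h6 - w * h7
      have key : (p : ℤ) ∣ a ∧ (p : ℤ) ∣ b := by
        have h2a : (p : ℤ) ∣ 2 * a - b → (p : ℤ) ∣ b := fun h => by
          have : (p : ℤ) ∣ 3 * (b * b) := by
            have h' := (dvd_mul_of_dvd_left h (2 * a - b))
            obtain ⟨k, hk⟩ := h'
            exact ⟨4 - k, by linear_combination 4 * h7 - hk⟩
          rcases hpp.dvd_or_dvd this with h' | h'
          · exact absurd ((Nat.prime_dvd_prime_iff_eq hp Nat.prime_three).mp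
              (by exact_mod_cast h')) h3
          · exact (hpp.dvd_or_dvd h').elim id id
        have hb' : (p : ℤ) ∣ b := (hpp.dvd_or_dvd hb).elim id h2a
        refine ⟨?_, hb'⟩
        obtain ⟨k, hk⟩ := hb'
        have : (p : ℤ) ∣ a * a := ⟨1 + a * k - b * k, by subst hk; linear_combination h7⟩
        exact (hpp.dvd_or_dvd this).elim id id
      obtain ⟨⟨a', ha⟩, ⟨b', hb'⟩⟩ := key
      subst ha hb'
      have : (p : ℤ) * (a' * a' - a' * b' + b' * b') = 1 := by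
        refine mul_left_cancel₀ hpp.ne_zero ?_
        linear_combination h7
      exact hpp.not_isUnit (IsUnit.of_mul_eq_one _ this)
  · right
    push Not at hex
    have key : ∀ v : Ideal (𝓞 D.E), v.IsPrime → (p : 𝓞 D.E) ∈ v →
        v = Ideal.span {(p : 𝓞 D.E)} := by
      intro v hv hpv
      obtain ⟨z, hz0, rfl⟩ := exists_generator (ne_bot_of_natCast_mem hp.ne_zero hpv)
      obtain ⟨c, hc⟩ := Ideal.mem_span_singleton.mp hpv
      have hm : Ideal.absNorm (Ideal.span {z}) * Ideal.absNorm (Ideal.span {c}) = p ^ 2 := by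
        rw [← map_mul, Ideal.span_singleton_mul_span_singleton, ← hc, absNorm_span_natCast_E]
      obtain ⟨i, hi, hie⟩ := (Nat.dvd_prime_pow hp).mp (Dvd.intro _ hm)
      interval_cases i
      · exact absurd (Ideal.absNorm_eq_one_iff.mp (by simpa using hie)) hv.ne_top
      · exact absurd (by rw [← absNorm_span_eq, hie, pow_one]) (hex z)
      · rw [hie] at hm
        have h1 : Ideal.absNorm (Ideal.span {c}) = 1 :=
          (mul_eq_left₀ (pow_ne_zero 2 hp.ne_zero)).mp hm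
        rw [hc]
        refine (Ideal.span_singleton_mul_right_unit ?_ z).symm
        exact Ideal.span_singleton_eq_top.mp (Ideal.absNorm_eq_one_iff.mp h1)
    refine ⟨?_, key⟩
    obtain ⟨m, hm, hle⟩ := Ideal.exists_le_maximal (Ideal.span {(p : 𝓞 D.E)}) fun h => by
      have := congrArg Ideal.absNorm h
      rw [absNorm_span_natCast_E, Ideal.absNorm_top] at this
      nlinarith [hp.two_le]
    rw [← key m hm.isPrime (hle (Ideal.mem_span_singleton_self _))]
    exact hm.isPrime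

theorem not_dvd_span_natCast {N p : ℕ} (hp : p.Prime) (hN : ¬ p ∣ N) {v : Ideal (𝓞 D.E)}
    (hv : v.IsPrime) (h : (p : 𝓞 D.E) ∈ v) : ¬ v ∣ Ideal.span {(N : 𝓞 D.E)} := fun hd => by
  have hN' : (N : 𝓞 D.E) ∈ v :=
    Ideal.dvd_iff_le.mp hd (Ideal.mem_span_singleton_self _)
  obtain ⟨x, y, hxy⟩ := Int.isCoprime_iff_gcd_eq_one.mpr
    (by simpa using (hp.coprime_iff_not_dvd.mpr hN) : Int.gcd (p : ℤ) (N : ℤ) = 1)
  refine hv.ne_top ((Ideal.eq_top_iff_one _).mpr ?_)
  have e : ((x * (p : ℤ) + y * (N : ℤ) : ℤ) : 𝓞 D.E) ∈ v := by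
    push_cast
    exact add_mem (v.mul_mem_left _ h) (v.mul_mem_left _ hN')
  rwa [hxy, Int.cast_one] at e

theorem sq_entries : ∀ a b c d : ZMod 3, a * d - b * c = -1 →
    (a + d = 0 → (!![a, b; c, d] : M₃) * !![a, b; c, d] = 1) ∧
    (a + d ≠ 0 → ((!![a, b; c, d] : M₃) * !![a, b; c, d]) 0 0 +
      ((!![a, b; c, d] : M₃) * !![a, b; c, d]) 1 1 = 0) := by
  decide +kernel

theorem trLift_sq {g : G₃} (hg : g.1.det = -1) :
    InQ8 (g * g) ∧ (g.1.trace = 0 → trLift (g * g) = 2) ∧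
      (trLift (g * g) = 2 ∨ trLift (g * g) = 0) := by
  have hd : (g * g).1.det = 1 := by
    rw [Units.val_mul, Matrix.det_mul, hg]
    ring
  obtain ⟨h1, h2⟩ := sq_entries (g.1 0 0) (g.1 0 1) (g.1 1 0) (g.1 1 1) (by
    rw [← Matrix.det_fin_two]; exact hg)
  rw [← Matrix.eta_fin_two g.1, ← Units.val_mul] at h1 h2
  rw [← Matrix.trace_fin_two (g * g).1] at h2
  have ht2 : g.1.trace = 0 → trLift (g * g) = 2 := fun ht => by
    rw [Matrix.trace_fin_two] at ht
    rw [trLift, if_pos hd, if_pos (h1 ht)]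
  by_cases ht : g.1 0 0 + g.1 1 1 = 0
  · exact ⟨⟨hd, Or.inr (Or.inl (h1 ht))⟩, ht2,
      Or.inl (ht2 (by rw [Matrix.trace_fin_two]; exact ht))⟩
  · have h0 := h2 ht
    refine ⟨⟨hd, Or.inl h0⟩, ht2, Or.inr ?_⟩
    rw [trLift, if_pos hd, if_neg ?_, if_neg ?_, if_pos h0]
    · intro h; rw [h] at h0; revert h0; decide +kernel
    · intro h; rw [h] at h0; revert h0; decide +kernel

/-- The determinant of a Frobenius element tells whether the prime splits. -/
theorem det_frob {p : ℕ} (hp : p.Prime)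
    (hur : ∀ A : ValuationSubring QB, A.LiesOverPrime p → ∀ σ ∈ A.inertiaSubgroupIn ℚ, D.ρ σ = 1)
    {A : ValuationSubring QB} (hA : A.LiesOverPrime p) {σ : GQ} (hσ : A.IsFrobeniusAt σ p) :
    ((D.ρ σ).1.det = 1 → ∃ v : Ideal (𝓞 D.E), v.IsPrime ∧ (p : 𝓞 D.E) ∈ v ∧ Ideal.absNorm v = p) ∧
    (∀ v : Ideal (𝓞 D.E), v.IsPrime → (p : 𝓞 D.E) ∈ v → Ideal.absNorm v = p →
      ∃ g, IsFrobOver D.E v g ∧ IsConj (D.ρ σ) (D.ρ g) ∧ (D.ρ σ).1.det = 1) := by
  refine ⟨fun hd => ?_, fun v hv hpv hnv => ?_⟩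
  · obtain ⟨w, h1, -, h3, h4, -⟩ := degreeOne_of_frobenius (D := D) hp hA
      (σ := σ) (by rw [LanglandsTunnell.Isolation.fixingSubgroup_E]
                   exact (LanglandsTunnell.Isolation.mem_galE D).mpr hd) hσ
    exact ⟨w, h1, h4, h3⟩
  · have hv0 := ne_bot_of_natCast_mem hp.ne_zero hpv
    obtain ⟨q, B, hq, hqv, -, hB⟩ := LanglandsTunnell.CFT.exists_placeOver v hv0
    have hBp : B.LiesOverPrime p := hB.liesOverPrime hpv
    obtain ⟨g, hg, hBg⟩ := LanglandsTunnell.CFT.exists_frobenius_over hv0 hB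
    have hgd : (D.ρ g).1.det = 1 := by
      rw [LanglandsTunnell.Isolation.fixingSubgroup_E] at hg
      exact (LanglandsTunnell.Isolation.mem_galE D).mp hg
    have hconj : IsConj (D.ρ σ) (D.ρ g) :=
      Density.isConj_map_of_isFrobeniusAt hp hur hA hBp hσ (hnv ▸ hBg)
    refine ⟨g, ⟨hg, B, hB, hBg⟩, hconj, ?_⟩
    obtain ⟨c, hc⟩ := isConj_iff.mp hconj
    rw [← hgd, ← hc, Units.val_mul, Units.val_mul, Matrix.det_mul, Matrix.det_mul,
      mul_right_comm, ← Matrix.det_mul, ← Units.val_mul, mul_inv_cancel, Units.val_one,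
      Matrix.det_one, one_mul]

/-- The eigenvalue at an inert prime. -/
theorem eigen_inert {N : ℕ} {a : Ideal (𝓞 D.E) → ℂ}
    (hsplit : ∀ v : Ideal (𝓞 D.E), v.IsPrime → v ≠ ⊥ → ¬ v ∣ Ideal.span {(N : 𝓞 D.E)} →
      ∀ g, IsFrobOver D.E v g → g ∈ D.galM → a v = trLift (D.ρ g))
    {p : ℕ} (hp : p.Prime) (hpN : ¬ p ∣ N)
    (hur : ∀ A : ValuationSubring QB, A.LiesOverPrime p → ∀ σ ∈ A.inertiaSubgroupIn ℚ, D.ρ σ = 1)
    (hin : (Ideal.span {(p : 𝓞 D.E)}).IsPrime ∧
      ∀ v : Ideal (𝓞 D.E), v.IsPrime → (p : 𝓞 D.E) ∈ v → v = Ideal.span {(p : 𝓞 D.E)}) :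
    (a (Ideal.span {(p : 𝓞 D.E)}) = 2 ∨ a (Ideal.span {(p : 𝓞 D.E)}) = 0) ∧
      ∀ (A : ValuationSubring QB) (σ : GQ), A.LiesOverPrime p → A.IsFrobeniusAt σ p →
        (D.ρ σ).1.det = -1 ∧ ((D.ρ σ).1.trace = 0 → a (Ideal.span {(p : 𝓞 D.E)}) = 2) := by
  set v := Ideal.span {(p : 𝓞 D.E)} with hv
  have hpv : (p : 𝓞 D.E) ∈ v := Ideal.mem_span_singleton_self _
  have hdet : ∀ (A : ValuationSubring QB) (σ : GQ), A.LiesOverPrime p → A.IsFrobeniusAt σ p →
      (D.ρ σ).1.det = -1 := by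
    intro A σ hA hσ
    have hne : (D.ρ σ).1.det ≠ 0 := ((D.ρ σ).isUnit.map Matrix.detMonoidHom).ne_zero
    have hn1 : (D.ρ σ).1.det ≠ 1 := fun h1 => by
      obtain ⟨w, hw, hpw, hnw⟩ := (det_frob hp hur hA hσ).1 h1
      rw [hin.2 w hw hpw, hv, absNorm_span_natCast_E] at hnw
      nlinarith [hp.two_le]
    revert hne hn1
    generalize (D.ρ σ).1.det = u
    revert u
    decide
  have key : ∀ (A : ValuationSubring QB) (σ : GQ), A.LiesOverPrime p → A.IsFrobeniusAt σ p →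
      a v = trLift (D.ρ σ * D.ρ σ) := by
    intro A σ hA hσ
    obtain ⟨hQ, -, -⟩ := trLift_sq (hdet A σ hA hσ)
    rw [← map_mul, ← pow_two]
    have hM : σ ^ 2 ∈ D.galM := (LanglandsTunnell.mem_galM D).mpr (by
      rw [pow_two, map_mul]; exact hQ)
    refine hsplit v hin.1 (ne_bot_of_natCast_mem hp.ne_zero hpv)
      (not_dvd_span_natCast hp hpN hin.1 hpv) _ ⟨?_, A, ?_, ?_⟩ hM
    · rw [LanglandsTunnell.Isolation.fixingSubgroup_E]
      exact D.galM_le_galE hM
    · set w : Ideal (𝓞 D.E) := (Density.primeBelow A).comap (ExtVanishing.intEmb D.E)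
      have hwA : PlaceOver A w := LanglandsTunnell.CFT.placeOver_iff.mpr rfl
      have : w.IsPrime := Ideal.comap_isPrime _ _
      have hpw : (p : 𝓞 D.E) ∈ w :=
        (hwA _).mpr (by simpa [ValuationSubring.LiesOverPrime] using hA)
      rw [← hin.2 w inferInstance hpw]
      exact hwA
    · rw [hv, absNorm_span_natCast_E]
      exact LanglandsTunnell.CFT.isFrobeniusAt_pow hσ 2
  refine ⟨?_, fun A σ hA hσ => ⟨hdet A σ hA hσ, fun ht => ?_⟩⟩
  · obtain ⟨A, hA⟩ := Density.exists_liesOverPrime hp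
    obtain ⟨σ, hσ⟩ := Density.exists_isFrobeniusAt A hp hA
    rw [key A σ hA hσ]
    exact (trLift_sq (hdet A σ hA hσ)).2.2
  · rw [key A σ hA hσ]
    exact (trLift_sq (hdet A σ hA hσ)).2.1 ht

/-- The eigenvalues at a split prime with central Frobenius. -/
theorem eigen_central {N : ℕ} {a : Ideal (𝓞 D.E) → ℂ}
    (hsplit : ∀ v : Ideal (𝓞 D.E), v.IsPrime → v ≠ ⊥ → ¬ v ∣ Ideal.span {(N : 𝓞 D.E)} →
      ∀ g, IsFrobOver D.E v g → g ∈ D.galM → a v = trLift (D.ρ g))
    {p : ℕ} (hp : p.Prime) (hpN : ¬ p ∣ N)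
    (hur : ∀ A : ValuationSubring QB, A.LiesOverPrime p → ∀ σ ∈ A.inertiaSubgroupIn ℚ, D.ρ σ = 1)
    {A : ValuationSubring QB} (hA : A.LiesOverPrime p) {σ : GQ} (hσ : A.IsFrobeniusAt σ p)
    {g₀ : G₃} (hg : D.ρ σ = g₀) (hc : g₀.1 = 1 ∨ g₀.1 = -1) :
    (∃ v : Ideal (𝓞 D.E), v.IsPrime ∧ (p : 𝓞 D.E) ∈ v ∧ Ideal.absNorm v = p) ∧
    ∀ v : Ideal (𝓞 D.E), v.IsPrime → (p : 𝓞 D.E) ∈ v → Ideal.absNorm v = p →
      a v = trLift g₀ ∧ (trLift g₀) ^ 2 = 4 := by
  obtain ⟨h1, h2⟩ := det_frob hp hur hA hσ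
  have hd : g₀.1.det = 1 := by
    rcases hc with h | h <;> rw [h]
    · exact Matrix.det_one
    · decide +kernel
  refine ⟨h1 (hg ▸ hd), fun v hv hpv hnv => ?_⟩
  obtain ⟨g, hgv, hconj, -⟩ := h2 v hv hpv hnv
  have hge : D.ρ g = g₀ := by
    obtain ⟨c, hcc⟩ := isConj_iff.mp hconj
    rw [hg] at hcc
    have hz : c * g₀ = g₀ * c := Units.ext (by
      rw [Units.val_mul, Units.val_mul]
      rcases hc with h | h <;> simp [h])
    rw [← hcc, hz, mul_inv_cancel_right]
  have hM : g ∈ D.galM := (LanglandsTunnell.mem_galM D).mpr (by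
    rw [hge]
    exact ⟨hd, Or.inr hc⟩)
  refine ⟨?_, ?_⟩
  · rw [← hge]
    exact hsplit v hv (ne_bot_of_natCast_mem hp.ne_zero hpv)
      (not_dvd_span_natCast hp hpN hv hpv) g hgv hM
  · rcases hc with h | h
    · rw [trLift, if_pos hd, if_pos h]; norm_num
    · rw [trLift, if_pos hd, if_neg ?_, if_pos h]
      · norm_num
      · rw [h]; decide +kernel

end FLTAgent.LanglandsTunnell.Period

end
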