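import Fermat.Agent.LanglandsTunnell.Period.Support
import Fermat.Agent.LanglandsTunnell.Lift.Bridge.Adelic
import Fermat.Agent.LanglandsTunnell.Interfaces

/-!
# Selection of a vector invariant under the integral diagonal units

From an eigenform of level `N` whose level is exact away from `m`, a combination of translates at
the primes of `N`, of level `m ^ j N`, whose diagonal coefficients are supported where `N y` is a
unit at those primes, and are there the coefficients of a single translate.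
-/

set_option autoImplicit false

open NumberField Matrix

noncomputable section

namespace FLTAgent.LanglandsTunnell.Period

open FLTAgent.LanglandsTunnell FLTAgent.LanglandsTunnell.Isolation FLTAgent.LanglandsTunnell.Seed
  FLTAgent.LanglandsTunnell.Expansion
open FLTAgent.LanglandsTunnell.Killing (mk_mul_congr)
open FLTAgent.LanglandsTunnell.Lift (exists_unit_lift)

variable {F : Type} [Field F] [NumberField F] {ι : Type} [Fintype ι] [DecidableEq ι]
  {Φ : PlaceChoice F ι} {N : ℕ}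

attribute [local irreducible] transLin

/-- A natural number as a unit of the adeles. -/
def natUnit (F : Type) [Field F] [NumberField F] {n : ℕ} (hn : n ≠ 0) : (AF F)ˣ :=
  (isUnit_natCast_AF (F := F) hn).unit

@[simp] theorem coe_natUnit {n : ℕ} (hn : n ≠ 0) : (natUnit F hn : AF F) = n :=
  IsUnit.unit_spec _

/-- A unit at the primes dividing `N`. -/
def InUnit (N : ℕ) (z : (AF F)ˣ) : Prop :=
  eN F N * (z : AF F) ∈ intAF F ∧ eN F N * ((z⁻¹ : (AF F)ˣ) : AF F) ∈ intAF F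

omit [NumberField F] in
theorem inUnit_mul_unit {z u : (AF F)ˣ} (hu : (u : AF F) ∈ intAF F)
    (hu' : ((u⁻¹ : (AF F)ˣ) : AF F) ∈ intAF F) : InUnit N (z * u) ↔ InUnit N z := by
  have key : ∀ {z u : (AF F)ˣ}, (u : AF F) ∈ intAF F → ((u⁻¹ : (AF F)ˣ) : AF F) ∈ intAF F →
      InUnit N z → InUnit N (z * u) := by
    intro z u hu hu' hz
    refine ⟨?_, ?_⟩
    · rw [Units.val_mul, ← mul_assoc]; exact mul_mem hz.1 hu
    · rw [_root_.mul_inv_rev, Units.val_mul, mul_comm ((u⁻¹ : (AF F)ˣ) : AF F), ← mul_assoc]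
      exact mul_mem hz.2 hu'
  refine ⟨fun h => ?_, key hu hu'⟩
  have := key hu' (by rw [inv_inv]; exact hu) h
  rwa [mul_inv_cancel_right] at this

omit [NumberField F] in
theorem units_comm (u v : (AF F)ˣ) : u * v = v * u :=
  Units.ext (mul_comm (u : AF F) (v : AF F))

omit [NumberField F] in
theorem inPart_mem {u : (AF F)ˣ} (hu : (u : AF F) ∈ intAF F) :
    (inPart N u : AF F) ∈ intAF F := by
  rw [coe_inPart]
  exact add_mem (mul_mem eN_mem hu) one_sub_eN_mem

omit [NumberField F] in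
theorem coe_inPart_inv (u : (AF F)ˣ) : (((inPart N u)⁻¹ : (AF F)ˣ) : AF F) =
    eN F N * ((u⁻¹ : (AF F)ˣ) : AF F) + (1 - eN F N) := rfl

omit [NumberField F] in
theorem coe_outPart_inv (u : (AF F)ˣ) : (((outPart N u)⁻¹ : (AF F)ˣ) : AF F) =
    (1 - eN F N) * ((u⁻¹ : (AF F)ˣ) : AF F) + eN F N := rfl

omit [NumberField F] in
theorem eN_mul_inPart (u : (AF F)ˣ) : eN F N * (inPart N u : AF F) = eN F N * (u : AF F) := by
  rw [coe_inPart]
  linear_combination ((u : AF F) - 1) * eN_mul_self (F := F) (N := N)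

omit [NumberField F] in
theorem eN_mul_inPart_inv (u : (AF F)ˣ) :
    eN F N * (((inPart N u)⁻¹ : (AF F)ˣ) : AF F) = eN F N * ((u⁻¹ : (AF F)ˣ) : AF F) := by
  rw [coe_inPart_inv]
  linear_combination (((u⁻¹ : (AF F)ˣ) : AF F) - 1) * eN_mul_self (F := F) (N := N)

omit [NumberField F] in
theorem outPart_inPart (u : (AF F)ˣ) : outPart N (inPart N u) = 1 := by
  refine Units.ext ?_
  rw [coe_outPart, coe_inPart, Units.val_one]
  linear_combination (1 - (u : AF F)) * eN_mul_self (F := F) (N := N)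

omit [NumberField F] in
theorem outPart_mul_inPart (z u : (AF F)ˣ) : outPart N (z * inPart N u) = outPart N z := by
  rw [outPart_mul, outPart_inPart, mul_one]

variable {f : Pt F ι (lv F N) → ℂ} {a : Ideal (𝓞 F) → ℂ}

/-- Diagonal coefficients of a combination of translates. -/
theorem whit_combination (hf : IsEigenform Φ f a) {Ψ : AForm F ι} (hΨ : Ψ ∈ transSpan N f)
    {M M' : ℕ} (hM : M ≠ 0) (hM' : M' ≠ 0) (hK : principalSubgroup (lv F M) ≤ fixer Ψ) {κ : Type}
    (S : Finset κ) (q : κ → ℂ) (g : κ → GL (Fin 2) (AF F)) {Ψ' : AForm F ι}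
    (hΨ' : Ψ' ∈ transSpan N f) (hK' : principalSubgroup (lv F M') ≤ fixer Ψ')
    (he : Ψ' = ∑ j ∈ S, q j • transLin (F := F) (ι := ι) (g j) Ψ) (y : (AF F)ˣ) :
    whit Φ (descend (lv F M') Ψ') ((diagUnit y : GL (Fin 2) (AF F)) : FinPt F (lv F M')) =
      ∑ j ∈ S, q j * whit Φ (descend (lv F M) Ψ)
        ((diagUnit y * g j : GL (Fin 2) (AF F)) : FinPt F (lv F M)) := by
  refine whit_eq_sum (lv_ne_bot hM) (lv_ne_bot hM') S q
    (isAutomorphic_descend hf.automorphic hΨ' hK') (fun _ => descend (lv F M) Ψ)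
    (fun _ _ => isAutomorphic_descend hf.automorphic hΨ hK) _ _ fun Q => ?_
  rw [descend_mk (levelGroup_le_fixer hΨ' hK')]
  simp only [descend_mk (levelGroup_le_fixer hΨ hK), he, Finset.sum_apply, Pi.smul_apply,
    smul_eq_mul, transLin_apply]

theorem combination_mem {Ψ : AForm F ι} (hΨ : Ψ ∈ transSpan N f) {κ : Type} (S : Finset κ)
    (q : κ → ℂ) (g : κ → GL (Fin 2) (AF F)) (hg : ∀ j ∈ S, InsideN N (g j)) :
    ∑ j ∈ S, q j • transLin (F := F) (ι := ι) (g j) Ψ ∈ transSpan N f :=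
  Submodule.sum_mem _ fun j hj => Submodule.smul_mem _ _ (transLin_mem (hg j hj) hΨ)

theorem combination_fixed {n : Ideal (𝓞 F)} {Ψ : AForm F ι} {κ : Type} (S : Finset κ)
    (q : κ → ℂ) (g : κ → GL (Fin 2) (AF F))
    (h : ∀ j ∈ S, principalSubgroup n ≤ fixer (transLin (F := F) (ι := ι) (g j) Ψ)) :
    principalSubgroup n ≤ fixer (∑ j ∈ S, q j • transLin (F := F) (ι := ι) (g j) Ψ) :=
  fun _ hk => mem_fixer.mpr (map_sum_smul_fixed _ S q _ fun j hj => mem_fixer.mp (h j hj hk))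

theorem mk_diag_congr (hN : N ≠ 0) (y : (AF F)ˣ) {z : (AF F)ˣ}
    (hz : eN F N * ((z : AF F) - 1) ∈ idealAF F (lv F N)) :
    ((diagUnit (y * z) : GL (Fin 2) (AF F)) : FinPt F (lv F N)) =
      ((diagUnit (y * outPart N z) : GL (Fin 2) (AF F)) : FinPt F (lv F N)) := by
  have h1 : (inPart N z : AF F) - 1 ∈ idealAF F (lv F N) := by
    rw [coe_inPart, show eN F N * (z : AF F) + (1 - eN F N) - 1 = eN F N * ((z : AF F) - 1) by ring]
    exact hz
  have h2 : (1 - eN F N) * ((inPart N z : AF F) - 1) = 0 := by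
    rw [coe_inPart]
    linear_combination (1 - (z : AF F)) * eN_mul_self (F := F) (N := N)
  conv_lhs => rw [← inPart_mul_outPart (N := N) z, mul_comm (inPart N z), ← mul_assoc, diagUnit_mul]
  exact mk_mul_congr (diagUnit_mem_principalSubgroup h1 (inv_mem_of_congr hN h2 h1)) _

/-! ### Isolation at the primes of the level -/

/-- A combination of unipotent translates cutting the support down to a neighbourhood of `y₀`. -/
theorem exists_isolated (hf : IsEigenform Φ f a) (hN : N ≠ 0) {Ψ : AForm F ι} (hΨ : IsVector f Ψ)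
    {y₀ b : (AF F)ˣ} (hb : (b : AF F) = (N : AF F) * ((diffUnit F : AF F) * y₀)) {d : ℕ}
    (hD0 : d ≠ 0) (hr : (d : AF F) * ((b⁻¹ : (AF F)ˣ) : AF F) ∈ intAF F) :
    ∃ Ψ₂ : AForm F ι, Ψ₂ ∈ transSpan N f ∧
      principalSubgroup (lv F (d * d * N)) ≤ fixer Ψ₂ ∧
      ∀ z : (AF F)ˣ, whit Φ (descend (lv F (d * d * N)) Ψ₂)
          ((diagUnit (y₀ * z) : GL (Fin 2) (AF F)) : FinPt F _) =
        bump F N z * whit Φ (descend (lv F N) Ψ)
          ((diagUnit (y₀ * outPart N z) : GL (Fin 2) (AF F)) : FinPt F _) := by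
  classical
  set D : ℕ := d with hD
  have hM : D * D * N ≠ 0 := mul_ne_zero (mul_ne_zero hD0 hD0) hN
  have hn := lv_ne_bot (F := F) hN
  have hφ := isEigenform_descend hf hN hΨ.mem hΨ.ne_zero hN (fun _ _ => Iff.rfl) hΨ.level
  have hDN : D * N ≠ 0 := mul_ne_zero hD0 hN
  have : Finite (𝓞 F ⧸ lv F (D * N)) :=
    Ideal.finiteQuotientOfFreeOfNeBot _ (lv_ne_bot hDN)
  have : Fintype (𝓞 F ⧸ lv F (D * N)) := Fintype.ofFinite _
  set bi : AF F := ((b⁻¹ : (AF F)ˣ) : AF F) with hbi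
  have hNb : (N : AF F) * ((diffUnit F : AF F) * y₀) * bi = 1 := by rw [← hb, hbi, Units.mul_inv]
  set x : 𝓞 F ⧸ lv F (D * N) → AF F :=
    fun o => eN F N * toAF F ((Quotient.out o : 𝓞 F) : F) * bi with hx
  set g : 𝓞 F ⧸ lv F (D * N) → GL (Fin 2) (AF F) := fun o => upperUnip (x o) with hg
  set q : 𝓞 F ⧸ lv F (D * N) → ℂ := fun o =>
    psi (-((y₀ : AF F) * x o)) / (Fintype.card (𝓞 F ⧸ lv F (D * N)) : ℂ) with hq
  have hins : ∀ o ∈ Finset.univ, InsideN N (g o) := fun o _ => insideN_upperUnip (by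
    rw [hx, ← mul_assoc, ← mul_assoc, mul_comm (1 - eN F N), eN_mul_one_sub, zero_mul, zero_mul])
  have hconj : ∀ o ∈ Finset.univ,
      principalSubgroup (lv F (D * D * N)) ≤ fixer (transLin (F := F) (ι := ι) (g o) Ψ) := by
    intro o _
    refine le_fixer_transLin_of_conj (fun k hk => conj_upper_mem ?_ hk) hΨ.level
    rw [hx, show (D : AF F) * (eN F N * toAF F ((Quotient.out o : 𝓞 F) : F) * bi) =
      eN F N * toAF F ((Quotient.out o : 𝓞 F) : F) * ((D : AF F) * bi) by ring]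
    exact mul_mem (mul_mem eN_mem (toAF_mem_intAF _)) hr
  refine ⟨_, combination_mem hΨ.mem Finset.univ q g hins, combination_fixed Finset.univ q g hconj,
    fun z => ?_⟩
  rw [whit_combination hf hΨ.mem hN hM hΨ.level Finset.univ q g
    (combination_mem hΨ.mem Finset.univ q g hins) (combination_fixed Finset.univ q g hconj) rfl]
  set W : ℂ := whit Φ (descend (lv F N) Ψ)
    ((diagUnit (y₀ * z) : GL (Fin 2) (AF F)) : FinPt F (lv F N)) with hW
  set Q : AF F := (y₀ : AF F) * ((z : AF F) - 1) * eN F N * bi with hQ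
  have hterm : ∀ o, q o * whit Φ (descend (lv F N) Ψ)
      ((diagUnit (y₀ * z) * g o : GL (Fin 2) (AF F)) : FinPt F (lv F N)) =
      psi (Q * toAF F ((Quotient.out o : 𝓞 F) : F)) * W /
        (Fintype.card (𝓞 F ⧸ lv F (D * N)) : ℂ) := by
    intro o
    rw [hg, whit_diag_upper hφ.automorphic hφ.spherical hn, ← hW, hq, div_mul_eq_mul_div,
      ← mul_assoc, ← psi_add]
    congr 3
    rw [hQ, hx, Units.val_mul]
    ring
  rw [Finset.sum_congr rfl fun o _ => hterm o, ← Finset.sum_div, ← Finset.sum_mul]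
  have hNδQ : (N : AF F) * ((diffUnit F : AF F) * Q) = eN F N * ((z : AF F) - 1) := by
    rw [hQ]
    linear_combination (eN F N * ((z : AF F) - 1)) * hNb
  by_cases hW0 : W = 0
  · rw [hW0, mul_zero, zero_div]
    by_cases hz : eN F N * ((z : AF F) - 1) ∈ idealAF F (lv F N)
    · rw [← mk_diag_congr hN y₀ hz, ← hW, hW0, mul_zero]
    · rw [bump, if_neg hz, zero_mul]
  have hzint : (D : AF F) * (eN F N * (z : AF F)) ∈ intAF F := by
    have h1 := mem_intAF_of_whit_ne_zero hφ.automorphic hφ.spherical hN hW0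
    rw [show (D : AF F) * (eN F N * (z : AF F)) = eN F N * ((D : AF F) * bi) *
        ((N : AF F) * ((diffUnit F : AF F) * ((y₀ * z : (AF F)ˣ) : AF F))) by
      rw [Units.val_mul]
      linear_combination (-((D : AF F) * (eN F N * (z : AF F)))) * hNb]
    exact mul_mem (mul_mem eN_mem hr) h1
  have hzint' : (D : AF F) * (eN F N * ((z : AF F) - 1)) ∈ intAF F := by
    rw [mul_sub, mul_one, mul_sub]
    exact sub_mem hzint (mul_mem (natCast_mem _ _) eN_mem)
  have hsmall : ∀ w ∈ intAF F, psi (Q * (((D * N : ℕ) : AF F) * w)) = 1 := by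
    intro w hw
    refine psi_eq_one_of_mul_mem ?_
    rw [show (diffUnit F : AF F) * (Q * (((D * N : ℕ) : AF F) * w)) =
        (D : AF F) * (eN F N * ((z : AF F) - 1)) * w by
      push_cast
      linear_combination ((D : AF F) * w) * hNδQ]
    exact mul_mem hzint' hw
  have hwd : ∀ o o' : 𝓞 F, o - o' ∈ lv F (D * N) →
      psi (Q * toAF F (o : F)) = psi (Q * toAF F (o' : F)) := by
    intro o o' hoo
    obtain ⟨w, hw⟩ := Ideal.mem_span_singleton'.mp hoo
    rw [show o = o' + ((D * N : ℕ) : 𝓞 F) * w by rw [mul_comm _ w, hw]; ring]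
    push_cast
    simp only [map_add, map_mul, map_natCast, mul_add, psi_add]
    have := hsmall _ (toAF_mem_intAF w)
    push_cast at this
    rw [this, mul_one]
  let χ : AddChar (𝓞 F ⧸ lv F (D * N)) ℂ :=
    { toFun := fun o => psi (Q * toAF F ((Quotient.out o : 𝓞 F) : F))
      map_zero_eq_one' := by
        have h := hwd (Quotient.out (0 : 𝓞 F ⧸ lv F (D * N))) 0
          (Ideal.Quotient.eq.mp (by rw [Ideal.Quotient.mk_out, map_zero]))
        simp only [map_zero, mul_zero, psi_zero] at h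
        exact h
      map_add_eq_mul' := fun o o' => by
        rw [← psi_add, ← mul_add, ← map_add, ← map_add]
        exact hwd _ _ (Ideal.Quotient.eq.mp (by rw [map_add]; simp)) }
  have hχ : ∑ o, psi (Q * toAF F ((Quotient.out o : 𝓞 F) : F)) =
      if χ = 0 then (Fintype.card (𝓞 F ⧸ lv F (D * N)) : ℂ) else 0 := AddChar.sum_eq_ite χ
  erw [hχ]
  by_cases h0 : χ = 0
  · rw [if_pos h0, mul_div_cancel_left₀ _ (Nat.cast_ne_zero.mpr Fintype.card_ne_zero)]
    have hpsi : ∀ o : 𝓞 F, psi (Q * toAF F (o : F)) = 1 := fun o => by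
      rw [hwd o (Quotient.out (Ideal.Quotient.mk (lv F (D * N)) o))
        (Ideal.Quotient.eq.mp (Ideal.Quotient.mk_out _).symm)]
      exact DFunLike.congr_fun h0 (Ideal.Quotient.mk _ o)
    have hint : (diffUnit F : AF F) * Q ∈ intAF F := by
      refine psi_mul_int_iff.mp fun w hw => ?_
      obtain ⟨w₁, hw₁⟩ := hw
      replace hw₁ : intHom F w₁ = w := hw₁
      subst hw₁
      obtain ⟨o, s, rfl⟩ := oh_exists_add (F := F) hDN w₁
      rw [map_add, map_mul, map_natCast, intHom_tmul_one, mul_add, psi_add, hpsi, one_mul]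
      exact hsmall _ ⟨s, rfl⟩
    have hz : eN F N * ((z : AF F) - 1) ∈ idealAF F (lv F N) :=
      hNδQ ▸ natCast_mul_mem_lvl hint
    rw [bump, if_pos hz, one_mul, hW, mk_diag_congr hN y₀ hz]
  · rw [if_neg h0, zero_mul, zero_div, bump, if_neg fun hz => h0 ?_, zero_mul]
    obtain ⟨w, hw, hwz⟩ := exists_eq_natCast_mul hz
    refine DFunLike.ext _ _ fun o => ?_
    show psi (Q * toAF F ((Quotient.out o : 𝓞 F) : F)) = 1
    refine psi_eq_one_of_mul_mem ?_
    rw [show (diffUnit F : AF F) * (Q * toAF F ((Quotient.out o : 𝓞 F) : F)) =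
        w * toAF F ((Quotient.out o : 𝓞 F) : F) by
      refine (isUnit_natCast_AF (F := F) hN).mul_left_cancel ?_
      linear_combination (toAF F ((Quotient.out o : 𝓞 F) : F)) * (hNδQ.trans hwz)]
    exact mul_mem hw (toAF_mem_intAF _)

/-- Exactly one class of units modulo `N` carries a unit at the primes of `N` into the
neighbourhood of `1`, and none carries anything else there. -/
theorem bump_class (hN : N ≠ 0) {U : (𝓞 F ⧸ lv F N)ˣ → (AF F)ˣ}
    (hU : ∀ q, (U q : AF F) ∈ intAF F ∧ (((U q)⁻¹ : (AF F)ˣ) : AF F) ∈ intAF F ∧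
      (U q : AF F) - toAF F ((Quotient.out (q : 𝓞 F ⧸ lv F N) : 𝓞 F) : F) ∈ idealAF F (lv F N))
    [Fintype (𝓞 F ⧸ lv F N)ˣ] (z : (AF F)ˣ) :
    (InUnit N z → ∑ q, bump F N (z * inPart N (U q)) = 1) ∧
      (¬ InUnit N z → ∀ q, bump F N (z * inPart N (U q)) = 0) := by
  classical
  have hiff : ∀ q, eN F N * (((z * inPart N (U q) : (AF F)ˣ) : AF F) - 1) =
      eN F N * ((z : AF F) * (U q : AF F) - 1) := fun q => by
    rw [Units.val_mul]
    linear_combination (z : AF F) * eN_mul_inPart (F := F) (N := N) (U q)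
  have hback : ∀ q, eN F N * ((z : AF F) * (U q : AF F) - 1) ∈ idealAF F (lv F N) →
      InUnit N z := by
    intro q hq
    obtain ⟨hu, hu', -⟩ := hU q
    refine ⟨?_, ?_⟩
    · rw [show eN F N * (z : AF F) = (eN F N * ((z : AF F) * (U q : AF F) - 1) + eN F N) *
          (((U q)⁻¹ : (AF F)ˣ) : AF F) by
            linear_combination (-(eN F N * (z : AF F))) * (U q).mul_inv]
      exact mul_mem (add_mem (idealAF_le_intAF hq) eN_mem) hu'
    · set w := z * U q with hw
      have h1 : (inPart N w : AF F) - 1 ∈ idealAF F (lv F N) := by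
        rw [coe_inPart, show eN F N * (w : AF F) + (1 - eN F N) - 1 =
          eN F N * ((z : AF F) * (U q : AF F) - 1) by rw [hw, Units.val_mul]; ring]
        exact hq
      have h2 : (1 - eN F N) * ((inPart N w : AF F) - 1) = 0 := by
        rw [coe_inPart]
        linear_combination (1 - (w : AF F)) * eN_mul_self (F := F) (N := N)
      have h3 := mul_mem (mul_mem (eN_mem (F := F) (N := N))
        (add_mem (idealAF_le_intAF (inv_mem_of_congr hN h2 h1)) (one_mem (intAF F)))) hu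
      convert h3 using 1
      rw [sub_add_cancel, eN_mul_inPart_inv, hw, _root_.mul_inv_rev, Units.val_mul]
      linear_combination (-(eN F N * ((z⁻¹ : (AF F)ˣ) : AF F))) * (U q).inv_mul
  refine ⟨fun hz => ?_, fun hz q => ?_⟩
  swap
  · rw [bump, hiff, if_neg fun h => hz (hback q h)]
  obtain ⟨ez, ez'⟩ := hz
  -- the class of `z⁻¹`
  obtain ⟨s, hs⟩ := add_mem ez' (one_sub_eN_mem (F := F) (N := N))
  obtain ⟨s', hs'⟩ := add_mem ez (one_sub_eN_mem (F := F) (N := N))
  replace hs : intHom F s = eN F N * ((z⁻¹ : (AF F)ˣ) : AF F) + (1 - eN F N) := hs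
  replace hs' : intHom F s' = eN F N * (z : AF F) + (1 - eN F N) := hs'
  have hss : s * s' = 1 := intHom_injective (by
    rw [map_mul, hs, hs', map_one]
    linear_combination (eN F N * eN F N) * z.inv_mul +
      (2 - (z : AF F) - ((z⁻¹ : (AF F)ˣ) : AF F)) * eN_mul_self (F := F) (N := N))
  obtain ⟨o, t, rfl⟩ := oh_exists_add (F := F) hN s
  obtain ⟨o', t', rfl⟩ := oh_exists_add (F := F) hN s'
  rw [map_add, map_mul, map_natCast, intHom_tmul_one] at hs hs'
  have hoo : o * o' - 1 ∈ lv F N := by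
    refine (tmul_one_mem_idealOH_iff (lv_ne_bot hN)).mp ?_
    rw [show (o * o' - 1) ⊗ₜ[ℤ] (1 : Zhat) = -((N : OH F) * (t * (o' ⊗ₜ 1) + (o ⊗ₜ 1) * t' +
        (N : OH F) * t * t')) by
      rw [TensorProduct.sub_tmul, ← Algebra.TensorProduct.one_def,
        show (o * o') ⊗ₜ[ℤ] (1 : Zhat) = (o ⊗ₜ 1) * (o' ⊗ₜ 1) by
          rw [Algebra.TensorProduct.tmul_mul_tmul, one_mul]]
      linear_combination hss]
    exact neg_mem (Ideal.mul_mem_right _ _ (natCast_mem_idealOH (Ideal.mem_span_singleton_self _)))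
  have hq1 : Ideal.Quotient.mk (lv F N) o * Ideal.Quotient.mk (lv F N) o' = 1 := by
    rw [← map_mul, ← map_one (Ideal.Quotient.mk (lv F N))]
    exact Ideal.Quotient.eq.mpr hoo
  set q₀ : (𝓞 F ⧸ lv F N)ˣ :=
    ⟨Ideal.Quotient.mk _ o, Ideal.Quotient.mk _ o', hq1, by rw [mul_comm]; exact hq1⟩
  have h0 : eN F N * ((z : AF F) * (U q₀ : AF F) - 1) ∈ idealAF F (lv F N) := by
    have h1 : toAF F ((Quotient.out (q₀ : 𝓞 F ⧸ lv F N) : 𝓞 F) : F) - toAF F (o : F) ∈
        idealAF F (lv F N) := by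
      rw [← map_sub, ← map_sub]
      exact toAF_mem_idealAF (Ideal.Quotient.eq.mp (Ideal.Quotient.mk_out _))
    rw [show eN F N * ((z : AF F) * (U q₀ : AF F) - 1) = eN F N * (z : AF F) *
        (((U q₀ : AF F) - toAF F ((Quotient.out (q₀ : 𝓞 F ⧸ lv F N) : 𝓞 F) : F)) +
          (toAF F ((Quotient.out (q₀ : 𝓞 F ⧸ lv F N) : 𝓞 F) : F) - toAF F (o : F)) -
          (N : AF F) * intHom F t) by
      linear_combination (eN F N * (z : AF F)) * hs + (eN F N * eN F N) * z.mul_inv +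
        (1 - (z : AF F)) * eN_mul_self (F := F) (N := N)]
    exact mul_mem_idealAF_left ez
      (sub_mem (add_mem (hU q₀).2.2 h1) (natCast_mul_mem_lvl ⟨t, rfl⟩))
  rw [Finset.sum_eq_single q₀ (fun q _ hq => ?_) (by simp), bump, hiff, if_pos h0]
  rw [bump, hiff, if_neg fun h => hq ?_]
  have h2 : (U q : AF F) - (U q₀ : AF F) ∈ idealAF F (lv F N) := by
    rw [show (U q : AF F) - (U q₀ : AF F) =
        eN F N * ((z⁻¹ : (AF F)ˣ) : AF F) * (eN F N * ((z : AF F) * (U q : AF F) - 1) -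
          eN F N * ((z : AF F) * (U q₀ : AF F) - 1)) +
          ((U q : AF F) - (U q₀ : AF F)) * (1 - eN F N) by
      linear_combination (-(eN F N * eN F N * ((U q : AF F) - (U q₀ : AF F)))) * z.inv_mul -
        ((U q : AF F) - (U q₀ : AF F)) * eN_mul_self (F := F) (N := N)]
    exact add_mem (mul_mem_idealAF_left ez' (sub_mem h h0))
      (mul_one_sub_eN_mem hN (sub_mem (hU q).1 (hU q₀).1))
  refine Units.ext ?_
  rw [← Ideal.Quotient.mk_out (q : 𝓞 F ⧸ lv F N), ← Ideal.Quotient.mk_out (q₀ : 𝓞 F ⧸ lv F N)]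
  refine Ideal.Quotient.eq.mpr ((toAF_mem_idealAF_iff (lv_ne_bot hN)).mp ?_)
  push_cast
  rw [map_sub]
  have h3 := add_mem (sub_mem h2 (hU q).2.2) (hU q₀).2.2
  convert h3 using 1
  ring

open scoped Classical in
/-- The sum over the diagonal units modulo `N`. -/
theorem exists_averaged (hf : IsEigenform Φ f a) (hN : N ≠ 0) {Ψ₂ : AForm F ι}
    (hΨ₂ : Ψ₂ ∈ transSpan N f) {M : ℕ} (hM : M ≠ 0)
    (hK : principalSubgroup (lv F M) ≤ fixer Ψ₂) {y₀ : (AF F)ˣ} {A : (AF F)ˣ → ℂ}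
    (hW : ∀ z : (AF F)ˣ, whit Φ (descend (lv F M) Ψ₂)
      ((diagUnit (y₀ * z) : GL (Fin 2) (AF F)) : FinPt F _) = bump F N z * A (outPart N z)) :
    ∃ Ψ₃ : AForm F ι, Ψ₃ ∈ transSpan N f ∧ principalSubgroup (lv F M) ≤ fixer Ψ₃ ∧
      ∀ z : (AF F)ˣ, whit Φ (descend (lv F M) Ψ₃)
          ((diagUnit (y₀ * z) : GL (Fin 2) (AF F)) : FinPt F _) =
        if InUnit N z then A (outPart N z) else 0 := by
  have : Finite (𝓞 F ⧸ lv F N) := Ideal.finiteQuotientOfFreeOfNeBot _ (lv_ne_bot hN)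
  have : Fintype (𝓞 F ⧸ lv F N)ˣ := Fintype.ofFinite _
  have hex : ∀ q : (𝓞 F ⧸ lv F N)ˣ, ∃ u : (AF F)ˣ, (u : AF F) ∈ intAF F ∧
      ((u⁻¹ : (AF F)ˣ) : AF F) ∈ intAF F ∧
      (u : AF F) - toAF F ((Quotient.out (q : 𝓞 F ⧸ lv F N) : 𝓞 F) : F) ∈
        idealAF F (lv F N) := by
    intro q
    refine exists_unit_lift ?_ hN
    rw [Ideal.eq_top_iff_one]
    set o : 𝓞 F := Quotient.out (q : 𝓞 F ⧸ lv F N)
    set o' : 𝓞 F := Quotient.out ((q⁻¹ : (𝓞 F ⧸ lv F N)ˣ) : 𝓞 F ⧸ lv F N)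
    have h1 : 1 - o * o' ∈ lv F N := by
      refine Ideal.Quotient.eq.mp ?_
      rw [map_one, map_mul, Ideal.Quotient.mk_out, Ideal.Quotient.mk_out, Units.mul_inv]
    rw [show (1 : 𝓞 F) = o * o' + (1 - o * o') by ring]
    exact add_mem (Ideal.mem_sup_left (Ideal.mul_mem_right _ _ (Ideal.mem_span_singleton_self o)))
      (Ideal.mem_sup_right h1)
  choose U hU hU' hUo using hex
  set g : (𝓞 F ⧸ lv F N)ˣ → GL (Fin 2) (AF F) := fun q => diagUnit (inPart N (U q)) with hg
  have hins : ∀ q ∈ Finset.univ, InsideN N (g q) := fun q _ => insideN_inPart (U q)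
  have hconj : ∀ q ∈ Finset.univ,
      principalSubgroup (lv F M) ≤ fixer (transLin (F := F) (ι := ι) (g q) Ψ₂) := by
    intro q _
    refine le_fixer_transLin_of_conj (fun k hk => conj_diag_mem (A := 1) (B := 1) ?_ ?_
      (by simpa using hk)) hK
    · rw [Nat.cast_one, one_mul]; exact inPart_mem (hU q)
    · rw [Nat.cast_one, one_mul, coe_inPart_inv]
      exact add_mem (mul_mem eN_mem (hU' q)) one_sub_eN_mem
  refine ⟨_, combination_mem hΨ₂ Finset.univ (fun _ => 1) g hins,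
    combination_fixed Finset.univ (fun _ => 1) g hconj, fun z => ?_⟩
  rw [whit_combination hf hΨ₂ hM hM hK Finset.univ (fun _ => 1) g
    (combination_mem hΨ₂ Finset.univ (fun _ => 1) g hins)
    (combination_fixed Finset.univ (fun _ => 1) g hconj) rfl]
  simp only [hg, one_mul, ← diagUnit_mul, mul_assoc y₀, hW, outPart_mul_inPart]
  rw [← Finset.sum_mul]
  obtain ⟨h1, h2⟩ := bump_class hN (fun q => ⟨hU q, hU' q, hUo q⟩) z
  split_ifs with hz
  · rw [h1 hz, one_mul]
  · rw [Finset.sum_eq_zero fun q _ => h2 hz q, zero_mul]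

open scoped Classical in
/-- **Selection.** -/
theorem exists_selected (hf : IsEigenform Φ f a) (hN : N ≠ 0) {m : ℕ} (hm : m ≠ 0)
    (hmN : ∀ q : ℕ, q.Prime → q ∣ m → q ∣ N)
    (hsq : ∀ v : Ideal (𝓞 F), v.IsPrime → (N : 𝓞 F) ∈ v → (m : 𝓞 F) ∉ v → ¬ v ^ 2 ∣ lv F N)
    {k : ℕ}
    (hk : ((m ^ k : ℕ) : AF F) * (eN F N * (((diffUnit F)⁻¹ : (AF F)ˣ) : AF F)) ∈ intAF F) :
    ∃ (j : ℕ) (φ' : Pt F ι (lv F (m ^ j * N)) → ℂ) (h : GL (Fin 2) (AF F))
      (c : FinPt F (lv F N) → ℂ), InsideN N h ∧ IsWhitFn c a ∧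
      IsEigenform Φ φ' a ∧ DiagInvariant φ' ∧
      (∃ z : (AF F)ˣ, OutsideN N z ∧
        c ((diagUnit z * h : GL (Fin 2) (AF F)) : FinPt F (lv F N)) ≠ 0) ∧
      ∀ y : (AF F)ˣ, whit Φ φ' ((diagUnit y : GL (Fin 2) (AF F)) : FinPt F _) =
        if InUnit N (y * natUnit F hN) then
          c ((diagUnit (outPart N y) * h : GL (Fin 2) (AF F)) : FinPt F (lv F N)) else 0 := by
  obtain ⟨Ψ, hΨ, hsupp⟩ := exists_supported hf hN hsq
  have hn := lv_ne_bot (F := F) hN
  have hφ := isEigenform_descend hf hN hΨ.mem hΨ.ne_zero hN (fun _ _ => Iff.rfl) hΨ.level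
  set φ := descend (lv F N) Ψ with hφd
  -- the base point
  obtain ⟨u, hu, hne⟩ := exists_whit_ne_zero hN hφ
  rw [← diagUnit_mul] at hne
  set δo := diffOut F N with hδo
  set y₀ := δo⁻¹ * u with hy₀
  set b := natUnit F hN * (diffUnit F * y₀) with hb
  have hbval : (b : AF F) = (N : AF F) * ((diffUnit F : AF F) * y₀) := by
    rw [hb, Units.val_mul, Units.val_mul, coe_natUnit]
  have hbint : (b : AF F) ∈ intAF F :=
    hbval ▸ mem_intAF_of_whit_ne_zero hφ.automorphic hφ.spherical hN hne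
  have hbout : (1 - eN F N) * (b : AF F) = (1 - eN F N) * (N : AF F) := by
    have hδ : (1 - eN F N) * (δo : AF F) = (1 - eN F N) * (diffUnit F : AF F) := by
      rw [hδo, diffOut, coe_outPart]
      linear_combination ((diffUnit F : AF F) - 1) * eN_mul_self (F := F) (N := N)
    rw [hbval, hy₀, Units.val_mul]
    linear_combination (-((N : AF F) * ((δo⁻¹ : (AF F)ˣ) : AF F) * (u : AF F))) * hδ +
      ((1 - eN F N) * (N : AF F) * (u : AF F)) * δo.mul_inv + (N : AF F) * hu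
  obtain ⟨r, hr⟩ := exists_pow_three hbint hbout fun v hv hvN h3 =>
    hbval ▸ hsupp y₀ hne v hv hvN h3
  obtain ⟨Ψ₂, hΨ₂, hK₂, hW₂⟩ :=
    exists_isolated (Φ := Φ) hf hN hΨ hbval (pow_ne_zero r hm) hr
  set M₂ := m ^ r * m ^ r * N with hM₂
  have hM₂0 : M₂ ≠ 0 := by positivity
  set A : (AF F)ˣ → ℂ := fun w =>
    whit Φ φ ((diagUnit (y₀ * w) : GL (Fin 2) (AF F)) : FinPt F (lv F N)) with hA
  obtain ⟨Ψ₃, hΨ₃, hK₃, hW₃⟩ := exists_averaged hf hN hΨ₂ hM₂0 hK₂ (A := A) hW₂
  -- move the base point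
  set c₀ := inPart N (y₀ * natUnit F hN) with hc₀
  have hc : ((m ^ k : ℕ) : AF F) * c₀ ∈ intAF F := by
    rw [hc₀, coe_inPart, Units.val_mul, coe_natUnit, mul_add,
      show ((m ^ k : ℕ) : AF F) * (eN F N * ((y₀ : AF F) * N)) = (b : AF F) *
          (((m ^ k : ℕ) : AF F) * (eN F N * (((diffUnit F)⁻¹ : (AF F)ˣ) : AF F))) by
        rw [hbval]
        linear_combination (-((N : AF F) * (y₀ : AF F) * ((m ^ k : ℕ) : AF F) * eN F N)) *
          (diffUnit F).mul_inv]
    exact add_mem (mul_mem hbint hk) (mul_mem (natCast_mem _ _) one_sub_eN_mem)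
  have hc' : ((m ^ r : ℕ) : AF F) * ((c₀⁻¹ : (AF F)ˣ) : AF F) ∈ intAF F := by
    have e : (((y₀ * natUnit F hN)⁻¹ : (AF F)ˣ) : AF F) =
        (diffUnit F : AF F) * ((b⁻¹ : (AF F)ˣ) : AF F) := by
      rw [← Units.val_mul]
      congr 1
      rw [hb, eq_mul_inv_iff_mul_eq, inv_mul_eq_iff_eq_mul]
      refine Units.ext ?_
      simp only [Units.val_mul]
      ring
    rw [hc₀, coe_inPart_inv, e, mul_add,
      show ((m ^ r : ℕ) : AF F) * (eN F N * ((diffUnit F : AF F) * ((b⁻¹ : (AF F)ˣ) : AF F))) =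
        eN F N * (diffUnit F : AF F) * (((m ^ r : ℕ) : AF F) * ((b⁻¹ : (AF F)ˣ) : AF F)) by ring]
    exact add_mem (mul_mem (mul_mem eN_mem diffUnit_mem) hr)
      (mul_mem (natCast_mem _ _) one_sub_eN_mem)
  set j := k + r + (r + r) with hj
  have hM : m ^ j * N ≠ 0 := by positivity
  have hp : ∀ q : ℕ, q.Prime → (q ∣ m ^ j * N ↔ q ∣ N) := by
    refine fun q hq => ⟨fun h => ?_, fun h => h.mul_left _⟩
    rcases (Nat.Prime.dvd_mul hq).mp h with h | h
    · exact hmN q hq (hq.dvd_of_dvd_pow h)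
    · exact h
  set Ψ₄ := transLin (F := F) (ι := ι) (diagUnit c₀) Ψ₃ with hΨ₄
  have hΨ₄m : Ψ₄ ∈ transSpan N f := transLin_mem (insideN_inPart _) hΨ₃
  have hK₄ : principalSubgroup (lv F (m ^ j * N)) ≤ fixer Ψ₄ := by
    refine le_fixer_transLin_of_conj (fun g hg => conj_diag_mem (N := M₂) hc hc' ?_) hK₃
    rwa [hM₂, show m ^ k * m ^ r * (m ^ r * m ^ r * N) = m ^ j * N by rw [hj]; ring]
  set φ' := descend (lv F (m ^ j * N)) Ψ₄ with hφ'
  set h := diagUnit (inPart N y₀) with hh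
  have hhi : InsideN N h := insideN_inPart y₀
  have hout : ∀ y : (AF F)ˣ, whit Φ φ' ((diagUnit y : GL (Fin 2) (AF F)) : FinPt F _) =
      if InUnit N (y * natUnit F hN) then
        whit Φ φ ((diagUnit (outPart N y) * h : GL (Fin 2) (AF F)) : FinPt F (lv F N)) else 0 := by
    intro y
    rw [hφ', whit_combination hf hΨ₃ hM₂0 hM hK₃ ({()} : Finset Unit) (fun _ => 1)
      (fun _ => diagUnit c₀) hΨ₄m hK₄ (by rw [Finset.sum_singleton, one_smul]),
      Finset.sum_singleton, one_mul, ← diagUnit_mul]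
    have hz := hW₃ (y₀⁻¹ * (y * c₀))
    rw [mul_inv_cancel_left] at hz
    rw [hz]
    have hiff : InUnit N (y₀⁻¹ * (y * c₀)) ↔ InUnit N (y * natUnit F hN) := by
      have e1 : eN F N * ((y₀⁻¹ * (y * c₀) : (AF F)ˣ) : AF F) =
          eN F N * ((y * natUnit F hN : (AF F)ˣ) : AF F) := by
        have := eN_mul_inPart (F := F) (N := N) (y₀ * natUnit F hN)
        simp only [Units.val_mul] at this ⊢
        rw [hc₀]
        linear_combination (((y₀⁻¹ : (AF F)ˣ) : AF F) * (y : AF F)) * this +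
          (eN F N * (y : AF F) * (natUnit F hN : AF F)) * y₀.inv_mul
      have e2 : eN F N * (((y₀⁻¹ * (y * c₀))⁻¹ : (AF F)ˣ) : AF F) =
          eN F N * (((y * natUnit F hN)⁻¹ : (AF F)ˣ) : AF F) := by
        have := eN_mul_inPart_inv (F := F) (N := N) (y₀ * natUnit F hN)
        simp only [_root_.mul_inv_rev, inv_inv, Units.val_mul] at this ⊢
        rw [hc₀]
        linear_combination ((y₀ : AF F) * ((y⁻¹ : (AF F)ˣ) : AF F)) * this +
          (eN F N * ((y⁻¹ : (AF F)ˣ) : AF F) * (((natUnit F hN)⁻¹ : (AF F)ˣ) : AF F)) * y₀.inv_mul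
      rw [InUnit, InUnit, e1, e2]
    have harg : y₀ * outPart N (y₀⁻¹ * (y * c₀)) = outPart N y * inPart N y₀ := by
      conv_lhs => enter [1]; rw [← inPart_mul_outPart (N := N) y₀]
      rw [mul_assoc, ← outPart_mul, mul_inv_cancel_left, hc₀, outPart_mul_inPart]
      exact units_comm _ _
    simp only [hiff, hA, harg, hh, ← diagUnit_mul]
  -- a nonzero value
  have hwit : whit Φ φ ((diagUnit (outPart N y₀) * h : GL (Fin 2) (AF F)) :
      FinPt F (lv F N)) ≠ 0 := by
    rwa [hh, ← diagUnit_mul, units_comm, inPart_mul_outPart]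
  have hne₄ : Ψ₄ ≠ 0 := by
    intro h0
    have h1 := hout (outPart N y₀ * inPart N (natUnit F hN)⁻¹)
    rw [outPart_mul_inPart, show outPart N (outPart N y₀) = outPart N y₀ from Units.ext (by
      rw [coe_outPart, coe_outPart]
      linear_combination ((y₀ : AF F) - 1) * eN_mul_self (F := F) (N := N)), if_pos] at h1
    · refine hwit (h1.symm.trans ?_)
      have h2 := whit_combination (Φ := Φ) hf hΨ₃ hM₂0 hM hK₃ (∅ : Finset Unit) (fun _ => 1)
        (fun _ => diagUnit c₀) hΨ₄m hK₄ (by rw [Finset.sum_empty]; exact h0)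
        (outPart N y₀ * inPart N (natUnit F hN)⁻¹)
      simpa using h2
    · have e : eN F N * (outPart N y₀ : AF F) = eN F N := (outsideN_outPart (N := N) y₀).eN_mul
      have e' : eN F N * (((outPart N y₀)⁻¹ : (AF F)ˣ) : AF F) = eN F N :=
        (outsideN_outPart (N := N) y₀).inv.eN_mul
      have e2 := eN_mul_inPart (F := F) (N := N) (natUnit F hN)⁻¹
      have e3 := eN_mul_inPart_inv (F := F) (N := N) (natUnit F hN)⁻¹
      rw [inv_inv] at e3
      refine ⟨?_, ?_⟩
      · convert eN_mem (F := F) (N := N) using 1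
        simp only [Units.val_mul]
        linear_combination ((natUnit F hN : AF F) * (outPart N y₀ : AF F)) * e2 +
          (eN F N * (outPart N y₀ : AF F)) * (natUnit F hN).inv_mul + e
      · convert eN_mem (F := F) (N := N) using 1
        simp only [_root_.mul_inv_rev, Units.val_mul]
        linear_combination (((natUnit F hN)⁻¹ : (AF F)ˣ) *
            (((outPart N y₀)⁻¹ : (AF F)ˣ) : AF F)) * e3 +
          (eN F N * (((outPart N y₀)⁻¹ : (AF F)ˣ) : AF F)) * (natUnit F hN).inv_mul + e'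
  have hφ'e := isEigenform_descend hf hN hΨ₄m hne₄ hM hp hK₄
  refine ⟨j, φ', h, whit Φ φ, hhi, isWhitFn_whit hN hφ, hφ'e, ?_,
    ⟨_, outsideN_outPart y₀, hwit⟩, hout⟩
  intro w hw hw' g P
  have hE : ∀ y : (AF F)ˣ, ∑ i ∈ (Finset.univ : Finset Bool), (bif i then (1 : ℂ) else -1) *
      whit Φ φ' ((diagUnit y * (bif i then diagUnit w else 1) : GL (Fin 2) (AF F)) :
        FinPt F (lv F (m ^ j * N))) = 0 := by
    intro y
    rw [Fintype.sum_bool]
    simp only [cond_true, cond_false, mul_one, one_mul, ← diagUnit_mul, hout,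
      mul_right_comm y w (natUnit F hN), inUnit_mul_unit hw hw', outPart_mul,
      mk_diag_unit hN hhi (outPart N y) (outsideN_outPart w)
        (show (outPart N w : AF F) ∈ intAF F by
          rw [coe_outPart]; exact add_mem (mul_mem one_sub_eN_mem hw) eN_mem)
        (show (((outPart N w)⁻¹ : (AF F)ˣ) : AF F) ∈ intAF F by
          rw [coe_outPart_inv]; exact add_mem (mul_mem one_sub_eN_mem hw') eN_mem)]
    ring
  have h0 := sum_translates_eq_zero (Φ := Φ) (lv_ne_bot hM) (Finset.univ : Finset Bool)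
    (fun i => bif i then (1 : ℂ) else -1) (fun i => bif i then diagUnit w else 1) (fun _ => φ')
    (fun _ _ => hφ'e.automorphic) (fun _ _ => hφ'e.cuspidal) (fun _ _ => hφ'e.spherical) hE g P
  rw [Fintype.sum_bool] at h0
  simp only [cond_true, cond_false, mul_one, one_mul, neg_mul, ← sub_eq_add_neg, sub_eq_zero] at h0
  exact h0

end FLTAgent.LanglandsTunnell.Period

end
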