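import Fermat.Agent.LanglandsTunnell.Period.Mellin
import Fermat.Agent.LanglandsTunnell.Period.Series
import Fermat.Agent.LanglandsTunnell.Expansion.Bessel
import Mathlib.NumberTheory.ModularForms.EisensteinSeries.Summable

/-!
# The integral over a strip of the plane is a Dirichlet series of coefficients

Only the rational frequencies survive the integration along the real axis.
-/

set_option autoImplicit false

open NumberField Matrix MeasureTheory Set
open scoped Real UpperHalfPlane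

noncomputable section

namespace FLTAgent.LanglandsTunnell.Period

open FLTAgent.LanglandsTunnell FLTAgent.LanglandsTunnell.Expansion FLTAgent.LanglandsTunnell.Lift
open FLTAgent.LanglandsTunnell.Seed (wfun wfun_ne_zero norm_wfun_le continuous_wfun)
open FLTAgent.LanglandsTunnell.Geom (BIdx card_bIdx)

/-- The Mellin transform of the Whittaker function on the axis. -/
def axisMellin (s : ℝ) : ℝ := ∫ u in Ioi 0, u ^ (s - 2) * wAxis 1 u

theorem norm_wfun_axis {u : ℝ} (hu : 0 < u) :
    ‖wfun 1 (axisPt u)‖ ≤ Real.sqrt u * Real.exp (-u) ∧ ‖wfun 1 (axisPt u)‖ ≤ 30 / u ^ 3 := by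
  have h : ‖wfun 1 (axisPt u)‖ ≤ Real.sqrt (u / 8) * Real.exp (-(4 * π * u)) := by
    have := norm_wfun_le (b := 1) one_ne_zero (axisPt u)
    simpa [axisPt_eq hu] using this
  have h1 : ‖wfun 1 (axisPt u)‖ ≤ Real.sqrt u * Real.exp (-u) :=
    h.trans (mul_le_mul (Real.sqrt_le_sqrt (by linarith))
      (Real.exp_le_exp.mpr (by nlinarith [Real.pi_gt_three])) (Real.exp_pos _).le
        (Real.sqrt_nonneg _))
  refine ⟨h1, h1.trans ?_⟩
  have e3 := Real.pow_div_factorial_le_exp u hu.le 3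
  have e4 := Real.pow_div_factorial_le_exp u hu.le 4
  norm_num [Nat.factorial] at e3 e4
  have hs : Real.sqrt u ≤ 1 + u := by
    rw [Real.sqrt_le_left (by linarith)]
    nlinarith
  rw [le_div_iff₀ (pow_pos hu 3), Real.exp_neg, ← div_eq_mul_inv, div_mul_eq_mul_div,
    div_le_iff₀ (Real.exp_pos u)]
  nlinarith [mul_le_mul_of_nonneg_right hs (pow_pos hu 3).le]

theorem integrableOn_axisMellin {s : ℝ} (hs : 1 / 2 < s) :
    IntegrableOn (fun u => u ^ (s - 2) * wAxis 1 u) (Ioi 0) := by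
  refine Integrable.mono' (integrableOn_rpow_mul_exp_neg_mul_rpow (p := 1) (s := s - 3 / 2) (b := 1)
    (by linarith) one_pos one_pos) ?_ ?_
  · refine (ContinuousOn.mul (continuousOn_id.rpow_const fun u (hu : 0 < u) => Or.inl hu.ne')
      ?_).aestronglyMeasurable
      measurableSet_Ioi
    exact Complex.continuous_re.comp_continuousOn
      ((continuous_wfun one_ne_zero).comp_continuousOn continuousOn_axisPt)
  · refine (ae_restrict_mem measurableSet_Ioi).mono fun u (hu : 0 < u) => ?_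
    rw [norm_mul, Real.norm_eq_abs, abs_of_nonneg (Real.rpow_nonneg hu.le _), Real.norm_eq_abs,
      Real.rpow_one, neg_one_mul, show s - 3 / 2 = (s - 2) + 1 / 2 by ring, Real.rpow_add hu,
      ← Real.sqrt_eq_rpow, mul_assoc]
    refine mul_le_mul_of_nonneg_left ?_ (Real.rpow_nonneg hu.le _)
    exact (Complex.abs_re_le_norm _).trans (norm_wfun_axis hu).1

theorem axisMellin_pos {s : ℝ} (hs : 1 / 2 < s) : 0 < axisMellin s := by
  refine (setIntegral_pos_iff_support_of_nonneg_ae ?_ (integrableOn_axisMellin hs)).mpr ?_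
  · exact (ae_restrict_mem measurableSet_Ioi).mono fun u (hu : 0 < u) =>
      mul_nonneg (Real.rpow_nonneg hu.le _) (wAxis_pos one_ne_zero hu).le
  · rw [show Function.support (fun u => u ^ (s - 2) * wAxis 1 u) ∩ Ioi 0 = Ioi 0 from
      inter_eq_right.mpr fun u (hu : 0 < u) =>
        (mul_pos (Real.rpow_pos_of_pos hu _) (wAxis_pos one_ne_zero hu)).ne']
    simp

/-- The Mellin transform is bounded below on `[1, 2]`. -/
theorem exists_le_axisMellin : ∃ c : ℝ, 0 < c ∧ ∀ s : ℝ, 1 ≤ s → s ≤ 2 → c ≤ axisMellin s := by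
  have hi : IntegrableOn (fun u => wAxis 1 u) (Ioc 1 2) := by
    refine IntegrableOn.mono_set ?_ Ioc_subset_Icc_self
    refine (Complex.continuous_re.comp_continuousOn ((continuous_wfun one_ne_zero).comp_continuousOn
      (continuousOn_axisPt.mono fun u (hu : u ∈ Icc (1 : ℝ) 2) => ?_))).integrableOn_Icc
    exact lt_of_lt_of_le one_pos hu.1
  have hpos : 0 < ∫ u in Ioc (1 : ℝ) 2, wAxis 1 u := by
    refine (setIntegral_pos_iff_support_of_nonneg_ae ?_ hi).mpr ?_
    · exact (ae_restrict_mem measurableSet_Ioc).mono fun u hu =>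
        (wAxis_pos one_ne_zero (one_pos.trans hu.1)).le
    · rw [show Function.support (fun u => wAxis 1 u) ∩ Ioc 1 2 = Ioc 1 2 from
        inter_eq_right.mpr fun u hu => (wAxis_pos one_ne_zero (one_pos.trans hu.1)).ne']
      simp
  refine ⟨(∫ u in Ioc (1 : ℝ) 2, wAxis 1 u) / 2, by linarith, fun s h1 h2 => ?_⟩
  calc (∫ u in Ioc (1 : ℝ) 2, wAxis 1 u) / 2
      = ∫ u in Ioc (1 : ℝ) 2, (1 / 2 : ℝ) * wAxis 1 u := by rw [integral_const_mul]; ring
    _ ≤ ∫ u in Ioc (1 : ℝ) 2, u ^ (s - 2) * wAxis 1 u := by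
      refine setIntegral_mono_on (hi.const_mul _)
        ((integrableOn_axisMellin (by linarith)).mono_set fun u hu => one_pos.trans hu.1)
        measurableSet_Ioc fun u hu => mul_le_mul_of_nonneg_right ?_
          (wAxis_pos one_ne_zero (one_pos.trans hu.1)).le
      calc (1 / 2 : ℝ) = (2 : ℝ) ^ (-1 : ℝ) := by rw [Real.rpow_neg_one]; norm_num
        _ ≤ (2 : ℝ) ^ (s - 2) := Real.rpow_le_rpow_of_exponent_le one_le_two (by linarith)
        _ ≤ u ^ (s - 2) :=
          Real.rpow_le_rpow_of_nonpos (one_pos.trans hu.1) hu.2 (by linarith)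
    _ ≤ axisMellin s := by
      refine setIntegral_mono_set (integrableOn_axisMellin (by linarith)) ?_
        (LE.le.eventuallyLE fun u (hu : u ∈ Ioc (1 : ℝ) 2) => one_pos.trans hu.1)
      exact (ae_restrict_mem measurableSet_Ioi).mono fun u (hu : 0 < u) =>
        mul_nonneg (Real.rpow_nonneg hu.le _) (wAxis_pos one_ne_zero hu).le

variable {D : Datum} (P : ExtPlaces D) {n : Ideal (𝓞 D.E)} {φ : Pt D.E Unit n → ℂ}

/-- The function on the plane over a coset. -/
def planeFun (φ : Pt D.E Unit n → ℂ) (v : FinPt D.E n) (τ : ℍ) : ℂ :=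
  φ (v, fun _ => planePoint τ)

open scoped Classical in
/-- The coefficient at the rational frequency `j / m`. -/
def planeWhit (φ : Pt D.E Unit n → ℂ) (v : FinPt D.E n) (m : ℕ) (j : ℤ) : ℂ :=
  if h : (j : D.E) / (m : D.E) = 0 then 0 else
    whit P.placesE φ (GeneralLinearGroup.map (toAF D.E) (diagUnit (Units.mk0 _ h)) • v)

theorem chiInf_unit (ξ : D.E) (z : ℂ) :
    chiInf P.placesE ξ (fun _ => z) =
      Complex.exp (-(((4 * π * (embE P ξ * z).re : ℝ) : ℂ) * Complex.I)) := by
  rw [chiInf, Fintype.sum_unique]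

theorem coef_axis (hA : IsAutomorphic P.placesE φ) (hS : SphericalZero φ) (hn : n ≠ ⊥)
    (v : FinPt D.E n) (ξ : (D.E)ˣ) {t : ℝ} (ht : 0 < t) :
    coef P.placesE φ v (ξ : D.E) (fun _ => axisPt t) =
      whit P.placesE φ (GeneralLinearGroup.map (toAF D.E) (diagUnit ξ) • v) *
        wfun 1 (axisPt (‖embE P (ξ : D.E)‖ * t)) := by
  have hτ : 0 < ‖embE P (ξ : D.E)‖ * t :=
    mul_pos (norm_pos_iff.mpr ((map_ne_zero _).mpr ξ.ne_zero)) ht
  rw [coef_eq_whit hA hS hn, Fintype.prod_unique]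
  congr 2
  rw [FLTAgent.LanglandsTunnell.map_diagUnit]
  obtain ⟨e1, e2⟩ := moebius_diagUnit
    (Units.map (P.placesE.emb default : D.E →* ℂ) ξ) (axisPt t)
  refine H3.ext (e1.trans ?_) (e2.trans ?_) <;> rw [axisPt_eq ht, axisPt_eq hτ] <;> simp

/-- The first coefficients are bounded. -/
theorem exists_whit_bound (hA : IsAutomorphic P.placesE φ) (hn : n ≠ ⊥) :
    ∃ B : ℝ, 0 ≤ B ∧ ∀ v : FinPt D.E n, ‖whit P.placesE φ v‖ ≤ B := by
  obtain ⟨C, hC⟩ := hA.bounded
  refine ⟨|C| / ‖∏ _i : Unit, wfun 1 H3.base‖, by positivity, fun v => ?_⟩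
  rw [whit, norm_div]
  exact div_le_div_of_nonneg_right ((norm_coef_le hA hn hC v 1 _).trans (le_abs_self C))
    (norm_nonneg _)

/-- The dual lattice is thin enough for the inverse cubes of the absolute values to be
summable. -/
theorem summable_inv_norm_cube {m : ℕ} (hm : m ≠ 0) :
    Summable fun ξ : {ξ : D.E // DualOK m ξ ∧ ξ ≠ 0} => (‖embE P (ξ : D.E)‖ ^ 3)⁻¹ := by
  classical
  set S : Set D.E := {ξ | DualOK m ξ ∧ ξ ≠ 0}
  change Summable fun ξ : S => (‖embE P (ξ : D.E)‖ ^ 3)⁻¹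
  choose q hq using fun ξ : S => exists_int_traceMap (M := m) ξ.2.1
  have e : BIdx D.E ≃ Fin 2 :=
    Fintype.equivFinOfCardEq (by rw [card_bIdx P.placesE, Fintype.card_unit])
  have hinj : Function.Injective fun ξ : S => q ξ ∘ e.symm := fun ξ η h => by
    refine Subtype.ext (traceMap_injective hm (funext fun k => ?_))
    have := congrFun h (e k)
    simp only [Function.comp_apply, Equiv.symm_apply_apply] at this
    rw [hq, hq, this]
  set L : ℝ := 2 * m * ∑ k, ‖embE P (RingOfIntegers.basis D.E k : D.E)‖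
  have hL : 0 ≤ L := by positivity
  refine Summable.of_nonneg_of_le (fun ξ => by positivity) (fun ξ => ?_)
    ((((EisensteinSeries.summable_one_div_norm_rpow (k := 3)
      (by norm_num)).comp_injective hinj)).mul_left (L ^ 3))
  simp only [Function.comp_apply]
  set a := ‖embE P (ξ : D.E)‖
  have ha : 0 < a := norm_pos_iff.mpr ((map_ne_zero _).mpr ξ.2.2)
  have hqa : ‖q ξ ∘ e.symm‖ ≤ L * a := by
    refine (pi_norm_le_iff_of_nonneg (by positivity)).mpr fun i => ?_
    set k := e.symm i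
    have h1 : ((q ξ k : ℤ) : ℂ) =
        ((2 * (embE P ((ξ : D.E) *
          ((m : D.E) * (RingOfIntegers.basis D.E k : D.E)))).re : ℝ) : ℂ) := by
      have h :=
        trace_eq_sum_re P.placesE ((ξ : D.E) * ((m : D.E) * (RingOfIntegers.basis D.E k : D.E)))
      rw [Fintype.sum_unique, ← traceMap_apply, hq] at h
      exact_mod_cast h
    have h2 : ((q ξ k : ℤ) : ℝ) = 2 *
        (embE P ((ξ : D.E) * ((m : D.E) * (RingOfIntegers.basis D.E k : D.E)))).re := by
      exact_mod_cast h1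
    rw [Function.comp_apply, Int.norm_eq_abs, h2, abs_mul, abs_two]
    refine (mul_le_mul_of_nonneg_left (Complex.abs_re_le_norm _) zero_le_two).trans ?_
    rw [map_mul, map_mul, map_natCast, norm_mul, norm_mul, Complex.norm_natCast]
    have h3 : ‖embE P (RingOfIntegers.basis D.E k : D.E)‖ ≤
        ∑ k, ‖embE P (RingOfIntegers.basis D.E k : D.E)‖ :=
      Finset.single_le_sum (f := fun k => ‖embE P (RingOfIntegers.basis D.E k : D.E)‖)
        (fun _ _ => norm_nonneg _) (Finset.mem_univ k)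
    calc 2 * (a * ((m : ℝ) * ‖embE P (RingOfIntegers.basis D.E k : D.E)‖))
        ≤ 2 * (a * ((m : ℝ) * ∑ k, ‖embE P (RingOfIntegers.basis D.E k : D.E)‖)) := by gcongr
      _ = L * a := by ring
  have hq0 : 0 < ‖q ξ ∘ e.symm‖ := by
    rw [norm_pos_iff]
    intro h0
    refine ξ.2.2 (traceMap_injective hm (funext fun k => ?_))
    have := congrFun h0 (e k)
    simp only [Function.comp_apply, Equiv.symm_apply_apply, Pi.zero_apply] at this
    rw [hq, this]
    simp
  rw [Real.rpow_neg (norm_nonneg _), show (3 : ℝ) = ((3 : ℕ) : ℝ) by norm_num, Real.rpow_natCast,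
    inv_eq_one_div, ← div_eq_mul_inv, div_le_div_iff₀ (pow_pos ha 3) (pow_pos hq0 3), one_mul,
    ← mul_pow]
  exact pow_le_pow_left₀ hq0.le hqa 3

/-- The coefficients on the axis decay like the inverse cube of the height. -/
theorem norm_coef_axis_le (hA : IsAutomorphic P.placesE φ) (hS : SphericalZero φ) (hn : n ≠ ⊥)
    {B : ℝ} (hB : ∀ v : FinPt D.E n, ‖whit P.placesE φ v‖ ≤ B) (hB0 : 0 ≤ B) (v : FinPt D.E n)
    {ξ : D.E} (hξ : ξ ≠ 0) {t : ℝ} (ht : 0 < t) :
    ‖coef P.placesE φ v ξ (fun _ => axisPt t)‖ ≤ B * 30 / t ^ 3 * (‖embE P ξ‖ ^ 3)⁻¹ := by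
  have ha : 0 < ‖embE P ξ‖ := norm_pos_iff.mpr ((map_ne_zero _).mpr hξ)
  rw [show ξ = ((Units.mk0 ξ hξ : (D.E)ˣ) : D.E) from rfl, coef_axis P hA hS hn v _ ht, norm_mul,
    Units.val_mk0]
  refine (mul_le_mul (hB _) (norm_wfun_axis (mul_pos ha ht)).2 (norm_nonneg _) hB0).trans
    (le_of_eq ?_)
  field_simp

/-- The coefficients on the axis are absolutely summable. -/
theorem summable_coef (hA : IsAutomorphic P.placesE φ) (hC : IsCuspidal P.placesE φ)
    (hS : SphericalZero φ) (hn : n ≠ ⊥) {v : FinPt D.E n} {m : ℕ} (hm : Admissible m v) {t : ℝ}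
    (ht : 0 < t) : Summable fun ξ : D.E => ‖coef P.placesE φ v ξ (fun _ => axisPt t)‖ := by
  obtain ⟨B, hB0, hB⟩ := exists_whit_bound P hA hn
  set S : Set D.E := {ξ | DualOK m ξ ∧ ξ ≠ 0}
  have hzero : ∀ ξ ∉ S, ‖coef P.placesE φ v ξ (fun _ => axisPt t)‖ = 0 := fun ξ hξ => by
    rw [norm_eq_zero]
    by_cases h0 : ξ = 0
    · rw [h0, coef_zero hA hC hn]
    · exact coef_eq_zero_of_not_dualOK hA hm (fun hd => hξ ⟨hd, h0⟩) _
  rw [← (Subtype.val_injective (p := (· ∈ S))).summable_iff fun ξ hξ => hzero ξ fun h =>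
    hξ ⟨⟨ξ, h⟩, rfl⟩]
  exact Summable.of_nonneg_of_le (fun ξ => norm_nonneg _)
    (fun ξ => norm_coef_axis_le P hA hS hn hB hB0 v ξ.2.2 ht)
    ((summable_inv_norm_cube P hm.1).mul_left _)

/-- A frequency seen on every period. -/
theorem chiInf_period {m M : ℕ} (hmM : m ∣ M) {ξ : D.E} (hd : DualOK m ξ) :
    chiInf P.placesE ξ (-fun _ => (Real.sqrt 3 : ℂ) * Complex.I * (M : ℂ)) = 1 := by
  obtain ⟨k, rfl⟩ := hmM
  have hδ := (exists_sqrtNegThree P).choose_spec
  have e : (-fun _ : Unit => (Real.sqrt 3 : ℂ) * Complex.I * ((m * k : ℕ) : ℂ)) = fun i =>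
      P.placesE.emb i ((m : D.E) * ((-(sqrtNegThree P) * (k : 𝓞 D.E) : 𝓞 D.E) : D.E)) := by
    funext i
    obtain rfl : i = () := rfl
    push_cast
    rw [map_mul, map_mul, map_neg, map_natCast, map_natCast]
    show _ = _ * (-(embE P (sqrtNegThree P : D.E)) * _)
    rw [sqrtNegThree, hδ, omega, Pi.neg_apply]
    ring
  rw [e, chiInf_emb]
  exact hd _

/-- A real frequency with a nonzero coefficient is a multiple of `1 / m`. -/
theorem exists_eq_div_of_real {m : ℕ} (hm : m ≠ 0) {ξ : D.E} (hd : DualOK m ξ)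
    (him : (embE P ξ).im = 0) : ∃ j : ℤ, (j : D.E) / (m : D.E) = ξ := by
  obtain ⟨a, b, hab⟩ := exists_emb_eq_eis P ξ
  have hb : (b : ℝ) = 0 := by
    rw [hab, eis_im] at him
    exact (mul_eq_zero.mp him).resolve_left (by positivity)
  have hb' : b = 0 := by exact_mod_cast hb
  have hξ : ξ = (a : D.E) := (embE P).injective (by rw [hab, hb', map_ratCast]; simp [eis])
  obtain ⟨ζ, hζ⟩ := exists_emb_omega P
  have h1 := hd ζ
  rw [← chiInf_emb (Φ := P.placesE), show (fun i => P.placesE.emb i ((m : D.E) * (ζ : D.E))) =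
    fun _ => embE P ((m : D.E) * (ζ : D.E)) from rfl, chiInf_unit, Complex.exp_eq_one_iff] at h1
  obtain ⟨j, hj⟩ := h1
  have hj' : -(4 * π * (embE P ξ * embE P ((m : D.E) * (ζ : D.E))).re) = 2 * π * j := by
    have := congrArg Complex.im hj
    simpa [mul_comm, mul_assoc, mul_left_comm] using this
  rw [map_mul, map_natCast, hξ, map_ratCast, hζ] at hj'
  have hre : ((a : ℂ) * ((m : ℂ) * omega)).re = -((a : ℝ) * m) / 2 := by
    simp [omega, Complex.mul_re, Complex.mul_im]
    ring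
  rw [hre] at hj'
  have hQ : (a : ℝ) * m = (j : ℝ) := by
    have : (0 : ℝ) < 2 * π := by positivity
    nlinarith
  refine ⟨j, ?_⟩
  have hQ' : a * (m : ℚ) = (j : ℚ) := by exact_mod_cast hQ
  rw [hξ, div_eq_iff (Nat.cast_ne_zero.mpr hm)]
  have := congrArg (fun r : ℚ => (r : D.E)) hQ'
  push_cast at this
  exact this.symm

/-- The mean along a period. -/
theorem integral_line (hA : IsAutomorphic P.placesE φ) (hC : IsCuspidal P.placesE φ)
    (hS : SphericalZero φ) (hn : n ≠ ⊥) {v : FinPt D.E n} {m M : ℕ} (hm : Admissible m v)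
    (hmM : m ∣ M) {y : ℝ} (hy : 0 < y) :
    ∫ x in Ico (0 : ℝ) M, planeFun φ v (UpperHalfPlane.ofComplex ⟨x, y⟩) =
      (M : ℂ) * ∑' j : ℤ, planeWhit P φ v m j *
        wfun 1 (axisPt ((Real.sqrt 3 * |(j : ℝ)| / m) * y)) := by
  classical
  have := LanglandsTunnell.Geom.countable_field (F := D.E)
  have ht : 0 < Real.sqrt 3 * y := mul_pos (Real.sqrt_pos.mpr (by norm_num)) hy
  set c : D.E → ℂ := fun ξ => coef P.placesE φ v ξ fun _ => axisPt (Real.sqrt 3 * y) with hc
  have hsum := summable_coef P hA hC hS hn hm ht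
  set χ : D.E → ℝ → ℂ := fun ξ x =>
    chiInf P.placesE ξ (-fun _ => (Real.sqrt 3 : ℂ) * Complex.I * (x : ℂ))
  have hexp : ∀ x : ℝ, HasSum (fun ξ => χ ξ x * c ξ)
      (planeFun φ v (UpperHalfPlane.ofComplex ⟨x, y⟩)) := by
    intro x
    have hpt : (fun _ : Unit => planePoint (UpperHalfPlane.ofComplex ⟨x, y⟩)) =
        shiftVec (fun _ => (Real.sqrt 3 : ℂ) * Complex.I * (x : ℂ))
          fun _ => axisPt (Real.sqrt 3 * y) := by
      funext i
      rw [UpperHalfPlane.ofComplex_apply_of_im_pos (z := ⟨x, y⟩) hy]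
      refine H3.ext ?_ ?_ <;> simp [shiftVec, H3.shift, planePoint, axisPt_eq ht]
    rw [planeFun, hpt]
    have h1 : ∀ ξ, coef P.placesE φ v ξ (shiftVec (fun _ => (Real.sqrt 3 : ℂ) * Complex.I * (x : ℂ))
        fun _ => axisPt (Real.sqrt 3 * y)) = χ ξ x * c ξ := fun ξ => coef_shiftVec hA hn v ξ _ _
    have hh := hasSum_coef hA hn v (shiftVec (fun _ => (Real.sqrt 3 : ℂ) * Complex.I * (x : ℂ))
      fun _ => axisPt (Real.sqrt 3 * y)) (Summable.of_norm (hsum.congr fun ξ => by
        rw [h1, norm_mul, norm_chiInf, one_mul]))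
    simpa only [h1] using hh
  have hχc : ∀ ξ, Continuous (χ ξ) := fun ξ =>
    (continuous_chiInf P.placesE ξ).comp (continuous_pi fun _ =>
      continuous_const.mul Complex.continuous_ofReal).neg
  have : IsFiniteMeasure (volume.restrict (Ico (0 : ℝ) M)) :=
    ⟨by rw [Measure.restrict_apply_univ]; simp⟩
  have hint : HasSum (fun ξ => ∫ x in Ico (0 : ℝ) M, χ ξ x * c ξ)
      (∫ x in Ico (0 : ℝ) M, planeFun φ v (UpperHalfPlane.ofComplex ⟨x, y⟩)) :=
    hasSum_integral_of_dominated_convergence (fun ξ _ => ‖c ξ‖)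
      (fun ξ => ((hχc ξ).mul continuous_const).aestronglyMeasurable)
      (fun ξ => Filter.Eventually.of_forall fun x => by rw [norm_mul, norm_chiInf, one_mul])
      (Filter.Eventually.of_forall fun _ => hsum) (integrable_const _)
      (Filter.Eventually.of_forall hexp)
  have hval : ∀ ξ, ∫ x in Ico (0 : ℝ) M, χ ξ x * c ξ =
      if (embE P ξ).im = 0 then (M : ℂ) * c ξ else 0 := by
    intro ξ
    rw [integral_mul_const, integral_Ico_eq_integral_Ioc,
      ← intervalIntegral.integral_of_le (Nat.cast_nonneg M)]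
    set k : ℂ := ((-(4 * π * Real.sqrt 3 * (embE P ξ).im) : ℝ) : ℂ) * Complex.I
    have hk : ∀ x : ℝ, χ ξ x = Complex.exp (k * x) := fun x => by
      simp only [χ, Pi.neg_def, chiInf_unit, k]
      congr 1
      push_cast
      simp [Complex.mul_re, Complex.mul_im]
      ring
    simp only [hk]
    by_cases him : (embE P ξ).im = 0
    · have hk0 : k = 0 := by simp [k, him]
      simp [hk0, him]
    · rw [if_neg him]
      by_cases hc0 : c ξ = 0
      · rw [hc0, mul_zero]
      have hd : DualOK m ξ := by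
        by_contra hd
        exact hc0 (coef_eq_zero_of_not_dualOK hA hm hd _)
      have hk0 : k ≠ 0 := mul_ne_zero (Complex.ofReal_ne_zero.mpr
        (neg_ne_zero.mpr (mul_ne_zero (by positivity) him))) Complex.I_ne_zero
      rw [integral_exp_mul_complex hk0, ← hk, ← hk]
      simp only [χ, Complex.ofReal_natCast, chiInf_period P hmM hd]
      simp [Pi.neg_def, chiInf_unit]
  simp only [hval] at hint
  have hinj : Function.Injective fun j : ℤ => (j : D.E) / (m : D.E) := fun i j h => by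
    have hm0 : (m : D.E) ≠ 0 := Nat.cast_ne_zero.mpr hm.1
    exact Int.cast_injective ((div_left_inj' hm0).mp h)
  have hsupp : ∀ ξ ∉ Set.range (fun j : ℤ => (j : D.E) / (m : D.E)),
      (if (embE P ξ).im = 0 then (M : ℂ) * c ξ else 0) = 0 := fun ξ hξ => by
    split_ifs with him
    · by_contra hne
      refine hξ (exists_eq_div_of_real P hm.1 ?_ him)
      by_contra hd
      exact right_ne_zero_of_mul hne (coef_eq_zero_of_not_dualOK hA hm hd _)
    · rfl
  rw [← hinj.hasSum_iff hsupp] at hint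
  rw [← hint.tsum_eq, ← tsum_mul_left]
  refine tsum_congr fun j => ?_
  have him : (embE P ((j : D.E) / (m : D.E))).im = 0 := by
    rw [map_div₀, map_intCast, map_natCast]
    simp
  rw [Function.comp_apply, if_pos him, planeWhit]
  split_ifs with h0
  · simp only [hc, h0, coef_zero hA hC hn, mul_zero, zero_mul]
  · simp only [hc]
    have e := coef_axis P hA hS hn v (Units.mk0 _ h0) ht
    rw [Units.val_mk0, map_div₀, map_intCast, map_natCast, norm_div, Complex.norm_intCast,
      Complex.norm_natCast] at e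
    rw [e, show |(j : ℝ)| / (m : ℝ) * (Real.sqrt 3 * y) = Real.sqrt 3 * |(j : ℝ)| / m * y by ring]

/-- An integrable function on the upper half plane as an integral over two variables. -/
theorem uhp_fubini {G : ℍ → ℂ} (hG : Integrable G) :
    ∫ τ, G τ = ∫ y in Ioi (0 : ℝ), ((y ^ 2)⁻¹ : ℂ) *
      ∫ x : ℝ, G (UpperHalfPlane.ofComplex ⟨x, y⟩) := by
  let f : ℂ → ℂ := fun z => ((z.im ^ 2)⁻¹ : ℂ) * G (UpperHalfPlane.ofComplex z)
  have e : ∀ τ : ℍ, ((((1 : NNReal) / NNReal.mk τ.im τ.im_pos.le) ^ 2 : NNReal) : ℝ) • G τ = f τ :=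
    fun τ => by simp [f, UpperHalfPlane.coe_im]
  have h1 : ∫ τ, G τ = ∫ z in UpperHalfPlane.upperHalfPlaneSet, f z := by
    rw [← UpperHalfPlane.range_coe, ← UpperHalfPlane.measurableEmbedding_coe.map_comap,
      UpperHalfPlane.measurableEmbedding_coe.integral_map f, UpperHalfPlane.volume_def,
      integral_withDensity_eq_integral_smul (by fun_prop)]
    exact integral_congr_ae (Filter.Eventually.of_forall fun τ => e τ)
  have hf : IntegrableOn f UpperHalfPlane.upperHalfPlaneSet := by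
    rw [IntegrableOn, ← UpperHalfPlane.range_coe,
      ← UpperHalfPlane.measurableEmbedding_coe.map_comap,
      UpperHalfPlane.measurableEmbedding_coe.integrable_map_iff]
    rw [UpperHalfPlane.volume_def, integrable_withDensity_iff_integrable_smul (by fun_prop)] at hG
    exact hG.congr (Filter.Eventually.of_forall fun τ => e τ)
  have hset : Complex.measurableEquivRealProd.symm ⁻¹' UpperHalfPlane.upperHalfPlaneSet =
      (univ : Set ℝ) ×ˢ Ioi (0 : ℝ) := by
    ext p
    simp [Complex.measurableEquivRealProd, UpperHalfPlane.upperHalfPlaneSet]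
  have hmp := Complex.volume_preserving_equiv_real_prod.symm Complex.measurableEquivRealProd
  have h2 := (hmp.integrableOn_comp_preimage
    Complex.measurableEquivRealProd.symm.measurableEmbedding).mpr hf
  rw [h1, ← hmp.setIntegral_preimage_emb
    Complex.measurableEquivRealProd.symm.measurableEmbedding, hset]
  rw [hset, IntegrableOn, Measure.volume_eq_prod, ← Measure.prod_restrict,
    Measure.restrict_univ] at h2
  rw [Measure.volume_eq_prod, ← Measure.prod_restrict, Measure.restrict_univ,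
    integral_prod_symm _ (by exact h2)]
  refine setIntegral_congr_fun measurableSet_Ioi fun y _ => ?_
  simp only [f, integral_const_mul, Complex.measurableEquivRealProd_symm_apply]

/-- **The strip integral.** -/
theorem integral_stripFun (hA : IsAutomorphic P.placesE φ) (hC : IsCuspidal P.placesE φ)
    (hS : SphericalZero φ) (hn : n ≠ ⊥) {v : FinPt D.E n} {m M : ℕ} (hm : Admissible m v)
    (hmM : m ∣ M) {s : ℝ} (hs : 1 / 2 < s) (hint : Integrable (stripFun M (planeFun φ v) s))
    (hsum : Summable fun j : ℤ =>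
      ‖planeWhit P φ v m j‖ * (Real.sqrt 3 * |(j : ℝ)| / m) ^ (-(s - 1))) :
    ∫ τ, stripFun M (planeFun φ v) s τ = (M : ℂ) * (axisMellin s : ℂ) *
      ∑' j : ℤ, planeWhit P φ v m j *
        (((Real.sqrt 3 * |(j : ℝ)| / m) ^ (-(s - 1)) : ℝ) : ℂ) := by
  classical
  rw [uhp_fubini hint]
  set w := planeWhit P φ v m
  set d : ℤ → ℝ := fun j => Real.sqrt 3 * |(j : ℝ)| / m
  have hd : ∀ j : ℤ, j ≠ 0 → 0 < d j := fun j hj => by
    have : (0 : ℝ) < m := Nat.cast_pos.mpr (Nat.pos_of_ne_zero hm.1)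
    have : (0 : ℝ) < |(j : ℝ)| := abs_pos.mpr (Int.cast_ne_zero.mpr hj)
    positivity
  have hw0 : w 0 = 0 := by simp [w, planeWhit]
  have hinner : ∀ y ∈ Ioi (0 : ℝ),
      ((y ^ 2)⁻¹ : ℂ) * ∫ x : ℝ, stripFun M (planeFun φ v) s (UpperHalfPlane.ofComplex ⟨x, y⟩) =
        (M : ℂ) * ∑' j : ℤ, w j * ((y ^ (s - 2) : ℝ) : ℂ) * (wAxis 1 (d j * y) : ℂ) := by
    intro y hy
    replace hy : 0 < y := hy
    have e : (fun x : ℝ => stripFun M (planeFun φ v) s (UpperHalfPlane.ofComplex ⟨x, y⟩)) =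
        (Ico (0 : ℝ) M).indicator fun x =>
          planeFun φ v (UpperHalfPlane.ofComplex ⟨x, y⟩) * ((y ^ s : ℝ) : ℂ) := by
      funext x
      have hre : (UpperHalfPlane.ofComplex ⟨x, y⟩).re = x ∧
          (UpperHalfPlane.ofComplex ⟨x, y⟩).im = y := by
        rw [UpperHalfPlane.ofComplex_apply_of_im_pos (z := ⟨x, y⟩) hy]
        exact ⟨rfl, rfl⟩
      simp only [stripFun, Set.indicator_apply, strip, Set.mem_ofPred_eq, Set.mem_Ico, hre.1, hre.2]
    rw [e, integral_indicator measurableSet_Ico, integral_mul_const,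
      integral_line P hA hC hS hn hm hmM hy]
    rw [show ((y ^ 2)⁻¹ : ℂ) *
          ((M : ℂ) * (∑' j : ℤ, w j * wfun 1 (axisPt (d j * y))) * ((y ^ s : ℝ) : ℂ))
        = (M : ℂ) * ((∑' j : ℤ, w j * wfun 1 (axisPt (d j * y))) *
          (((y ^ s : ℝ) : ℂ) * ((y ^ 2)⁻¹ : ℂ))) by
      ring, ← tsum_mul_right]
    congr 1
    refine tsum_congr fun j => ?_
    rw [← ofReal_wAxis, show y ^ (s - 2) = y ^ s * (y ^ 2)⁻¹ by
      rw [Real.rpow_sub hy, Real.rpow_two, div_eq_mul_inv]]
    push_cast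
    ring
  rw [setIntegral_congr_fun measurableSet_Ioi hinner, integral_const_mul, mul_assoc]
  congr 1
  have hkey : ∀ j : ℤ, j ≠ 0 →
      IntegrableOn (fun y => y ^ (s - 2) * wAxis 1 (d j * y)) (Ioi 0) ∧
        ∫ y in Ioi 0, y ^ (s - 2) * wAxis 1 (d j * y) = d j ^ (-(s - 1)) * axisMellin s := by
    intro j hj
    have hdj := hd j hj
    have heq : EqOn (fun y => y ^ (s - 2) * wAxis 1 (d j * y))
        (fun y => d j ^ (-(s - 2)) * ((d j * y) ^ (s - 2) * wAxis 1 (d j * y))) (Ioi 0) := by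
      intro y hy
      simp only
      rw [Real.mul_rpow hdj.le (le_of_lt hy), ← mul_assoc, ← mul_assoc, ← Real.rpow_add hdj,
        neg_add_cancel, Real.rpow_zero, one_mul]
    constructor
    · refine IntegrableOn.congr_fun ?_ heq.symm measurableSet_Ioi
      exact (((integrableOn_Ioi_comp_mul_left_iff (fun u => u ^ (s - 2) * wAxis 1 u) 0 hdj).mpr
        (by rw [mul_zero]; exact integrableOn_axisMellin hs))).const_mul _
    · rw [setIntegral_congr_fun measurableSet_Ioi heq, integral_const_mul,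
        integral_comp_mul_left_Ioi (fun u => u ^ (s - 2) * wAxis 1 u) 0 hdj, mul_zero, smul_eq_mul,
        ← mul_assoc, axisMellin, ← Real.rpow_neg_one (d j), ← Real.rpow_add hdj]
      congr 2
      ring
  have hI : ∀ j : ℤ,
      Integrable (fun y : ℝ => w j * ((y ^ (s - 2) : ℝ) : ℂ) * (wAxis 1 (d j * y) : ℂ))
      (volume.restrict (Ioi 0)) := by
    intro j
    rcases eq_or_ne j 0 with rfl | hj
    · simp [hw0]
    · simp only [mul_assoc, ← Complex.ofReal_mul]
      exact ((hkey j hj).1.ofReal).const_mul _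
  have hN : ∀ j : ℤ, ∫ y in Ioi (0 : ℝ), ‖w j * ((y ^ (s - 2) : ℝ) : ℂ) * (wAxis 1 (d j * y) : ℂ)‖ =
      axisMellin s * (‖w j‖ * d j ^ (-(s - 1))) := by
    intro j
    rcases eq_or_ne j 0 with rfl | hj
    · simp [hw0]
    · rw [setIntegral_congr_fun measurableSet_Ioi (g := fun y =>
        ‖w j‖ * (y ^ (s - 2) * wAxis 1 (d j * y)))
        (fun y (hy : 0 < y) => ?_), integral_const_mul, (hkey j hj).2]
      · ring
      · rw [norm_mul, norm_mul, Complex.norm_real, Complex.norm_real,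
          Real.norm_of_nonneg (Real.rpow_nonneg hy.le _),
          Real.norm_of_nonneg (wAxis_pos one_ne_zero (mul_pos (hd j hj) hy)).le, mul_assoc]
  rw [← integral_tsum_of_summable_integral_norm hI (by simp only [hN]; exact hsum.mul_left _),
    ← tsum_mul_left]
  refine tsum_congr fun j => ?_
  rcases eq_or_ne j 0 with rfl | hj
  · simp [hw0]
  · simp only [mul_assoc, ← Complex.ofReal_mul, integral_const_mul, integral_complex_ofReal,
      (hkey j hj).2]
    push_cast
    ring

end FLTAgent.LanglandsTunnell.Period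

end
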