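import Mathlib.MeasureTheory.Integral.IntervalIntegral.FundThmCalculus
import Mathlib.MeasureTheory.Integral.Bochner.Set
import Mathlib.Topology.Algebra.InfiniteSum.Real

/-!
# Comparing a sum over translates of an integer lattice with an integral

For a differentiable function the sum over `ℤ` or `ℕ` differs from the integral by at most the
integral of a bound on the derivative (`abs_tsum_int_sub_integral_le`,
`abs_tsum_nat_sub_integral_le`).
-/

set_option autoImplicit false

open MeasureTheory Set Function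

noncomputable section

namespace FLTAgent.LanglandsTunnell.Period

/-- On a unit interval, the left value differs from the mean by at most the total variation. -/
theorem abs_sub_integral_unit_le {h h' g : ℝ → ℝ} {j : ℝ}
    (hd : ∀ u ∈ Icc j (j + 1), HasDerivAt h (h' u) u) (hc : ContinuousOn h' (Icc j (j + 1)))
    (hg : ∀ u ∈ Icc j (j + 1), |h' u| ≤ g u) (hgi : IntegrableOn g (Ioc j (j + 1))) :
    |h j - ∫ u in Ioc j (j + 1), h u| ≤ ∫ u in Ioc j (j + 1), g u := by
  have hhc : ContinuousOn h (Icc j (j + 1)) := fun u hu => (hd u hu).continuousAt.continuousWithinAt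
  have hpt : ∀ u ∈ Ioc j (j + 1), |h u - h j| ≤ ∫ v in Ioc j (j + 1), g v := by
    intro u hu
    have hju : j ≤ u := hu.1.le
    have hsub : Icc j u ⊆ Icc j (j + 1) := Icc_subset_Icc_right hu.2
    have hint : IntervalIntegrable h' volume j u :=
      (hc.mono hsub).intervalIntegrable_of_Icc hju
    have e : h u - h j = ∫ v in j..u, h' v :=
      (intervalIntegral.integral_eq_sub_of_hasDerivAt
        (fun v hv => hd v (hsub (by rwa [uIcc_of_le hju] at hv))) hint).symm
    rw [e, intervalIntegral.integral_of_le hju]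
    refine abs_integral_le_integral_abs.trans ?_
    have hsub' : Ioc j u ⊆ Ioc j (j + 1) := Ioc_subset_Ioc_right hu.2
    refine (setIntegral_mono_on hint.1.abs (hgi.mono_set hsub') measurableSet_Ioc
      fun v hv => hg v (hsub (Ioc_subset_Icc_self hv))).trans ?_
    refine setIntegral_mono_set hgi ?_ hsub'.eventuallyLE
    rw [Filter.EventuallyLE, ae_restrict_iff' measurableSet_Ioc]
    exact Filter.Eventually.of_forall fun v hv =>
      (abs_nonneg _).trans (hg v (Ioc_subset_Icc_self hv))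
  have hvol : volume.real (Ioc j (j + 1)) = 1 := by simp [Measure.real]
  have hi : IntegrableOn h (Ioc j (j + 1)) :=
    (hhc.integrableOn_Icc (μ := volume)).mono_set Ioc_subset_Icc_self
  have e : h j - ∫ u in Ioc j (j + 1), h u = ∫ u in Ioc j (j + 1), (h j - h u) := by
    rw [integral_sub (integrable_const _) hi, setIntegral_const, hvol, one_smul]
  rw [e, ← Real.norm_eq_abs]
  refine (norm_setIntegral_le_of_norm_le_const (C := ∫ v in Ioc j (j + 1), g v) ?_
    fun u hu => ?_).trans (le_of_eq ?_)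
  · simp
  · rw [Real.norm_eq_abs, abs_sub_comm]; exact hpt u hu
  · rw [hvol, mul_one]

/-- The sum over the integers against the integral over the line. -/
theorem abs_tsum_int_sub_integral_le {h h' g : ℝ → ℝ} (hd : ∀ u, HasDerivAt h (h' u) u)
    (hc : Continuous h') (hg : ∀ u, |h' u| ≤ g u) (hgi : Integrable g) (hh : Integrable h) :
    Summable (fun j : ℤ => h j) ∧ |∑' j : ℤ, h j - ∫ u, h u| ≤ ∫ u, g u := by
  have hu : (⋃ j : ℤ, Ioc (j : ℝ) (j + 1)) = univ := iUnion_Ioc_intCast ℝ
  have hdisj := pairwise_disjoint_Ioc_intCast ℝ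
  have hs : ∀ f : ℝ → ℝ, Integrable f →
      HasSum (fun j : ℤ => ∫ u in Ioc (j : ℝ) (j + 1), f u) (∫ u, f u) := by
    intro f hf
    have := hasSum_integral_iUnion (fun j : ℤ => measurableSet_Ioc (a := (j : ℝ)) (b := j + 1))
      hdisj (f := f) (by rw [hu]; exact hf.integrableOn)
    rwa [hu, setIntegral_univ] at this
  have hle : ∀ j : ℤ, |h j - ∫ u in Ioc (j : ℝ) (j + 1), h u| ≤ ∫ u in Ioc (j : ℝ) (j + 1), g u :=
    fun j => abs_sub_integral_unit_le (fun u _ => hd u) hc.continuousOn (fun u _ => hg u)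
      hgi.integrableOn
  have hdsum : Summable fun j : ℤ => h j - ∫ u in Ioc (j : ℝ) (j + 1), h u :=
    Summable.of_norm_bounded (hs g hgi).summable (by simpa only [Real.norm_eq_abs] using hle)
  have hsum : Summable fun j : ℤ => h j := by
    refine (hdsum.add (hs h hh).summable).congr fun j => ?_
    ring
  refine ⟨hsum, ?_⟩
  rw [← (hs h hh).tsum_eq, ← hsum.tsum_sub (hs h hh).summable, ← (hs g hgi).tsum_eq,
    ← Real.norm_eq_abs]
  exact tsum_of_norm_bounded (hs g hgi).summable.hasSum (by simpa only [Real.norm_eq_abs] using hle)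

theorem iUnion_Ioc_natCast : (⋃ j : ℕ, Ioc (j : ℝ) (j + 1)) = Ioi 0 := by
  ext u
  simp only [mem_iUnion, mem_Ioc, mem_Ioi]
  refine ⟨fun ⟨j, hj, _⟩ => (Nat.cast_nonneg j).trans_lt hj, fun hu => ?_⟩
  have h1 : 1 ≤ ⌈u⌉₊ := Nat.one_le_iff_ne_zero.mpr (by simp [Nat.ceil_eq_zero, hu])
  refine ⟨⌈u⌉₊ - 1, ?_, ?_⟩
  · rw [Nat.cast_sub h1]
    have := Nat.ceil_lt_add_one hu.le
    push_cast
    linarith
  · rw [Nat.cast_sub h1]
    have := Nat.le_ceil u
    push_cast
    linarith

/-- The sum over the natural numbers against the integral over the half line. -/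
theorem abs_tsum_nat_sub_integral_le {h h' g : ℝ → ℝ}
    (hd : ∀ u, 0 ≤ u → HasDerivAt h (h' u) u) (hc : ContinuousOn h' (Ici 0))
    (hg : ∀ u, 0 ≤ u → |h' u| ≤ g u) (hgi : IntegrableOn g (Ioi 0)) (hh : IntegrableOn h (Ioi 0)) :
    Summable (fun j : ℕ => h j) ∧
      |∑' j : ℕ, h j - ∫ u in Ioi 0, h u| ≤ ∫ u in Ioi 0, g u := by
  have hdisj : Pairwise (Disjoint on fun j : ℕ => Ioc (j : ℝ) (j + 1)) := fun a b hab => by
    have h1 := pairwise_disjoint_Ioc_intCast ℝ
      (show (a : ℤ) ≠ b by exact_mod_cast hab)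
    simpa [Function.onFun] using h1
  have hs : ∀ f : ℝ → ℝ, IntegrableOn f (Ioi 0) →
      HasSum (fun j : ℕ => ∫ u in Ioc (j : ℝ) (j + 1), f u) (∫ u in Ioi 0, f u) := by
    intro f hf
    have := hasSum_integral_iUnion (fun j : ℕ => measurableSet_Ioc (a := (j : ℝ)) (b := j + 1))
      hdisj (f := f) (by rw [iUnion_Ioc_natCast]; exact hf)
    rwa [iUnion_Ioc_natCast] at this
  have hnn : ∀ (j : ℕ) (u : ℝ), u ∈ Icc (j : ℝ) (j + 1) → 0 ≤ u := fun j u hu =>
    (Nat.cast_nonneg j).trans hu.1
  have hle : ∀ j : ℕ, |h j - ∫ u in Ioc (j : ℝ) (j + 1), h u| ≤ ∫ u in Ioc (j : ℝ) (j + 1), g u :=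
    fun j => abs_sub_integral_unit_le (fun u hu => hd u (hnn j u hu))
      (hc.mono fun u hu => hnn j u hu) (fun u hu => hg u (hnn j u hu))
      (hgi.mono_set fun u hu => (Nat.cast_nonneg j).trans_lt hu.1)
  have hdsum : Summable fun j : ℕ => h j - ∫ u in Ioc (j : ℝ) (j + 1), h u :=
    Summable.of_norm_bounded (hs g hgi).summable (by simpa only [Real.norm_eq_abs] using hle)
  have hsum : Summable fun j : ℕ => h j := by
    refine (hdsum.add (hs h hh).summable).congr fun j => ?_
    ring
  refine ⟨hsum, ?_⟩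
  rw [← (hs h hh).tsum_eq, ← hsum.tsum_sub (hs h hh).summable, ← (hs g hgi).tsum_eq,
    ← Real.norm_eq_abs]
  exact tsum_of_norm_bounded (hs g hgi).summable.hasSum (by simpa only [Real.norm_eq_abs] using hle)

end FLTAgent.LanglandsTunnell.Period

end
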