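import Fermat.Agent.LanglandsTunnell.Period.Balanced

/-!
# The support of the diagonal coefficients of a balanced vector

A vector balanced at every prime exactly dividing the level has its diagonal coefficients supported
where `N δ y` is integral and prime to those primes; conjugation lemmas for congruence subgroups.
-/

set_option autoImplicit false

open NumberField Matrix

noncomputable section

namespace FLTAgent.LanglandsTunnell.Period

open FLTAgent.LanglandsTunnell FLTAgent.LanglandsTunnell.Isolation FLTAgent.LanglandsTunnell.Seed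
  FLTAgent.LanglandsTunnell.Expansion
open FLTAgent.LanglandsTunnell.Killing (mk_mul_congr)

variable {F : Type} [Field F] [NumberField F] {ι : Type} [Fintype ι] [DecidableEq ι]
  {Φ : PlaceChoice F ι} {N : ℕ}

attribute [local irreducible] transLin

/-! ### Congruence subgroups -/

theorem natCast_mul_mem_lvl {M : ℕ} {w : AF F} (hw : w ∈ intAF F) :
    (M : AF F) * w ∈ idealAF F (lv F M) := by
  rw [mul_comm]
  exact mul_mem_idealAF_left hw
    (LanglandsTunnell.natCast_mem_idealAF (Ideal.mem_span_singleton_self _))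

theorem exists_eq_natCast_mul {M : ℕ} {x : AF F} (hx : x ∈ idealAF F (lv F M)) :
    ∃ w ∈ intAF F, x = (M : AF F) * w := by
  obtain ⟨w, hw, hxw⟩ := idealAF_span_natCast_mul (n := (⊤ : Ideal (𝓞 F))) (N := M) (x := x)
    (by rwa [Ideal.mul_top])
  exact ⟨w, by rwa [idealAF_top] at hw, hxw⟩

theorem det_inv_mem {n : Ideal (𝓞 F)} {k : GL (Fin 2) (AF F)} (hk : k ∈ principalSubgroup n) :
    ((Matrix.GeneralLinearGroup.det k)⁻¹ : (AF F)ˣ).1 ∈ intAF F := by
  rw [← map_inv, ← det_eq_GLdet]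
  exact sub_mem (mul_mem (CongrOne.mem_intAF hk.2 0 0) (CongrOne.mem_intAF hk.2 1 1))
    (mul_mem (CongrOne.mem_intAF hk.2 0 1) (CongrOne.mem_intAF hk.2 1 0))

/-- Conjugation by a unipotent with denominator `D`. -/
theorem conj_upper_mem {D : ℕ} {x : AF F} (hx : (D : AF F) * x ∈ intAF F)
    {k : GL (Fin 2) (AF F)} (hk : k ∈ principalSubgroup (lv F (D * D * N))) :
    (upperUnip x)⁻¹ * k * upperUnip x ∈ principalSubgroup (lv F N) := by
  refine mem_principalSubgroup_of_det _ ?_ ?_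
  · have hval : ((upperUnip x)⁻¹ * k * upperUnip x).1 =
        !![k.1 0 0 - x * k.1 1 0, k.1 0 1 + x * (k.1 0 0 - k.1 1 1) - x * x * k.1 1 0;
          k.1 1 0, k.1 1 1 + x * k.1 1 0] := by
      have hinv : ((upperUnip x)⁻¹ : GL (Fin 2) (AF F)).1 = !![1, -x; 0, 1] := rfl
      rw [Units.val_mul, Units.val_mul, hinv]
      conv_lhs => rw [Matrix.eta_fin_two k.1]
      ext a b
      fin_cases a <;> fin_cases b <;> simp [upperUnip] <;> ring
    obtain ⟨a, ha, ha'⟩ := exists_eq_natCast_mul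
      (show k.1 0 0 - 1 ∈ idealAF F (lv F (D * D * N)) by simpa using hk.1 0 0)
    obtain ⟨b, hb, hb'⟩ := exists_eq_natCast_mul
      (show k.1 0 1 ∈ idealAF F (lv F (D * D * N)) by simpa using hk.1 0 1)
    obtain ⟨c, hc, hc'⟩ := exists_eq_natCast_mul
      (show k.1 1 0 ∈ idealAF F (lv F (D * D * N)) by simpa using hk.1 1 0)
    obtain ⟨d, hd, hd'⟩ := exists_eq_natCast_mul
      (show k.1 1 1 - 1 ∈ idealAF F (lv F (D * D * N)) by simpa using hk.1 1 1)
    push_cast at ha' hb' hc' hd'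
    have hD : (D : AF F) ∈ intAF F := natCast_mem _ D
    have h00 : k.1 0 0 - x * k.1 1 0 - 1 ∈ idealAF F (lv F N) := by
      rw [show k.1 0 0 - x * k.1 1 0 - 1 =
          (N : AF F) * ((D : AF F) * D * a - (D : AF F) * x * (D * c)) by
        linear_combination ha' - x * hc']
      exact natCast_mul_mem_lvl (sub_mem (mul_mem (mul_mem hD hD) ha) (mul_mem hx (mul_mem hD hc)))
    have h01 : k.1 0 1 + x * (k.1 0 0 - k.1 1 1) - x * x * k.1 1 0 ∈ idealAF F (lv F N) := by
      rw [show k.1 0 1 + x * (k.1 0 0 - k.1 1 1) - x * x * k.1 1 0 =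
          (N : AF F) * ((D : AF F) * D * b + (D : AF F) * x * (D * (a - d)) -
            (D : AF F) * x * ((D : AF F) * x) * c) by
        linear_combination hb' + x * ha' - x * hd' - x * x * hc']
      exact natCast_mul_mem_lvl (sub_mem (add_mem (mul_mem (mul_mem hD hD) hb)
        (mul_mem hx (mul_mem hD (sub_mem ha hd)))) (mul_mem (mul_mem hx hx) hc))
    have h10 : k.1 1 0 ∈ idealAF F (lv F N) := by
      rw [show k.1 1 0 = (N : AF F) * ((D : AF F) * D * c) by linear_combination hc']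
      exact natCast_mul_mem_lvl (mul_mem (mul_mem hD hD) hc)
    have h11 : k.1 1 1 + x * k.1 1 0 - 1 ∈ idealAF F (lv F N) := by
      rw [show k.1 1 1 + x * k.1 1 0 - 1 =
          (N : AF F) * ((D : AF F) * D * d + (D : AF F) * x * (D * c)) by
        linear_combination hd' + x * hc']
      exact natCast_mul_mem_lvl (add_mem (mul_mem (mul_mem hD hD) hd) (mul_mem hx (mul_mem hD hc)))
    intro i j
    rw [hval]
    fin_cases i <;> fin_cases j
    · simpa using h00
    · simpa using h01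
    · simpa using h10
    · simpa using h11
  · rw [map_mul, map_mul, map_inv, commGroup_conj]
    exact det_inv_mem hk

/-- Conjugation by a diagonal matrix with denominators `A`, `B`. -/
theorem conj_diag_mem {A B : ℕ} {c : (AF F)ˣ} (hc : (A : AF F) * c ∈ intAF F)
    (hc' : (B : AF F) * ((c⁻¹ : (AF F)ˣ) : AF F) ∈ intAF F)
    {k : GL (Fin 2) (AF F)} (hk : k ∈ principalSubgroup (lv F (A * B * N))) :
    (diagUnit c)⁻¹ * k * diagUnit c ∈ principalSubgroup (lv F N) := by
  refine mem_principalSubgroup_of_det _ ?_ ?_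
  · have hval : ((diagUnit c)⁻¹ * k * diagUnit c).1 =
        !![k.1 0 0, ((c⁻¹ : (AF F)ˣ) : AF F) * k.1 0 1; k.1 1 0 * (c : AF F), k.1 1 1] := by
      have hinv : ((diagUnit c)⁻¹ : GL (Fin 2) (AF F)).1 =
          !![((c⁻¹ : (AF F)ˣ) : AF F), 0; 0, 1] := rfl
      rw [Units.val_mul, Units.val_mul, hinv]
      conv_lhs => rw [Matrix.eta_fin_two k.1]
      ext a b
      fin_cases a <;> fin_cases b <;> simp [diagUnit]
      linear_combination (k.1 0 0) * c.inv_mul
    obtain ⟨a, ha, ha'⟩ := exists_eq_natCast_mul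
      (show k.1 0 0 - 1 ∈ idealAF F (lv F (A * B * N)) by simpa using hk.1 0 0)
    obtain ⟨b, hb, hb'⟩ := exists_eq_natCast_mul
      (show k.1 0 1 ∈ idealAF F (lv F (A * B * N)) by simpa using hk.1 0 1)
    obtain ⟨e, he, he'⟩ := exists_eq_natCast_mul
      (show k.1 1 0 ∈ idealAF F (lv F (A * B * N)) by simpa using hk.1 1 0)
    obtain ⟨d, hd, hd'⟩ := exists_eq_natCast_mul
      (show k.1 1 1 - 1 ∈ idealAF F (lv F (A * B * N)) by simpa using hk.1 1 1)
    push_cast at ha' hb' he' hd'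
    have hA : (A : AF F) ∈ intAF F := natCast_mem _ A
    have hB : (B : AF F) ∈ intAF F := natCast_mem _ B
    have h00 : k.1 0 0 - 1 ∈ idealAF F (lv F N) := by
      rw [show k.1 0 0 - 1 = (N : AF F) * ((A : AF F) * B * a) by linear_combination ha']
      exact natCast_mul_mem_lvl (mul_mem (mul_mem hA hB) ha)
    have h01 : ((c⁻¹ : (AF F)ˣ) : AF F) * k.1 0 1 ∈ idealAF F (lv F N) := by
      rw [show ((c⁻¹ : (AF F)ˣ) : AF F) * k.1 0 1 =
          (N : AF F) * ((B : AF F) * ((c⁻¹ : (AF F)ˣ) : AF F) * (A * b)) by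
        linear_combination ((c⁻¹ : (AF F)ˣ) : AF F) * hb']
      exact natCast_mul_mem_lvl (mul_mem hc' (mul_mem hA hb))
    have h10 : k.1 1 0 * (c : AF F) ∈ idealAF F (lv F N) := by
      rw [show k.1 1 0 * (c : AF F) = (N : AF F) * ((A : AF F) * c * (B * e)) by
        linear_combination (c : AF F) * he']
      exact natCast_mul_mem_lvl (mul_mem hc (mul_mem hB he))
    have h11 : k.1 1 1 - 1 ∈ idealAF F (lv F N) := by
      rw [show k.1 1 1 - 1 = (N : AF F) * ((A : AF F) * B * d) by linear_combination hd']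
      exact natCast_mul_mem_lvl (mul_mem (mul_mem hA hB) hd)
    intro i j
    rw [hval]
    fin_cases i <;> fin_cases j
    · simpa using h00
    · simpa using h01
    · simpa using h10
    · simpa using h11
  · rw [map_mul, map_mul, map_inv, commGroup_conj]
    exact det_inv_mem hk

theorem le_fixer_transLin_of_conj {n n' : Ideal (𝓞 F)} {g : GL (Fin 2) (AF F)} {Ψ : AForm F ι}
    (hg : ∀ k ∈ principalSubgroup n', g⁻¹ * k * g ∈ principalSubgroup n)
    (h : principalSubgroup n ≤ fixer Ψ) :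
    principalSubgroup n' ≤ fixer (transLin (F := F) (ι := ι) g Ψ) := by
  intro k hk
  rw [mem_fixer, ← transLin_mul, show k * g = g * (g⁻¹ * k * g) by group, transLin_mul,
    mem_fixer.mp (h (hg k hk))]

theorem map_sum_smul_fixed {E κ : Type} [AddCommGroup E] [Module ℂ E] (A : E →ₗ[ℂ] E)
    (s : Finset κ) (q : κ → ℂ) (x : κ → E) (h : ∀ j ∈ s, A (x j) = x j) :
    A (∑ j ∈ s, q j • x j) = ∑ j ∈ s, q j • x j := by
  rw [map_sum]
  exact Finset.sum_congr rfl fun j hj => by rw [map_smul, h j hj]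

/-! ### Diagonal coefficients -/

theorem whit_diag_upper {n : Ideal (𝓞 F)} {φ : Pt F ι n → ℂ} (hA : IsAutomorphic Φ φ)
    (hS : SphericalZero φ) (hn : n ≠ ⊥) (y : (AF F)ˣ) (x : AF F) :
    whit Φ φ ((diagUnit y * upperUnip x : GL (Fin 2) (AF F)) : FinPt F n) =
      psi ((y : AF F) * x) * whit Φ φ ((diagUnit y : GL (Fin 2) (AF F)) : FinPt F n) := by
  rw [diagUnit_mul_upperUnip]
  exact whit_upperUnip hA hS hn ((y : AF F) * x)
    ((diagUnit y : GL (Fin 2) (AF F)) : FinPt F n)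

/-- Nonzero diagonal coefficients at level `N` have `N δ y` integral. -/
theorem mem_intAF_of_whit_ne_zero {φ : Pt F ι (lv F N) → ℂ} (hA : IsAutomorphic Φ φ)
    (hS : SphericalZero φ) (hN : N ≠ 0) {y : (AF F)ˣ}
    (hne : whit Φ φ ((diagUnit y : GL (Fin 2) (AF F)) : FinPt F (lv F N)) ≠ 0) :
    (N : AF F) * ((diffUnit F : AF F) * y) ∈ intAF F := by
  rw [show (N : AF F) * ((diffUnit F : AF F) * y) = (diffUnit F : AF F) * ((y : AF F) * N) by ring]
  refine psi_mul_int_iff.mp fun z hz => ?_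
  have h := whit_diag_upper hA hS (lv_ne_bot hN) y ((N : AF F) * z)
  rw [mk_mul_congr (upperUnip_mem_principal (natCast_mul_mem_lvl hz)), ← mul_assoc] at h
  exact mul_right_cancel₀ hne (h.symm.trans (one_mul _).symm)

variable {f : Pt F ι (lv F N) → ℂ} {a : Ideal (𝓞 F) → ℂ}
  {v : Ideal (𝓞 F)} {e : AF F} {t : (AF F)ˣ}

/-- At a balanced place `N δ y` is prime to `v`. -/
theorem not_mem_of_balanced (hf : IsEigenform Φ f a) (hN : N ≠ 0) (h : ExactPlace N v e t)
    {Ψ : AForm F ι} (hΨ : IsVector f Ψ) (hb : IsBalanced e v Ψ) {y : (AF F)ˣ}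
    (hne : whit Φ (descend (lv F N) Ψ)
      ((diagUnit y : GL (Fin 2) (AF F)) : FinPt F (lv F N)) ≠ 0) :
    (N : AF F) * ((diffUnit F : AF F) * y) ∉ idealAF F v := by
  classical
  intro hmem
  have : Finite (𝓞 F ⧸ v) := Ideal.finiteQuotientOfFreeOfNeBot v h.ne_bot
  have hFt : Fintype (𝓞 F ⧸ v) := Fintype.ofFinite _
  have hn := lv_ne_bot (F := F) hN
  have hL := levelGroup_le_fixer hΨ.mem hΨ.level
  have hφ := isEigenform_descend hf hN hΨ.mem hΨ.ne_zero hN (fun _ _ => Iff.rfl) hΨ.level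
  set φ := descend (lv F N) Ψ with hφd
  set x : 𝓞 F ⧸ v → AF F := fun r => e * toAF F ((Quotient.out r : 𝓞 F) : F) with hx
  have h0 : ∀ P, ∑ r ∈ (Finset.univ : Finset (𝓞 F ⧸ v)), (1 : ℂ) *
      φ (((diagUnit y * upperUnip (x r) : GL (Fin 2) (AF F)) : FinPt F (lv F N)), P) = 0 := by
    intro P
    have h1 := congrFun (congrFun (@hb hFt) (diagUnit y)) P
    rw [Finset.sum_apply, Finset.sum_apply] at h1
    refine Eq.trans (Finset.sum_congr rfl fun r _ => ?_) h1
    rw [one_mul, hφd, descend_mk hL, transLin_apply]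
  have h1 := sum_coef_eq_zero (Φ := Φ) hn _ _ (fun _ => φ) (fun _ _ => hφ.automorphic) _ (1 : F)
    h0 fun _ => H3.base
  obtain ⟨w, hw, hwe⟩ := exists_eq_natCast_mul (h.level _ hmem)
  have hone : ∀ r, psi ((y : AF F) * x r) = 1 := by
    intro r
    refine psi_eq_one_of_mul_mem ?_
    rw [show (diffUnit F : AF F) * ((y : AF F) * x r) = w * toAF F ((Quotient.out r : 𝓞 F) : F) by
      refine (isUnit_natCast_AF (F := F) hN).mul_left_cancel ?_
      linear_combination (toAF F ((Quotient.out r : 𝓞 F) : F)) * hwe]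
    exact mul_mem hw (toAF_mem_intAF _)
  simp only [coef_one_eq hφ.automorphic hφ.spherical hn, whit_diag_upper hφ.automorphic
    hφ.spherical hn, hone, one_mul, Finset.sum_const, Finset.card_univ, nsmul_eq_mul] at h1
  exact (mul_ne_zero (Nat.cast_ne_zero.mpr Fintype.card_ne_zero)
    (mul_ne_zero hne prod_wfun_base_ne_zero)) h1

theorem isVector_liftForm (hf : IsEigenform Φ f a) : IsVector f (liftForm f) := by
  refine ⟨liftForm_mem f, fun h => ?_,
    le_sup_left.trans (principalSubgroup_le_fixer_liftForm f)⟩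
  obtain ⟨⟨x, P⟩, hne⟩ := hf.ne_zero
  obtain ⟨g, rfl⟩ := QuotientGroup.mk_surjective x
  exact hne (congrFun (congrFun h g) P)

/-- A vector balanced at all primes in a set of exact divisors of the level. -/
theorem exists_balanced_finset (hf : IsEigenform Φ f a) (hN : N ≠ 0)
    (S : Finset (Ideal (𝓞 F)))
    (hS : ∀ v ∈ S, v.IsPrime ∧ (N : 𝓞 F) ∈ v ∧ ¬ v ^ 2 ∣ lv F N) :
    ∃ Ψ, IsVector f Ψ ∧
      ∀ v ∈ S, ∀ (hv : v.IsPrime) (hv0 : v ≠ ⊥), IsBalanced (placeAF hv hv0) v Ψ := by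
  classical
  induction S using Finset.induction_on with
  | empty => exact ⟨_, isVector_liftForm hf, by simp⟩
  | insert w S hwS ih =>
    obtain ⟨Ψ, hΨ, hb⟩ := ih fun v hv => hS v (Finset.mem_insert_of_mem hv)
    obtain ⟨hw, hwN, hw2⟩ := hS w (Finset.mem_insert_self _ _)
    have hw0 : w ≠ ⊥ := fun h => hN (by
      rw [h, Ideal.mem_bot, Nat.cast_eq_zero] at hwN
      exact hwN)
    obtain ⟨t, ht⟩ := exists_exactPlace hw hw0 hwN hw2
    obtain ⟨Ψ', h1, h2, h3⟩ := exists_balanced hf hN ht hΨ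
    refine ⟨Ψ', h1, fun v hv hvp hv0 => ?_⟩
    rcases Finset.mem_insert.mp hv with rfl | hvS
    · exact h2
    · exact h3 _ _ (placeAF_mul_self hvp hv0)
        (placeAF_mul_eq_zero hw hw0 hvp hv0 fun e => hwS (e ▸ hvS)) (hb v hvS hvp hv0)

/-- A vector whose nonzero diagonal coefficients have `N δ y` prime to the primes dividing `N`
outside `m`. -/
theorem exists_supported (hf : IsEigenform Φ f a) (hN : N ≠ 0) {m : ℕ}
    (hsq : ∀ v : Ideal (𝓞 F), v.IsPrime → (N : 𝓞 F) ∈ v → (m : 𝓞 F) ∉ v → ¬ v ^ 2 ∣ lv F N) :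
    ∃ Ψ, IsVector f Ψ ∧ ∀ y : (AF F)ˣ, whit Φ (descend (lv F N) Ψ)
        ((diagUnit y : GL (Fin 2) (AF F)) : FinPt F (lv F N)) ≠ 0 →
      ∀ v : Ideal (𝓞 F), v.IsPrime → (N : 𝓞 F) ∈ v → (m : 𝓞 F) ∉ v →
        (N : AF F) * ((diffUnit F : AF F) * y) ∉ idealAF F v := by
  classical
  have hn := lv_ne_bot (F := F) hN
  obtain ⟨Ψ, hΨ, hb⟩ := exists_balanced_finset hf hN
    ((UniqueFactorizationMonoid.normalizedFactors (lv F N)).toFinset.filter fun v =>
      (m : 𝓞 F) ∉ v) fun v hv => by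
    obtain ⟨hv, h3⟩ := Finset.mem_filter.mp hv
    obtain ⟨hp, hdvd⟩ := (UniqueFactorizationMonoid.mem_normalizedFactors_iff hn).mp
      (Multiset.mem_toFinset.mp hv)
    have hv' := Ideal.isPrime_of_prime hp
    have hvN : (N : 𝓞 F) ∈ v := Ideal.le_of_dvd hdvd (Ideal.mem_span_singleton_self _)
    exact ⟨hv', hvN, hsq v hv' hvN h3⟩
  refine ⟨Ψ, hΨ, fun y hy v hv hvN h3 => ?_⟩
  have hv0 : v ≠ ⊥ := fun h => hN (by
    rw [h, Ideal.mem_bot, Nat.cast_eq_zero] at hvN
    exact hvN)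
  obtain ⟨t, ht⟩ := exists_exactPlace hv hv0 hvN (hsq v hv hvN h3)
  exact not_mem_of_balanced hf hN ht hΨ (hb v (Finset.mem_filter.mpr ⟨Multiset.mem_toFinset.mpr
    ((UniqueFactorizationMonoid.mem_normalizedFactors_iff hn).mpr ⟨Ideal.prime_of_isPrime hv0 hv,
      Ideal.dvd_iff_le.mpr ((Ideal.span_singleton_le_iff_mem _).mpr hvN)⟩), h3⟩) hv hv0) hy

/-- An integral idele which is `N` outside `N` and prime to the primes dividing `N` outside `m`
divides a power of `m`. -/
theorem exists_pow_three {m : ℕ} {b : (AF F)ˣ} (hb : (b : AF F) ∈ intAF F)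
    (hout : (1 - eN F N) * (b : AF F) = (1 - eN F N) * (N : AF F))
    (hbal : ∀ v : Ideal (𝓞 F), v.IsPrime → (N : 𝓞 F) ∈ v → (m : 𝓞 F) ∉ v →
      (b : AF F) ∉ idealAF F v) :
    ∃ r : ℕ, ((m ^ r : ℕ) : AF F) * ((b⁻¹ : (AF F)ˣ) : AF F) ∈ intAF F := by
  classical
  obtain ⟨z₀, hz₀⟩ := hb
  replace hz₀ : intHom F z₀ = b := hz₀
  obtain ⟨M, hM, hMz⟩ := exists_natCast_mem_span z₀ (hz₀ ▸ b.isUnit)
  set B := (Ideal.span {z₀}).comap (Algebra.TensorProduct.includeLeftRingHom : 𝓞 F →+* OH F)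
    with hB
  have hBz : idealOH B = Ideal.span {z₀} := idealOH_comap hM hMz
  have hB0 : B ≠ ⊥ := by
    intro hb
    have h1 : (M : 𝓞 F) ∈ B := by
      rw [hB, Ideal.mem_comap, map_natCast]; exact hMz
    rw [hb, Ideal.mem_bot, Nat.cast_eq_zero] at h1
    exact hM h1
  have hprime : ∀ v : Ideal (𝓞 F), v.IsPrime → B ≤ v → (N : 𝓞 F) ∈ v ∧ (m : 𝓞 F) ∈ v := by
    intro v hv hBv
    have hv0 : v ≠ ⊥ := fun h => hB0 (le_bot_iff.mp (h ▸ hBv))
    have hbv : (b : AF F) ∈ idealAF F v := by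
      rw [← hz₀, intHom_mem_idealAF_iff]
      exact Ideal.map_mono hBv
        (show z₀ ∈ idealOH B from hBz.symm ▸ Ideal.mem_span_singleton_self z₀)
    have hvN : (N : 𝓞 F) ∈ v := by
      by_contra hnot
      have hwn : ¬ v ∣ lv F N := fun h =>
        hnot (Ideal.le_of_dvd h (Ideal.mem_span_singleton_self _))
      refine hnot ((toAF_mem_idealAF_iff hv0).mp ?_)
      rw [show (((N : 𝓞 F)) : F) = (N : F) from map_natCast (algebraMap (𝓞 F) F) N, map_natCast,
        show (N : AF F) = (1 - eN F N) * (b : AF F) + (N : AF F) * eN F N by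
          linear_combination -hout]
      exact add_mem (mul_mem_idealAF_left one_sub_eN_mem hbv)
        (mul_mem_idealAF_left (natCast_mem _ N) (eN_mem_idealAF hv hv0 hwn))
    exact ⟨hvN, by_contra fun h3 => hbal v hv hvN h3 hbv⟩
  suffices key : ∃ r : ℕ, ((m ^ r : ℕ) : 𝓞 F) ∈ B by
    obtain ⟨r, hmem⟩ := key
    refine ⟨r, ?_⟩
    rw [hB, Ideal.mem_comap, map_natCast, Ideal.mem_span_singleton] at hmem
    obtain ⟨c, hc⟩ := hmem
    refine ⟨c, ?_⟩
    show intHom F c = _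
    refine b.isUnit.mul_left_cancel ?_
    rw [mul_left_comm, Units.mul_inv, mul_one, ← hz₀, ← map_mul, ← hc, map_natCast]
  have hm : (m : 𝓞 F) ∈ B.radical := by
    rw [Ideal.radical_eq_sInf, Ideal.mem_sInf]
    exact fun J hJ => (hprime J hJ.2 hJ.1).2
  obtain ⟨r, hr⟩ := hm
  exact ⟨r, by push_cast; exact hr⟩

end FLTAgent.LanglandsTunnell.Period

end
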