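import Fermat.Agent.LanglandsTunnell.Expansion.Bessel
import Fermat.Agent.LanglandsTunnell.AdelicNbrs

/-!
# Combinations of translates of an eigenform at the primes of the level

Such a combination, when it is right invariant under a congruence subgroup with the same primes,
is again an eigenform with the same eigenvalues.
-/

set_option autoImplicit false
set_option linter.unusedSectionVars false

open NumberField Matrix MeasureTheory

noncomputable section

namespace FLTAgent.LanglandsTunnell.Period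

open FLTAgent.LanglandsTunnell FLTAgent.LanglandsTunnell.Isolation FLTAgent.LanglandsTunnell.Seed
  FLTAgent.LanglandsTunnell.Expansion
open FLTAgent.LanglandsTunnell.Geom (BIdx)

variable {F : Type} [Field F] [NumberField F] {ι : Type} [Fintype ι] [DecidableEq ι]
  {Φ : PlaceChoice F ι}

/-! ### Linear algebra of translates -/

/-- Right translation as a linear map. -/
def transLin (g : GL (Fin 2) (AF F)) : AForm F ι →ₗ[ℂ] AForm F ι where
  toFun := rtrans g
  map_add' _ _ := rfl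
  map_smul' _ _ := rfl

theorem transLin_apply (g : GL (Fin 2) (AF F)) (Ψ : AForm F ι) (h : GL (Fin 2) (AF F))
    (P : ι → H3) : transLin g Ψ h P = Ψ (h * g) P := rfl

theorem transLin_mul (g g' : GL (Fin 2) (AF F)) (Ψ : AForm F ι) :
    transLin (g * g') Ψ = transLin g (transLin g' Ψ) := rtrans_mul g g' Ψ

theorem transLin_one (Ψ : AForm F ι) : transLin 1 Ψ = Ψ := rtrans_one Ψ

/-- The span of the translates of `f` by matrices supported at the primes dividing `N`. -/
def transSpan (N : ℕ) (f : Pt F ι (lv F N) → ℂ) : Submodule ℂ (AForm F ι) :=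
  Submodule.span ℂ {Ψ | ∃ h, InsideN N h ∧ Ψ = rtrans h (liftForm f)}

theorem insideN_one {N : ℕ} : InsideN N (1 : GL (Fin 2) (AF F)) := fun i j => by simp

theorem liftForm_mem {N : ℕ} (f : Pt F ι (lv F N) → ℂ) : liftForm f ∈ transSpan N f :=
  Submodule.subset_span ⟨1, insideN_one, (rtrans_one _).symm⟩

theorem transLin_mem {N : ℕ} {f : Pt F ι (lv F N) → ℂ} {g : GL (Fin 2) (AF F)} (hg : InsideN N g)
    {Ψ : AForm F ι} (hΨ : Ψ ∈ transSpan N f) : transLin g Ψ ∈ transSpan N f := by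
  refine (Submodule.span_le.mpr ?_ : transSpan N f ≤ (transSpan N f).comap (transLin g)) hΨ
  rintro _ ⟨h, hh, rfl⟩
  exact Submodule.subset_span ⟨g * h, hg.mul hh, (rtrans_mul g h (liftForm f)).symm⟩

/-- The stabiliser of a function of all levels. -/
def fixer (Ψ : AForm F ι) : Subgroup (GL (Fin 2) (AF F)) where
  carrier := {g | transLin g Ψ = Ψ}
  one_mem' := transLin_one Ψ
  mul_mem' {a b} ha hb := by
    show transLin (a * b) Ψ = Ψ
    rw [transLin_mul, hb, ha]
  inv_mem' {a} ha := by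
    show transLin a⁻¹ Ψ = Ψ
    conv_lhs => rw [← (ha : transLin a Ψ = Ψ)]
    rw [← transLin_mul, inv_mul_cancel, transLin_one]

theorem mem_fixer {Ψ : AForm F ι} {g : GL (Fin 2) (AF F)} :
    g ∈ fixer Ψ ↔ transLin g Ψ = Ψ := Iff.rfl

theorem fixer_apply {Ψ : AForm F ι} {g : GL (Fin 2) (AF F)} (hg : g ∈ fixer Ψ)
    (h : GL (Fin 2) (AF F)) (P : ι → H3) : Ψ (h * g) P = Ψ h P :=
  congrFun (congrFun (hg : transLin g Ψ = Ψ) h) P

/-- A function of all levels as a function at level `n`. -/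
def descend (n : Ideal (𝓞 F)) (Ψ : AForm F ι) : Pt F ι n → ℂ := fun x => Ψ x.1.out x.2

theorem descend_mk {n : Ideal (𝓞 F)} {Ψ : AForm F ι} (h : levelGroup n ≤ fixer Ψ)
    (g : GL (Fin 2) (AF F)) (P : ι → H3) : descend n Ψ ((g : FinPt F n), P) = Ψ g P := by
  have h1 : g⁻¹ * (g : FinPt F n).out ∈ levelGroup n :=
    QuotientGroup.eq.mp (QuotientGroup.out_eq' (g : FinPt F n)).symm
  have h2 := fixer_apply (h h1) g P
  rwa [mul_inv_cancel_left] at h2

theorem principalSubgroup_le_fixer_liftForm {n : Ideal (𝓞 F)} (f : Pt F ι n → ℂ) :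
    levelGroup n ≤ fixer (liftForm f) := fun _ hk => funext fun g => funext fun P =>
  congrArg (fun v => f (v, P)) (QuotientGroup.mk_mul_of_mem g hk)

/-! ### Coefficients of combinations -/

/-- Coefficients are linear, across levels. -/
theorem coef_eq_sum {n n' : Ideal (𝓞 F)} (hn : n ≠ ⊥) (hn' : n' ≠ ⊥) {κ : Type} (S : Finset κ)
    (c : κ → ℂ) {φ' : Pt F ι n' → ℂ} (hA' : IsAutomorphic Φ φ') (φ : κ → Pt F ι n → ℂ)
    (hA : ∀ j ∈ S, IsAutomorphic Φ (φ j)) (v : κ → FinPt F n) (v' : FinPt F n')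
    (h : ∀ Q, φ' (v', Q) = ∑ j ∈ S, c j * φ j (v j, Q)) (ξ : F) (P : ι → H3) :
    coef Φ φ' v' ξ P = ∑ j ∈ S, c j * coef Φ (φ j) (v j) ξ P := by
  classical
  obtain ⟨m', hm', hd'⟩ := exists_valid hn' v' ξ
  choose m hm hd using fun j => exists_valid hn (v j) ξ
  set M := m' * ∏ l ∈ S, m l with hM
  have hM' : Admissible M v' ∧ DualOK M ξ := by
    rw [hM, mul_comm]
    exact ⟨hm'.mul_left (Finset.prod_ne_zero_iff.mpr fun l _ => (hm l).1), hd'.mul_left _⟩
  have hMj : ∀ j ∈ S, Admissible M (v j) ∧ DualOK M ξ := fun j hj => by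
    rw [hM, ← Finset.prod_erase_mul S m hj, ← mul_assoc]
    exact ⟨(hm j).mul_left (mul_ne_zero hm'.1
      (Finset.prod_ne_zero_iff.mpr fun l _ => (hm l).1)), (hd j).mul_left _⟩
  have e1 : ∀ j ∈ S, c j * coef Φ (φ j) (v j) ξ P =
      cubeMean fun s => c j * coefInt Φ (φ j) (v j) ξ M P s := fun j hj => by
    rw [cubeMean_const_mul, coef_eq (hA j hj) (hMj j hj).1 (hMj j hj).2]
    rfl
  rw [Finset.sum_congr rfl e1, ← cubeMean_sum S (fun j s => c j * coefInt Φ (φ j) (v j) ξ M P s)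
    fun j hj => continuous_const.mul (continuous_coefInt (hA j hj) (v j) ξ M P),
    coef_eq hA' hM'.1 hM'.2, coefAt]
  refine congrArg cubeMean (funext fun s => ?_)
  simp only [coefInt, h, Finset.sum_mul, mul_assoc]

/-- The first coefficients are linear, across levels. -/
theorem whit_eq_sum {n n' : Ideal (𝓞 F)} (hn : n ≠ ⊥) (hn' : n' ≠ ⊥) {κ : Type} (S : Finset κ)
    (c : κ → ℂ) {φ' : Pt F ι n' → ℂ} (hA' : IsAutomorphic Φ φ') (φ : κ → Pt F ι n → ℂ)
    (hA : ∀ j ∈ S, IsAutomorphic Φ (φ j)) (v : κ → FinPt F n) (v' : FinPt F n')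
    (h : ∀ Q, φ' (v', Q) = ∑ j ∈ S, c j * φ j (v j, Q)) :
    whit Φ φ' v' = ∑ j ∈ S, c j * whit Φ (φ j) (v j) := by
  rw [whit, coef_eq_sum hn hn' S c hA' φ hA v v' h, Finset.sum_div]
  simp only [whit, mul_div_assoc]

/-- A form vanishes with its diagonal first coefficients. -/
theorem eq_zero_of_whit {n : Ideal (𝓞 F)} (hn : n ≠ ⊥) {φ : Pt F ι n → ℂ}
    (hA : IsAutomorphic Φ φ) (hC : IsCuspidal Φ φ) (hS : SphericalZero φ)
    (h : ∀ u : (AF F)ˣ, whit Φ φ ((diagUnit u : GL (Fin 2) (AF F)) : FinPt F n) = 0)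
    (x : Pt F ι n) : φ x = 0 := by
  classical
  obtain ⟨g, hg⟩ := QuotientGroup.mk_surjective x.1
  have hh := sum_translates_eq_zero (Φ := Φ) hn ({()} : Finset Unit) (fun _ => (1 : ℂ))
    (fun _ => (1 : GL (Fin 2) (AF F))) (fun _ => φ) (fun _ _ => hA) (fun _ _ => hC)
    (fun _ _ => hS) (fun u => by simp [h u]) g x.2
  simpa [hg] using hh

/-! ### Properties of combinations -/

variable {N : ℕ} {f : Pt F ι (lv F N) → ℂ} {a : Ideal (𝓞 F) → ℂ} {Ψ : AForm F ι}

/-- The left action. -/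
def LeftInv (Φ : PlaceChoice F ι) (Ψ : AForm F ι) : Prop :=
  ∀ (γ : GL (Fin 2) F) (g : GL (Fin 2) (AF F)) (P : ι → H3),
    Ψ (GeneralLinearGroup.map (toAF F) γ * g)
      (fun i => H3.moebius (GeneralLinearGroup.map (Φ.emb i) γ) (P i)) = Ψ g P

theorem leftInv_of_mem (hf : IsAutomorphic Φ f) (hΨ : Ψ ∈ transSpan N f) : LeftInv Φ Ψ := by
  induction hΨ using Submodule.span_induction with
  | mem x hx =>
    obtain ⟨h, -, rfl⟩ := hx
    intro γ g P
    show f (((GeneralLinearGroup.map (toAF F) γ * g * h : GL (Fin 2) (AF F)) :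
        FinPt F (lv F N)), _) =
      f (((g * h : GL (Fin 2) (AF F)) : FinPt F (lv F N)), P)
    rw [mul_assoc]
    exact hf.invariant γ (((g * h : GL (Fin 2) (AF F)) : FinPt F (lv F N)), P)
  | zero => intro γ g P; rfl
  | add x y _ _ hx hy => intro γ g P; simp only [Pi.add_apply, hx γ g P, hy γ g P]
  | smul c x _ hx => intro γ g P; simp only [Pi.smul_apply, hx γ g P]

theorem continuous_of_mem (hf : IsAutomorphic Φ f) (hΨ : Ψ ∈ transSpan N f)
    (g : GL (Fin 2) (AF F)) : Continuous (Ψ g) := by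
  induction hΨ using Submodule.span_induction with
  | mem x hx =>
    obtain ⟨h, -, rfl⟩ := hx
    exact hf.continuous _
  | zero => exact continuous_const (y := (0 : ℂ))
  | add x y _ _ hx hy => exact hx.add hy
  | smul c x _ hx => exact hx.const_smul c

theorem bounded_of_mem (hf : IsAutomorphic Φ f) (hΨ : Ψ ∈ transSpan N f) :
    ∃ C : ℝ, ∀ g P, ‖Ψ g P‖ ≤ C := by
  induction hΨ using Submodule.span_induction with
  | mem x hx =>
    obtain ⟨h, -, rfl⟩ := hx
    obtain ⟨C, hC⟩ := hf.bounded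
    exact ⟨C, fun g P => hC _⟩
  | zero => exact ⟨0, fun g P => by simp⟩
  | add x y _ _ hx hy =>
    obtain ⟨C, hC⟩ := hx
    obtain ⟨C', hC'⟩ := hy
    exact ⟨C + C', fun g P => (norm_add_le _ _).trans (add_le_add (hC g P) (hC' g P))⟩
  | smul c x _ hx =>
    obtain ⟨C, hC⟩ := hx
    exact ⟨‖c‖ * C, fun g P => by
      show ‖c * x g P‖ ≤ _
      rw [norm_mul]
      exact mul_le_mul_of_nonneg_left (hC g P) (norm_nonneg c)⟩

theorem center_le_fixer (hΨ : Ψ ∈ transSpan N f) :
    Subgroup.center (GL (Fin 2) (AF F)) ≤ fixer Ψ := by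
  intro z hz
  induction hΨ using Submodule.span_induction with
  | mem x hx =>
    obtain ⟨h, -, rfl⟩ := hx
    funext g P
    show f (((g * z * h : GL (Fin 2) (AF F)) : FinPt F (lv F N)), P) = f (_, P)
    rw [mul_assoc, ← Subgroup.mem_center_iff.mp hz h, ← mul_assoc]
    exact congrArg (fun v => f (v, P))
      (QuotientGroup.mk_mul_of_mem (s := levelGroup (lv F N)) (g * h) (Subgroup.mem_sup_right hz))
  | zero => exact map_zero (transLin z)
  | add x y _ _ hx hy => exact ((transLin z).map_add x y).trans (congrArg₂ (· + ·) hx hy)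
  | smul c x _ hx => exact ((transLin z).map_smul c x).trans (congrArg (c • ·) hx)

theorem levelGroup_le_fixer (hΨ : Ψ ∈ transSpan N f) {n : Ideal (𝓞 F)}
    (hK : principalSubgroup n ≤ fixer Ψ) : levelGroup n ≤ fixer Ψ :=
  sup_le hK (center_le_fixer hΨ)

theorem spherical_of_mem (hf : IsEigenform Φ f a) (hΨ : Ψ ∈ transSpan N f) (i : ι) {k : ℝ → ℝ}
    (hk : Continuous k) (hs : HasCompactSupport k) (g : GL (Fin 2) (AF F)) (P : ι → H3) :
    ∫ Q, (k (H3.coshDist (P i) Q) : ℂ) * Ψ g (Function.update P i Q) ∂H3.volH3 =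
      (sphValue k : ℂ) * Ψ g P := by
  induction hΨ using Submodule.span_induction with
  | mem x hx =>
    obtain ⟨h, -, rfl⟩ := hx
    exact hf.spherical i k hk hs _ P
  | zero => simp
  | add x y hxm hym hx hy =>
    have hint : ∀ z ∈ transSpan N f, Integrable
        (fun Q => (k (H3.coshDist (P i) Q) : ℂ) * z g (Function.update P i Q)) H3.volH3 :=
      fun z hz => integrable_kernel_mul hk hs _
        ((continuous_of_mem hf.automorphic hz g).comp (continuous_const.update i continuous_id))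
    simp only [Pi.add_apply, mul_add]
    rw [integral_add (hint x hxm) (hint y hym), hx, hy]
  | smul c x _ hx =>
    simp only [Pi.smul_apply, smul_eq_mul]
    rw [← mul_left_comm, ← hx, ← integral_const_mul]
    congr 1
    funext Q
    ring

/-- Every large period lattice gives vanishing constant term. -/
theorem cusp_of_mem (hf : IsEigenform Φ f a) (hN : N ≠ 0) (hΨ : Ψ ∈ transSpan N f)
    (g : GL (Fin 2) (AF F)) (P : ι → H3) :
    ∃ M₀ : ℕ, M₀ ≠ 0 ∧ ∀ k : ℕ, k ≠ 0 →
      cubeMean (fun s : BIdx F → ℝ => Ψ g (shiftVec (latPt Φ (k * M₀) s) P)) = 0 := by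
  induction hΨ using Submodule.span_induction with
  | mem x hx =>
    obtain ⟨h, -, rfl⟩ := hx
    obtain ⟨m, hm, hd⟩ :=
      exists_valid (lv_ne_bot hN) ((g * h : GL (Fin 2) (AF F)) : FinPt F (lv F N)) (0 : F)
    refine ⟨m, hm.1, fun k hk => ?_⟩
    have h0 := coef_zero hf.automorphic hf.cuspidal (lv_ne_bot hN)
      ((g * h : GL (Fin 2) (AF F)) : FinPt F (lv F N)) P
    rw [coef_eq hf.automorphic (hm.mul_left hk) (hd.mul_left k), coefAt] at h0
    refine Eq.trans (congrArg cubeMean (funext fun s => ?_)) h0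
    simp [coefInt, chiInf, rtrans, liftForm]
  | zero => exact ⟨1, one_ne_zero, fun k _ => cubeMean_const 0⟩
  | add x y hxm hym hx hy =>
    obtain ⟨M, hM, hMx⟩ := hx
    obtain ⟨M', hM', hMy⟩ := hy
    refine ⟨M * M', mul_ne_zero hM hM', fun k hk => ?_⟩
    have hc : ∀ z ∈ transSpan N f,
        Continuous fun s : BIdx F → ℝ => z g (shiftVec (latPt Φ (k * (M * M')) s) P) :=
      fun z hz => (continuous_of_mem hf.automorphic hz g).comp
        (continuous_shiftVec.comp ((continuous_latPt Φ _).prodMk continuous_const))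
    show cubeMean (fun s : BIdx F → ℝ => x g _ + y g _) = 0
    rw [cubeMean, integral_add (integrableOn_cube (hc x hxm)) (integrableOn_cube (hc y hym))]
    have e1 := hMx (k * M') (mul_ne_zero hk hM')
    have e2 := hMy (k * M) (mul_ne_zero hk hM)
    rw [show k * M' * M = k * (M * M') by ring] at e1
    rw [show k * M * M' = k * (M * M') by ring] at e2
    rw [← cubeMean, ← cubeMean, e1, e2, add_zero]
  | smul c x _ hx =>
    obtain ⟨M, hM, hMx⟩ := hx
    exact ⟨M, hM, fun k hk => by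
      show cubeMean (fun s : BIdx F → ℝ => c * x g _) = 0
      rw [cubeMean_const_mul, hMx k hk, mul_zero]⟩

theorem insideZhat_congr {N' : ℕ} (hp : ∀ q : ℕ, q.Prime → (q ∣ N' ↔ q ∣ N)) :
    eN F N' = eN F N := by
  rw [eN, eN]
  congr 1
  funext p
  simp only [insideZhat, hp p p.2]

theorem not_dvd_lvl {N' : ℕ} (hN : N ≠ 0) (hp : ∀ q : ℕ, q.Prime → (q ∣ N' ↔ q ∣ N))
    {w : Ideal (𝓞 F)} (hw : w.IsPrime) (hwn : ¬ w ∣ lv F N') : ¬ w ∣ lv F N := by
  intro h
  have hmem : (N : 𝓞 F) ∈ w := Ideal.le_of_dvd h (Ideal.mem_span_singleton_self _)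
  have key : ∀ M : ℕ, M ≠ 0 → M ∣ N → (M : 𝓞 F) ∈ w → False := by
    intro M
    induction M using induction_on_primes with
    | zero => simp
    | one =>
      intro _ _ h
      rw [Nat.cast_one] at h
      exact hw.ne_top (w.eq_top_of_isUnit_mem h isUnit_one)
    | prime_mul q M hq ih =>
      intro h0 hd h
      rw [Nat.cast_mul] at h
      rcases hw.mem_or_mem h with h | h
      · obtain ⟨k, hk⟩ := (hp q hq).mpr (dvd_trans (dvd_mul_right q M) hd)
        refine hwn (Ideal.dvd_iff_le.mpr ?_)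
        rw [Ideal.span_singleton_le_iff_mem, hk, Nat.cast_mul]
        exact Ideal.mul_mem_right _ _ h
      · exact ih (right_ne_zero_of_mul h0) (dvd_trans (dvd_mul_left M q) hd) h
  exact key N hN dvd_rfl hmem

theorem prime_not_dvd_of_mem {w : Ideal (𝓞 F)} (hwn : ¬ w ∣ lv F N) {p : ℕ}
    (hpw : (p : 𝓞 F) ∈ w) : ¬ p ∣ N := by
  rintro ⟨k, hk⟩
  refine hwn (Ideal.dvd_iff_le.mpr ?_)
  rw [Ideal.span_singleton_le_iff_mem, hk, Nat.cast_mul]
  exact Ideal.mul_mem_right _ _ hpw

theorem eN_mem_idealAF {w : Ideal (𝓞 F)} (hw : w.IsPrime) (hw0 : w ≠ ⊥) (hwn : ¬ w ∣ lv F N) :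
    eN F N ∈ idealAF F w := by
  obtain ⟨p, hp⟩ := exists_prime_natCast_mem hw hw0
  obtain ⟨u, hu⟩ := exists_natCast_mul_eq_insideZhat p.2 (prime_not_dvd_of_mem hwn hp)
  have e : eN F N = intHom F ((1 : 𝓞 F) ⊗ₜ[ℤ] u) * (((p : ℕ) : ℕ) : AF F) := by
    rw [eN_eq_intHom, ← hu, ← map_natCast (intHom F) (p : ℕ), ← map_mul]
    congr 1
    rw [mul_comm _ (((p : ℕ) : OH F))]
    simp only [← nsmul_eq_mul, TensorProduct.tmul_smul]
  rw [e]
  exact mul_mem_idealAF_left ⟨_, rfl⟩ (natCast_mem_idealAF hp)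

/-- Matrices supported outside commute with matrices supported inside. -/
theorem insideN_commute_outside {g R : GL (Fin 2) (AF F)} (hg : InsideN N g)
    (hR : ∀ i j, eN F N * (R.val - 1) i j = 0) : g * R = R * g := by
  have key : (g.val - 1) * (R.val - 1) = 0 ∧ (R.val - 1) * (g.val - 1) = 0 := by
    constructor <;> ext i j <;> rw [Matrix.mul_apply, Matrix.zero_apply] <;>
      refine Finset.sum_eq_zero fun k _ => ?_
    · linear_combination (R.val - 1) k j * hg i k + (g.val - 1) i k * hR k j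
    · linear_combination (R.val - 1) i k * hg k j + (g.val - 1) k j * hR i k
  refine Units.ext ?_
  show g.val * R.val = R.val * g.val
  calc g.val * R.val = (g.val - 1) * (R.val - 1) + g.val + R.val - 1 := by
        simp only [sub_mul, mul_sub, mul_one, one_mul]; abel
    _ = (R.val - 1) * (g.val - 1) + g.val + R.val - 1 := by rw [key.1, key.2]
    _ = R.val * g.val := by simp only [sub_mul, mul_sub, mul_one, one_mul]; abel

/-- Representatives of the Hecke neighbours which are trivial at the primes dividing `N`, good for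
the two levels. -/
theorem exists_outside_reps {N' : ℕ} (hN : N ≠ 0) (hN' : N' ≠ 0)
    (hp : ∀ q : ℕ, q.Prime → (q ∣ N' ↔ q ∣ N)) {w : Ideal (𝓞 F)} (hw : w.IsPrime) (hw0 : w ≠ ⊥)
    (hwn : ¬ w ∣ lv F N') :
    ∃ (π : (AF F)ˣ) (c : 𝓞 F ⧸ w → AF F),
      (IsUniformizerAt (lv F N) w π ∧ IsResidueSection (lv F N) w c) ∧
      (IsUniformizerAt (lv F N') w π ∧ IsResidueSection (lv F N') w c) ∧
      ∀ i j l, eN F N * ((hRep π c i).val - 1) j l = 0 := by
  have hwN := not_dvd_lvl hN hp hw hwn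
  have he := insideZhat_congr (F := F) hp
  obtain ⟨π, hπ', hπo'⟩ := exists_outside_uniformizer hN' hw hw0 hwn
  have hπo : OutsideN N π := by rw [OutsideN, ← he]; exact hπo'
  have hπint : (π : AF F) ∈ intAF F := by
    obtain ⟨π₀, hπ₀, -, -⟩ := isUniformizerAt_iff.mp hπ'
    exact hπ₀ ▸ ⟨π₀, rfl⟩
  have hπ : IsUniformizerAt (lv F N) w π := ⟨by
    rw [show (π : AF F) - 1 = ((π : AF F) - 1) * (1 - eN F N) by
      unfold OutsideN at hπo; linear_combination hπo]
    exact mul_one_sub_eN_mem hN (sub_mem hπint (one_mem _)), hπ'.2⟩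
  have hcop : w ⊔ lv F N = ⊤ := (hw.isMaximal hw0).out.2 _ (lt_of_le_of_ne le_sup_left fun h =>
    hwN (Ideal.dvd_iff_le.mpr (h ▸ le_sup_right)))
  obtain ⟨c₀, hc₀⟩ := exists_isResidueSection hw0 hcop
  have hint : ∀ r, c₀ r ∈ intAF F := fun r => idealAF_le_intAF (hc₀.mem r)
  have hdiff : ∀ s, c₀ s - (1 - eN F N) * c₀ s ∈ idealAF F w := fun s => by
    rw [show c₀ s - (1 - eN F N) * c₀ s = c₀ s * eN F N by ring]
    exact mul_mem_idealAF_left (hint s) (eN_mem_idealAF hw hw0 hwN)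
  have huniq : ∀ x ∈ intAF F, ∃! r, x - (1 - eN F N) * c₀ r ∈ idealAF F w := by
    intro x hx
    obtain ⟨r, hr, hu⟩ := hc₀.exists_unique x hx
    refine ⟨r, ?_, fun s hs => hu s ?_⟩
    · show x - (1 - eN F N) * c₀ r ∈ _
      rw [show x - (1 - eN F N) * c₀ r = (x - c₀ r) + (c₀ r - (1 - eN F N) * c₀ r) by ring]
      exact add_mem hr (hdiff r)
    · show x - c₀ s ∈ _
      have hs' : x - (1 - eN F N) * c₀ s ∈ idealAF F w := hs
      rw [show x - c₀ s = (x - (1 - eN F N) * c₀ s) - (c₀ s - (1 - eN F N) * c₀ s) by ring]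
      exact sub_mem hs' (hdiff s)
  refine ⟨π, fun r => (1 - eN F N) * c₀ r, ⟨hπ, ⟨fun r => ?_, huniq⟩⟩, ⟨hπ', ⟨fun r => ?_, huniq⟩⟩,
    fun i j l => ?_⟩
  · rw [mul_comm]; exact mul_one_sub_eN_mem hN (hint r)
  · rw [← he, mul_comm]; exact mul_one_sub_eN_mem hN' (hint r)
  · have h0 : eN F N * (1 - eN F N) = 0 := eN_mul_one_sub
    cases i with
    | none =>
      fin_cases j <;> fin_cases l <;> simp [hRep]
      · exact hπo
    | some r =>
      rw [Matrix.sub_apply, hRep_some_val]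
      fin_cases j <;> fin_cases l <;> simp [← mul_assoc, h0]
      · exact hπo

/-- The transferred function is automorphic. -/
theorem isAutomorphic_descend (hf : IsAutomorphic Φ f) (hΨ : Ψ ∈ transSpan N f) {N' : ℕ}
    (hK : principalSubgroup (lv F N') ≤ fixer Ψ) :
    IsAutomorphic Φ (descend (lv F N') Ψ) := by
  have hL := levelGroup_le_fixer hΨ hK
  refine ⟨?_, fun v => continuous_of_mem hf hΨ v.out, ?_⟩
  · rintro γ ⟨v, P⟩
    obtain ⟨g, rfl⟩ := QuotientGroup.mk_surjective v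
    show descend (lv F N') Ψ
      ((((GeneralLinearGroup.map (toAF F) γ * g : GL (Fin 2) (AF F)))
        : FinPt F (lv F N')), _) = _
    rw [descend_mk hL, descend_mk hL]
    exact leftInv_of_mem hf hΨ γ g P
  · obtain ⟨C, hC⟩ := bounded_of_mem hf hΨ
    exact ⟨C, fun x => hC _ _⟩

/-- The transferred eigenform. -/
theorem isEigenform_descend (hf : IsEigenform Φ f a) (hN : N ≠ 0) (hΨ : Ψ ∈ transSpan N f)
    (hne : Ψ ≠ 0) {N' : ℕ} (hN' : N' ≠ 0) (hp : ∀ q : ℕ, q.Prime → (q ∣ N' ↔ q ∣ N))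
    (hK : principalSubgroup (lv F N') ≤ fixer Ψ) :
    IsEigenform Φ (descend (lv F N') Ψ) a := by
  classical
  have hL := levelGroup_le_fixer hΨ hK
  have hA : IsAutomorphic Φ (descend (lv F N') Ψ) :=
    isAutomorphic_descend hf.automorphic hΨ hK
  refine ⟨hA, ?_, ?_, fun i k hk hs v P => spherical_of_mem hf hΨ i hk hs v.out P, ?_⟩
  · intro v P m hm hfix
    obtain ⟨g, rfl⟩ := QuotientGroup.mk_surjective v
    obtain ⟨m₁, hm₁⟩ := exists_admissible (lv_ne_bot hN') (g : FinPt F (lv F N'))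
    have hadm : Admissible m (g : FinPt F (lv F N')) := ⟨hm, fun z hz => by
      obtain ⟨y, hy⟩ := hz
      replace hy : intHom F y = z := hy
      obtain ⟨o, r, rfl⟩ := oh_exists_add (F := F) hm₁.1 y
      rw [← hy, map_add, map_mul, map_natCast, intHom_tmul_one, mul_add,
        upperUnip_add, mul_smul, show (m : AF F) * ((m₁ : AF F) * intHom F r) =
          (m₁ : AF F) * ((m : AF F) * intHom F r) by ring,
        hm₁.2 _ (mul_mem (natCast_mem _ m) (mem_intAF.mpr ⟨r, rfl⟩)),
        ← map_natCast (toAF F) m, ← map_mul]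
      exact hfix o⟩
    obtain ⟨M₀, hM₀, hmean⟩ := cusp_of_mem hf hN hΨ g P
    have hd : DualOK m (0 : F) := fun a => by simp [trExp]
    have hd0 : DualOK (m * M₀) (0 : F) := fun a => by simp [trExp]
    have h1 : coefAt Φ (descend (lv F N') Ψ) (g : FinPt F (lv F N')) 0 m P = 0 := by
      rw [← coefAt_eq_mul hA hadm hd hM₀, mul_comm M₀, coefAt]
      refine Eq.trans (congrArg cubeMean (funext fun s => ?_)) (hmean m hm)
      simp [coefInt, chiInf, descend_mk hL]
    refine Eq.trans ?_ h1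
    rw [coefAt, cubeMean]
    refine setIntegral_congr_fun (isCompact_cube.measurableSet) fun s _ => ?_
    have e : latPt Φ m s = fun i =>
        ∑ j, (s j : ℂ) * ((m : ℂ) * Φ.emb i (RingOfIntegers.basis F j : 𝓞 F)) := by
      funext i
      simp only [latPt, LanglandsTunnell.Geom.embLin, LinearMap.coe_mk, AddHom.coe_mk,
        Finset.mul_sum, mul_left_comm]
    rw [coefInt, e]
    simp [chiInf]
    rfl
  · by_contra! h0
    refine hne (funext fun g => funext fun P => ?_)
    rw [← descend_mk hL g P]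
    exact h0 _
  · intro w hw hw0 hwn v P
    have : Finite (𝓞 F ⧸ w) := Ideal.finiteQuotientOfFreeOfNeBot w hw0
    have : Fintype (𝓞 F ⧸ w) := Fintype.ofFinite _
    obtain ⟨π, c, ⟨hπ, hc⟩, ⟨hπ', hc'⟩, hR⟩ := exists_outside_reps hN hN' hp hw hw0 hwn
    obtain ⟨g, rfl⟩ := QuotientGroup.mk_surjective v
    have h1 := finsum_nbrs hw hw0 hwn hπ' hc' g (κ := 1) (one_mem _)
      fun u => descend (lv F N') Ψ (u, P)
    simp only [mul_one, descend_mk hL] at h1
    rw [h1, descend_mk hL]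
    suffices ∀ g, ∑ i, Ψ (g * hRep π c i) P = (Real.sqrt (Ideal.absNorm w) : ℂ) * a w * Ψ g P from
      this g
    clear h1 g hne hK hL hA
    intro g
    induction hΨ using Submodule.span_induction with
    | mem x hx =>
      obtain ⟨h, hh, rfl⟩ := hx
      have h2 := finsum_nbrs hw hw0 (not_dvd_lvl hN hp hw hwn) hπ hc (g * h) (κ := 1) (one_mem _)
        fun u => f (u, P)
      have h3 := hf.eigen w hw hw0 (not_dvd_lvl hN hp hw hwn)
        ((g * h : GL (Fin 2) (AF F)) : FinPt F (lv F N)) P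
      simp only [mul_one] at h2
      rw [h2] at h3
      refine Eq.trans (Finset.sum_congr rfl fun i _ => ?_) h3
      show f (((g * hRep π c i * h : GL (Fin 2) (AF F)) : FinPt F (lv F N)), P) = _
      rw [mul_assoc, ← insideN_commute_outside hh (hR i), ← mul_assoc]
    | zero => simp
    | add x y _ _ hx hy => simp only [Pi.add_apply, Finset.sum_add_distrib, hx, hy]; ring
    | smul b x _ hx =>
      simp only [Pi.smul_apply, smul_eq_mul, ← Finset.mul_sum, hx]; ring

end FLTAgent.LanglandsTunnell.Period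

end
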