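import Fermat.Agent.LanglandsTunnell.Period.EisSum
import Fermat.Agent.Newforms.InvariantIntegral
import Mathlib.Analysis.PSeries
import Mathlib.NumberTheory.ModularForms.CongruenceSubgroups

/-!
# Unfolding the period against the Eisenstein series

Integrals over `ℍ` as sums over translates of the fundamental domain (`hasSum_setIntegral_fd`),
and the identity `hasSum_unfold` turning a sum over cosets of `Γ(M)` against the Eisenstein
series into one over the strip of width `M`.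
-/

set_option autoImplicit false

open MeasureTheory UpperHalfPlane ModularGroup Real
open scoped MatrixGroups Modular ENNReal

noncomputable section

namespace FLTAgent.LanglandsTunnell.Period

attribute [local instance] FLTAgent.Newforms.countable_SL2Z

theorem ae_hasSum_fd :
    ∀ᵐ τ : ℍ, HasSum (fun g : SL(2, ℤ) =>
      (𝒟 : Set ℍ).indicator (fun _ => (1 : ℝ)) (g⁻¹ • τ)) 2 := by
  filter_upwards [Newforms.isWeight_top.tsum_eq] with τ hτ
  set f : SL(2, ℤ) → ℝ≥0∞ := fun g => (𝒟 : Set ℍ).indicator 1 (g⁻¹ • τ)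
  have hf : ∑' g, f g = 2 := by
    rw [← hτ, ← ((Equiv.inv _).trans
      (Equiv.subtypeUnivEquiv (fun g : SL(2, ℤ) => Subgroup.mem_top g)).symm).symm.tsum_eq]
    refine tsum_congr fun g => ?_
    simp [f, -sl_moeb]
  have h := ENNReal.hasSum_toReal (f := f) (by rw [hf]; simp)
  have e : (∑' g, (f g).toReal) = 2 := by
    rw [← ENNReal.tsum_toReal_eq fun g => ne_of_lt ?_, hf]
    · simp
    · refine lt_of_le_of_lt (ENNReal.le_tsum g) ?_
      rw [hf]; simp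
  rw [e] at h
  refine h.congr_fun fun g => ?_
  by_cases hg : g⁻¹ • τ ∈ (𝒟 : Set ℍ) <;> simp [f, hg, -sl_moeb]

/-- Integrals over `ℍ` through the translates of the fundamental domain. -/
theorem hasSum_setIntegral_fd {H : ℍ → ℂ} (hH : Integrable H) :
    HasSum (fun g : SL(2, ℤ) => ∫ τ in (𝒟 : Set ℍ), H (g • τ)) (2 * ∫ τ, H τ) := by
  set χ : SL(2, ℤ) → ℍ → ℂ := fun g τ =>
    (((𝒟 : Set ℍ).indicator (fun _ => (1 : ℝ)) (g⁻¹ • τ) : ℝ) : ℂ) * H τ with hχ
  have e : ∀ g : SL(2, ℤ), ∫ τ in (𝒟 : Set ℍ), H (g • τ) = ∫ τ, χ g τ := by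
    intro g
    have h1 : ∫ τ, χ g (g • τ) = ∫ τ, χ g τ :=
      MeasurePreserving.integral_comp (Newforms.measurePreserving_SL_smul g)
        (Newforms.measurableEmbedding_SL_smul g) (χ g)
    rw [← h1, ← integral_indicator Newforms.measurableSet_fd]
    congr 1
    funext τ
    simp only [hχ, inv_smul_smul]
    by_cases hτ : τ ∈ (𝒟 : Set ℍ)
    · rw [Set.indicator_of_mem hτ, Set.indicator_of_mem hτ]; simp
    · rw [Set.indicator_of_notMem hτ, Set.indicator_of_notMem hτ]; simp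
  simp only [e]
  rw [← integral_const_mul]
  refine hasSum_integral_of_dominated_convergence
    (fun g τ => (𝒟 : Set ℍ).indicator (fun _ => (1 : ℝ)) (g⁻¹ • τ) * ‖H τ‖) ?_ ?_ ?_ ?_ ?_
  · intro g
    exact (Complex.continuous_ofReal.measurable.comp
      ((measurable_const.indicator Newforms.measurableSet_fd).comp
      (Newforms.measurable_SL_smul g⁻¹))).aestronglyMeasurable.mul hH.1
  · intro g
    refine Filter.Eventually.of_forall fun τ => ?_
    rw [norm_mul, Complex.norm_real, Real.norm_eq_abs,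
      abs_of_nonneg (Set.indicator_nonneg (fun _ _ => zero_le_one) _)]
  · filter_upwards [ae_hasSum_fd] with τ hτ
    exact (hτ.mul_right ‖H τ‖).summable
  · refine (hH.norm.const_mul 2).congr ?_
    filter_upwards [ae_hasSum_fd] with τ hτ
    rw [(hτ.mul_right ‖H τ‖).tsum_eq]
  · filter_upwards [ae_hasSum_fd] with τ hτ
    have := (Complex.hasSum_ofReal.mpr hτ).mul_right (H τ)
    simpa [hχ, -sl_moeb] using this

/-- The same identity for lower integrals. -/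
theorem two_mul_lintegral (H : ℍ → ℝ≥0∞) (hH : Measurable H) :
    ∑' g : SL(2, ℤ), ∫⁻ τ in (𝒟 : Set ℍ), H (g • τ) = 2 * ∫⁻ τ, H τ := by
  have e : ∀ g : SL(2, ℤ), ∫⁻ τ in (𝒟 : Set ℍ), H (g • τ) =
      ∫⁻ τ, (𝒟 : Set ℍ).indicator 1 (g⁻¹ • τ) * H τ := by
    intro g
    rw [← lintegral_indicator Newforms.measurableSet_fd,
      ← (Newforms.measurePreserving_SL_smul g).lintegral_comp_emb
        (Newforms.measurableEmbedding_SL_smul g)
        (fun τ => (𝒟 : Set ℍ).indicator 1 (g⁻¹ • τ) * H τ)]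
    refine lintegral_congr fun τ => ?_
    by_cases hτ : τ ∈ (𝒟 : Set ℍ) <;> simp [hτ, -sl_moeb]
  simp only [e]
  refine (lintegral_tsum (μ := volume)
    (f := fun (g : SL(2, ℤ)) τ => (𝒟 : Set ℍ).indicator 1 (g⁻¹ • τ) * H τ)
    fun g => (((measurable_one.indicator Newforms.measurableSet_fd).comp
      (Newforms.measurable_SL_smul g⁻¹)).mul hH).aemeasurable).symm.trans ?_
  rw [← lintegral_const_mul _ hH]
  refine lintegral_congr_ae ?_
  filter_upwards [Newforms.isWeight_top.tsum_eq] with τ hτ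
  rw [ENNReal.tsum_mul_right, ← ((Equiv.inv _).trans
      (Equiv.subtypeUnivEquiv (fun g : SL(2, ℤ) => Subgroup.mem_top g)).symm).symm.tsum_eq]
  simp only [Equiv.symm_trans_apply, Equiv.symm_symm, Equiv.subtypeUnivEquiv_apply, Equiv.inv_symm,
    Equiv.inv_apply, inv_inv]
  rw [hτ]

variable {M : ℕ}

/-- The strip of width `M`. -/
def strip (M : ℕ) : Set ℍ := {τ | 0 ≤ τ.re ∧ τ.re < M}

theorem measurableSet_strip (M : ℕ) : MeasurableSet (strip M) :=
  (measurableSet_le measurable_const continuous_re.measurable).inter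
    (measurableSet_lt continuous_re.measurable measurable_const)

theorem exists_T_zpow_mem_strip (hM : M ≠ 0) (g : SL(2, ℤ)) (τ : ℍ) :
    ∃ i : ℤ, (T ^ ((M : ℤ) * i) * g) • τ ∈ strip M := by
  have hM' : (0 : ℝ) < M := by positivity
  refine ⟨-⌊(g • τ).re / M⌋, ?_⟩
  have h1 := Int.floor_le ((g • τ).re / M)
  have h2 := Int.lt_floor_add_one ((g • τ).re / M)
  rw [le_div_iff₀ hM'] at h1
  rw [div_lt_iff₀ hM'] at h2
  show 0 ≤ _ ∧ _ < _
  rw [mul_smul, re_T_zpow_smul]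
  push_cast
  constructor <;> nlinarith

/-- The bottom row. -/
def botRow (g : SL(2, ℤ)) : ℤ × ℤ := (g 1 0, g 1 1)

theorem im_rpow_eq_eisTerm (g : SL(2, ℤ)) (s : ℝ) (τ : ℍ) :
    (g • τ).im ^ s = eisTerm s τ (botRow g).1 (botRow g).2 := by
  rw [ModularGroup.im_smul_eq_div_normSq, eisTerm, denom_apply]
  congr 2
  simp [Complex.normSq_apply, botRow]
  ring

theorem zpow_T_entries (n : ℤ) (g : SL(2, ℤ)) :
    botRow (T ^ n * g) = botRow g ∧ (T ^ n * g) 0 0 = g 0 0 + n * g 1 0 ∧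
      (T ^ n * g) 0 1 = g 0 1 + n * g 1 1 := by
  simp [botRow, Matrix.SpecialLinearGroup.coe_mul, coe_T_zpow, Matrix.mul_apply]

theorem exists_eq_T_zpow_mul {g h : SL(2, ℤ)} (e : botRow g = botRow h) :
    ∃ n : ℤ, g = T ^ n * h := by
  simp only [botRow, Prod.mk.injEq] at e
  obtain ⟨e0, e1⟩ := e
  have hg := g.2
  have hh := h.2
  rw [Matrix.det_fin_two] at hg hh
  obtain ⟨n, hn0, hn1⟩ : ∃ n : ℤ, g 0 0 = h 0 0 + n * h 1 0 ∧ g 0 1 = h 0 1 + n * h 1 1 := by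
    refine ⟨g 0 1 * h 0 0 - g 0 0 * h 0 1, ?_, ?_⟩
    · rw [e0, e1] at hg
      linear_combination (-(g 0 0)) * hh + (h 0 0) * hg
    · rw [e0, e1] at hg
      linear_combination (-(g 0 1)) * hh + (h 0 1) * hg
  obtain ⟨h1, h2, h3⟩ := zpow_T_entries n h
  simp only [botRow, Prod.mk.injEq] at h1
  refine ⟨n, Matrix.SpecialLinearGroup.ext _ _ fun i j => ?_⟩
  fin_cases i <;> fin_cases j <;> simp_all [-Matrix.SpecialLinearGroup.coe_mul]

theorem T_zpow_mem_Gamma {n : ℤ} (h : (M : ℤ) ∣ n) : T ^ n ∈ CongruenceSubgroup.Gamma M := by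
  rw [CongruenceSubgroup.Gamma_mem]
  simp [coe_T_zpow, (ZMod.intCast_zmod_eq_zero_iff_dvd n M).mpr h]

theorem dvd_of_T_zpow_mem_Gamma {n : ℤ} (h : T ^ n ∈ CongruenceSubgroup.Gamma M) : (M : ℤ) ∣ n := by
  rw [CongruenceSubgroup.Gamma_mem] at h
  have := h.2.1
  simp [coe_T_zpow] at this
  exact (ZMod.intCast_zmod_eq_zero_iff_dvd n M).mp this

/-- The invariance needed for unfolding: under matrices congruent to a diagonal one. -/
def InvariantDiag (M : ℕ) (F : ℍ → ℂ) : Prop :=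
  ∀ g : SL(2, ℤ), (M : ℤ) ∣ g 0 1 → (M : ℤ) ∣ g 1 0 → ∀ τ, F (g • τ) = F τ

theorem InvariantDiag.gamma {F : ℍ → ℂ} (hF : InvariantDiag M F) {g : SL(2, ℤ)}
    (hg : g ∈ CongruenceSubgroup.Gamma M) (τ : ℍ) : F (g • τ) = F τ := by
  rw [CongruenceSubgroup.Gamma_mem] at hg
  exact hF g ((ZMod.intCast_zmod_eq_zero_iff_dvd _ M).mp hg.2.1)
    ((ZMod.intCast_zmod_eq_zero_iff_dvd _ M).mp hg.2.2.1) τ

/-- A matrix congruent to `diag (k⁻¹, k)`. -/
theorem exists_diagLift {k : ℕ} (h : k.Coprime M) :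
    ∃ g : SL(2, ℤ), g 1 1 = k ∧ (M : ℤ) ∣ g 0 1 ∧ (M : ℤ) ∣ g 1 0 := by
  have hc : IsCoprime ((k : ℤ)) ((M : ℤ) * M) :=
    ((Nat.isCoprime_iff_coprime.mpr h).mul_right (Nat.isCoprime_iff_coprime.mpr h))
  obtain ⟨a, b, hab⟩ := hc
  refine ⟨⟨!![a, -(b * (M : ℤ)); (M : ℤ), (k : ℤ)], ?_⟩, rfl, ?_, ?_⟩
  · rw [Matrix.det_fin_two_of]; linear_combination hab
  · exact Dvd.intro_left (-b) (by simp)
  · exact dvd_rfl

/-- The weights `k ^ (-2 s)`. -/
def kWeight (M : ℕ) (s : ℝ) (k : ℕ) : ℝ :=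
  if k.Coprime M ∧ k ≠ 0 then (k : ℝ) ^ (-(2 * s)) else 0

theorem kWeight_nonneg (M : ℕ) (s : ℝ) (k : ℕ) : 0 ≤ kWeight M s k := by
  rw [kWeight]
  split_ifs <;> positivity

theorem summable_kWeight {s : ℝ} (hs : 1 ≤ s) : Summable (kWeight M s) := by
  refine Summable.of_nonneg_of_le (kWeight_nonneg M s) (fun k => ?_)
    (Real.summable_nat_rpow.mpr (by linarith : -(2 * s) < -1))
  rw [kWeight]
  split_ifs
  · rfl
  · positivity

theorem one_le_tsum_kWeight {s : ℝ} (hs : 1 ≤ s) : 1 ≤ ∑' k, kWeight M s k :=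
  le_trans (le_of_eq (by simp [kWeight]))
    ((summable_kWeight hs).le_tsum 1 fun k _ => kWeight_nonneg M s k)

/-- The representative of a coset. -/
def rep (q : SL(2, ℤ) ⧸ CongruenceSubgroup.Gamma M) : SL(2, ℤ) := q.out⁻¹

/-- An element lies in the coset whose representative it reaches. -/
private theorem rep_mk_inv_mul_mem (g : SL(2, ℤ)) :
    rep (QuotientGroup.mk g⁻¹ : SL(2, ℤ) ⧸ CongruenceSubgroup.Gamma M) * g⁻¹ ∈
      CongruenceSubgroup.Gamma M :=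
  QuotientGroup.eq.mp (QuotientGroup.out_eq' _)

/-- The coset reached by an element is unique. -/
private theorem mk_inv_eq_of_mem {q : SL(2, ℤ) ⧸ CongruenceSubgroup.Gamma M} {g : SL(2, ℤ)}
    (h : rep q * g⁻¹ ∈ CongruenceSubgroup.Gamma M) : QuotientGroup.mk g⁻¹ = q := by
  rw [← QuotientGroup.out_eq' q]
  exact (QuotientGroup.eq.mpr h).symm

/-- Congruent elements have congruent bottom rows, scaled by the diagonal. -/
private theorem exists_row_shift {k : ℕ} {d g h : SL(2, ℤ)}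
    (hd : d 1 1 = k ∧ (M : ℤ) ∣ d 0 1 ∧ (M : ℤ) ∣ d 1 0)
    (hmem : h * (d * g)⁻¹ ∈ CongruenceSubgroup.Gamma M) :
    ∃ p : ℤ × ℤ, (k : ℤ) * g 1 0 = (botRow h).1 + M * p.1 ∧
      (k : ℤ) * g 1 1 = (botRow h).2 + M * p.2 := by
  obtain ⟨γ, hγ, e⟩ : ∃ γ ∈ CongruenceSubgroup.Gamma M, h = γ * (d * g) :=
    ⟨_, hmem, (inv_mul_cancel_right _ _).symm⟩
  rw [CongruenceSubgroup.Gamma_mem] at hγ
  obtain ⟨h11, h01, h10⟩ := hd
  simp only [← ZMod.intCast_zmod_eq_zero_iff_dvd] at h01 h10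
  have e2 : ∀ j, (M : ℤ) ∣ (k : ℤ) * g 1 j - h 1 j := fun j => by
    rw [← ZMod.intCast_zmod_eq_zero_iff_dvd, e]
    simp [Matrix.SpecialLinearGroup.coe_mul, Matrix.mul_apply, Fin.sum_univ_two, hγ.2.2.1,
      hγ.2.2.2, h10, h11]
  obtain ⟨a, ha⟩ := e2 0
  obtain ⟨b, hb⟩ := e2 1
  exact ⟨(a, b), by simp only [botRow]; linear_combination ha,
    by simp only [botRow]; linear_combination hb⟩

/-- A scaled bottom row determines the scalar and the row. -/
private theorem eq_and_botRow_eq_of_mul_eq {k k' : ℕ} {g g' : SL(2, ℤ)} (hk : k' ≠ 0)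
    (h0 : (k : ℤ) * g 1 0 = k' * g' 1 0) (h1 : (k : ℤ) * g 1 1 = k' * g' 1 1) :
    k = k' ∧ botRow g = botRow g' := by
  have hcop : ∀ g : SL(2, ℤ), Int.gcd (g 1 0) (g 1 1) = 1 := fun g =>
    Int.isCoprime_iff_gcd_eq_one.mp (bottom_row_coprime g)
  obtain rfl : k = k' := by
    have h := congrArg₂ Int.gcd h0 h1
    rwa [Int.gcd_mul_left, Int.gcd_mul_left, hcop, hcop, mul_one, mul_one, Int.natAbs_natCast,
      Int.natAbs_natCast] at h
  have hk0 : ((k : ℕ) : ℤ) ≠ 0 := by exact_mod_cast hk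
  exact ⟨rfl, Prod.ext (mul_left_cancel₀ hk0 h0) (mul_left_cancel₀ hk0 h1)⟩

/-- Elements of one class in the strip with the same bottom row are equal. -/
private theorem eq_of_botRow_eq_of_mem_strip (hM : M ≠ 0) {d g g' h : SL(2, ℤ)}
    (hb : botRow g = botRow g') (hg : h * (d * g)⁻¹ ∈ CongruenceSubgroup.Gamma M)
    (hg' : h * (d * g')⁻¹ ∈ CongruenceSubgroup.Gamma M) {τ : ℍ} (hs : g • τ ∈ strip M)
    (hs' : g' • τ ∈ strip M) : g = g' := by
  obtain ⟨n, rfl⟩ := exists_eq_T_zpow_mul hb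
  have hmem : T ^ n ∈ CongruenceSubgroup.Gamma M := by
    have h3 := mul_mem (inv_mem hg') hg
    rw [_root_.mul_inv_rev, inv_inv] at h3
    rw [show d * g' * h⁻¹ * (h * (d * (T ^ n * g'))⁻¹) = d * (T ^ n)⁻¹ * d⁻¹ by group] at h3
    have h4 := (CongruenceSubgroup.Gamma_normal M).conj_mem _ h3 d⁻¹
    rw [inv_inv, show d⁻¹ * (d * (T ^ n)⁻¹ * d⁻¹) * d = (T ^ n)⁻¹ by group] at h4
    exact inv_mem_iff.mp h4
  obtain ⟨i, rfl⟩ := dvd_of_T_zpow_mem_Gamma hmem
  simp only [strip, Set.mem_ofPred_eq] at hs hs'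
  rw [mul_smul, re_T_zpow_smul] at hs
  push_cast at hs
  have hM' : (0 : ℝ) < M := by positivity
  have h1 : (i : ℝ) < 1 := by nlinarith
  have h2 : (-1 : ℝ) < i := by nlinarith
  obtain rfl : i = 0 := by
    have : i < 1 := by exact_mod_cast h1
    have : (-1 : ℤ) < i := by exact_mod_cast h2
    omega
  rw [mul_zero, zpow_zero, one_mul]

/-- The summand at an element of the strip is the Eisenstein term at its coset and shift. -/
private theorem unfold_term_eq {G : ℍ → ℂ} (hG : InvariantDiag M G) {s : ℝ} {τ : ℍ} {k : ℕ}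
    {d g h : SL(2, ℤ)} {p : ℤ × ℤ} (hk : k.Coprime M ∧ k ≠ 0) (hτ : g • τ ∈ strip M)
    (hd : d 1 1 = k ∧ (M : ℤ) ∣ d 0 1 ∧ (M : ℤ) ∣ d 1 0)
    (hmem : h * (d * g)⁻¹ ∈ CongruenceSubgroup.Gamma M)
    (hp : (k : ℤ) * g 1 0 = (botRow h).1 + M * p.1 ∧
      (k : ℤ) * g 1 1 = (botRow h).2 + M * p.2) :
    (kWeight M s k : ℂ) * (strip M).indicator (fun z => G z * ((z.im ^ s : ℝ) : ℂ)) (g • τ) =
      G (h • τ) * (eisTerm s τ ((botRow h).1 + M * p.1) ((botRow h).2 + M * p.2) : ℂ) := by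
  have hGe : G (h • τ) = G (g • τ) := by
    have e : h = h * (d * g)⁻¹ * (d * g) := (inv_mul_cancel_right _ _).symm
    rw [e, mul_smul, hG.gamma hmem, mul_smul, hG _ hd.2.1 hd.2.2]
  rw [Set.indicator_of_mem hτ, ← hp.1, ← hp.2, eisTerm_scale, hGe, im_rpow_eq_eisTerm, kWeight,
    if_pos hk]
  simp only [botRow]
  push_cast
  rw [Nat.abs_cast]
  ring

/-- A vector congruent to a bottom row has gcd prime to `M`. -/
private theorem gcd_add_mul_coprime (g : SL(2, ℤ)) (p : ℤ × ℤ) :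
    (Int.gcd ((botRow g).1 + M * p.1) ((botRow g).2 + M * p.2)).Coprime M := by
  set m : ℤ := (botRow g).1 + M * p.1 with hm
  set n : ℤ := (botRow g).2 + M * p.2 with hn
  obtain ⟨a, b, hab⟩ := bottom_row_coprime g
  refine Nat.coprime_of_dvd fun r hr hrk hrM => ?_
  have h1 : (r : ℤ) ∣ m := (Int.natCast_dvd_natCast.mpr hrk).trans (Int.gcd_dvd_left _ _)
  have h2 : (r : ℤ) ∣ n := (Int.natCast_dvd_natCast.mpr hrk).trans (Int.gcd_dvd_right _ _)
  have h3 : (r : ℤ) ∣ (M : ℤ) := Int.natCast_dvd_natCast.mpr hrM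
  have e : (1 : ℤ) = a * m + b * n - (M : ℤ) * (a * p.1 + b * p.2) := by
    rw [hm, hn]; simp only [botRow]; linear_combination -hab
  have h4 : (r : ℤ) ∣ 1 :=
    e ▸ dvd_sub (dvd_add (h1.mul_left a) (h2.mul_left b)) (h3.mul_right _)
  exact hr.one_lt.ne' (Nat.eq_one_of_dvd_one (by exact_mod_cast h4))

/-- With the bottom row right modulo `M`, a power of `T` corrects the top row. -/
private theorem exists_T_zpow_mul_mem {k : ℕ} {d g h : SL(2, ℤ)}
    (hd : d 1 1 = k ∧ (M : ℤ) ∣ d 0 1 ∧ (M : ℤ) ∣ d 1 0)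
    (e0 : ((h 1 0 : ℤ) : ZMod M) = (k : ZMod M) * (g 1 0 : ZMod M))
    (e1 : ((h 1 1 : ℤ) : ZMod M) = (k : ZMod M) * (g 1 1 : ZMod M)) :
    ∃ j : ℤ, h * (d * (T ^ j * g))⁻¹ ∈ CongruenceSubgroup.Gamma M := by
  obtain ⟨h11, h01, h10⟩ := hd
  set A : SL(2, ℤ) := d⁻¹ * h * g⁻¹ with hA
  have key : (A 1 0 : ZMod M) = 0 ∧ (A 1 1 : ZMod M) = 1 := by
    have hdet := congrArg (Int.cast (R := ZMod M)) g.2
    rw [Matrix.det_fin_two] at hdet
    have hdd := congrArg (Int.cast (R := ZMod M)) d.2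
    rw [Matrix.det_fin_two] at hdd
    push_cast at hdet hdd
    simp only [← ZMod.intCast_zmod_eq_zero_iff_dvd] at h01 h10
    rw [show (d 1 1 : ℤ) = k from h11, h01] at hdd
    push_cast at hdd
    simp only [hA, Matrix.SpecialLinearGroup.coe_mul, Matrix.SpecialLinearGroup.coe_inv,
      Matrix.adjugate_fin_two, Matrix.mul_apply, Fin.sum_univ_two]
    simp [h10, e0, e1]
    constructor
    · linear_combination (0 : ZMod M) * hdet
    · linear_combination hdet * ((d 0 0 : ℤ) : ZMod M) * (k : ZMod M) + hdd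
  refine ⟨A 0 1, ?_⟩
  have hAT : A * (T ^ (A 0 1))⁻¹ ∈ CongruenceSubgroup.Gamma M := by
    have hdA := congrArg (Int.cast (R := ZMod M)) A.2
    rw [Matrix.det_fin_two] at hdA
    push_cast at hdA
    rw [key.1, key.2, mul_zero, sub_zero, mul_one] at hdA
    rw [← zpow_neg, CongruenceSubgroup.Gamma_mem]
    simp [Matrix.SpecialLinearGroup.coe_mul, coe_T_zpow, Matrix.mul_apply, key.1, key.2, hdA]
  have e : h * (d * (T ^ (A 0 1) * g))⁻¹ = d * (A * (T ^ (A 0 1))⁻¹) * d⁻¹ := by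
    rw [hA]; group
  rw [e]
  exact (CongruenceSubgroup.Gamma_normal M).conj_mem _ hAT d

/-- Every shift of a coset's bottom row is a multiple of the row of an element in the strip. -/
private theorem exists_mem_strip_of_shift (hM : 1 < M)
    {dl : {k : ℕ // k.Coprime M} → SL(2, ℤ)}
    (hdl : ∀ k : {k : ℕ // k.Coprime M},
      dl k 1 1 = ((k : ℕ) : ℤ) ∧ (M : ℤ) ∣ dl k 0 1 ∧ (M : ℤ) ∣ dl k 1 0)
    (τ : ℍ) (h : SL(2, ℤ)) (p : ℤ × ℤ) :
    ∃ (k : {k : ℕ // k.Coprime M}) (g : SL(2, ℤ)), (k : ℕ) ≠ 0 ∧ g • τ ∈ strip M ∧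
      h * (dl k * g)⁻¹ ∈ CongruenceSubgroup.Gamma M ∧
      ((k : ℕ) : ℤ) * g 1 0 = (botRow h).1 + M * p.1 ∧
      ((k : ℕ) : ℤ) * g 1 1 = (botRow h).2 + M * p.2 := by
  set m : ℤ := (botRow h).1 + M * p.1 with hm
  set n : ℤ := (botRow h).2 + M * p.2 with hn
  set k : ℕ := Int.gcd m n with hk
  have hkM : k.Coprime M := gcd_add_mul_coprime h p
  have hk0 : k ≠ 0 := fun e => by
    rw [e, Nat.coprime_zero_left] at hkM
    omega
  obtain ⟨m', hm'⟩ : (k : ℤ) ∣ m := Int.gcd_dvd_left _ _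
  obtain ⟨n', hn'⟩ : (k : ℤ) ∣ n := Int.gcd_dvd_right _ _
  have hcop : IsCoprime m' n' := by
    rw [Int.isCoprime_iff_gcd_eq_one]
    have e := hk
    rw [hm', hn', Int.gcd_mul_left, Int.natAbs_natCast] at e
    exact (Nat.eq_of_mul_eq_mul_left (Nat.pos_of_ne_zero hk0)
      (by omega : k * Int.gcd m' n' = k * 1))
  obtain ⟨g0, -, hg0⟩ := bottom_row_surj (R := ℤ) (show ![m', n'] ∈ {cd : Fin 2 → ℤ |
    IsCoprime (cd 0) (cd 1)} by simpa using hcop)
  obtain rfl : g0 1 0 = m' := by simpa using congrFun hg0 0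
  obtain rfl : g0 1 1 = n' := by simpa using congrFun hg0 1
  set d := dl ⟨k, hkM⟩
  obtain ⟨j, hj⟩ : ∃ j : ℤ, h * (d * (T ^ j * g0))⁻¹ ∈ CongruenceSubgroup.Gamma M :=
    exists_T_zpow_mul_mem (hdl ⟨k, hkM⟩)
      (by simpa [botRow] using congrArg (Int.cast (R := ZMod M)) (hm.symm.trans hm'))
      (by simpa [botRow] using congrArg (Int.cast (R := ZMod M)) (hn.symm.trans hn'))
  obtain ⟨i, hi⟩ := exists_T_zpow_mem_strip (by omega : M ≠ 0) (T ^ j * g0) τ
  have hb : botRow (T ^ ((M : ℤ) * i) * (T ^ j * g0)) = botRow g0 :=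
    (zpow_T_entries _ _).1.trans (zpow_T_entries _ _).1
  simp only [botRow, Prod.mk.injEq] at hb
  refine ⟨⟨k, hkM⟩, _, hk0, hi, ?_, by rw [hb.1, ← hm'], by rw [hb.2, ← hn']⟩
  rw [show h * (d * (T ^ ((M : ℤ) * i) * (T ^ j * g0)))⁻¹ =
    h * (d * (T ^ j * g0))⁻¹ * (d * (T ^ ((M : ℤ) * i))⁻¹ * d⁻¹) by group]
  exact mul_mem hj ((CongruenceSubgroup.Gamma_normal M).conj_mem _
    (inv_mem (T_zpow_mem_Gamma (dvd_mul_right _ _))) d)

/-- The terms of all cosets and shifts add up to the combination of Eisenstein series. -/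
private theorem hasSum_eisTerm_cosets [Fintype (SL(2, ℤ) ⧸ CongruenceSubgroup.Gamma M)]
    (G : ℍ → ℂ) {s : ℝ} (τ : ℍ)
    (hsum : ∀ v : ℤ × ℤ,
      Summable fun p : ℤ × ℤ => eisTerm s τ (v.1 + M * p.1) (v.2 + M * p.2)) :
    HasSum (fun y : (SL(2, ℤ) ⧸ CongruenceSubgroup.Gamma M) × (ℤ × ℤ) => G (rep y.1 • τ) *
        (eisTerm s τ ((botRow (rep y.1)).1 + M * y.2.1) ((botRow (rep y.1)).2 + M * y.2.2) : ℂ))
      (∑ q : SL(2, ℤ) ⧸ CongruenceSubgroup.Gamma M,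
        G (rep q • τ) * (eisSum M (botRow (rep q)) s τ : ℂ)) := by
  set f : (SL(2, ℤ) ⧸ CongruenceSubgroup.Gamma M) × (ℤ × ℤ) → ℂ := fun y => G (rep y.1 • τ) *
    (eisTerm s τ ((botRow (rep y.1)).1 + M * y.2.1) ((botRow (rep y.1)).2 + M * y.2.2) : ℂ)
  have hq : ∀ q : SL(2, ℤ) ⧸ CongruenceSubgroup.Gamma M, HasSum (fun p : ℤ × ℤ => f (q, p))
      (G (rep q • τ) * (eisSum M (botRow (rep q)) s τ : ℂ)) := fun q =>
    (Complex.hasSum_ofReal.mpr (hsum (botRow (rep q))).hasSum).mul_left _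
  have hs' : Summable f := by
    refine Summable.of_norm ((summable_prod_of_nonneg fun _ => norm_nonneg _).mpr
      ⟨fun q => ?_, ?_⟩)
    · exact summable_norm_iff.mpr (hq q).summable
    · exact Summable.of_finite
  have h := hs'.hasSum.prod_fiberwise hq
  rw [(hasSum_fintype fun q : SL(2, ℤ) ⧸ CongruenceSubgroup.Gamma M =>
    G (rep q • τ) * (eisSum M (botRow (rep q)) s τ : ℂ)).unique h]
  exact hs'.hasSum

/-- The pointwise unfolding identity. -/
theorem hasSum_unfold (hM : 3 ≤ M) [Fintype (SL(2, ℤ) ⧸ CongruenceSubgroup.Gamma M)]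
    {G : ℍ → ℂ} (hG : InvariantDiag M G) {s : ℝ} (τ : ℍ)
    (hsum : ∀ v : ℤ × ℤ,
      Summable fun p : ℤ × ℤ => eisTerm s τ (v.1 + M * p.1) (v.2 + M * p.2)) :
    HasSum (fun x : SL(2, ℤ) × ℕ =>
        (kWeight M s x.2 : ℂ) * (strip M).indicator (fun z => G z * ((z.im ^ s : ℝ) : ℂ)) (x.1 • τ))
      (∑ q : SL(2, ℤ) ⧸ CongruenceSubgroup.Gamma M,
        G (rep q • τ) * (eisSum M (botRow (rep q)) s τ : ℂ)) := by
  have hM0 : M ≠ 0 := by omega
  have hMz : (M : ℤ) ≠ 0 := by exact_mod_cast hM0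
  choose dl hdl using fun k : {k : ℕ // k.Coprime M} => exists_diagLift k.2
  set S : Set (SL(2, ℤ) × ℕ) := {x | (x.2.Coprime M ∧ x.2 ≠ 0) ∧ x.1 • τ ∈ strip M}
  let d : S → SL(2, ℤ) := fun x => dl ⟨x.1.2, x.2.1.1⟩
  -- a strip element goes to its coset and to the shift of its scaled bottom row
  let cls : S → SL(2, ℤ) ⧸ CongruenceSubgroup.Gamma M := fun x =>
    QuotientGroup.mk (d x * x.1.1)⁻¹
  have hcls : ∀ x : S, rep (cls x) * (d x * x.1.1)⁻¹ ∈ CongruenceSubgroup.Gamma M :=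
    fun x => rep_mk_inv_mul_mem _
  choose w hw using fun x : S => exists_row_shift (hdl ⟨_, x.2.1.1⟩) (hcls x)
  have hinj : Function.Injective fun x : S => (cls x, w x) := by
    intro x y hxy
    obtain ⟨hc, hwe⟩ := Prod.mk.inj hxy
    obtain ⟨hk, hb⟩ := eq_and_botRow_eq_of_mul_eq y.2.1.2
      ((hw x).1.trans (by rw [hc, hwe, (hw y).1]))
      ((hw x).2.trans (by rw [hc, hwe, (hw y).2]))
    have hd : d x = d y := congrArg dl (Subtype.ext hk)
    have hx := hcls x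
    rw [hc, hd] at hx
    exact Subtype.ext (Prod.ext
      (eq_of_botRow_eq_of_mem_strip hM0 hb hx (hcls y) x.2.2 y.2.2) hk)
  have hsurj : Function.Surjective fun x : S => (cls x, w x) := by
    rintro ⟨q, p⟩
    obtain ⟨⟨k, hk⟩, g, hk0, hg, hmem, h0, h1⟩ :=
      exists_mem_strip_of_shift (by omega) hdl τ (rep q) p
    let x : S := ⟨(g, k), ⟨hk, hk0⟩, hg⟩
    have hc : cls x = q := mk_inv_eq_of_mem hmem
    obtain ⟨e0, e1⟩ := hw x
    rw [hc] at e0 e1
    exact ⟨x, Prod.ext hc (Prod.ext (mul_left_cancel₀ hMz (add_left_cancel (e0.symm.trans h0)))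
      (mul_left_cancel₀ hMz (add_left_cancel (e1.symm.trans h1))))⟩
  have hfS := (Equiv.ofBijective _ ⟨hinj, hsurj⟩).hasSum_iff.mpr
    (hasSum_eisTerm_cosets G τ hsum)
  refine (hasSum_subtype_iff_of_support_subset (s := S) ?_).mp (hfS.congr_fun fun x =>
    unfold_term_eq hG x.2.1 x.2.2 (hdl ⟨_, x.2.1.1⟩) (hcls x) (hw x))
  intro x hx
  simp only [Function.mem_support, ne_eq, mul_eq_zero, not_or] at hx
  refine ⟨?_, Set.mem_of_indicator_ne_zero hx.2⟩
  by_contra h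
  exact hx.1 (by simp [kWeight, h])

end FLTAgent.LanglandsTunnell.Period

end
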